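import Fermat.Agent.H23.R.K0

/-!
# PROGRAM R (S36): the residue field of the inertia field is everything
-/

set_option autoImplicit false
set_option maxSynthPendingDepth 3

noncomputable section

namespace Fermat.Agent.H23.R

open IsLocalRing Fermat.Agent.H05 Fermat.Agent.H09 Polynomial

local notation "Qb" => AlgebraicClosure ℚ

variable {A : ValuationSubring Qb} {q : ℕ}

theorem residue_natCast_eq_zero (hA : A.LiesOverPrime q) : residue A (q : A) = 0 := by
  rw [residue_eq_zero_iff]
  have hlt : A.valuation (q : Qb) < 1 := val_natCast_lt_one hA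
  exact (A.valuation_lt_one_iff (q : A)).2 hlt

/-- Nonzero elements of the residue field of `A` are roots of unity of order prime to `q`. -/
theorem exists_pow_eq_one_residue (hq : q.Prime) (hA : A.LiesOverPrime q) {x : ResidueField A}
    (hx : x ≠ 0) : ∃ m : ℕ, ¬ q ∣ m ∧ x ^ m = 1 := by
  have : Fact q.Prime := ⟨hq⟩
  have hchar : CharP (ResidueField A) q := by
    apply (CharP.charP_iff_prime_eq_zero hq).2
    have := residue_natCast_eq_zero hA
    rwa [map_natCast] at this
  let _ : Algebra (ZMod q) (ResidueField A) := ZMod.algebra _ q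
  obtain ⟨y, rfl⟩ := residue_surjective x
  -- an integral primitive polynomial
  have hy : IsAlgebraic ℤ (y : Qb) := by
    have h1 : IsAlgebraic ℚ (y : Qb) := Algebra.IsAlgebraic.isAlgebraic _
    exact (IsFractionRing.isAlgebraic_iff ℤ ℚ Qb).2 h1
  obtain ⟨P, hP0, hP⟩ := hy
  have hPP : aeval (y : Qb) P.primPart = 0 := by
    rw [P.eq_C_content_mul_primPart, map_mul, aeval_C] at hP
    rcases mul_eq_zero.1 hP with h | h
    · exfalso
      have : P.content = 0 := (algebraMap ℤ Qb).injective_int (by rw [h, map_zero])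
      exact hP0 (content_eq_zero_iff.1 this)
    · exact h
  have hmap : P.primPart.map (Int.castRingHom (ZMod q)) ≠ 0 := by
    intro h
    have h1 : (C (q : ℤ)) ∣ P.primPart := by
      rw [C_dvd_iff_dvd_coeff]
      intro i
      have := congrArg (fun Q => coeff Q i) h
      simp only [coeff_map, coeff_zero] at this
      exact (ZMod.intCast_zmod_eq_zero_iff_dvd _ q).1 this
    have h2 := P.isPrimitive_primPart _ h1
    rw [Int.isUnit_iff] at h2
    have := hq.two_le
    omega
  have halg : IsAlgebraic (ZMod q) (residue A y) := by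
    refine ⟨_, hmap, ?_⟩
    rw [aeval_def, eval₂_map]
    have e1 : (algebraMap (ZMod q) (ResidueField A)).comp (Int.castRingHom (ZMod q)) =
        (residue A).comp (Int.castRingHom A) := RingHom.ext_int _ _
    rw [e1, ← hom_eval₂]
    have e2 : eval₂ (Int.castRingHom A) y P.primPart = 0 := by
      apply Subtype.ext
      have e3 := hom_eval₂ P.primPart (Int.castRingHom A) A.subtype y
      change A.subtype _ = 0
      rw [e3]
      have e4 : A.subtype.comp (Int.castRingHom A) = algebraMap ℤ Qb := RingHom.ext_int _ _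
      rw [e4]
      exact hPP
    rw [e2, map_zero]
  -- finite subfield
  let k := IntermediateField.adjoin (ZMod q) {residue A y}
  have hfin : FiniteDimensional (ZMod q) k :=
    IntermediateField.adjoin.finiteDimensional halg.isIntegral
  have : Finite k := Module.finite_of_finite (ZMod q)
  let _ : Fintype k := Fintype.ofFinite k
  have hcard : Fintype.card k = q ^ Module.finrank (ZMod q) k := by
    rw [Module.card_eq_pow_finrank (K := ZMod q), ZMod.card]
  have hpos : 0 < Module.finrank (ZMod q) k := Module.finrank_pos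
  refine ⟨Fintype.card k - 1, ?_, ?_⟩
  · intro h
    have h1 : 1 ≤ Fintype.card k := Fintype.card_pos
    have h2 : q ∣ Fintype.card k := by
      rw [hcard]; exact dvd_pow_self q hpos.ne'
    have h3 : q ∣ 1 := by
      have := (Nat.dvd_sub h2 h)
      rwa [Nat.sub_sub_self h1] at this
    have := hq.two_le
    have := Nat.le_of_dvd one_pos h3
    omega
  · have h1 : (⟨residue A y, IntermediateField.mem_adjoin_simple_self _ _⟩ : k) ≠ 0 := by
      intro h
      exact hx (congrArg Subtype.val h)
    exact congrArg Subtype.val (FiniteField.pow_card_sub_one_eq_one _ h1)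

/-- Every element of `A` is congruent to an element of `A0`. -/
theorem exists_A0_residue (hq : q.Prime) (hA : A.LiesOverPrime q) (y : A) :
    ∃ c : A0 A, y - ⟨((c : K0 A) : Qb), c.2⟩ ∈ maximalIdeal A := by
  by_cases hy : residue A y = 0
  · refine ⟨0, ?_⟩
    rw [residue_eq_zero_iff] at hy
    have : (⟨(((0 : A0 A) : K0 A) : Qb), (0 : A0 A).2⟩ : A) = 0 := rfl
    rw [this, sub_zero]
    exact hy
  obtain ⟨m, hm, hym⟩ := exists_pow_eq_one_residue hq hA hy
  let φ : K0 A →+* Qb := algebraMap (K0 A) Qb
  have hm0 : m ≠ 0 := by rintro rfl; exact hm (dvd_zero _)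
  obtain ⟨ζ, hζ⟩ := exists_primitive_K0 hq hA hm
  obtain ⟨η, hη1, hη2⟩ := hμ_K0 hq hA hm (E := Qb) A (fun c => c.2) (residue A y) hym
  have hηA : η ∈ A0 A := by
    rw [mem_A0, ← A.valuation_le_one_iff]
    have h1 : A.valuation (η : Qb) ^ m = 1 := by
      rw [← map_pow, show ((η : Qb) ^ m) = 1 from congrArg Subtype.val hη1, map_one]
    exact ((pow_eq_one_iff.mp h1).resolve_right hm0).le
  refine ⟨⟨η, hηA⟩, ?_⟩
  rw [← residue_eq_zero_iff, map_sub, sub_eq_zero, ← hη2]
  exact rv_of_mem (V := A) (z := (η : Qb)) hηA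

end Fermat.Agent.H23.R
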