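import Fermat.Agent.H23.R.Main
import Fermat.Agent.RV.Loc1Fin

/-!
# `THEOREM R`
-/

set_option autoImplicit false
set_option maxSynthPendingDepth 3

noncomputable section

attribute [-instance] HahnSeries.instModule HahnSeries.instSMul HahnSeries.instDistribMulAction
  HahnSeries.instSMulZeroClass

namespace Fermat.Agent.H23.R

/-- `THEOREM R`: the fixed points of inertia on the `q`-new part of `J₀(q² M)`. -/
theorem theoremRAux : RR.TheoremRAux := by
  intro M q p _ _ A hq hp hpq hqM h4 h9 hA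
  have : Fact q.Prime := ⟨hq⟩
  have hco : Nat.Coprime q M := (Nat.Prime.coprime_iff_not_dvd hq).2 hqM
  have hG : AuxLvl q M := by
    by_cases h2 : q = 2
    · exact Or.inr ⟨h2, h9 h2⟩
    · exact Or.inl ⟨h2, h4 h2⟩
  have hGL : GoodLvl q M := hG.good hco
  have hV := vInput hco hA hGL
  refine theoremR_of_chart1 hco hA hp hpq hGL ?_
  intro s _ hs
  obtain ⟨h1, h2⟩ := chart1 hco hA hG hV.hL hV.ad₁ hV.u0 hV.u2 hV.u1 s hs
  exact ⟨h1, fun i j hij hi hj l a => h2 ⟨i, j, hij, hi, hj⟩ l a⟩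

end Fermat.Agent.H23.R
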