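import Fermat.Agent.H12.Hilbert90
import Fermat.Agent.H05.Kum
import Fermat.Agent.Descent.PlaceLift
import Fermat.Agent.Descent.LaurentOrder
import Fermat.Prelude.Def_ModularCurve_ArithmeticGalois

/-!
# PROGRAM R (S36): descent of Kummer functions to a fixed field (Hilbert 90)
-/

set_option autoImplicit false
set_option maxSynthPendingDepth 3

noncomputable section

namespace Fermat.Agent.H23.R

open AlgebraicCurve ModularCurve Fermat.Agent.H26 Fermat.Agent.H05

local notation "Qb" => AlgebraicClosure ℚ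
local notation "Γℚ" => AlgebraicClosure ℚ ≃ₐ[ℚ] AlgebraicClosure ℚ

/-- An element algebraic over an algebraically closed subfield belongs to it. -/
theorem mem_range_of_isAlgebraic {K F : Type*} [Field K] [Field F] [Algebra K F] [IsAlgClosed K]
    {x : F} (hx : IsIntegral K x) : x ∈ (algebraMap K F).range :=
  minpoly.mem_range_of_degree_eq_one K x
    (IsAlgClosed.degree_eq_one_of_irreducible K (minpoly.irreducible hx))

/-- Uniqueness of normalised roots. -/
theorem laurent_root_unique {K : Type*} [Field K] [IsAlgClosed K] {m : ℕ} (hm : m ≠ 0)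
    {g h : LaurentSeries K} (hg : g.leadingCoeff = 1) (hh : h.leadingCoeff = 1)
    (e : g ^ m = h ^ m) : g = h := by
  have hg0 : g ≠ 0 := by
    rintro rfl
    rw [HahnSeries.leadingCoeff_zero] at hg
    exact zero_ne_one hg
  have hh0 : h ≠ 0 := by
    rintro rfl
    rw [HahnSeries.leadingCoeff_zero] at hh
    exact zero_ne_one hh
  have h1 : (g / h) ^ m = 1 := by
    rw [div_pow, e, div_self (pow_ne_zero _ hh0)]
  have h2 : IsIntegral K (g / h) := by
    refine ⟨Polynomial.X ^ m - 1, Polynomial.monic_X_pow_sub_C 1 hm, ?_⟩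
    simp [h1]
  obtain ⟨c, hc⟩ := mem_range_of_isAlgebraic h2
  have h3 : g = algebraMap K (LaurentSeries K) c * h := by
    rw [hc, div_mul_cancel₀ _ hh0]
  have h4 : c = 1 := by
    have := congrArg HahnSeries.leadingCoeff h3
    rw [laurent_leadingCoeff_mul, hg, hh, mul_one, algebraMap_laurentSeries_eq_single,
      HahnSeries.leadingCoeff_of_single] at this
    exact this.symm
  rw [h3, h4, map_one, one_mul]

/-- Abstract form of the descent. -/
theorem descent_abstract {M K' G : Type*} [Field M] [Field K'] [Algebra K' M] [Group G]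
    (Φ : G →* (M ≃ₐ[K'] M)) {m : ℕ} {f : M} (hf0 : f ≠ 0) (hf : IsIntegral K' f) (P : M → Prop)
    (hP1 : P 1) (hPmul : ∀ a b, P a → P b → P (a * b)) (hPΦ : ∀ σ a, P a → P (Φ σ a))
    (hP0 : ∀ a, P a → a ≠ 0) (huniq : ∀ a b, P a → P b → a ^ m = b ^ m → a = b)
    (hg : ∀ σ, ∃ g, P g ∧ Φ σ f = f * g ^ m) :
    ∃ u : M, u ≠ 0 ∧ ∀ σ, Φ σ (f * (u⁻¹) ^ m) = f * (u⁻¹) ^ m := by
  classical
  let H' := Φ.range
  let c : (M ≃ₐ[K'] M) → M :=
    fun τ => if h : ∃ g : M, P g ∧ τ f = f * g ^ m then h.choose else 1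
  have hc : ∀ τ ∈ H', P (c τ) ∧ τ f = f * (c τ) ^ m := by
    rintro _ ⟨σ, rfl⟩
    have h := hg σ
    have : c (Φ σ) = h.choose := dif_pos h
    rw [this]
    exact h.choose_spec
  have hPH : ∀ τ ∈ H', ∀ a, P a → P (τ a) := by
    rintro _ ⟨σ, rfl⟩ a ha
    exact hPΦ σ a ha
  have hcoc' : ∀ σ ∈ H', ∀ τ ∈ H', c (σ * τ) = c σ * σ (c τ) := by
    intro σ hσ τ hτ
    apply huniq _ _ (hc _ (H'.mul_mem hσ hτ)).1 (hPmul _ _ (hc σ hσ).1 (hPH σ hσ _ (hc τ hτ).1))
    apply mul_left_cancel₀ hf0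
    rw [← (hc _ (H'.mul_mem hσ hτ)).2]
    change σ (τ f) = _
    rw [(hc τ hτ).2, map_mul, (hc σ hσ).2, map_pow]
    ring
  let E := IntermediateField.adjoin K' ({f} : Set M)
  have hE : FiniteDimensional K' E := IntermediateField.adjoin.finiteDimensional hf
  obtain ⟨u, hu0, hu⟩ := H12.hilbert90 H' c (fun τ hτ => hP0 _ (hc τ hτ).1) hcoc' E (by
    intro τ hτ hτE
    have h1 : τ f = f := hτE f (IntermediateField.mem_adjoin_simple_self K' f)
    apply huniq _ _ (hc τ hτ).1 hP1
    apply mul_left_cancel₀ hf0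
    rw [← (hc τ hτ).2, h1, one_pow, mul_one])
  refine ⟨u, hu0, fun σ => ?_⟩
  have h3 := (hc (Φ σ) ⟨_, rfl⟩).2
  have h4 := hu (Φ σ) ⟨_, rfl⟩
  have h5 := hP0 _ (hc (Φ σ) ⟨_, rfl⟩).1
  have h6 : c (Φ σ) ^ m * ((c (Φ σ) * u)⁻¹) ^ m = (u⁻¹) ^ m := by
    rw [← mul_pow]
    congr 1
    field_simp
  rw [map_mul, map_pow, map_inv₀, h3, h4, mul_assoc, h6]

/-- Every element of the function field over `ℚ̄` is algebraic over the one over `K`. -/
theorem isIntegral_closure {A M : Type*} [Field A] [Field M] (φ : A →+* M) (s : Set M)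
    (hs : ∀ z ∈ s, φ.IsIntegralElem z) : ∀ z ∈ Subfield.closure s, φ.IsIntegralElem z := by
  intro z hz
  let _ : Algebra A M := φ.toAlgebra
  change IsIntegral A z
  induction hz using Subfield.closure_induction with
  | mem y hy => exact hs y hy
  | one => exact isIntegral_one
  | add y z _ _ hy hz => exact hy.add hz
  | neg y _ hy => exact hy.neg
  | inv y _ hy => exact hy.inv
  | mul y z _ _ hy hz => exact hy.mul hz

theorem isIntegral_embBC (K : IntermediateField ℚ Qb) (F₀ : IntermediateField ℚ (LaurentSeries ℚ))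
    (f : laurentBaseChange Qb F₀) : (embBC (K := K) Qb F₀).IsIntegralElem f := by
  let φ : laurentBaseChange K F₀ →+* LaurentSeries Qb :=
    (laurentBaseChange Qb F₀).val.toRingHom.comp (embBC (K := K) Qb F₀)
  have h1 : φ.IsIntegralElem (f : LaurentSeries Qb) := by
    have hf := f.2
    rw [mem_laurentBaseChange_iff] at hf
    refine isIntegral_closure φ _ ?_ _ hf
    rintro y (⟨a, rfl⟩ | ⟨z, hz, rfl⟩)
    · obtain ⟨p, hp, hpa⟩ := ((AlgebraicClosure.isAlgebraic ℚ).isAlgebraic a).isIntegral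
      refine ⟨p.map (algebraMap ℚ _), hp.map _, ?_⟩
      rw [Polynomial.eval₂_map]
      have e2 := (Polynomial.hom_eval₂ p _ (algebraMap Qb (LaurentSeries Qb)) a).symm.trans
        (congrArg _ hpa)
      rw [map_zero] at e2
      exact (congrArg (fun ψ => Polynomial.eval₂ ψ _ p) (Subsingleton.elim _ _)).trans e2
    · have e3 : coeffEmb Qb z = φ ⟨coeffEmb K z, coeffEmb_mem_laurentBaseChange K hz⟩ := by
        change _ = coeffMap (algebraMap K Qb) (coeffEmb K z)
        ext n
        rw [coeffMap_coeff, coeffEmb_coeff, coeffEmb_coeff]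
        exact (IsScalarTower.algebraMap_apply ℚ K Qb _)
      rw [e3]
      exact RingHom.isIntegralElem_map _
  obtain ⟨p, hp, hpf⟩ := h1
  refine ⟨p, hp, ?_⟩
  have e4 := Polynomial.hom_eval₂ p (embBC (K := K) Qb F₀) (laurentBaseChange Qb F₀).val.toRingHom f
  have e5 : (laurentBaseChange Qb F₀).val.toRingHom (Polynomial.eval₂ (embBC (K := K) Qb F₀) f p) =
      0 := by
    rw [e4]; exact hpf
  exact (map_eq_zero _).1 e5

theorem leadingCoeff_pow {K : Type*} [Field K] (x : LaurentSeries K) (n : ℕ) :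
    (x ^ n).leadingCoeff = x.leadingCoeff ^ n := by
  induction n with
  | zero => rw [pow_zero, pow_zero]; exact HahnSeries.leadingCoeff_one
  | succ k ih => rw [pow_succ, pow_succ, laurent_leadingCoeff_mul, ih]

/-- Normalised Kummer function and its Galois conjugates. -/
theorem exists_normalised (H : Subgroup Γℚ) (F₀ : IntermediateField ℚ (LaurentSeries ℚ))
    [HasPrincipalDivisors Qb (laurentBaseChange Qb F₀)]
    {v₀ : Place Qb (laurentBaseChange Qb F₀)} (hv₀ : v₀.deg = 1) {m : ℕ} (hm : m ≠ 0)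
    {x : Pic0 Qb (laurentBaseChange Qb F₀)} (hx : m • x = 0) (hfix : ∀ σ ∈ H, σ • x = x) :
    ∃ f : laurentBaseChange Qb F₀, Kum m x f ∧
      (f : LaurentSeries Qb).leadingCoeff = 1 ∧ ∀ σ ∈ H,
      ∃ g : laurentBaseChange Qb F₀, (g : LaurentSeries Qb).leadingCoeff = 1 ∧
      arithmeticRingAut F₀ σ f = f * g ^ m := by
  obtain ⟨f, hf, hlead⟩ : ∃ f : laurentBaseChange Qb F₀, Kum m x f ∧
      (f : LaurentSeries Qb).leadingCoeff = 1 := by
    obtain ⟨f, hf⟩ := exists_kum hx
    have hf0 : (f : LaurentSeries Qb) ≠ 0 := fun h => hf.ne_zero (Subtype.ext h)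
    have hl0 : (f : LaurentSeries Qb).leadingCoeff ≠ 0 := HahnSeries.leadingCoeff_ne_zero.2 hf0
    refine ⟨f * algebraMap Qb _ ((f : LaurentSeries Qb).leadingCoeff)⁻¹, ?_, ?_⟩
    · have := hf.mul (kum_zero_algebraMap (F := laurentBaseChange Qb F₀) m (inv_ne_zero hl0))
      rwa [add_zero] at this
    · change ((f : LaurentSeries Qb) * algebraMap Qb (LaurentSeries Qb) _).leadingCoeff = 1
      rw [laurent_leadingCoeff_mul, algebraMap_laurentSeries_eq_single,
        HahnSeries.leadingCoeff_of_single, mul_inv_cancel₀ hl0]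
  refine ⟨f, hf, hlead, ?_⟩
  intro σ hσ
  have h1 : Kum m x (arithmeticGalois F₀ σ • f) := by
    have := hf.smul (arithmeticGalois F₀ σ)
    have e : arithmeticGalois F₀ σ • x = x := hfix σ hσ
    rwa [e] at this
  obtain ⟨g, hg0, hg⟩ := h1.exists_of_eq hv₀ hm hf
  have hg0' : (g : LaurentSeries Qb) ≠ 0 := fun h => hg0 (Subtype.ext h)
  have hl0 : (g : LaurentSeries Qb).leadingCoeff ≠ 0 := HahnSeries.leadingCoeff_ne_zero.2 hg0'
  have e1 : coeffMap (σ : Qb →+* Qb) (f : LaurentSeries Qb) = f * (g : LaurentSeries Qb) ^ m :=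
    congrArg Subtype.val hg
  have e2 : (g : LaurentSeries Qb).leadingCoeff ^ m = 1 := by
    have e3 := congrArg HahnSeries.leadingCoeff e1
    rw [leadingCoeff_coeffMap, laurent_leadingCoeff_mul, hlead, map_one, one_mul,
      leadingCoeff_pow] at e3
    exact e3.symm
  refine ⟨g * algebraMap Qb _ ((g : LaurentSeries Qb).leadingCoeff)⁻¹, ?_, ?_⟩
  · change ((g : LaurentSeries Qb) * algebraMap Qb (LaurentSeries Qb) _).leadingCoeff = 1
    rw [laurent_leadingCoeff_mul, algebraMap_laurentSeries_eq_single,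
      HahnSeries.leadingCoeff_of_single, mul_inv_cancel₀ hl0]
  · have e4 : (g * algebraMap Qb (laurentBaseChange Qb F₀)
        ((g : LaurentSeries Qb).leadingCoeff)⁻¹) ^ m = g ^ m := by
      rw [mul_pow, ← map_pow, inv_pow, e2, inv_one, map_one, mul_one]
    rw [e4]
    exact hg

theorem fixed_embBC (H : Subgroup Γℚ) (F₀ : IntermediateField ℚ (LaurentSeries ℚ)) (σ : Γℚ)
    (hσ : σ ∈ H) (z : laurentBaseChange (IntermediateField.fixedField H) F₀) :
    arithmeticRingAut F₀ σ (embBC Qb F₀ z) = embBC Qb F₀ z := by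
  apply Subtype.ext
  ext n
  rw [coe_arithmeticRingAut_apply, coeffMap_coeff, coe_embBC]
  rw [show (cEmb (IntermediateField.fixedField H) Qb (z : LaurentSeries _)).coeff n =
    (((z : LaurentSeries (IntermediateField.fixedField H)).coeff n :
      IntermediateField.fixedField H) : Qb) from coeffMap_coeff _ _ _]
  exact ((z : LaurentSeries (IntermediateField.fixedField H)).coeff n).2 ⟨σ, hσ⟩

theorem mem_embBC_of_fixed (H : Subgroup Γℚ) (F₀ : IntermediateField ℚ (LaurentSeries ℚ))
    (z : laurentBaseChange Qb F₀) (h : ∀ σ ∈ H, arithmeticRingAut F₀ σ z = z) :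
    ∃ z₀ : laurentBaseChange (IntermediateField.fixedField H) F₀, embBC Qb F₀ z₀ = z := by
  refine exists_embBC_of_coeff_mem (K := IntermediateField.fixedField H) Qb z fun n => ?_
  have h3 : (z : LaurentSeries Qb).coeff n ∈ IntermediateField.fixedField H := by
    rw [IntermediateField.mem_fixedField_iff]
    intro σ hσ
    have h4 := congrArg (fun z : laurentBaseChange Qb F₀ => (z : LaurentSeries Qb).coeff n)
      (h σ hσ)
    simp only [coe_arithmeticRingAut_apply, coeffMap_coeff] at h4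
    exact h4
  exact ⟨⟨_, h3⟩, rfl⟩

/-- The group homomorphism `H → Aut (F_Qb / F_K)`. -/
def galHom (H : Subgroup Γℚ) (F₀ : IntermediateField ℚ (LaurentSeries ℚ))
    [Algebra (laurentBaseChange (IntermediateField.fixedField H) F₀) (laurentBaseChange Qb F₀)]
    (halg : ∀ z, algebraMap (laurentBaseChange (IntermediateField.fixedField H) F₀)
      (laurentBaseChange Qb F₀) z = embBC Qb F₀ z) :
    H →* (laurentBaseChange Qb F₀ ≃ₐ[laurentBaseChange (IntermediateField.fixedField H) F₀]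
      laurentBaseChange Qb F₀) where
  toFun σ := AlgEquiv.ofRingEquiv (f := arithmeticRingAut F₀ (σ : Γℚ))
        (fun z => by rw [halg]; exact fixed_embBC H F₀ σ σ.2 z)
  map_one' := by
    apply AlgEquiv.ext
    intro z
    exact congrArg (fun s : SemilinearAut Qb (laurentBaseChange Qb F₀) => s • z)
            (map_one (arithmeticGalois (L := Qb) F₀))
  map_mul' := fun σ τ => by
    apply AlgEquiv.ext
    intro z
    exact (congrArg (fun s : SemilinearAut Qb (laurentBaseChange Qb F₀) => s • z)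
            (map_mul (arithmeticGalois (L := Qb) F₀) (σ : Γℚ) τ)).trans (mul_smul _ _ _)

theorem kummer_descent (H : Subgroup Γℚ) (F₀ : IntermediateField ℚ (LaurentSeries ℚ))
    [HasPrincipalDivisors Qb (laurentBaseChange Qb F₀)]
    {v₀ : Place Qb (laurentBaseChange Qb F₀)} (hv₀ : v₀.deg = 1) {m : ℕ} (hm : m ≠ 0)
    {x : Pic0 Qb (laurentBaseChange Qb F₀)} (hx : m • x = 0) (hfix : ∀ σ ∈ H, σ • x = x) :
    ∃ f : laurentBaseChange (IntermediateField.fixedField H) F₀, Kum m x (embBC Qb F₀ f) := by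
  obtain ⟨f, hf, hlead, hcoc⟩ := exists_normalised H F₀ hv₀ hm hx hfix
  let _ : Algebra (laurentBaseChange (IntermediateField.fixedField H) F₀)
    (laurentBaseChange Qb F₀) := (embBC Qb F₀).toAlgebra
  obtain ⟨u, hu0, hu⟩ := descent_abstract (galHom H F₀ fun _ => rfl) (m := m) (f := f) hf.ne_zero
    (isIntegral_embBC _ F₀ f) (fun g => (g : LaurentSeries Qb).leadingCoeff = 1)
    HahnSeries.leadingCoeff_one
    (fun a b ha hb => by
      change ((a : LaurentSeries Qb) * b).leadingCoeff = 1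
      rw [laurent_leadingCoeff_mul, ha, hb, one_mul])
    (fun σ a ha => by
      change (coeffMap ((σ : Γℚ) : Qb →+* Qb) (a : LaurentSeries Qb)).leadingCoeff = 1
      rw [leadingCoeff_coeffMap, ha, map_one])
    (fun a ha h0 => by
      rw [h0, show ((0 : laurentBaseChange Qb F₀) : LaurentSeries Qb) = 0 from rfl,
        HahnSeries.leadingCoeff_zero] at ha
      exact zero_ne_one ha)
    (fun a b ha hb hab => Subtype.ext (laurent_root_unique hm ha hb (congrArg Subtype.val hab)))
    (fun σ => hcoc σ σ.2)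
  obtain ⟨f0, hf0⟩ := mem_embBC_of_fixed H F₀ (f * (u⁻¹) ^ m) fun σ hσ => hu ⟨σ, hσ⟩
  exact ⟨f0, by rw [hf0]; exact hf.mul_pow' (inv_ne_zero hu0)⟩

end Fermat.Agent.H23.R
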