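import Fermat.Agent.H23.R.Rv

/-!
# PROGRAM R (S36): norms and residues
-/

namespace Fermat.Agent.H23.R

open IsLocalRing

/-- A valuation ring extends along any field homomorphism. -/
theorem exists_extension {E Ω : Type*} [Field E] [Field Ω] (φ : E →+* Ω)
    (W : ValuationSubring E) : ∃ V : ValuationSubring Ω, ∀ z, φ z ∈ V ↔ z ∈ W := by
  let f : W →+* W.toSubring.map φ :=
    { toFun := fun z => ⟨φ z, z, z.2, rfl⟩
      map_one' := Subtype.ext (map_one φ)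
      map_zero' := Subtype.ext (map_zero φ)
      map_mul' := fun _ _ => Subtype.ext (map_mul φ _ _)
      map_add' := fun _ _ => Subtype.ext (map_add φ _ _) }
  have hf : Function.Surjective f := by
    rintro ⟨_, z, hz, rfl⟩
    exact ⟨⟨z, hz⟩, rfl⟩
  have hfi : Function.Injective f := by
    intro x y hxy
    have : φ x = φ y := congrArg Subtype.val hxy
    exact Subtype.ext (φ.injective this)
  have hI : (maximalIdeal W).map f ≠ ⊤ := by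
    intro h
    have h1 : (1 : W.toSubring.map φ) ∈ (maximalIdeal W).map f := by rw [h]; exact Submodule.mem_top
    obtain ⟨x, hx, hx1⟩ := (Ideal.mem_map_iff_of_surjective f hf).1 h1
    have : x = 1 := hfi (by rw [hx1, map_one])
    rw [this] at hx
    exact (Ideal.ne_top_iff_one _).1 (maximalIdeal.isMaximal W).ne_top hx
  obtain ⟨V, hV1, hV2⟩ := Ideal.image_subset_nonunits_valuationSubring _ hI
  refine ⟨V, fun z => ⟨fun hz => ?_, fun hz => hV1 ⟨z, hz, rfl⟩⟩⟩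
  by_contra hzW
  have hz' : z⁻¹ ∈ W := (W.mem_or_inv_mem z).resolve_left hzW
  have hz0 : z ≠ 0 := by rintro rfl; exact hzW W.zero_mem
  have h1 : (⟨z⁻¹, hz'⟩ : W) ∈ maximalIdeal W := by
    rw [mem_maximalIdeal, mem_nonunits_iff]
    rintro ⟨u, hu⟩
    apply hzW
    have h2 : (u : W) * (↑u⁻¹ : W) = 1 := Units.mul_inv u
    have h3 : z⁻¹ * ((↑u⁻¹ : W) : E) = 1 := by
      have := congrArg Subtype.val h2
      rw [hu] at this
      exact this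
    have h4 : z = ((↑u⁻¹ : W) : E) := by
      field_simp at h3
      exact h3.symm
    rw [h4]
    exact (↑u⁻¹ : W).2
  have h2 : φ z⁻¹ ∈ V.nonunits := hV2 ⟨f ⟨z⁻¹, hz'⟩, Ideal.mem_map_of_mem f h1, rfl⟩
  have h3 : rv V (φ z⁻¹) ≠ 0 := by
    rw [rv_ne_zero_iff]
    refine ⟨(map_ne_zero φ).2 (inv_ne_zero hz0), hV1 ⟨_, hz', rfl⟩, ?_⟩
    rw [map_inv₀, inv_inv]; exact hz
  exact h3 ((rv_eq_zero_iff (hV1 ⟨_, hz', rfl⟩)).2 h2)

section

variable {E Ω : Type*} [Field E] [Field Ω] {φ : E →+* Ω} {W : ValuationSubring E}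
  {V : ValuationSubring Ω} (h : ∀ z, φ z ∈ V ↔ z ∈ W)

include h

theorem rv_map_eq_zero_iff {z : E} : rv V (φ z) = 0 ↔ rv W z = 0 := by
  rw [← not_iff_not, ← ne_eq, ← ne_eq, rv_ne_zero_iff, rv_ne_zero_iff, ← map_inv₀, h, h,
    map_ne_zero]

theorem rv_map_eq_iff {z w : E} (hz : z ∈ W) (hw : w ∈ W) :
    rv V (φ z) = rv V (φ w) ↔ rv W z = rv W w := by
  rw [← sub_eq_zero, ← rv_sub ((h z).2 hz) ((h w).2 hw), ← map_sub, rv_map_eq_zero_iff h,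
    rv_sub hz hw, sub_eq_zero]

end

/-! ### units up to powers -/

section units

variable {F : Type*} [Field F] {V : ValuationSubring F}

theorem rv_ne_zero_mul {z w : F} (hz : rv V z ≠ 0) (hw : rv V w ≠ 0) : rv V (z * w) ≠ 0 := by
  rw [rv_mul (rv_ne_zero_iff.1 hz).2.1 (rv_ne_zero_iff.1 hw).2.1]
  exact mul_ne_zero hz hw

theorem rv_ne_zero_inv {z : F} (hz : rv V z ≠ 0) : rv V z⁻¹ ≠ 0 := by
  rw [rv_inv]; exact inv_ne_zero hz

theorem rv_ne_zero_pow {z : F} (hz : rv V z ≠ 0) (n : ℕ) : rv V (z ^ n) ≠ 0 := by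
  rw [rv_pow (rv_ne_zero_iff.1 hz).2.1]
  exact pow_ne_zero _ hz

theorem rv_ne_zero_zpow {z : F} (hz : rv V z ≠ 0) (n : ℤ) : rv V (z ^ n) ≠ 0 := by
  rcases n with n | n
  · rw [Int.ofNat_eq_natCast, zpow_natCast]; exact rv_ne_zero_pow hz n
  · rw [zpow_negSucc]; exact rv_ne_zero_inv (rv_ne_zero_pow hz _)

theorem rv_ne_zero_of_pow {z : F} {n : ℕ} (hn : n ≠ 0) (h : rv V (z ^ n) ≠ 0) : rv V z ≠ 0 := by
  obtain ⟨h1, h2, h3⟩ := rv_ne_zero_iff.1 h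
  rw [rv_ne_zero_iff]
  refine ⟨fun h0 => h1 (by rw [h0, zero_pow hn]), mem_of_pow_mem hn h2, mem_of_pow_mem hn ?_⟩
  rw [inv_pow]; exact h3

theorem rv_ne_zero_prod {α : Type*} (s : Finset α) (g : α → F) (h : ∀ a ∈ s, rv V (g a) ≠ 0) :
    rv V (∏ a ∈ s, g a) ≠ 0 := by
  rw [rv_prod s g fun a ha => (rv_ne_zero_iff.1 (h a ha)).2.1]
  exact Finset.prod_ne_zero_iff.2 h

end units

/-- A uniformizer of `W`: nonunit, and every nonzero element is a power of it up to a unit. -/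
structure IsUnif {E : Type*} [Field E] (W : ValuationSubring E) (ϖ : E) : Prop where
  ne_zero : ϖ ≠ 0
  mem : ϖ ∈ W
  res : rv W ϖ = 0
  exists_zpow : ∀ z : E, z ≠ 0 → ∃ n : ℤ, rv W (z * ϖ ^ n) ≠ 0

theorem IsUnif.eq_zero_of_zpow {E : Type*} [Field E] {W : ValuationSubring E} {ϖ : E}
    (h : IsUnif W ϖ) {n : ℤ} (hn : rv W (ϖ ^ n) ≠ 0) : n = 0 := by
  by_contra hn0
  have key : ∀ k : ℕ, k ≠ 0 → rv W (ϖ ^ k) = 0 := fun k hk => by
    rw [rv_pow h.mem, h.res, zero_pow hk]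
  rcases n with n | n
  · rw [Int.ofNat_eq_natCast, zpow_natCast] at hn
    exact hn (key n (by rintro rfl; exact hn0 rfl))
  · rw [zpow_negSucc] at hn
    have := rv_ne_zero_inv hn
    rw [inv_inv] at this
    exact this (key _ (Nat.succ_ne_zero n))

section norm

variable {E F : Type*} [Field E] [Field F] [Algebra E F]

/-- Two valuation rings `V₁` (split, unramified) and `V₂` (totally ramified of index `q - 1`)
over `W`. -/
structure SplitData (q : ℕ) (ϖ : E) (W : ValuationSubring E) (V₁ V₂ : ValuationSubring F) :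
    Prop where
  over₁ : ∀ z : E, algebraMap E F z ∈ V₁ ↔ z ∈ W
  over₂ : ∀ z : E, algebraMap E F z ∈ V₂ ↔ z ∈ W
  int : ∀ z : F, z ∈ V₁ → z ∈ V₂ → IsIntegral W z
  rk₁ : ∀ z y : F, y ∈ V₁ → rv V₁ y = 0 → ∃ k : ℕ, z * y ^ k ∈ V₁
  rk₂ : ∀ z y : F, y ∈ V₂ → rv V₂ y = 0 → ∃ k : ℕ, z * y ^ k ∈ V₂
  idem : ∃ e : F, e ∈ V₁ ∧ e ∈ V₂ ∧ rv V₁ e = 1 ∧ rv V₂ e = 0
  ram : ∃ d : F, rv V₁ d ≠ 0 ∧ rv V₂ (d ^ (q - 1) * (algebraMap E F ϖ)⁻¹) ≠ 0
  deg : Module.finrank E F = q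

variable {Ω : Type*} [Field Ω] [Algebra E Ω] {W : ValuationSubring E} {Vb : ValuationSubring Ω}
  (hVb : ∀ z : E, algebraMap E Ω z ∈ Vb ↔ z ∈ W)

include hVb

theorem map_mem_of_isIntegral (σ : F →ₐ[E] Ω) {z : F} (hz : IsIntegral W z) : σ z ∈ Vb := by
  obtain ⟨p, hp, hpz⟩ := hz
  let g : W →+* Vb :=
    { toFun := fun a => ⟨algebraMap E Ω a, (hVb a).2 a.2⟩
      map_one' := Subtype.ext (map_one _)
      map_zero' := Subtype.ext (map_zero _)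
      map_mul' := fun _ _ => Subtype.ext (map_mul _ _ _)
      map_add' := fun _ _ => Subtype.ext (map_add _ _ _) }
  have h1 : IsIntegral Vb (σ z) := by
    refine ⟨p.map g, hp.map g, ?_⟩
    rw [Polynomial.eval₂_map]
    have h2 : (algebraMap Vb Ω).comp g = (σ : F →+* Ω).comp (algebraMap W F) := by
      ext a
      change algebraMap E Ω a = σ (algebraMap E F a)
      rw [σ.commutes]
    rw [h2, ← AlgHom.coe_toRingHom σ, ← Polynomial.hom_eval₂, hpz, map_zero]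
  obtain ⟨y, hy⟩ := (IsIntegrallyClosed.isIntegral_iff (R := Vb) (K := Ω)).1 h1
  rw [← hy]
  exact y.2

/-- The elements of the radical map to nonunits. -/
theorem map_rad {V₁ V₂ : ValuationSubring F} (hint : ∀ z : F, z ∈ V₁ → z ∈ V₂ → IsIntegral W z)
    (rk₁ : ∀ z y : F, y ∈ V₁ → rv V₁ y = 0 → ∃ k : ℕ, z * y ^ k ∈ V₁)
    (rk₂ : ∀ z y : F, y ∈ V₂ → rv V₂ y = 0 → ∃ k : ℕ, z * y ^ k ∈ V₂)
    {ϖ : E} (hϖ0 : ϖ ≠ 0) (hϖ : ϖ ∈ W) (hϖ' : rv W ϖ = 0)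
    (σ : F →ₐ[E] Ω) {y : F} (h1 : y ∈ V₁) (h1' : rv V₁ y = 0) (h2 : y ∈ V₂) (h2' : rv V₂ y = 0) :
    rv Vb (σ y) = 0 := by
  obtain ⟨k₁, hk₁⟩ := rk₁ (algebraMap E F ϖ)⁻¹ y h1 h1'
  obtain ⟨k₂, hk₂⟩ := rk₂ (algebraMap E F ϖ)⁻¹ y h2 h2'
  have e1 : (algebraMap E F ϖ)⁻¹ * y ^ (k₁ + k₂) ∈ V₁ := by
    rw [pow_add, ← mul_assoc]; exact V₁.mul_mem _ _ hk₁ (pow_mem h1 _)
  have e2 : (algebraMap E F ϖ)⁻¹ * y ^ (k₁ + k₂) ∈ V₂ := by
    rw [add_comm, pow_add, ← mul_assoc]; exact V₂.mul_mem _ _ hk₂ (pow_mem h2 _)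
  have e3 := map_mem_of_isIntegral hVb σ (hint _ e1 e2)
  have e4 : σ ((algebraMap E F ϖ)⁻¹ * y ^ (k₁ + k₂)) = (algebraMap E Ω ϖ)⁻¹ * σ y ^ (k₁ + k₂) := by
    rw [map_mul, map_inv₀, map_pow, σ.commutes]
  rw [e4] at e3
  have hy : σ y ∈ Vb := map_mem_of_isIntegral hVb σ (hint _ h1 h2)
  have hϖΩ : algebraMap E Ω ϖ ≠ 0 := (map_ne_zero _).2 hϖ0
  have e5 : σ y ^ (k₁ + k₂ + 1) =
      algebraMap E Ω ϖ * ((algebraMap E Ω ϖ)⁻¹ * σ y ^ (k₁ + k₂)) * σ y := by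
    rw [mul_inv_cancel_left₀ hϖΩ, pow_succ]
  have e6 : rv Vb (σ y) ^ (k₁ + k₂ + 1) = 0 := by
    rw [← rv_pow hy, e5, rv_mul (Vb.mul_mem _ _ ((hVb ϖ).2 hϖ) e3) hy,
      rv_mul ((hVb ϖ).2 hϖ) e3, (rv_map_eq_zero_iff hVb).2 hϖ', zero_mul, zero_mul]
  exact eq_zero_of_pow_eq_zero e6

/-- If `rv (σ e) ≠ 0` then `σ` maps `V₁` to `Vb`, as a local homomorphism. -/
theorem map_type {V₁ V₂ : ValuationSubring F} (hint : ∀ z : F, z ∈ V₁ → z ∈ V₂ → IsIntegral W z)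
    (rk₁ : ∀ z y : F, y ∈ V₁ → rv V₁ y = 0 → ∃ k : ℕ, z * y ^ k ∈ V₁)
    (rk₂ : ∀ z y : F, y ∈ V₂ → rv V₂ y = 0 → ∃ k : ℕ, z * y ^ k ∈ V₂)
    {ϖ : E} (hϖ0 : ϖ ≠ 0) (hϖ : ϖ ∈ W) (hϖ' : rv W ϖ = 0)
    (σ : F →ₐ[E] Ω) {e : F} (h1 : e ∈ V₁) (h2 : e ∈ V₂) (h2' : rv V₂ e = 0)
    (hσ : rv Vb (σ e) ≠ 0) :
    (∀ z ∈ V₁, σ z ∈ Vb) ∧ (∀ z ∈ V₁, rv V₁ z = 0 → rv Vb (σ z) = 0) := by
  obtain ⟨h3, h4, h5⟩ := rv_ne_zero_iff.1 hσ
  constructor
  · intro z hz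
    obtain ⟨k, hk⟩ := rk₂ z e h2 h2'
    have e1 := map_mem_of_isIntegral hVb σ (hint _ (V₁.mul_mem _ _ hz (pow_mem h1 k)) hk)
    have e2 : σ z = σ (z * e ^ k) * (σ e)⁻¹ ^ k := by
      rw [map_mul, map_pow, mul_assoc, ← mul_pow, mul_inv_cancel₀ h3, one_pow, mul_one]
    rw [e2]
    exact Vb.mul_mem _ _ e1 (pow_mem h5 _)
  · intro z hz hz0
    obtain ⟨k, hk⟩ := rk₂ z e h2 h2'
    have e1 := map_rad hVb hint rk₁ rk₂ hϖ0 hϖ hϖ' σ (y := z * e ^ k * e)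
      (V₁.mul_mem _ _ (V₁.mul_mem _ _ hz (pow_mem h1 k)) h1)
      (by rw [mul_assoc, rv_mul hz (V₁.mul_mem _ _ (pow_mem h1 k) h1), hz0, zero_mul])
      (V₂.mul_mem _ _ hk h2) (by rw [rv_mul hk h2, h2', mul_zero])
    by_contra hcon
    have e2 : rv Vb (σ (z * e ^ k * e)) ≠ 0 := by
      rw [map_mul, map_mul, map_pow]
      exact rv_ne_zero_mul (rv_ne_zero_mul hcon (rv_ne_zero_pow hσ k)) hσ
    exact e2 e1

omit hVb in
theorem map_unit {V : ValuationSubring F} {σ : F →ₐ[E] Ω} (h : ∀ z ∈ V, σ z ∈ Vb) {z : F}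
    (hz : rv V z ≠ 0) : rv Vb (σ z) ≠ 0 := by
  obtain ⟨h1, h2, h3⟩ := rv_ne_zero_iff.1 hz
  rw [rv_ne_zero_iff]
  refine ⟨(map_ne_zero _).2 h1, h _ h2, ?_⟩
  rw [← map_inv₀]; exact h _ h3

end norm

section main

variable {E F : Type*} [Field E] [Field F] [Algebra E F] [FiniteDimensional E F]
  [Algebra.IsSeparable E F]

/-- Some embedding is a nonunit. -/
theorem exists_embedding_rv_eq_zero {W : ValuationSubring E} {V : ValuationSubring F}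
    (hover : ∀ z : E, algebraMap E F z ∈ V ↔ z ∈ W) {e : F} (he : IsIntegral W e)
    (he0 : rv V e = 0)
    {Ω : Type*} [Field Ω] [Algebra E Ω] [IsAlgClosed Ω] {Vb : ValuationSubring Ω}
    (hVb : ∀ z : E, algebraMap E Ω z ∈ Vb ↔ z ∈ W) :
    ∃ σ : F →ₐ[E] Ω, rv Vb (σ e) = 0 := by
  classical
  -- a valuation ring over `V`
  obtain ⟨σ₀⟩ : Nonempty (F →ₐ[E] Ω) := ⟨IsAlgClosed.lift⟩
  obtain ⟨V', hV'⟩ := exists_extension (σ₀ : F →+* Ω) V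
  have hV'W : ∀ z : E, algebraMap E Ω z ∈ V' ↔ z ∈ W := by
    intro z
    rw [← hover z, ← hV' (algebraMap E F z)]
    simp
  have h1 : rv W (Algebra.norm E e) = 0 := by
    rw [← rv_map_eq_zero_iff hV'W, Algebra.norm_eq_prod_embeddings E Ω e,
      rv_prod _ _ (fun σ _ => map_mem_of_isIntegral hV'W σ he)]
    apply Finset.prod_eq_zero (Finset.mem_univ σ₀)
    exact (rv_map_eq_zero_iff hV').2 he0
  rw [← rv_map_eq_zero_iff hVb, Algebra.norm_eq_prod_embeddings E Ω e,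
      rv_prod _ _ (fun σ _ => map_mem_of_isIntegral hVb σ he), Finset.prod_eq_zero_iff] at h1
  obtain ⟨σ, -, hσ⟩ := h1
  exact ⟨σ, hσ⟩

/-- The embeddings are of two types: one restricts to `V₁`, `q - 1` to `V₂`. -/
theorem SplitData.exists_types {q : ℕ} (hq : 2 ≤ q) {ϖ : E} {W : ValuationSubring E}
    {V₁ V₂ : ValuationSubring F} (hs : SplitData q ϖ W V₁ V₂) (hW : IsUnif W ϖ)
    {Ω : Type*} [Field Ω] [Algebra E Ω] [IsAlgClosed Ω] {Vb : ValuationSubring Ω}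
    (hVb : ∀ z : E, algebraMap E Ω z ∈ Vb ↔ z ∈ W) :
    ∃ A B : Finset (F →ₐ[E] Ω), Disjoint A B ∧ (∀ σ, σ ∈ A ∨ σ ∈ B) ∧ A.card = 1 ∧
      B.card = q - 1 ∧
      (∀ σ ∈ A, (∀ z ∈ V₁, σ z ∈ Vb) ∧ (∀ z ∈ V₁, rv V₁ z = 0 → rv Vb (σ z) = 0)) ∧
      (∀ σ ∈ B, (∀ z ∈ V₂, σ z ∈ Vb) ∧ (∀ z ∈ V₂, rv V₂ z = 0 → rv Vb (σ z) = 0)) := by
  classical
  obtain ⟨e, he1, he2, he1', he2'⟩ := hs.idem
  have heint : IsIntegral W e := hs.int e he1 he2
  have he1m : 1 - e ∈ V₁ := V₁.sub_mem V₁.one_mem he1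
  have he2m : 1 - e ∈ V₂ := V₂.sub_mem V₂.one_mem he2
  have he1m' : rv V₁ (1 - e) = 0 := by rw [rv_sub V₁.one_mem he1, rv_one, he1', sub_self]
  have heint' : IsIntegral W (1 - e) := hs.int _ he1m he2m
  let A : Finset (F →ₐ[E] Ω) := Finset.univ.filter fun σ => rv Vb (σ e) ≠ 0
  let B : Finset (F →ₐ[E] Ω) := Finset.univ.filter fun σ => ¬ (rv Vb (σ e) ≠ 0)
  have hA : ∀ σ, σ ∈ A ↔ rv Vb (σ e) ≠ 0 := fun σ => by simp [A]
  have hB : ∀ σ, σ ∈ B ↔ rv Vb (σ e) = 0 := fun σ => by simp [B]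
  have hAt : ∀ σ ∈ A, (∀ z ∈ V₁, σ z ∈ Vb) ∧ (∀ z ∈ V₁, rv V₁ z = 0 → rv Vb (σ z) = 0) := by
    intro σ hσ
    exact map_type hVb hs.int hs.rk₁ hs.rk₂ hW.ne_zero hW.mem hW.res σ he1 he2 he2' ((hA σ).1 hσ)
  have hBt : ∀ σ ∈ B, (∀ z ∈ V₂, σ z ∈ Vb) ∧ (∀ z ∈ V₂, rv V₂ z = 0 → rv Vb (σ z) = 0) := by
    intro σ hσ
    refine map_type hVb (fun z h1 h2 => hs.int z h2 h1) hs.rk₂ hs.rk₁ hW.ne_zero hW.mem hW.res σ
      he2m he1m he1m' ?_
    rw [map_sub, map_one, rv_sub Vb.one_mem (map_mem_of_isIntegral hVb σ heint), (hB σ).1 hσ,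
      sub_zero, rv_one]
    exact one_ne_zero
  have hdisj : Disjoint A B := Finset.disjoint_filter_filter_not _ _ _
  have hcard : A.card + B.card = q := by
    rw [← hs.deg, ← AlgHom.card E F Ω, ← Finset.card_univ]
    exact Finset.card_filter_add_card_filter_not _
  have hBne : 1 ≤ B.card := by
    obtain ⟨σ, hσ⟩ := exists_embedding_rv_eq_zero hs.over₂ heint he2' hVb
    exact Finset.card_pos.2 ⟨σ, (hB σ).2 hσ⟩
  have hAne : 1 ≤ A.card := by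
    obtain ⟨σ, hσ⟩ := exists_embedding_rv_eq_zero hs.over₁ heint' he1m' hVb
    refine Finset.card_pos.2 ⟨σ, (hA σ).2 ?_⟩
    intro h0
    rw [map_sub, map_one, rv_sub Vb.one_mem (map_mem_of_isIntegral hVb σ heint), h0,
      sub_zero, rv_one] at hσ
    exact one_ne_zero hσ
  -- divisibility
  obtain ⟨d, hd1, hd2⟩ := hs.ram
  have hd0 : d ≠ 0 := (rv_ne_zero_iff.1 hd1).1
  have hν0 : Algebra.norm E d ≠ 0 := Algebra.norm_ne_zero_iff.2 hd0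
  obtain ⟨n, hn⟩ := hW.exists_zpow _ hν0
  have hϖΩ : algebraMap E Ω ϖ ≠ 0 := (map_ne_zero _).2 hW.ne_zero
  have h1 : rv Vb (algebraMap E Ω (Algebra.norm E d) ^ (q - 1) *
      (algebraMap E Ω ϖ)⁻¹ ^ B.card) ≠ 0 := by
    have h2 : algebraMap E Ω (Algebra.norm E d) ^ (q - 1) * (algebraMap E Ω ϖ)⁻¹ ^ B.card =
        (∏ σ ∈ A, σ d ^ (q - 1)) * ∏ σ ∈ B, σ (d ^ (q - 1) * (algebraMap E F ϖ)⁻¹) := by
      have h3 : ∏ σ ∈ B, σ (d ^ (q - 1) * (algebraMap E F ϖ)⁻¹) =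
          (∏ σ ∈ B, σ d ^ (q - 1)) * (algebraMap E Ω ϖ)⁻¹ ^ B.card := by
        rw [← Finset.prod_const, ← Finset.prod_mul_distrib]
        refine Finset.prod_congr rfl fun σ _ => ?_
        rw [map_mul, map_pow, map_inv₀, σ.commutes]
      rw [h3, ← mul_assoc, Algebra.norm_eq_prod_embeddings E Ω d, ← Finset.prod_pow]
      congr 1
      rw [← Finset.prod_union hdisj]
      congr 1
      symm
      exact Finset.filter_union_filter_not_eq _ _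
    rw [h2]
    refine rv_ne_zero_mul (rv_ne_zero_prod _ _ fun σ hσ => ?_) (rv_ne_zero_prod _ _ fun σ hσ => ?_)
    · exact rv_ne_zero_pow (map_unit (hAt σ hσ).1 hd1) _
    · exact map_unit (hBt σ hσ).1 hd2
  have h4 : rv Vb (algebraMap E Ω (Algebra.norm E d * ϖ ^ n)) ≠ 0 := by
    rw [ne_eq, rv_map_eq_zero_iff hVb]; exact hn
  have h5 : rv W (ϖ ^ (n * ((q - 1 : ℕ) : ℤ) + B.card)) ≠ 0 := by
    rw [ne_eq, ← rv_map_eq_zero_iff hVb, ← ne_eq]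
    have h6 := rv_ne_zero_mul (rv_ne_zero_pow h4 (q - 1)) (rv_ne_zero_inv h1)
    have h7 : algebraMap E Ω (Algebra.norm E d * ϖ ^ n) ^ (q - 1) *
        (algebraMap E Ω (Algebra.norm E d) ^ (q - 1) * (algebraMap E Ω ϖ)⁻¹ ^ B.card)⁻¹ =
        algebraMap E Ω (ϖ ^ (n * ((q - 1 : ℕ) : ℤ) + B.card)) := by
      have hνΩ : algebraMap E Ω (Algebra.norm E d) ≠ 0 := (map_ne_zero _).2 hν0
      rw [map_mul, mul_pow, mul_inv, inv_pow, inv_inv, map_zpow₀, map_zpow₀, zpow_add₀ hϖΩ,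
        zpow_mul, zpow_natCast, zpow_natCast]
      field_simp
    rwa [h7] at h6
  have h8 := hW.eq_zero_of_zpow h5
  have h9 : ((q - 1 : ℕ) : ℤ) ∣ (B.card : ℤ) := ⟨-n, by linarith⟩
  have h10 : (q - 1) ∣ B.card := Int.natCast_dvd_natCast.1 h9
  have h11 : q - 1 ≤ B.card := Nat.le_of_dvd hBne h10
  refine ⟨A, B, hdisj, fun σ => ?_, by omega, by omega, hAt, hBt⟩
  by_cases h : rv Vb (σ e) = 0
  · right; exact (hB σ).2 h
  · left; exact (hA σ).2 h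

omit [FiniteDimensional E F] [Algebra.IsSeparable E F] in
theorem prod_types {Ω : Type*} [Field Ω] [Algebra E Ω] [Fintype (F →ₐ[E] Ω)]
    {A B : Finset (F →ₐ[E] Ω)} (hd : Disjoint A B) (h : ∀ σ, σ ∈ A ∨ σ ∈ B)
    (g : (F →ₐ[E] Ω) → Ω) : ∏ σ, g σ = (∏ σ ∈ A, g σ) * ∏ σ ∈ B, g σ := by
  classical
  rw [← Finset.prod_union hd]
  congr 1
  ext σ
  simp [h σ]

/-- Residue of a norm. -/
theorem SplitData.norm_res {q : ℕ} (hq : 2 ≤ q) {ϖ : E} {W : ValuationSubring E}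
    {V₁ V₂ : ValuationSubring F} (hs : SplitData q ϖ W V₁ V₂) (hW : IsUnif W ϖ)
    {z : F} (h1 : rv V₁ z ≠ 0) (h2 : rv V₂ z ≠ 0) {c₁ c₂ : E}
    (hc₁ : rv V₁ z = rv V₁ (algebraMap E F c₁)) (hc₂ : rv V₂ z = rv V₂ (algebraMap E F c₂)) :
    rv W (Algebra.norm E z) = rv W (c₁ * c₂ ^ (q - 1)) := by
  classical
  obtain ⟨Vb, hVb⟩ := exists_extension (algebraMap E (AlgebraicClosure E)) W
  obtain ⟨A, B, hd, hAB, hA, hB, hAt, hBt⟩ := hs.exists_types hq hW hVb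
  have hc₁V : algebraMap E F c₁ ∈ V₁ := (rv_ne_zero_iff.1 (hc₁ ▸ h1)).2.1
  have hc₂V : algebraMap E F c₂ ∈ V₂ := (rv_ne_zero_iff.1 (hc₂ ▸ h2)).2.1
  have hc₁W : c₁ ∈ W := (hs.over₁ c₁).1 hc₁V
  have hc₂W : c₂ ∈ W := (hs.over₂ c₂).1 hc₂V
  have hz1 := (rv_ne_zero_iff.1 h1).2.1
  have hz2 := (rv_ne_zero_iff.1 h2).2.1
  have hzint := hs.int z hz1 hz2
  have hNW : Algebra.norm E z ∈ W := by
    rw [← hVb, Algebra.norm_eq_prod_embeddings E (AlgebraicClosure E) z]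
    exact prod_mem fun σ _ => map_mem_of_isIntegral hVb σ hzint
  have key : rv Vb (algebraMap E (AlgebraicClosure E) (Algebra.norm E z)) =
      rv Vb (algebraMap E (AlgebraicClosure E) (c₁ * c₂ ^ (q - 1))) := by
    have e0 : ∀ σ : F →ₐ[E] AlgebraicClosure E, σ z ∈ Vb := fun σ =>
      map_mem_of_isIntegral hVb σ hzint
    have e1 : ∀ σ ∈ A, rv Vb (σ z) = rv Vb (algebraMap E (AlgebraicClosure E) c₁) := by
      intro σ hσ
      rw [← sub_eq_zero, ← rv_sub (e0 σ) ((hVb _).2 hc₁W), ← σ.commutes, ← map_sub]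
      refine (hAt σ hσ).2 _ (V₁.sub_mem hz1 hc₁V) ?_
      rw [rv_sub hz1 hc₁V, hc₁, sub_self]
    have e2 : ∀ σ ∈ B, rv Vb (σ z) = rv Vb (algebraMap E (AlgebraicClosure E) c₂) := by
      intro σ hσ
      rw [← sub_eq_zero, ← rv_sub (e0 σ) ((hVb _).2 hc₂W), ← σ.commutes, ← map_sub]
      refine (hBt σ hσ).2 _ (V₂.sub_mem hz2 hc₂V) ?_
      rw [rv_sub hz2 hc₂V, hc₂, sub_self]
    rw [Algebra.norm_eq_prod_embeddings E (AlgebraicClosure E) z, prod_types hd hAB,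
      rv_mul (prod_mem fun σ _ => e0 σ) (prod_mem fun σ _ => e0 σ), rv_prod _ _ (fun σ _ => e0 σ),
      rv_prod _ _ (fun σ _ => e0 σ), Finset.prod_congr rfl e1, Finset.prod_congr rfl e2,
      Finset.prod_const, Finset.prod_const, hA, hB, pow_one, map_mul, map_pow,
      rv_mul ((hVb _).2 hc₁W) (pow_mem ((hVb _).2 hc₂W) _), rv_pow ((hVb _).2 hc₂W)]
  exact (rv_map_eq_iff hVb hNW (W.mul_mem _ _ hc₁W (pow_mem hc₂W _))).1 key

/-- Order of a norm. -/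
theorem SplitData.norm_ord {q : ℕ} (hq : 2 ≤ q) {ϖ : E} {W : ValuationSubring E}
    {V₁ V₂ : ValuationSubring F} (hs : SplitData q ϖ W V₁ V₂) (hW : IsUnif W ϖ)
    {z : F} {α β : ℤ} (h1 : rv V₁ (z * algebraMap E F ϖ ^ (-α)) ≠ 0)
    (h2 : rv V₂ (z ^ (q - 1) * algebraMap E F ϖ ^ (-β)) ≠ 0) :
    rv W (Algebra.norm E z * ϖ ^ (-(α + β))) ≠ 0 := by
  classical
  obtain ⟨Vb, hVb⟩ := exists_extension (algebraMap E (AlgebraicClosure E)) W
  obtain ⟨A, B, hd, hAB, hA, hB, hAt, hBt⟩ := hs.exists_types hq hW hVb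
  have hq1 : q - 1 ≠ 0 := by omega
  rw [ne_eq, ← rv_map_eq_zero_iff hVb, ← ne_eq]
  apply rv_ne_zero_of_pow hq1
  have hϖΩ : algebraMap E (AlgebraicClosure E) ϖ ≠ 0 := (map_ne_zero _).2 hW.ne_zero
  have key : algebraMap E (AlgebraicClosure E) (Algebra.norm E z * ϖ ^ (-(α + β))) ^ (q - 1) =
      (∏ σ ∈ A, σ (z * algebraMap E F ϖ ^ (-α)) ^ (q - 1)) *
        ∏ σ ∈ B, σ (z ^ (q - 1) * algebraMap E F ϖ ^ (-β)) := by
    rw [map_mul, Algebra.norm_eq_prod_embeddings E (AlgebraicClosure E) z, mul_pow, ← Finset.prod_pow,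
      prod_types hd hAB]
    have e1 : ∏ σ ∈ A, σ (z * algebraMap E F ϖ ^ (-α)) ^ (q - 1) = (∏ σ ∈ A, σ z ^ (q - 1)) *
        (algebraMap E (AlgebraicClosure E) ϖ ^ (-α)) ^ (q - 1) := by
      have : ∀ σ ∈ A, σ (z * algebraMap E F ϖ ^ (-α)) ^ (q - 1) = σ z ^ (q - 1) *
          (algebraMap E (AlgebraicClosure E) ϖ ^ (-α)) ^ (q - 1) := by
        intro σ _
        rw [map_mul, map_zpow₀, σ.commutes, mul_pow]
      rw [Finset.prod_congr rfl this, Finset.prod_mul_distrib, Finset.prod_const, hA, pow_one]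
    have e2 : ∏ σ ∈ B, σ (z ^ (q - 1) * algebraMap E F ϖ ^ (-β)) = (∏ σ ∈ B, σ z ^ (q - 1)) *
        (algebraMap E (AlgebraicClosure E) ϖ ^ (-β)) ^ (q - 1) := by
      have : ∀ σ ∈ B, σ (z ^ (q - 1) * algebraMap E F ϖ ^ (-β)) = σ z ^ (q - 1) *
          algebraMap E (AlgebraicClosure E) ϖ ^ (-β) := by
        intro σ _
        rw [map_mul, map_zpow₀, σ.commutes, map_pow]
      rw [Finset.prod_congr rfl this, Finset.prod_mul_distrib, Finset.prod_const, hB]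
    rw [e1, e2, map_zpow₀]
    have e3 : (algebraMap E (AlgebraicClosure E) ϖ ^ (-(α + β))) ^ (q - 1) =
        (algebraMap E (AlgebraicClosure E) ϖ ^ (-α)) ^ (q - 1) *
          (algebraMap E (AlgebraicClosure E) ϖ ^ (-β)) ^ (q - 1) := by
      rw [← mul_pow, ← zpow_add₀ hϖΩ]
      congr 2
      ring
    rw [e3]
    ring
  rw [key]
  refine rv_ne_zero_mul (rv_ne_zero_prod _ _ fun σ hσ => ?_) (rv_ne_zero_prod _ _ fun σ hσ => ?_)
  · exact rv_ne_zero_pow (map_unit (hAt σ hσ).1 h1) _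
  · exact map_unit (hBt σ hσ).1 h2

/-- One valuation ring with purely inseparable residue extension of degree `q`. -/
structure InsepData (q : ℕ) (W : ValuationSubring E) (V : ValuationSubring F) : Prop where
  overV : ∀ z : E, algebraMap E F z ∈ V ↔ z ∈ W
  int : ∀ z : F, z ∈ V → IsIntegral W z
  rk : ∀ z y : F, y ∈ V → rv V y = 0 → ∃ k : ℕ, z * y ^ k ∈ V
  char : rv W (q : E) = 0
  deg : Module.finrank E F = q

theorem InsepData.norm_res {q : ℕ} (hq : q.Prime) {ϖ : E} {W : ValuationSubring E}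
    {V : ValuationSubring F} (hs : InsepData q W V) (hW : IsUnif W ϖ) {z : F} (hz : rv V z ≠ 0) {c : E}
    (hc : rv V (z ^ q) = rv V (algebraMap E F c)) :
    rv W (Algebra.norm E z) = rv W c := by
  classical
  obtain ⟨Vb, hVb⟩ := exists_extension (algebraMap E (AlgebraicClosure E)) W
  have hzV := (rv_ne_zero_iff.1 hz).2.1
  have hzint := hs.int z hzV
  have hcV : algebraMap E F c ∈ V := (rv_ne_zero_iff.1 (hc ▸ rv_ne_zero_pow hz q)).2.1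
  have hcW : c ∈ W := (hs.overV c).1 hcV
  have e0 : ∀ σ : F →ₐ[E] AlgebraicClosure E, σ z ∈ Vb := fun σ =>
    map_mem_of_isIntegral hVb σ hzint
  have hNW : Algebra.norm E z ∈ W := by
    rw [← hVb, Algebra.norm_eq_prod_embeddings E (AlgebraicClosure E) z]
    exact prod_mem fun σ _ => e0 σ
  have hqb : ((q : ℕ) : ResidueField Vb) = 0 := by
    rw [← rv_natCast, ← map_natCast (algebraMap E (AlgebraicClosure E)), rv_map_eq_zero_iff hVb]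
    exact hs.char
  have : CharP (ResidueField Vb) q := (CharP.charP_iff_prime_eq_zero hq).2 hqb
  -- nonunits map to nonunits
  have hnu : ∀ (σ : F →ₐ[E] AlgebraicClosure E), ∀ y ∈ V, rv V y = 0 → rv Vb (σ y) = 0 := by
    intro σ y hy hy0
    exact map_rad hVb (V₁ := V) (V₂ := V) (fun z hz _ => hs.int z hz) hs.rk hs.rk hW.ne_zero
      hW.mem hW.res σ hy hy0 hy hy0
  have e1 : ∀ σ : F →ₐ[E] AlgebraicClosure E,
      rv Vb (σ z) ^ q = rv Vb (algebraMap E (AlgebraicClosure E) c) := by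
    intro σ
    rw [← rv_pow (e0 σ), ← map_pow, ← sub_eq_zero,
      ← rv_sub (by rw [map_pow]; exact pow_mem (e0 σ) _) ((hVb _).2 hcW), ← σ.commutes, ← map_sub]
    refine hnu σ _ (V.sub_mem (pow_mem hzV _) hcV) ?_
    rw [rv_sub (pow_mem hzV _) hcV, hc, sub_self]
  obtain ⟨σ₀⟩ : Nonempty (F →ₐ[E] AlgebraicClosure E) := ⟨IsAlgClosed.lift⟩
  have e2 : ∀ σ : F →ₐ[E] AlgebraicClosure E, rv Vb (σ z) = rv Vb (σ₀ z) := by
    intro σ
    have := Fact.mk hq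
    exact frobenius_inj (ResidueField Vb) q (by
      rw [frobenius_def, frobenius_def, e1, e1])
  have key : rv Vb (algebraMap E (AlgebraicClosure E) (Algebra.norm E z)) =
      rv Vb (algebraMap E (AlgebraicClosure E) c) := by
    rw [Algebra.norm_eq_prod_embeddings E (AlgebraicClosure E) z, rv_prod _ _ (fun σ _ => e0 σ),
      Finset.prod_congr rfl (fun σ _ => e2 σ), Finset.prod_const, Finset.card_univ,
      AlgHom.card E F (AlgebraicClosure E), hs.deg, e1]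
  exact (rv_map_eq_iff hVb hNW hcW).1 key

theorem InsepData.norm_ord {q : ℕ} {ϖ : E} {W : ValuationSubring E}
    {V : ValuationSubring F} (hs : InsepData q W V) {z : F} {α : ℤ}
    (hz : rv V (z * algebraMap E F ϖ ^ (-α)) ≠ 0) :
    rv W (Algebra.norm E z * ϖ ^ (-(q * α))) ≠ 0 := by
  classical
  obtain ⟨Vb, hVb⟩ := exists_extension (algebraMap E (AlgebraicClosure E)) W
  have e1 : Algebra.norm E (z * algebraMap E F ϖ ^ (-α)) =
      Algebra.norm E z * ϖ ^ (-(q * α)) := by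
    rw [map_mul, ← map_zpow₀, Algebra.norm_algebraMap, hs.deg, ← zpow_natCast, ← zpow_mul]
    congr 2
    ring
  rw [← e1, ne_eq, ← rv_map_eq_zero_iff hVb, Algebra.norm_eq_prod_embeddings E (AlgebraicClosure E)]
  refine rv_ne_zero_prod _ _ fun σ _ => map_unit (V := V) (fun y hy => ?_) hz
  exact map_mem_of_isIntegral hVb σ (hs.int y hy)

end main

end Fermat.Agent.H23.R
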