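import Fermat.Agent.H07.PhiShape
import Fermat.Agent.Igusa.Degree
import Fermat.Agent.H05_Frob

/-!
# PROGRAM R (S36): the modular equation at the cusps
-/

set_option autoImplicit false

namespace Fermat.Agent.H23.R

open ModularCurve Polynomial Fermat.Agent.Igusa Fermat.Agent.H07

section shape

variable (r : ℕ) [hr : Fact r.Prime]

theorem sign_prod {R : Type*} [CommRing R] [IsDomain R] {ζ : Rˣ} (hζ : IsPrimitiveRoot ζ r) :
    ((-1) ^ r * ∏ b : ZMod r, (((ζ ^ b.val)⁻¹ : Rˣ) : R)) = -1 := by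
  by_cases hr2 : r = 2
  · subst hr2
    have h1 : ζ ^ 2 = 1 := hζ.pow_eq_one
    have h2 : ζ ≠ 1 := by
      have := hζ.pow_ne_one_of_pos_of_lt (l := 1) (by norm_num) (by norm_num)
      rwa [pow_one] at this
    have h3 : (ζ : R) = -1 := by
      have h4 : ((ζ : R) - 1) * (ζ + 1) = 0 := by
        have h5 : (ζ : R) ^ 2 = 1 := by rw [← Units.val_pow_eq_pow_val, h1, Units.val_one]
        linear_combination h5
      rcases mul_eq_zero.1 h4 with h | h
      · exact absurd (Units.ext (sub_eq_zero.1 h)) h2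
      · exact eq_neg_of_add_eq_zero_left h
    have h6 : ∏ b : ZMod 2, (((ζ ^ b.val)⁻¹ : Rˣ) : R) = ((ζ⁻¹ : Rˣ) : R) := by
      rw [show (Finset.univ : Finset (ZMod 2)) = {0, 1} from rfl, Finset.prod_pair zero_ne_one]
      have e0 : (0 : ZMod 2).val = 0 := rfl
      have e1 : (1 : ZMod 2).val = 1 := rfl
      rw [e0, e1, pow_zero, inv_one, pow_one, Units.val_one, one_mul]
    rw [h6]
    have h7 : (ζ : R) * ((ζ⁻¹ : Rˣ) : R) = 1 := Units.mul_inv ζ
    rw [h3] at h7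
    linear_combination -h7
  · rw [← Units.coe_prod, prod_zeta r hζ hr2, Units.val_one, (hr.out.odd_of_ne_two hr2).neg_one_pow,
      mul_one]

/-- The shape of the coefficients of the product of the roots (all primes). -/
lemma rtPoly_shape' {R : Type*} [CommRing R] [IsDomain R] {ζ : Rˣ} (hζ : IsPrimitiveRoot ζ r) :
    (∀ k, 1 ≤ k → k ≤ r → Ge ((rtPoly r ζ).coeff k) (-((r : ℤ) * r) - (r - k))) ∧
    Lead ((rtPoly r ζ).coeff r) (-((r : ℤ) * r)) (-1) ∧
    Lead ((rtPoly r ζ).coeff 0) (-((r : ℤ) * r) - r) 1 := by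
  classical
  have : NeZero r := ⟨hr.out.ne_zero⟩
  have hr1 : 2 ≤ r := hr.out.two_le
  have hcard : (Finset.univ : Finset (ZMod r)).card = r := by simp [ZMod.card]
  obtain ⟨h1, h2⟩ := prod_coeff (Finset.univ : Finset (ZMod r)) (fun b => rt r ζ (some b))
    (fun b => (((ζ ^ b.val)⁻¹ : Rˣ) : R)) (fun b => lead_twist _)
  rw [hcard] at h1 h2
  have hnone : Lead (rt r ζ none) (-((r : ℤ) * r)) 1 := by
    have := lead_qExpand r (lead_qExpand r (lead_J (R := R)))
    have e : -((r : ℤ) * r) = r * (r * (-1)) := by ring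
    rw [e]; exact this
  have eP : rtPoly r ζ = (X - C (rt r ζ none)) * ∏ b : ZMod r, (X - C (rt r ζ (some b))) := by
    rw [rtPoly, Fintype.prod_option]
  set Q := ∏ b : ZMod r, (X - C (rt r ζ (some b))) with hQ
  have hQr : Q.coeff r = 1 := by
    have hm : Q.Monic := monic_prod_of_monic _ _ fun i _ => monic_X_sub_C _
    have hd : Q.natDegree = r := by
      rw [hQ, natDegree_prod_of_monic _ _ (fun i _ => monic_X_sub_C _)]
      simp [ZMod.card]
    rw [← hd]; exact hm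
  have e0 : (rtPoly r ζ).coeff 0 = -(rt r ζ none * Q.coeff 0) := by
    rw [eP, sub_mul, coeff_sub, mul_coeff_zero, coeff_X_zero, zero_mul, coeff_C_mul, zero_sub]
  have e1 : ∀ k, (rtPoly r ζ).coeff (k + 1) = Q.coeff k - rt r ζ none * Q.coeff (k + 1) := by
    intro k
    rw [eP, sub_mul, coeff_sub, coeff_X_mul, coeff_C_mul]
  refine ⟨?_, ?_, ?_⟩
  · intro k hk1 hk2
    obtain ⟨k, rfl⟩ : ∃ j, k = j + 1 := ⟨k - 1, by omega⟩
    rw [e1]
    have hrr : (r : ℤ) * r ≥ 2 * r := by nlinarith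
    apply Ge.sub
    · refine (h1 k).mono ?_
      push_cast; nlinarith
    · refine (hnone.ge.mul (h1 (k + 1))).mono ?_
      push_cast; omega
  · have e2 : (rtPoly r ζ).coeff r = Q.coeff (r - 1) - rt r ζ none * 1 := by
      have := e1 (r - 1)
      rw [show r - 1 + 1 = r by omega] at this
      rw [this, hQr]
    rw [e2, mul_one, sub_eq_add_neg]
    have h3 : Lead (Q.coeff (r - 1)) (-((r : ℤ) * r)) 0 := by
      refine (h1 (r - 1)).lead.of_lt ?_
      have : ((r - 1 : ℕ) : ℤ) = r - 1 := by push_cast [show 1 ≤ r by omega]; ring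
      rw [this]
      have h4 : (2 : ℤ) ≤ r := by exact_mod_cast hr1
      nlinarith
    have := h3.add hnone.neg
    simpa using this
  · rw [e0]
    have h3 := (hnone.mul h2).neg
    have e3 : -((r : ℤ) * r) + -(r : ℤ) = -((r : ℤ) * r) - r := by ring
    rw [e3, sign_prod r hζ] at h3
    have e4 : -((1 : R) * -1) = 1 := by ring
    rwa [e4] at h3

theorem modPoly_shape' :
    (∀ k, 1 ≤ k → k ≤ r → ((modPoly r).coeff k).natDegree ≤ r) ∧
    ((modPoly r).coeff r).coeff r = -1 ∧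
    ((modPoly r).coeff 0).natDegree ≤ r + 1 ∧ ((modPoly r).coeff 0).coeff (r + 1) = 1 := by
  have : NeZero r := ⟨hr.out.ne_zero⟩
  have hr1 : 2 ≤ r := hr.out.two_le
  have hζ := zr_prim r
  obtain ⟨h1, h2, h3⟩ := rtPoly_shape' r hζ
  have hco : ∀ k, evZ (qExpand ℂ r (jqModC ℂ)) ((modPoly r).coeff k) = (rtPoly r (zr r)).coeff k := by
    intro k
    rw [← modPoly_map_complex, coeff_map]
  have hd1 : ∀ k, 1 ≤ k → k ≤ r → ((modPoly r).coeff k).natDegree ≤ r := by
    intro k hk1 hk2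
    apply natDegree_le_of_ge r
    rw [hco]
    refine (h1 k hk1 hk2).mono ?_
    have : (1 : ℤ) ≤ k := by exact_mod_cast hk1
    linarith
  have hd0 : ((modPoly r).coeff 0).natDegree ≤ r + 1 := by
    apply natDegree_le_of_ge r
    rw [hco]
    refine h3.ge.mono ?_
    push_cast
    nlinarith
  refine ⟨hd1, ?_, hd0, ?_⟩
  · have h4 := coeff_evZ r ((modPoly r).coeff r) r (hd1 r (by omega) le_rfl)
    rw [hco, h2.eq] at h4
    exact_mod_cast h4.symm
  · have h4 := coeff_evZ r ((modPoly r).coeff 0) (r + 1) hd0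
    have e1 : -((r : ℤ) * ((r + 1 : ℕ) : ℤ)) = -((r : ℤ) * r) - r := by push_cast; ring
    rw [hco, e1, h3.eq] at h4
    exact_mod_cast h4.symm

end shape

/-- The modular equation for `X = 1/j`, `Y = 1/j(q ^ r)`. -/
def CuspRel {F : Type*} [Field F] (q : ℕ) (X Y : F) : Prop :=
  ∃ B : ℕ → ℤ[X], (B 1).coeff 0 = -1 ∧ (B (q + 1)).coeff 0 = 1 ∧
    X ^ (q + 1) + X * (∑ k ∈ Finset.Icc 1 q, aeval X (B k) * Y ^ k) +
      aeval X (B (q + 1)) * Y ^ (q + 1) = 0

theorem cuspRel_of_eval {F : Type*} [Field F] (q : ℕ) [hq : Fact q.Prime] {x y : F} (hx : x ≠ 0)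
    (hy : y ≠ 0) (h : (modPoly q).eval₂ (evZ x) y = 0) : CuspRel q x⁻¹ y⁻¹ := by
  obtain ⟨h1, h2, h3, h4⟩ := modPoly_shape' q
  refine ⟨fun k => if k = q + 1 then reflect (q + 1) ((modPoly q).coeff 0)
    else reflect q ((modPoly q).coeff (q + 1 - k)), ?_, ?_, ?_⟩
  · have hne : (1 : ℕ) ≠ q + 1 := by have := hq.out.two_le; omega
    simp only [if_neg hne]
    rw [show q + 1 - 1 = q by omega, coeff_reflect, revAt_le (Nat.zero_le _), Nat.sub_zero, h2]
  · simp only [if_true]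
    rw [coeff_reflect, revAt_le (Nat.zero_le _), Nat.sub_zero, h4]
  · have href : ∀ (N : ℕ) (p : ℤ[X]), p.natDegree ≤ N → aeval x⁻¹ (reflect N p) * x ^ N =
        aeval x p := by
      intro N p hp
      let _ : Invertible x := invertibleOfNonzero hx
      have := eval₂_reflect_mul_pow (algebraMap ℤ F) x N p hp
      rw [invOf_eq_inv] at this
      exact this
    have hev : (modPoly q).eval₂ (evZ x) y = ∑ k ∈ Finset.range (q + 2),
        aeval x ((modPoly q).coeff k) * y ^ k := by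
      rw [eval₂_eq_sum_range, modPoly_natDegree]
      refine Finset.sum_congr rfl fun k _ => ?_
      congr 1
    have hlead : (modPoly q).coeff (q + 1) = 1 := by
      have := modPoly_monic q
      rw [Monic, leadingCoeff, modPoly_natDegree] at this
      exact this
    -- multiply by `x ^ (q+1) y ^ (q+1)`
    apply mul_right_cancel₀ (mul_ne_zero (pow_ne_zero (q + 1) hx) (pow_ne_zero (q + 1) hy))
    rw [zero_mul, ← h, hev, Finset.sum_range_succ, Finset.sum_range_succ', hlead, map_one, one_mul,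
      pow_zero, mul_one]
    have hsum : x⁻¹ * (∑ k ∈ Finset.Icc 1 q, aeval x⁻¹ (if k = q + 1 then
        reflect (q + 1) ((modPoly q).coeff 0) else reflect q ((modPoly q).coeff (q + 1 - k))) *
        y⁻¹ ^ k) * (x ^ (q + 1) * y ^ (q + 1)) =
        ∑ k ∈ Finset.range q, aeval x ((modPoly q).coeff (k + 1)) * y ^ (k + 1) := by
      rw [Finset.mul_sum, Finset.sum_mul]
      refine Finset.sum_bij' (fun k _ => q - k) (fun k _ => q - k) ?_ ?_ ?_ ?_ ?_
      · intro k hk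
        rw [Finset.mem_Icc] at hk
        rw [Finset.mem_range]
        omega
      · intro k hk
        rw [Finset.mem_range] at hk
        rw [Finset.mem_Icc]
        omega
      · intro k hk
        rw [Finset.mem_Icc] at hk
        omega
      · intro k hk
        rw [Finset.mem_range] at hk
        omega
      · intro k hk
        rw [Finset.mem_Icc] at hk
        rw [if_neg (by omega), ← href q ((modPoly q).coeff (q - k + 1)) (h1 _ (by omega) (by omega)),
          show q + 1 - k = q - k + 1 by omega]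
        have e1 : y ^ (q + 1) = y ^ (q - k + 1) * y ^ k := by
          rw [← pow_add]; congr 1; omega
        rw [e1, inv_pow]
        have := pow_ne_zero k hy
        field_simp
        ring
    rw [add_mul, add_mul, hsum]
    have e3 : x⁻¹ ^ (q + 1) * (x ^ (q + 1) * y ^ (q + 1)) = y ^ (q + 1) := by
      rw [inv_pow]
      have := pow_ne_zero (q + 1) hx
      field_simp
    have e4 : aeval x⁻¹ (if q + 1 = q + 1 then reflect (q + 1) ((modPoly q).coeff 0) else
        reflect q ((modPoly q).coeff (q + 1 - (q + 1)))) * y⁻¹ ^ (q + 1) *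
        (x ^ (q + 1) * y ^ (q + 1)) = aeval x ((modPoly q).coeff 0) := by
      rw [if_pos rfl, ← href (q + 1) _ h3, inv_pow]
      have := pow_ne_zero (q + 1) hy
      field_simp
    rw [e3, e4]
    ring

theorem jd_ne_zero (R : Type*) [CommRing R] [Nontrivial R] (d : ℕ) [NeZero d] : jd R d ≠ 0 := by
  intro h
  have h1 : (jd R d).coeff ((d : ℤ) * (-1)) = 1 := by
    rw [jd, qExpand_coeff_mul, coeff_jqModC_neg_one]
  rw [h, HahnSeries.coeff_zero] at h1
  exact zero_ne_one h1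

/-- **(E1)** -/
theorem cuspRel_jd (K : Type*) [Field K] (q : ℕ) [Fact q.Prime] [NeZero q] (d : ℕ) [NeZero d]
    [NeZero (d * q)] : CuspRel q (jd K d)⁻¹ (jd K (d * q))⁻¹ :=
  cuspRel_of_eval q (jd_ne_zero K d) (jd_ne_zero K (d * q)) (modPoly_eval q K d)

theorem CuspRel.of_map {F M : Type*} [Field F] [Field M] (φ : F →+* M) {q : ℕ} {X Y : F}
    (h : CuspRel q (φ X) (φ Y)) : CuspRel q X Y := by
  obtain ⟨B, h1, h2, h3⟩ := h
  refine ⟨B, h1, h2, φ.injective ?_⟩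
  have hae : ∀ p : ℤ[X], φ (aeval X p) = aeval (φ X) p := by
    intro p
    rw [aeval_def, aeval_def, hom_eval₂]
    congr 1
    exact RingHom.ext_int _ _
  rw [map_zero, map_add, map_add, map_mul, map_mul, map_pow, map_pow, map_sum, hae, ← h3]
  congr 3
  refine Finset.sum_congr rfl fun k _ => ?_
  rw [map_mul, map_pow, hae]

section Local

variable {F : Type*} [Field F] {O : Subring F}

open IsLocalRing

theorem aeval_mem_O {X : F} (hX : X ∈ O) (p : ℤ[X]) : aeval X p ∈ O := by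
  rw [aeval_eq_sum_range]
  refine O.sum_mem fun i _ => ?_
  rw [zsmul_eq_mul]
  exact O.mul_mem (intCast_mem O _) (O.pow_mem hX _)

theorem aeval_eq_coeff_add {X : F} (hX : X ∈ O) (p : ℤ[X]) :
    ∃ t ∈ O, aeval X p = (p.coeff 0 : F) + X * t := by
  refine ⟨aeval X (divX p), aeval_mem_O hX _, ?_⟩
  conv_lhs => rw [← divX_mul_X_add p]
  rw [map_add, map_mul, aeval_X, aeval_C]
  simp only [algebraMap_int_eq, eq_intCast]
  ring

variable [IsLocalRing O] {q : ℕ}

theorem isUnit_add_max {u : O} (hu : IsUnit u) {t : O} (ht : t ∈ maximalIdeal O) :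
    IsUnit (u + t) := by
  by_contra h
  have h1 : u + t ∈ maximalIdeal O := h
  have h2 := (maximalIdeal O).sub_mem h1 ht
  rw [add_sub_cancel_right] at h2
  exact h2 hu

/-- The point with `X = 0` has `Y = 0`. -/
theorem CuspRel.mem_max (hO : ∀ z : F, IsIntegral O z → z ∈ O) {X Y : F} (h : CuspRel q X Y)
    (hX : X ∈ O) (hXm : (⟨X, hX⟩ : O) ∈ maximalIdeal O) :
    ∃ hY : Y ∈ O, (⟨Y, hY⟩ : O) ∈ maximalIdeal O := by
  obtain ⟨B, h1, h2, h3⟩ := h
  obtain ⟨t, ht, hU⟩ := aeval_eq_coeff_add hX (B (q + 1))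
  rw [h2] at hU
  have hUu : IsUnit (⟨aeval X (B (q + 1)), aeval_mem_O hX _⟩ : O) := by
    have e1 : (⟨aeval X (B (q + 1)), aeval_mem_O hX _⟩ : O) = 1 + ⟨X, hX⟩ * ⟨t, ht⟩ := by
      apply Subtype.ext
      change aeval X (B (q + 1)) = 1 + X * t
      rw [hU]; push_cast; rfl
    rw [e1]
    exact isUnit_add_max isUnit_one ((maximalIdeal O).mul_mem_right _ hXm)
  obtain ⟨U, hUU⟩ := hUu
  have hUF : ((U : O) : F) = aeval X (B (q + 1)) := congrArg Subtype.val hUU
  have hUinv : ((U : O) : F) * (((U⁻¹ : Oˣ) : O) : F) = 1 := congrArg Subtype.val U.mul_inv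
  let c : ℕ → O := fun k => if k = q + 1 then 1 else if k = 0 then
    ((U⁻¹ : Oˣ) : O) * ⟨X, hX⟩ ^ (q + 1) else
    ((U⁻¹ : Oˣ) : O) * (⟨X, hX⟩ * ⟨aeval X (B k), aeval_mem_O hX _⟩)
  have hsum : ∑ k ∈ Finset.range (q + 2), ((c k : O) : F) * Y ^ k = 0 := by
    rw [Finset.sum_range_succ, Finset.sum_range_succ']
    have e1 : ((c (q + 1) : O) : F) = 1 := by simp only [c, if_true]; rfl
    have e0 : ((c 0 : O) : F) = (((U⁻¹ : Oˣ) : O) : F) * X ^ (q + 1) := by
      have : (0 : ℕ) ≠ q + 1 := by omega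
      simp only [c, if_neg this, if_true]
      rfl
    have ek : ∀ k ∈ Finset.range q, ((c (k + 1) : O) : F) * Y ^ (k + 1) =
        (((U⁻¹ : Oˣ) : O) : F) * (X * (aeval X (B (k + 1)) * Y ^ (k + 1))) := by
      intro k hk
      rw [Finset.mem_range] at hk
      have n1 : k + 1 ≠ q + 1 := by omega
      have n2 : k + 1 ≠ 0 := by omega
      simp only [c, if_neg n1, if_neg n2]
      change (((U⁻¹ : Oˣ) : O) : F) * (X * aeval X (B (k + 1))) * Y ^ (k + 1) = _
      ring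
    rw [Finset.sum_congr rfl ek, e0, e1, ← Finset.mul_sum, ← Finset.mul_sum]
    have e5 : ∑ i ∈ Finset.range q, aeval X (B (i + 1)) * Y ^ (i + 1) =
        ∑ k ∈ Finset.Icc 1 q, aeval X (B k) * Y ^ k := by
      refine Finset.sum_bij' (fun k _ => k + 1) (fun k _ => k - 1) ?_ ?_ ?_ ?_ ?_
      · intro k hk; rw [Finset.mem_range] at hk; rw [Finset.mem_Icc]; omega
      · intro k hk; rw [Finset.mem_Icc] at hk; rw [Finset.mem_range]; omega
      · intro k _; omega
      · intro k hk; rw [Finset.mem_Icc] at hk; omega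
      · intro k _; rfl
    rw [e5]
    rw [← hUF] at h3
    linear_combination (((U⁻¹ : Oˣ) : O) : F) * h3 - Y ^ (q + 1) * hUinv
  have hY : Y ∈ O := by
    apply hO
    refine ⟨∑ k ∈ Finset.range (q + 2), C (c k) * Polynomial.X ^ k, ?_, ?_⟩
    · rw [Finset.sum_range_succ]
      have e1 : c (q + 1) = 1 := by simp only [c, if_true]
      rw [e1, C_1, one_mul, add_comm]
      apply monic_X_pow_add
      refine lt_of_le_of_lt (degree_sum_le _ _) ?_
      rw [Finset.sup_lt_iff (by exact WithBot.bot_lt_coe _)]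
      intro k hk
      rw [Finset.mem_range] at hk
      refine lt_of_le_of_lt (degree_C_mul_X_pow_le _ _) ?_
      exact_mod_cast hk
    · rw [eval₂_finsetSum, ← hsum]
      refine Finset.sum_congr rfl fun k _ => ?_
      rw [eval₂_mul, eval₂_C, eval₂_pow, eval₂_X]
      rfl
  refine ⟨hY, ?_⟩
  have hpow : (⟨Y, hY⟩ : O) ^ (q + 1) ∈ maximalIdeal O := by
    have e1 : (⟨Y, hY⟩ : O) ^ (q + 1) = ⟨X, hX⟩ * (-(((U⁻¹ : Oˣ) : O) * (⟨X, hX⟩ ^ q +
        ∑ k ∈ Finset.Icc 1 q, ⟨aeval X (B k), aeval_mem_O hX _⟩ * ⟨Y, hY⟩ ^ k))) := by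
      apply Subtype.ext
      push_cast
      rw [← hUF] at h3
      linear_combination (((U⁻¹ : Oˣ) : O) : F) * h3 - Y ^ (q + 1) * hUinv
    rw [e1]
    exact (maximalIdeal O).mul_mem_right _ hXm
  exact (maximalIdeal.isMaximal O).isPrime.mem_of_pow_mem _ hpow

/-- The modular equation near the cusps. -/
theorem CuspRel.units (hq : 2 ≤ q) {X Y : F} (h : CuspRel q X Y)
    (hX : X ∈ O) (hXm : (⟨X, hX⟩ : O) ∈ maximalIdeal O)
    (hY : Y ∈ O) (hYm : (⟨Y, hY⟩ : O) ∈ maximalIdeal O) :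
    ∃ U v : Oˣ, X ^ (q + 1) + ((U : O) : F) * Y ^ (q + 1) = ((v : O) : F) * (X * Y) := by
  obtain ⟨B, h1, h2, h3⟩ := h
  obtain ⟨t, ht, hU⟩ := aeval_eq_coeff_add hX (B (q + 1))
  rw [h2] at hU
  have hUu : IsUnit (⟨aeval X (B (q + 1)), aeval_mem_O hX _⟩ : O) := by
    have e1 : (⟨aeval X (B (q + 1)), aeval_mem_O hX _⟩ : O) = 1 + ⟨X, hX⟩ * ⟨t, ht⟩ := by
      apply Subtype.ext
      change aeval X (B (q + 1)) = 1 + X * t
      rw [hU]; push_cast; rfl
    rw [e1]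
    exact isUnit_add_max isUnit_one ((maximalIdeal O).mul_mem_right _ hXm)
  obtain ⟨U, hUU⟩ := hUu
  have hUF : ((U : O) : F) = aeval X (B (q + 1)) := congrArg Subtype.val hUU
  -- `v`
  obtain ⟨s, hs, hB1⟩ := aeval_eq_coeff_add hX (B 1)
  rw [h1] at hB1
  let w : O := ∑ k ∈ Finset.Icc 2 q, ⟨aeval X (B k), aeval_mem_O hX _⟩ * ⟨Y, hY⟩ ^ (k - 2)
  have hv : IsUnit ((1 : O) + (-(⟨X, hX⟩ * ⟨s, hs⟩) - ⟨Y, hY⟩ * w)) := by
    apply isUnit_add_max isUnit_one
    exact (maximalIdeal O).sub_mem ((maximalIdeal O).neg_mem ((maximalIdeal O).mul_mem_right _ hXm))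
      ((maximalIdeal O).mul_mem_right _ hYm)
  obtain ⟨v, hv⟩ := hv
  refine ⟨U, v, ?_⟩
  have hvF : ((v : O) : F) = 1 + (-(X * s) - Y * (w : F)) := congrArg Subtype.val hv
  have hw : (w : F) = ∑ k ∈ Finset.Icc 2 q, aeval X (B k) * Y ^ (k - 2) := by
    simp only [w]
    push_cast
    rfl
  have hsplit : ∑ k ∈ Finset.Icc 1 q, aeval X (B k) * Y ^ k =
      aeval X (B 1) * Y + Y ^ 2 * (w : F) := by
    rw [hw, Finset.mul_sum, ← Finset.add_sum_Ioc_eq_sum_Icc (by omega : 1 ≤ q), pow_one]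
    congr 1
    have e1 : Finset.Ioc 1 q = Finset.Icc 2 q := by
      ext k; rw [Finset.mem_Ioc, Finset.mem_Icc]; omega
    rw [e1]
    refine Finset.sum_congr rfl fun k hk => ?_
    rw [Finset.mem_Icc] at hk
    have e2 : Y ^ k = Y ^ 2 * Y ^ (k - 2) := by rw [← pow_add]; congr 1; omega
    rw [e2]; ring
  rw [hsplit, hB1] at h3
  rw [hUF, hvF]
  push_cast at h3
  linear_combination h3

/-- `Y / X` or `X / Y` is regular. -/
theorem CuspRel.comparable (hO : ∀ z : F, IsIntegral O z → z ∈ O) (hq : 2 ≤ q) {X Y : F}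
    (hX0 : X ≠ 0) (h : CuspRel q X Y)
    (hX : X ∈ O) (hXm : (⟨X, hX⟩ : O) ∈ maximalIdeal O) : Y / X ∈ O ∨ X / Y ∈ O := by
  obtain ⟨hY, hYm⟩ := h.mem_max hO hX hXm
  obtain ⟨U, v, hUv⟩ := h.units hq hX hXm hY hYm
  have key := Fermat.Agent.H05.mem_or_inv_mem_of_isUnit_coeff (R := O) (K := F)
    (fun x hx => ⟨⟨x, hO x hx⟩, rfl⟩) (Y / X) (q + 1)
    (fun k => if k = 0 then ⟨X, hX⟩ ^ (q - 1) else if k = 1 then -(v : O) else
      if k = q + 1 then (U : O) * ⟨X, hX⟩ ^ (q - 1) else 0) ?_ ⟨1, by omega, ?_⟩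
  · rcases key with ⟨r, hr⟩ | ⟨r, hr⟩
    · left; rw [← hr]; exact r.2
    · right; rw [← inv_div, ← hr]; exact r.2
  · rw [Finset.sum_range_succ, Finset.sum_range_succ']
    have hq1 : q ≠ 0 := by omega
    simp only [if_true]
    have n1 : q + 1 ≠ 0 := by omega
    have n2 : q + 1 ≠ 1 := by omega
    rw [if_neg n1, if_neg n2]
    obtain ⟨m, rfl⟩ : ∃ m, q = m + 1 := ⟨q - 1, by omega⟩
    rw [Finset.sum_range_succ']
    have e0 : ∑ k ∈ Finset.range m, algebraMap O F (if k + 1 + 1 = 0 then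
        (⟨X, hX⟩ : O) ^ (m + 1 - 1) else if k + 1 + 1 = 1 then -(v : O) else
        if k + 1 + 1 = m + 1 + 1 then (U : O) * ⟨X, hX⟩ ^ (m + 1 - 1) else 0) *
        (Y / X) ^ (k + 1 + 1) = 0 := by
      apply Finset.sum_eq_zero
      intro k hk
      rw [Finset.mem_range] at hk
      rw [if_neg (by omega), if_neg (by omega), if_neg (by omega), map_zero, zero_mul]
    rw [e0]
    simp only [zero_add, if_true, one_ne_zero, if_false, pow_zero, mul_one, pow_one,
      Nat.add_sub_cancel]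
    have e1 : algebraMap O F (-(v : O)) = -((v : O) : F) := rfl
    have e2 : algebraMap O F ((⟨X, hX⟩ : O) ^ m) = X ^ m := rfl
    have e3 : algebraMap O F ((U : O) * (⟨X, hX⟩ : O) ^ m) = ((U : O) : F) * X ^ m := rfl
    rw [e1, e2, e3]
    have hXp := pow_ne_zero (m + 1 + 1) hX0
    apply mul_right_cancel₀ (mul_ne_zero hX0 hX0)
    rw [zero_mul, div_pow]
    have e4 : ((U : O) : F) * X ^ m * (Y ^ (m + 1 + 1) / X ^ (m + 1 + 1)) * (X * X) =
        ((U : O) : F) * Y ^ (m + 1 + 1) := by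
      have : X ^ (m + 1 + 1) = X ^ m * (X * X) := by ring
      rw [this]
      have := pow_ne_zero m hX0
      field_simp
    have e5 : -((v : O) : F) * (Y / X) * (X * X) = -((v : O) : F) * (X * Y) := by
      field_simp
    rw [add_mul, add_mul, e4, e5]
    linear_combination hUv
  · simp only [one_ne_zero, if_false, if_true]
    exact v.isUnit.neg

/-- If `Y / X` vanishes, `Y = X ^ q * unit`. -/
theorem CuspRel.pow_left (hq : 2 ≤ q) {X Y : F} (hX0 : X ≠ 0) (h : CuspRel q X Y)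
    (hX : X ∈ O) (hXm : (⟨X, hX⟩ : O) ∈ maximalIdeal O)
    (hY : Y ∈ O) (hYm : (⟨Y, hY⟩ : O) ∈ maximalIdeal O)
    (hG : Y / X ∈ O) (hGm : (⟨Y / X, hG⟩ : O) ∈ maximalIdeal O) :
    ∃ w : Oˣ, Y = X ^ q * ((w : O) : F) := by
  obtain ⟨U, v, hUv⟩ := h.units hq hX hXm hY hYm
  have hu : IsUnit ((1 : O) + (U : O) * ⟨Y / X, hG⟩ ^ (q + 1)) := by
    apply isUnit_add_max isUnit_one
    apply (maximalIdeal O).mul_mem_left
    exact Ideal.pow_mem_of_mem _ hGm _ (by omega)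
  obtain ⟨w, hw⟩ := hu
  have hwF : ((w : O) : F) = 1 + ((U : O) : F) * (Y / X) ^ (q + 1) := congrArg Subtype.val hw
  have hvinv : ((v : O) : F) * (((v⁻¹ : Oˣ) : O) : F) = 1 := congrArg Subtype.val v.mul_inv
  refine ⟨w * v⁻¹, ?_⟩
  have e1 : (((w * v⁻¹ : Oˣ) : O) : F) = ((w : O) : F) * (((v⁻¹ : Oˣ) : O) : F) := by
    push_cast; rfl
  rw [e1, hwF, div_pow]
  have hXp := pow_ne_zero (q + 1) hX0
  have e2 : X ^ (q + 1) * (1 + ((U : O) : F) * (Y ^ (q + 1) / X ^ (q + 1))) =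
      ((v : O) : F) * (X * Y) := by
    rw [← hUv]
    field_simp
  apply mul_left_cancel₀ hX0
  calc X * Y = (((v : O) : F) * (X * Y)) * (((v⁻¹ : Oˣ) : O) : F) := by
        linear_combination (-(X * Y)) * hvinv
    _ = (X ^ (q + 1) * (1 + ((U : O) : F) * (Y ^ (q + 1) / X ^ (q + 1)))) *
        (((v⁻¹ : Oˣ) : O) : F) := by rw [e2]
    _ = _ := by rw [pow_succ]; ring

/-- If `X / Y` vanishes, `X = Y ^ q * unit`. -/
theorem CuspRel.pow_right (hq : 2 ≤ q) {X Y : F} (hY0 : Y ≠ 0) (h : CuspRel q X Y)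
    (hX : X ∈ O) (hXm : (⟨X, hX⟩ : O) ∈ maximalIdeal O)
    (hY : Y ∈ O) (hYm : (⟨Y, hY⟩ : O) ∈ maximalIdeal O)
    (hG : X / Y ∈ O) (hGm : (⟨X / Y, hG⟩ : O) ∈ maximalIdeal O) :
    ∃ w : Oˣ, X = Y ^ q * ((w : O) : F) := by
  obtain ⟨U, v, hUv⟩ := h.units hq hX hXm hY hYm
  have hu : IsUnit ((U : O) + ⟨X / Y, hG⟩ ^ (q + 1)) := by
    apply isUnit_add_max U.isUnit
    exact Ideal.pow_mem_of_mem _ hGm _ (by omega)
  obtain ⟨w, hw⟩ := hu
  have hwF : ((w : O) : F) = ((U : O) : F) + (X / Y) ^ (q + 1) := congrArg Subtype.val hw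
  have hvinv : ((v : O) : F) * (((v⁻¹ : Oˣ) : O) : F) = 1 := congrArg Subtype.val v.mul_inv
  refine ⟨w * v⁻¹, ?_⟩
  have e1 : (((w * v⁻¹ : Oˣ) : O) : F) = ((w : O) : F) * (((v⁻¹ : Oˣ) : O) : F) := by
    push_cast; rfl
  rw [e1, hwF, div_pow]
  have hYp := pow_ne_zero (q + 1) hY0
  have e2 : Y ^ (q + 1) * (((U : O) : F) + (X ^ (q + 1) / Y ^ (q + 1))) =
      ((v : O) : F) * (X * Y) := by
    rw [← hUv]
    field_simp
    ring
  apply mul_left_cancel₀ hY0
  calc Y * X = (((v : O) : F) * (X * Y)) * (((v⁻¹ : Oˣ) : O) : F) := by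
        linear_combination (-(X * Y)) * hvinv
    _ = (Y ^ (q + 1) * (((U : O) : F) + (X ^ (q + 1) / Y ^ (q + 1)))) *
        (((v⁻¹ : Oˣ) : O) : F) := by rw [e2]
    _ = _ := by rw [pow_succ]; ring

/-- On the middle component at the cusps, `X / X''` is a unit. -/
theorem CuspRel.unit_middle (hO : ∀ z : F, IsIntegral O z → z ∈ O) (hq : 2 ≤ q) {X X' X'' : F}
    (hX0 : X ≠ 0) (hX0'' : X'' ≠ 0) (h : CuspRel q X X') (h' : CuspRel q X' X'')
    (hX : X ∈ O) (hXm : (⟨X, hX⟩ : O) ∈ maximalIdeal O)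
    (hG : X' / X ∈ O) (hGm : (⟨X' / X, hG⟩ : O) ∈ maximalIdeal O)
    (hG' : X' / X'' ∈ O) (hGm' : (⟨X' / X'', hG'⟩ : O) ∈ maximalIdeal O) :
    X / X'' ∈ O ∧ X'' / X ∈ O := by
  obtain ⟨hX', hXm'⟩ := h.mem_max hO hX hXm
  obtain ⟨hX'', hXm''⟩ := h'.mem_max hO hX' hXm'
  obtain ⟨w, hw⟩ := h.pow_left hq hX0 hX hXm hX' hXm' hG hGm
  obtain ⟨w', hw'⟩ := h'.pow_right hq hX0'' hX' hXm' hX'' hXm'' hG' hGm'
  have hwi : ((w : O) : F) * (((w⁻¹ : Oˣ) : O) : F) = 1 := congrArg Subtype.val w.mul_inv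
  have hwi' : ((w' : O) : F) * (((w'⁻¹ : Oˣ) : O) : F) = 1 := congrArg Subtype.val w'.mul_inv
  have hroot : ∀ z : F, z ^ q ∈ O → z ∈ O := by
    intro z hz
    apply hO
    refine ⟨Polynomial.X ^ q - C ⟨z ^ q, hz⟩, monic_X_pow_sub_C _ (by omega), ?_⟩
    rw [eval₂_sub, eval₂_pow, eval₂_X, eval₂_C]
    exact sub_self _
  have hw0 : ((w : O) : F) ≠ 0 := left_ne_zero_of_mul_eq_one hwi
  have hw0' : ((w' : O) : F) ≠ 0 := left_ne_zero_of_mul_eq_one hwi'
  have hp := pow_ne_zero q hX0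
  have hp'' := pow_ne_zero q hX0''
  constructor
  · apply hroot
    have e1 : (X / X'') ^ q = ((w' : O) : F) * (((w⁻¹ : Oˣ) : O) : F) := by
      rw [div_pow, div_eq_iff hp'']
      linear_combination (-(X ^ q)) * hwi + (((w⁻¹ : Oˣ) : O) : F) * (hw' - hw)
    rw [e1]
    exact O.mul_mem (w' : O).2 ((w⁻¹ : Oˣ) : O).2
  · apply hroot
    have e1 : (X'' / X) ^ q = ((w : O) : F) * (((w'⁻¹ : Oˣ) : O) : F) := by
      rw [div_pow, div_eq_iff hp]
      linear_combination (-(X'' ^ q)) * hwi' + (((w'⁻¹ : Oˣ) : O) : F) * (hw - hw')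
    rw [e1]
    exact O.mul_mem (w : O).2 ((w'⁻¹ : Oˣ) : O).2

end Local

end Fermat.Agent.H23.R
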