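import Mathlib
import Fermat.Prelude.Def_ModularCurve_LaurentCoeff

/-!
# constants in Laurent series
-/

set_option autoImplicit false

namespace Fermat.Agent.H23.R

open scoped LaurentSeries

theorem algebraMap_laurent_C {K : Type*} [Field K] (c : K) :
    algebraMap K K⸨X⸩ c = HahnSeries.C c := by
  rw [ModularCurve.algebraMap_laurentSeries_eq_single]
  rfl

theorem powerSeries_const {K : Type*} [Field K] {f : PowerSeries K} (hf : IsIntegral K f) :
    f = PowerSeries.C (PowerSeries.constantCoeff f) := by
  obtain ⟨w, hw⟩ : ∃ w, w = f - PowerSeries.C (PowerSeries.constantCoeff f) := ⟨_, rfl⟩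
  have hwi : IsIntegral K w := by
    rw [hw]
    exact hf.sub (isIntegral_algebraMap (R := K) (A := PowerSeries K)
      (x := PowerSeries.constantCoeff f))
  have hw0 : PowerSeries.constantCoeff w = 0 := by
    rw [hw, map_sub, PowerSeries.constantCoeff_C, sub_self]
  by_cases h : w = 0
  · rw [h] at hw
    exact sub_eq_zero.1 hw.symm
  · exfalso
    apply minpoly.coeff_zero_ne_zero hwi h
    have h1 := minpoly.aeval K w
    have h2 := congrArg PowerSeries.constantCoeff h1
    rw [Polynomial.aeval_def, Polynomial.hom_eval₂, hw0, map_zero] at h2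
    have h3 : (PowerSeries.constantCoeff (R := K)).comp (algebraMap K (PowerSeries K)) =
        RingHom.id K := by
      ext c
      simp
    rw [h3, Polynomial.eval₂_id, ← Polynomial.coeff_zero_eq_eval_zero] at h2
    exact h2

theorem laurent_const {K : Type*} [Field K] {z : K⸨X⸩} (hz : IsIntegral K z) :
    ∃ c : K, z = HahnSeries.C c := by
  have h1 : IsIntegral (PowerSeries K) z := by
    obtain ⟨p, hp, hpz⟩ := hz
    refine ⟨p.map (PowerSeries.C : K →+* PowerSeries K), hp.map _, ?_⟩
    rw [Polynomial.eval₂_map]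
    have : (algebraMap (PowerSeries K) K⸨X⸩).comp (PowerSeries.C : K →+* PowerSeries K) =
        algebraMap K K⸨X⸩ := by
      ext c n
      rw [algebraMap_laurent_C]
      simp
    rw [this]
    exact hpz
  obtain ⟨f, hf⟩ := (IsIntegrallyClosed.isIntegral_iff (R := PowerSeries K) (K := K⸨X⸩)).1 h1
  have h2 : IsIntegral K f := by
    obtain ⟨p, hp, hpz⟩ := hz
    refine ⟨p, hp, ?_⟩
    apply IsFractionRing.injective (PowerSeries K) K⸨X⸩
    rw [map_zero, Polynomial.hom_eval₂, hf]
    have : (algebraMap (PowerSeries K) K⸨X⸩).comp (algebraMap K (PowerSeries K)) =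
        algebraMap K K⸨X⸩ := by
      ext c n
      rw [algebraMap_laurent_C]
      simp
    rw [this]
    exact hpz
  have h3 := powerSeries_const h2
  refine ⟨PowerSeries.constantCoeff f, ?_⟩
  rw [← hf, h3]
  ext n
  simp

end Fermat.Agent.H23.R
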