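import Mathlib

/-!
# PROGRAM R (S36): gluing of `m`-th roots

* `mem_range_of_pow`: if `O` is local, `m` a unit, `b ^ m` comes from `O` and `b` is
  componentwise congruent to a unit `β` of `O`, then `b` comes from `O`.
* `glue_local`, `glue_global`.
-/

namespace Fermat.Agent.H23.R

open Polynomial

theorem mem_range_of_pow {O N : Type*} [CommRing O] [IsLocalRing O] [CommRing N] [Algebra O N]
    {m : ℕ} (hm : m ≠ 0) (hmu : IsUnit (m : O)) {b : N} {ε β : O} (hb : b ^ m = algebraMap O N ε)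
    (hβ : IsUnit β) {ι : Type*} (C : Finset ι) (σ : ι → O)
    (hσ : ∀ i ∈ C, σ i ∈ IsLocalRing.maximalIdeal O)
    (hprod : ∏ i ∈ C, (b - algebraMap O N β - algebraMap O N (σ i)) = 0) :
    ∃ c : O, algebraMap O N c = b := by
  classical
  have hbint : IsIntegral O b := by
    refine ⟨X ^ m - Polynomial.C ε, monic_X_pow_sub_C ε hm, ?_⟩
    rw [eval₂_sub, eval₂_pow, eval₂_X, eval₂_C, hb, sub_self]
  let D := Algebra.adjoin O ({b} : Set N)
  have hDfin : Module.Finite O D :=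
    Module.Finite.iff_fg.2 hbint.fg_adjoin_singleton
  let bD : D := ⟨b, Algebra.self_mem_adjoin_singleton O b⟩
  let I : Ideal D := (IsLocalRing.maximalIdeal O).map (algebraMap O D)
  let π : D →+* D ⧸ I := Ideal.Quotient.mk I
  have hπ0 : ∀ a ∈ IsLocalRing.maximalIdeal O, π (algebraMap O D a) = 0 := fun a ha =>
    Ideal.Quotient.eq_zero_iff_mem.2 (Ideal.mem_map_of_mem _ ha)
  let δ : D := bD - algebraMap O D β
  have hprodD : ∏ i ∈ C, (δ - algebraMap O D (σ i)) = 0 := by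
    apply Subtype.ext
    have h0 : ((D.val : D →+* N) (∏ i ∈ C, (δ - algebraMap O D (σ i)))) =
        ∏ i ∈ C, (b - algebraMap O N β - algebraMap O N (σ i)) := by
      rw [map_prod]
      rfl
    exact h0.trans hprod
  have hnil : π δ ^ C.card = 0 := by
    have h1 := congrArg π hprodD
    rw [map_prod, map_zero, Finset.prod_congr rfl (g := fun _ => π δ)] at h1
    · rwa [Finset.prod_const] at h1
    · intro i hi
      rw [map_sub, hπ0 _ (hσ i hi), sub_zero]
  have hpow : bD ^ m = algebraMap O D ε := Subtype.ext hb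
  obtain ⟨k, hk⟩ := Polynomial.powAddExpansion (algebraMap O D β) δ m
  have hbD : algebraMap O D β + δ = bD := by simp [δ]
  rw [hbD, hpow] at hk
  have hδ0 : π δ = 0 := by
    have hnil' : IsNilpotent (π δ) := ⟨_, hnil⟩
    have e1 : π (algebraMap O D (ε - β ^ m)) =
        π δ * (π (algebraMap O D (m * β ^ (m - 1))) + π k * π δ) := by
      rw [map_sub, map_sub, hk]
      simp only [map_add, map_mul, map_pow, map_natCast]
      ring
    by_cases hu : IsUnit (ε - β ^ m)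
    · have h2 : IsUnit (π (algebraMap O D (ε - β ^ m))) := (hu.map (algebraMap O D)).map π
      have h3 : IsNilpotent (π (algebraMap O D (ε - β ^ m))) := by
        rw [e1]; exact (Commute.all _ _).isNilpotent_mul_right hnil'
      obtain ⟨n, hn⟩ := h3
      have h4 : IsUnit (0 : D ⧸ I) := by rw [← hn]; exact h2.pow n
      exact (eq_zero_of_zero_eq_one (isUnit_zero_iff.1 h4)) _
    · have h2 : π (algebraMap O D (ε - β ^ m)) = 0 :=
        hπ0 _ ((IsLocalRing.mem_maximalIdeal _).2 hu)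
      rw [h2] at e1
      have h3 : IsUnit (π (algebraMap O D (m * β ^ (m - 1)))) :=
        ((hmu.mul (hβ.pow _)).map (algebraMap O D)).map π
      have h4 : IsNilpotent (π k * π δ) := (Commute.all _ _).isNilpotent_mul_left hnil'
      have h5 : IsUnit (π (algebraMap O D (m * β ^ (m - 1))) + π k * π δ) :=
        IsNilpotent.isUnit_add_left_of_commute h4 h3 (Commute.all _ _)
      exact (h5.mul_left_eq_zero).1 e1.symm
  have htop : ∀ d : D, ∃ a : O, d - algebraMap O D a ∈ I := by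
    rintro ⟨d, hd⟩
    induction hd using Algebra.adjoin_induction with
    | mem y hy =>
      obtain rfl : y = b := hy
      exact ⟨β, Ideal.Quotient.eq_zero_iff_mem.1 hδ0⟩
    | algebraMap r => exact ⟨r, by
        have : (⟨algebraMap O N r, D.algebraMap_mem r⟩ : D) - algebraMap O D r = 0 := sub_self _
        rw [this]; exact I.zero_mem⟩
    | add p q hp hq h1 h2 =>
      obtain ⟨a, ha⟩ := h1
      obtain ⟨a', ha'⟩ := h2
      refine ⟨a + a', ?_⟩
      have : (⟨p + q, D.add_mem hp hq⟩ : D) - algebraMap O D (a + a') =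
          (⟨p, hp⟩ - algebraMap O D a) + (⟨q, hq⟩ - algebraMap O D a') := by
        rw [map_add]
        have : (⟨p + q, D.add_mem hp hq⟩ : D) = ⟨p, hp⟩ + ⟨q, hq⟩ := rfl
        rw [this]; ring
      rw [this]
      exact I.add_mem ha ha'
    | mul p q hp hq h1 h2 =>
      obtain ⟨a, ha⟩ := h1
      obtain ⟨a', ha'⟩ := h2
      refine ⟨a * a', ?_⟩
      have : (⟨p * q, D.mul_mem hp hq⟩ : D) - algebraMap O D (a * a') =
          (⟨p, hp⟩ - algebraMap O D a) * ⟨q, hq⟩ +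
            algebraMap O D a * (⟨q, hq⟩ - algebraMap O D a') := by
        rw [map_mul]
        have : (⟨p * q, D.mul_mem hp hq⟩ : D) = ⟨p, hp⟩ * ⟨q, hq⟩ := rfl
        rw [this]; ring
      rw [this]
      exact I.add_mem (I.mul_mem_right _ ha) (I.mul_mem_left _ ha')
  have hle : (⊤ : Submodule O D) ≤ LinearMap.range (Algebra.linearMap O D) := by
    have hj : IsLocalRing.maximalIdeal O ≤ (⊥ : Ideal O).jacobson := by
      rw [IsLocalRing.jacobson_eq_maximalIdeal _ bot_ne_top]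
    apply Submodule.le_of_le_smul_of_le_jacobson_bot hDfin.fg_top hj
    intro d _
    obtain ⟨a, ha⟩ := htop d
    have : d = algebraMap O D a + (d - algebraMap O D a) := by ring
    rw [this]
    refine Submodule.add_mem_sup ⟨a, rfl⟩ ?_
    rw [Ideal.smul_top_eq_map]
    exact ha
  obtain ⟨c, hc⟩ := hle (Submodule.mem_top (x := bD))
  exact ⟨c, congrArg Subtype.val hc⟩

/-- From local solutions (at the maximal ideals containing `ϖ`) to a global one. -/
theorem glue_global {F : Type*} [Field F] {R B : Subring F} (hRB : R ≤ B) {m : ℕ} (hm : m ≠ 0)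
    {f : F}
    (hadd : ∀ z w, z ∈ B → w ∈ B → z ^ m * f ∈ R → w ^ m * f ∈ R → (z + w) ^ m * f ∈ R)
    (ϖ : R) {ι : Type*} {κ : ι → Type*} [∀ i, Field (κ i)] (ρ : ∀ i, B →+* κ i)
    (hρϖ : ∀ i, ρ i ⟨ϖ, hRB ϖ.2⟩ = 0) (u : ∀ i, κ i)
    (hGL : ∀ s : Ideal R, s.IsMaximal → ϖ ∈ s → ∃ c : R, c ∉ s ∧ ∃ z : F, z ^ m * f ∈ R ∧
      ∃ hz : z ∈ B, ∀ i, ρ i ⟨z, hz⟩ * u i = ρ i ⟨c, hRB c.2⟩) :
    ∃ y : F, y ^ m * f ∈ R ∧ ∃ hy : y ∈ B, ∀ i, ρ i ⟨y, hy⟩ * u i = 1 := by
  let Q : Ideal R :=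
    { carrier := {c | ∃ z : F, z ^ m * f ∈ R ∧ ∃ hz : z ∈ B, ∀ i, ρ i ⟨z, hz⟩ * u i =
        ρ i ⟨c, hRB c.2⟩}
      zero_mem' := ⟨0, by rw [zero_pow hm, zero_mul]; exact R.zero_mem, B.zero_mem, fun i => by
        have h1 : (⟨0, B.zero_mem⟩ : B) = 0 := rfl
        have h2 : (⟨((0 : R) : F), hRB (0 : R).2⟩ : B) = 0 := rfl
        rw [h1, h2, map_zero, zero_mul]⟩
      add_mem' := by
        rintro a b ⟨z, h1, hz, h2⟩ ⟨w, h3, hw, h4⟩
        refine ⟨z + w, hadd z w hz hw h1 h3, B.add_mem hz hw, fun i => ?_⟩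
        have e1 : (⟨z + w, B.add_mem hz hw⟩ : B) = ⟨z, hz⟩ + ⟨w, hw⟩ := rfl
        have e2 : (⟨((a + b : R) : F), hRB (a + b : R).2⟩ : B) = ⟨a, hRB a.2⟩ + ⟨b, hRB b.2⟩ := rfl
        rw [e1, e2, map_add, map_add, add_mul, h2, h4]
      smul_mem' := by
        rintro c a ⟨z, h1, hz, h2⟩
        refine ⟨c * z, ?_, B.mul_mem (hRB c.2) hz, fun i => ?_⟩
        · rw [mul_pow, mul_assoc]
          exact R.mul_mem (R.pow_mem c.2 _) h1
        · have e1 : (⟨c * z, B.mul_mem (hRB c.2) hz⟩ : B) = ⟨c, hRB c.2⟩ * ⟨z, hz⟩ := rfl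
          have e2 : (⟨((c • a : R) : F), hRB (c • a : R).2⟩ : B) =
            ⟨c, hRB c.2⟩ * ⟨a, hRB a.2⟩ := rfl
          rw [e1, e2, map_mul, map_mul, mul_assoc, h2] }
  have hϖQ : ϖ ∈ Q := ⟨0, by rw [zero_pow hm, zero_mul]; exact R.zero_mem, B.zero_mem, fun i => by
    have h1 : (⟨0, B.zero_mem⟩ : B) = 0 := rfl
    rw [h1, map_zero, zero_mul, hρϖ]⟩
  have hQ : Q = ⊤ := by
    by_contra hne
    obtain ⟨s, hs, hQs⟩ := Ideal.exists_le_maximal Q hne
    obtain ⟨c, hc, hz⟩ := hGL s hs (hQs hϖQ)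
    exact hc (hQs hz)
  have h1 : (1 : R) ∈ Q := by rw [hQ]; exact Submodule.mem_top
  obtain ⟨y, h2, hy, h3⟩ := h1
  refine ⟨y, h2, hy, fun i => ?_⟩
  rw [h3 i]
  exact map_one (ρ i)

end Fermat.Agent.H23.R
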