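import Fermat.Agent.H23.R.Rv
import Fermat.Agent.H23.R.Glue

/-!
# PROGRAM R (S36): local solution of the gluing problem
-/

namespace Fermat.Agent.H23.R

open IsLocalRing

variable {F : Type*} [Field F]

/-- Local gluing: `O` is the local ring of `R` at `s`, `w` a local generator
(`w ^ m * f ∈ Oˣ`), and the elements `ρ_i(w) u_i` are represented by `τ_i ∈ O` with the same
residue at `s` for all `i ∈ C` (components through `s`). -/
theorem glue_local {ι : Type*} [Fintype ι] [DecidableEq ι] (V : ι → ValuationSubring F) {m : ℕ}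
    (hm : m ≠ 0) {f : F} (hf : ∀ i, rv (V i) f ≠ 0) (R : Subring F)
    (hRV : ∀ i, ∀ z ∈ R, z ∈ V i)
    (s : Ideal R) [s.IsPrime] (O : Subring F) [IsLocalRing O]
    (hOfrac : ∀ z ∈ O, ∃ d : R, d ∉ s ∧ (d : F) * z ∈ R) (hmO : IsUnit (m : O))
    (C : Finset ι) (hC : C.Nonempty) (hOV : ∀ i ∈ C, ∀ z ∈ O, z ∈ V i)
    (hCn : ∀ i ∉ C, ∃ a : R, a ∉ s ∧ rv (V i) a = 0)
    (u : ∀ i, ResidueField (V i)) (hu : ∀ i, u i ^ m = rv (V i) f)
    {w : F} (hwV : ∀ i ∈ C, w ∈ V i) (hw : w ^ m * f ∈ O)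
    {β : O} (hβ : IsUnit β) (τ : ι → O) (hτ : ∀ i ∈ C, τ i - β ∈ maximalIdeal O)
    (hwu : ∀ i ∈ C, rv (V i) w * u i = rv (V i) (τ i)) :
    ∃ c : R, c ∉ s ∧ ∃ z : F, z ^ m * f ∈ R ∧ (∀ i, z ∈ V i) ∧
      ∀ i, rv (V i) z * u i = rv (V i) c := by
  classical
  have hfV : ∀ i, f ∈ V i := fun i => (rv_ne_zero_iff.1 (hf i)).2.1
  have hfV' : ∀ i, f⁻¹ ∈ V i := fun i => (rv_ne_zero_iff.1 (hf i)).2.2
  have hu0 : ∀ i, u i ≠ 0 := by
    intro i h0
    apply hf i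
    rw [← hu i, h0, zero_pow hm]
  -- the algebra
  let N := ∀ i : C, ResidueField (V i)
  let φ : O →+* N := RingHom.pi fun i : C =>
    (residue (V i)).comp
      ({ toFun := fun z => ⟨z, hOV i i.2 z z.2⟩
         map_one' := rfl
         map_zero' := rfl
         map_mul' := fun _ _ => rfl
         map_add' := fun _ _ => rfl } : O →+* V i)
  have hφ : ∀ (z : O) (i : C), φ z i = rv (V i) z := fun z i => (rv_of_mem (hOV i i.2 z z.2)).symm
  let _ : Algebra O N := φ.toAlgebra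
  have halg : ∀ (z : O) (i : C), algebraMap O N z i = rv (V i) z := hφ
  let b : N := fun i => rv (V i) w * u i
  have hb : b ^ m = algebraMap O N ⟨w ^ m * f, hw⟩ := by
    funext i
    rw [Pi.pow_apply, halg]
    change (rv (V i) w * u i) ^ m = _
    rw [mul_pow, hu, rv_mul (pow_mem (hwV i i.2) _) (hfV i), rv_pow (hwV i i.2)]
  let σ : ι → O := fun i => τ i - β
  have hprod : ∏ i ∈ C, (b - algebraMap O N β - algebraMap O N (σ i)) = 0 := by
    funext j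
    rw [Finset.prod_apply]
    apply Finset.prod_eq_zero j.2
    have e1 : (b - algebraMap O N β - algebraMap O N (σ j)) j =
      rv (V j) w * u j - rv (V j) β - rv (V j) (σ j) := by
      rw [← halg, ← halg]; rfl
    have e2 : rv (V j) (σ j) = rv (V j) (τ j) - rv (V j) β := by
      rw [← rv_sub (hOV j j.2 _ (τ j).2) (hOV j j.2 _ β.2)]
      rfl
    rw [e1, e2, hwu j j.2]
    ring
  obtain ⟨c', hc'⟩ := mem_range_of_pow hm hmO hb hβ C σ hτ hprod
  have hc'i : ∀ i ∈ C, rv (V i) c' = rv (V i) w * u i := by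
    intro i hi
    have := congrFun hc' ⟨i, hi⟩
    rw [halg] at this
    exact this
  -- c' is a unit of O
  obtain ⟨i₀, hi₀⟩ := hC
  have hker : ∀ i ∈ C, ∀ z : O, rv (V i) z = 0 → z ∈ maximalIdeal O := by
    intro i hi z hz
    rw [mem_maximalIdeal, mem_nonunits_iff]
    rintro ⟨v, rfl⟩
    have h1 : (v : O) * (↑v⁻¹ : O) = 1 := Units.mul_inv v
    have h2 : ((v : O) : F) * ((↑v⁻¹ : O) : F) = 1 := congrArg Subtype.val h1
    have h3 : rv (V i) (((v : O) : F) * ((↑v⁻¹ : O) : F)) = 1 := by rw [h2, rv_one]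
    rw [rv_mul (hOV i hi _ (v : O).2) (hOV i hi _ (↑v⁻¹ : O).2), hz, zero_mul] at h3
    exact zero_ne_one h3
  have hc'β : c' - β ∈ maximalIdeal O := by
    have h1 : c' - τ i₀ ∈ maximalIdeal O := by
      apply hker i₀ hi₀
      have : ((c' - τ i₀ : O) : F) = c' - τ i₀ := rfl
      rw [this, rv_sub (hOV i₀ hi₀ _ c'.2) (hOV i₀ hi₀ _ (τ i₀).2), hc'i i₀ hi₀, hwu i₀ hi₀, sub_self]
    have h2 : c' - β = (c' - τ i₀) + (τ i₀ - β) := by ring
    rw [h2]
    exact (maximalIdeal O).add_mem h1 (hτ i₀ hi₀)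
  have hc'u : IsUnit c' := by
    by_contra hcon
    have h1 : c' ∈ maximalIdeal O := (mem_maximalIdeal _).2 hcon
    have h2 : β ∈ maximalIdeal O := by
      have : β = c' - (c' - β) := by ring
      rw [this]
      exact (maximalIdeal O).sub_mem h1 hc'β
    exact (mem_nonunits_iff.1 ((mem_maximalIdeal _).1 h2)) hβ
  obtain ⟨v, hv⟩ := hc'u
  have hvv : (c' : F) * ((↑v⁻¹ : O) : F) = 1 := by
    have h1 : (v : O) * (↑v⁻¹ : O) = 1 := Units.mul_inv v
    rw [hv] at h1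
    exact congrArg Subtype.val h1
  -- z0 = w / c'
  let z0 : F := w * ((↑v⁻¹ : O) : F)
  have hz0 : z0 ^ m * f ∈ O := by
    have : z0 ^ m * f = ((↑v⁻¹ : O) : F) ^ m * (w ^ m * f) := by simp only [z0, mul_pow]; ring
    rw [this]
    exact O.mul_mem (O.pow_mem (↑v⁻¹ : O).2 _) hw
  have hz0V : ∀ i ∈ C, z0 ∈ V i := fun i hi =>
    (V i).mul_mem _ _ (hwV i hi) (hOV i hi _ (↑v⁻¹ : O).2)
  have hz0u : ∀ i ∈ C, rv (V i) z0 * u i = 1 := by
    intro i hi
    have h1 : rv (V i) ((c' : F) * ((↑v⁻¹ : O) : F)) = 1 := by rw [hvv, rv_one]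
    rw [rv_mul (hOV i hi _ c'.2) (hOV i hi _ (↑v⁻¹ : O).2), hc'i i hi] at h1
    rw [rv_mul (hwV i hi) (hOV i hi _ (↑v⁻¹ : O).2)]
    linear_combination h1
  obtain ⟨d1, hd1, hd1R⟩ := hOfrac _ hz0
  -- d2 kills the components not through s
  choose! a ha ha' using hCn
  let d2 : R := ∏ i ∈ Cᶜ, a i
  have hd2 : d2 ∉ s := by
    intro hmem
    obtain ⟨i, hi, hi'⟩ := (Ideal.IsPrime.prod_mem_iff).1 hmem
    exact ha i (Finset.mem_compl.1 hi) hi'
  have hd2V : ∀ i ∉ C, rv (V i) d2 = 0 := by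
    intro i hi
    have h1 : (d2 : F) = ∏ j ∈ Cᶜ, ((a j : R) : F) := by
      change ((R.subtype : R →+* F) d2) = _
      rw [map_prod]
      rfl
    rw [h1, rv_prod _ _ (fun j _ => hRV i _ (a j).2)]
    exact Finset.prod_eq_zero (Finset.mem_compl.2 hi) (ha' i hi)
  refine ⟨d1 * d2, fun hmem => ?_, (d1 : F) * z0 * d2, ?_, ?_, ?_⟩
  · rcases (inferInstance : s.IsPrime).mem_or_mem hmem with h | h
    · exact hd1 h
    · exact hd2 h
  · obtain ⟨m', rfl⟩ : ∃ m', m = m' + 1 := Nat.exists_eq_succ_of_ne_zero hm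
    have : ((d1 : F) * z0 * d2) ^ (m' + 1) * f =
        (d2 : F) ^ (m' + 1) * ((d1 : F) ^ m' * ((d1 : F) * (z0 ^ (m' + 1) * f))) := by
      rw [mul_pow, mul_pow]; ring
    rw [this]
    exact R.mul_mem (R.pow_mem d2.2 _) (R.mul_mem (R.pow_mem d1.2 _) hd1R)
  · intro i
    refine (V i).mul_mem _ _ ?_ (hRV i _ d2.2)
    apply mem_of_pow_mem hm
    obtain ⟨m', rfl⟩ : ∃ m', m = m' + 1 := Nat.exists_eq_succ_of_ne_zero hm
    have h0 : f ≠ 0 := (rv_ne_zero_iff.1 (hf i)).1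
    have : ((d1 : F) * z0) ^ (m' + 1) =
        ((d1 : F) ^ m' * ((d1 : F) * (z0 ^ (m' + 1) * f))) * f⁻¹ := by
      rw [mul_pow]; field_simp; ring
    rw [this]
    exact (V i).mul_mem _ _ (hRV i _ (R.mul_mem (R.pow_mem d1.2 _) hd1R)) (hfV' i)
  · intro i
    have hd1z0 : (d1 : F) * z0 ∈ V i := by
      apply mem_of_pow_mem hm
      obtain ⟨m', rfl⟩ : ∃ m', m = m' + 1 := Nat.exists_eq_succ_of_ne_zero hm
      have h0 : f ≠ 0 := (rv_ne_zero_iff.1 (hf i)).1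
      have : ((d1 : F) * z0) ^ (m' + 1) =
          ((d1 : F) ^ m' * ((d1 : F) * (z0 ^ (m' + 1) * f))) * f⁻¹ := by
        rw [mul_pow]; field_simp; ring
      rw [this]
      exact (V i).mul_mem _ _ (hRV i _ (R.mul_mem (R.pow_mem d1.2 _) hd1R)) (hfV' i)
    have hcoe : ((d1 * d2 : R) : F) = (d1 : F) * d2 := rfl
    rw [hcoe, rv_mul hd1z0 (hRV i _ d2.2), rv_mul (hRV i _ d1.2) (hRV i _ d2.2)]
    by_cases hi : i ∈ C
    · rw [rv_mul (hRV i _ d1.2) (hz0V i hi)]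
      linear_combination (rv (V i) d1 * rv (V i) d2) * hz0u i hi
    · rw [hd2V i hi]; ring

end Fermat.Agent.H23.R
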