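import Mathlib

/-!
# PROGRAM R (S36): factoriality of local rings and local generators

* `ufd_of_prime` (Lemma U): a Noetherian local domain `O` with a prime element `x` such that
  `O ⧸ (x)` is a principal ideal ring is a unique factorization domain.
* `exists_local_generator`.
-/

namespace Fermat.Agent.H23.R

open Ideal

/-- Lemma U: a Noetherian local domain with a prime element `x` such that `O ⧸ (x)` is a
principal ideal ring is factorial. -/
theorem ufd_of_prime {O : Type*} [CommRing O] [IsDomain O] [IsNoetherianRing O] [IsLocalRing O]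
    {x : O} (hx : Prime x) (hpid : IsPrincipalIdealRing (O ⧸ Ideal.span {x})) :
    UniqueFactorizationMonoid O := by
  rw [UniqueFactorizationMonoid.iff_exists_prime_mem_of_isPrime]
  intro P hP0 hP
  by_cases hxP : x ∈ P
  · exact ⟨x, hxP, hx⟩
  obtain ⟨g, hg⟩ := (hpid.principal (P.map (Ideal.Quotient.mk (Ideal.span {x})))).principal
  have hgm : g ∈ P.map (Ideal.Quotient.mk (Ideal.span {x})) := by
    rw [hg]; exact Submodule.mem_span_singleton_self g
  obtain ⟨p, hpP, hpg⟩ := (Ideal.mem_map_iff_of_surjective _ Ideal.Quotient.mk_surjective).1 hgm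
  have hPfg : P.FG := IsNoetherian.noetherian P
  have hle : P ≤ Ideal.span {p} ⊔ (Ideal.span {x} • P : Ideal O) := by
    intro y hy
    have hy' : Ideal.Quotient.mk (Ideal.span {x}) y ∈
        P.map (Ideal.Quotient.mk (Ideal.span {x})) := Ideal.mem_map_of_mem _ hy
    rw [hg] at hy'
    obtain ⟨c, hc⟩ := Submodule.mem_span_singleton.1 hy'
    obtain ⟨c, rfl⟩ := Ideal.Quotient.mk_surjective c
    have h1 : Ideal.Quotient.mk (Ideal.span {x}) (y - c * p) = 0 := by
      rw [map_sub, map_mul, hpg, ← hc, smul_eq_mul, sub_self]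
    rw [Ideal.Quotient.eq_zero_iff_mem, Ideal.mem_span_singleton] at h1
    obtain ⟨z, hz⟩ := h1
    have hz' : z ∈ P := by
      have : x * z ∈ P := by
        rw [← hz]; exact P.sub_mem hy (P.mul_mem_left c hpP)
      exact (hP.mem_or_mem this).resolve_left hxP
    have : y = c * p + x * z := by rw [← hz]; ring
    rw [this]
    refine Submodule.add_mem_sup ?_ ?_
    · exact Ideal.mul_mem_left _ _ (Ideal.mem_span_singleton_self p)
    · exact Submodule.smul_mem_smul (Ideal.mem_span_singleton_self x) hz'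
  have hxj : Ideal.span {x} ≤ (⊥ : Ideal O).jacobson := by
    rw [IsLocalRing.jacobson_eq_maximalIdeal _ bot_ne_top, Ideal.span_le,
      Set.singleton_subset_iff]
    exact (IsLocalRing.mem_maximalIdeal _).2 hx.not_isUnit
  have hPle : P ≤ Ideal.span {p} := Submodule.le_of_le_smul_of_le_jacobson_bot hPfg hxj hle
  have hPeq : P = Ideal.span {p} := le_antisymm hPle (by
    rw [Ideal.span_le, Set.singleton_subset_iff]; exact hpP)
  have hp0 : p ≠ 0 := by
    rintro rfl
    exact hP0 (by rw [hPeq, Ideal.span_singleton_eq_bot])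
  refine ⟨p, hpP, ?_⟩
  rw [← Ideal.span_singleton_prime hp0, ← hPeq]
  exact hP

/-- In a UFD an element all of whose prime multiplicities are divisible by `m` is an `m`-th power
up to a unit. -/
theorem associated_pow_of_dvd {O : Type*} [CommRing O] [IsDomain O]
    [UniqueFactorizationMonoid O] (m : ℕ) (c : O) (hc : c ≠ 0)
    (h : ∀ π : O, Prime π → ∃ (k : ℕ) (c' : O), c = π ^ (m * k) * c' ∧ ¬ π ∣ c') :
    ∃ w : O, Associated c (w ^ m) := by
  classical
  induction c using (wellFounded_dvdNotUnit (α := O)).induction with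
  | _ c ih =>
  by_cases hu : IsUnit c
  · exact ⟨1, by rw [one_pow]; exact associated_one_iff_isUnit.2 hu⟩
  obtain ⟨π, hπ, hπc⟩ := WfDvdMonoid.exists_irreducible_factor hu hc
  have hπp : Prime π := hπ.prime
  obtain ⟨k, c', hcc, hπc'⟩ := h π hπp
  have hmk : m * k ≠ 0 := by
    intro h0
    rw [h0, pow_zero, one_mul] at hcc
    exact hπc' (hcc ▸ hπc)
  have hc'0 : c' ≠ 0 := by
    rintro rfl
    exact hπc' (dvd_zero _)
  have hnu : ¬ IsUnit (π ^ (m * k)) := fun hh => hπ.not_isUnit ((isUnit_pow_iff hmk).1 hh)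
  obtain ⟨w, hw⟩ := ih c' ⟨hc'0, π ^ (m * k), hnu, by rw [mul_comm, ← hcc]⟩ hc'0 (by
    intro π' hπ'
    by_cases hdiv : π' ∣ c'
    · obtain ⟨k1, c1, h1, h2⟩ := h π' hπ'
      have hnd : ¬ π' ∣ π ^ (m * k) := by
        intro hd
        have h3 : π' ∣ π := hπ'.dvd_of_dvd_pow hd
        exact hπc' ((hπ'.associated_of_dvd hπp h3).symm.dvd.trans hdiv)
      have h4 : π' ^ (m * k1) ∣ c' :=
        hπ'.pow_dvd_of_dvd_mul_left _ hnd (by rw [← hcc, h1]; exact dvd_mul_right _ _)
      obtain ⟨c'', hc''⟩ := h4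
      refine ⟨k1, c'', hc'', ?_⟩
      intro h5
      apply h2
      have h6 : π' ^ (m * k1) * c1 = π' ^ (m * k1) * (π ^ (m * k) * c'') := by
        rw [← h1, hcc, hc'']; ring
      rw [mul_left_cancel₀ (pow_ne_zero _ hπ'.ne_zero) h6]
      exact h5.mul_left _
    · exact ⟨0, c', by simp, hdiv⟩)
  refine ⟨π ^ k * w, ?_⟩
  rw [hcc, mul_pow, ← pow_mul, mul_comm k m]
  exact hw.mul_left _

/-- Local generator: `O` a UFD with fraction field `F`, `f ≠ 0` in `F` whose valuation at every
prime element is divisible by `m`; then `z ^ m * f` is a unit of `O` for some `z ≠ 0`. -/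
theorem exists_local_generator {O F : Type*} [CommRing O] [IsDomain O]
    [UniqueFactorizationMonoid O] [Field F] [Algebra O F] [IsFractionRing O F]
    {m : ℕ} (hm : m ≠ 0) {f : F} (hf : f ≠ 0)
    (h : ∀ π : O, Prime π → ∃ (g : F) (a b : O), g ≠ 0 ∧ ¬ π ∣ a ∧ ¬ π ∣ b ∧
      f * g ^ m * algebraMap O F b = algebraMap O F a) :
    ∃ (z : F) (u : Oˣ), z ≠ 0 ∧ z ^ m * f = algebraMap O F u := by
  classical
  have hinj : Function.Injective (algebraMap O F) := IsFractionRing.injective O F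
  obtain ⟨a0, b0, hb0, hab⟩ := IsFractionRing.div_surjective (A := O) f
  have hb0' : b0 ≠ 0 := nonZeroDivisors.ne_zero hb0
  have hb0F : algebraMap O F b0 ≠ 0 := fun hh => hb0' (hinj (by rw [hh, map_zero]))
  have ha0' : a0 ≠ 0 := by
    rintro rfl
    rw [map_zero, zero_div] at hab
    exact hf hab.symm
  -- c = f * b0 ^ m ∈ O
  obtain ⟨m', rfl⟩ : ∃ m', m = m' + 1 := Nat.exists_eq_succ_of_ne_zero hm
  obtain ⟨c, hcdef⟩ : ∃ c : O, c = a0 * b0 ^ m' := ⟨_, rfl⟩
  have hc0 : c ≠ 0 := by rw [hcdef]; exact mul_ne_zero ha0' (pow_ne_zero _ hb0')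
  have hcF : algebraMap O F c = f * (algebraMap O F b0) ^ (m' + 1) := by
    rw [hcdef, ← hab, map_mul, map_pow, pow_succ]
    field_simp
  obtain ⟨w, hw⟩ := associated_pow_of_dvd (m' + 1) c hc0 (by
    intro π hπ
    obtain ⟨g, a, b, hg, ha, hb, hfg⟩ := h π hπ
    obtain ⟨g1, g2, hg2, hg12⟩ := IsFractionRing.div_surjective (A := O) g
    have hg2' : g2 ≠ 0 := nonZeroDivisors.ne_zero hg2
    have hg2F : algebraMap O F g2 ≠ 0 := fun hh => hg2' (hinj (by rw [hh, map_zero]))
    have hg1' : g1 ≠ 0 := by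
      rintro rfl
      rw [map_zero, zero_div] at hg12
      exact hg hg12.symm
    -- c * b * g1 ^ m = a * (g2 * b0) ^ m
    have key : c * b * g1 ^ (m' + 1) = a * (g2 * b0) ^ (m' + 1) := by
      apply hinj
      rw [map_mul, map_mul, map_pow, map_mul, map_pow, map_mul, hcF, ← hfg, ← hg12, mul_pow,
        div_pow]
      field_simp
    obtain ⟨k1, c1, hc1, hcc1⟩ := WfDvdMonoid.max_power_factor hg1' hπ.irreducible
    obtain ⟨k2, c2, hc2, hcc2⟩ :=
      WfDvdMonoid.max_power_factor (mul_ne_zero hg2' hb0') hπ.irreducible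
    obtain ⟨k3, c3, hc3, hcc3⟩ := WfDvdMonoid.max_power_factor hc0 hπ.irreducible
    rw [hcc1, hcc2, hcc3] at key
    -- compare multiplicities
    have e1 : π ^ (k3 + k1 * (m' + 1)) * (c3 * b * c1 ^ (m' + 1)) =
        π ^ (k2 * (m' + 1)) * (a * c2 ^ (m' + 1)) := by
      rw [pow_add, pow_mul, pow_mul]
      linear_combination key
    have n1 : ¬ π ∣ c3 * b * c1 ^ (m' + 1) := by
      intro hd
      rcases hπ.dvd_or_dvd hd with hd | hd
      · rcases hπ.dvd_or_dvd hd with hd | hd
        · exact hc3 hd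
        · exact hb hd
      · exact hc1 (hπ.dvd_of_dvd_pow hd)
    have n2 : ¬ π ∣ a * c2 ^ (m' + 1) := by
      intro hd
      rcases hπ.dvd_or_dvd hd with hd | hd
      · exact ha hd
      · exact hc2 (hπ.dvd_of_dvd_pow hd)
    have e2 : k3 + k1 * (m' + 1) = k2 * (m' + 1) := by
      rcases lt_trichotomy (k3 + k1 * (m' + 1)) (k2 * (m' + 1)) with hlt | heq | hlt
      · exfalso
        obtain ⟨d, hd⟩ := Nat.exists_eq_add_of_lt hlt
        rw [hd, add_assoc, pow_add π (k3 + k1 * (m' + 1)) (d + 1),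
          mul_assoc (π ^ (k3 + k1 * (m' + 1)))] at e1
        have := mul_left_cancel₀ (pow_ne_zero _ hπ.ne_zero) e1
        exact n1 (this ▸ (dvd_mul_of_dvd_left (dvd_pow_self _ (Nat.succ_ne_zero d)) _))
      · exact heq
      · exfalso
        obtain ⟨d, hd⟩ := Nat.exists_eq_add_of_lt hlt
        rw [hd, add_assoc, pow_add π (k2 * (m' + 1)) (d + 1),
          mul_assoc (π ^ (k2 * (m' + 1)))] at e1
        have := mul_left_cancel₀ (pow_ne_zero _ hπ.ne_zero) e1
        exact n2 (this ▸ (dvd_mul_of_dvd_left (dvd_pow_self _ (Nat.succ_ne_zero d)) _))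
    have hle : k1 ≤ k2 := by
      by_contra hcon
      push Not at hcon
      have := Nat.mul_lt_mul_of_pos_right hcon (Nat.succ_pos m')
      simp only [Nat.succ_eq_add_one] at this
      omega
    obtain ⟨k, rfl⟩ := Nat.exists_eq_add_of_le hle
    refine ⟨k, c3, ?_, hc3⟩
    rw [hcc3]
    congr 2
    have : (k1 + k) * (m' + 1) = k1 * (m' + 1) + (m' + 1) * k := by ring
    omega)
  obtain ⟨u, hu⟩ := hw
  -- c * u = w ^ m
  have hw0 : w ≠ 0 := by
    rintro rfl
    rw [zero_pow (Nat.succ_ne_zero m')] at hu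
    exact hc0 ((mul_eq_zero.1 hu).resolve_right u.ne_zero)
  have hwF : algebraMap O F w ≠ 0 := fun hh => hw0 (hinj (by rw [hh, map_zero]))
  refine ⟨algebraMap O F b0 / algebraMap O F w, u⁻¹, div_ne_zero hb0F hwF, ?_⟩
  have e3 : algebraMap O F c * algebraMap O F u = algebraMap O F w ^ (m' + 1) := by
    rw [← map_mul, hu, map_pow]
  have e4 : algebraMap O F (u : O) * algebraMap O F (↑u⁻¹ : O) = 1 := by
    rw [← map_mul, Units.mul_inv, map_one]
  rw [div_pow, ← e3, hcF]
  have hu0 : algebraMap O F (u : O) ≠ 0 := left_ne_zero_of_mul_eq_one e4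
  have e5 : algebraMap O F (↑u⁻¹ : O) = (algebraMap O F (u : O))⁻¹ := eq_inv_of_mul_eq_one_right e4
  rw [e5]
  have hb0m : algebraMap O F b0 ^ (m' + 1) ≠ 0 := pow_ne_zero _ hb0F
  field_simp

end Fermat.Agent.H23.R
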