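import Fermat.Agent.H23.R.Rv
import Fermat.Agent.H23.R.Ufd

/-!
# PROGRAM R (S36): local rings as subrings of the field, local generators
-/

namespace Fermat.Agent.H23.R

open IsLocalRing

variable {F : Type*} [Field F]

/-- The localization of the subring `R` of a field at the prime `s`, as a subring. -/
def locSub (R : Subring F) (s : Ideal R) [hs : s.IsPrime] : Subring F where
  carrier := {z | ∃ d : R, d ∉ s ∧ (d : F) * z ∈ R}
  zero_mem' := ⟨1, fun h => hs.ne_top ((Ideal.eq_top_iff_one s).2 h), by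
    rw [mul_zero]; exact R.zero_mem⟩
  one_mem' := ⟨1, fun h => hs.ne_top ((Ideal.eq_top_iff_one s).2 h), by
    rw [mul_one]; exact (1 : R).2⟩
  add_mem' := by
    rintro a b ⟨d, hd, hda⟩ ⟨e, he, heb⟩
    refine ⟨d * e, fun h => (hs.mem_or_mem h).elim hd he, ?_⟩
    have : ((d * e : R) : F) * (a + b) = e * (d * a) + d * (e * b) := by push_cast; ring
    rw [this]
    exact R.add_mem (R.mul_mem e.2 hda) (R.mul_mem d.2 heb)
  mul_mem' := by
    rintro a b ⟨d, hd, hda⟩ ⟨e, he, heb⟩
    refine ⟨d * e, fun h => (hs.mem_or_mem h).elim hd he, ?_⟩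
    have : ((d * e : R) : F) * (a * b) = (d * a) * (e * b) := by push_cast; ring
    rw [this]
    exact R.mul_mem hda heb
  neg_mem' := by
    rintro a ⟨d, hd, hda⟩
    refine ⟨d, hd, ?_⟩
    rw [mul_neg]
    exact R.neg_mem hda

variable (R : Subring F) (s : Ideal R) [hs : s.IsPrime]

theorem mem_locSub {z : F} : z ∈ locSub R s ↔ ∃ d : R, d ∉ s ∧ (d : F) * z ∈ R := Iff.rfl

theorem le_locSub : R ≤ locSub R s := fun z hz =>
  ⟨1, fun h => hs.ne_top ((Ideal.eq_top_iff_one s).2 h), by
    have : ((1 : R) : F) * z = z := one_mul z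
    rw [this]; exact hz⟩

omit hs in
theorem ne_zero_of_notMem {d : R} (hd : d ∉ s) : (d : F) ≠ 0 := by
  intro h
  exact hd (by rw [show d = 0 from Subtype.ext h]; exact s.zero_mem)

theorem inv_mem_locSub {d : R} (hd : d ∉ s) : (d : F)⁻¹ ∈ locSub R s :=
  ⟨d, hd, by rw [mul_inv_cancel₀ (ne_zero_of_notMem R s hd)]; exact R.one_mem⟩

noncomputable instance : Algebra R (locSub R s) := (Subring.inclusion (le_locSub R s)).toAlgebra

theorem algebraMap_locSub (a : R) : ((algebraMap R (locSub R s) a : locSub R s) : F) = a := rfl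

instance : IsLocalization.AtPrime (locSub R s) s where
  map_units := by
    rintro ⟨d, hd⟩
    refine IsUnit.of_mul_eq_one ⟨(d : F)⁻¹, inv_mem_locSub R s hd⟩ ?_
    apply Subtype.ext
    exact mul_inv_cancel₀ (ne_zero_of_notMem R s hd)
  surj := by
    rintro ⟨z, d, hd, hz⟩
    refine ⟨⟨⟨_, hz⟩, ⟨d, hd⟩⟩, ?_⟩
    apply Subtype.ext
    change z * (d : F) = d * z
    ring
  exists_of_eq := by
    intro x y hxy
    refine ⟨1, ?_⟩
    have : (x : F) = y := congrArg (fun z : locSub R s => (z : F)) hxy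
    rw [Subtype.ext this]

instance : IsLocalRing (locSub R s) := IsLocalization.AtPrime.isLocalRing _ s

theorem mem_maximalIdeal_locSub {a : R} (ha : a ∈ s) :
    (⟨a, le_locSub R s a.2⟩ : locSub R s) ∈ maximalIdeal (locSub R s) := by
  have := (IsLocalization.AtPrime.to_map_mem_maximal_iff (locSub R s) s a).2 ha
  exact this

/-- `F` is the fraction field of `locSub R s` as soon as every element of `F` is a fraction of
elements of `R`. -/
theorem isFractionRing_locSub (hfrac : ∀ z : F, ∃ b ∈ R, b ≠ 0 ∧ b * z ∈ R) :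
    IsFractionRing (locSub R s) F where
  map_units := by
    rintro ⟨d, hd⟩
    have : (d : F) ≠ 0 := fun h => nonZeroDivisors.ne_zero hd (Subtype.ext h)
    exact IsUnit.mk0 _ this
  surj := by
    intro z
    obtain ⟨b, hb, hb0, hbz⟩ := hfrac z
    refine ⟨⟨⟨_, le_locSub R s hbz⟩, ⟨⟨b, le_locSub R s hb⟩, ?_⟩⟩, ?_⟩
    · exact mem_nonZeroDivisors_of_ne_zero fun h => hb0 (congrArg Subtype.val h)
    · change z * b = b * z
      ring
  exists_of_eq := by
    intro x y hxy
    refine ⟨1, ?_⟩
    have : (x : F) = y := hxy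
    rw [Subtype.ext this]

theorem ufd_locSub (h : UniqueFactorizationMonoid (Localization.AtPrime s)) :
    UniqueFactorizationMonoid (locSub R s) := by
  have e := IsLocalization.algEquiv s.primeCompl (Localization.AtPrime s) (locSub R s)
  exact e.toMulEquiv.uniqueFactorizationMonoid h

/-- Existence of a local generator `w` of `f` at `s`: `w ^ m * f` is a unit at `s`. -/
theorem exists_generator_at {ι : Type*} [Finite ι] (V : ι → ValuationSubring F) {m : ℕ}
    (hm : m ≠ 0) {f : F} (hf0 : f ≠ 0) (hfi : ∀ i, rv (V i) f ≠ 0)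
    (hRV : ∀ i, ∀ z ∈ R, z ∈ V i) (hfrac : ∀ z : F, ∃ b ∈ R, b ≠ 0 ∧ b * z ∈ R)
    (ϖ : R) (hϖ0 : (ϖ : F) ≠ 0) (hϖi : ∀ i, rv (V i) ϖ = 0)
    (hrad : ∀ b : R, (∀ i, rv (V i) b = 0) → ∃ (e : ℕ) (b' : R), b ^ e = ϖ * b')
    (hBloc : ∀ b : F, (∀ i, b ∈ V i) → ∃ c : R, (∀ i, rv (V i) c ≠ 0) ∧ (c : F) * b ∈ R)
    (hUFD : UniqueFactorizationMonoid (locSub R s))
    (hhor : ∀ W : ValuationSubring F, (∀ z ∈ R, z ∈ W) → (ϖ : F)⁻¹ ∈ W →
      ∃ g : F, rv W (f * g ^ m) ≠ 0) :
    ∃ w : F, w ≠ 0 ∧ w ^ m * f ∈ locSub R s ∧ (w ^ m * f)⁻¹ ∈ locSub R s := by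
  classical
  cases nonempty_fintype ι
  have : IsFractionRing (locSub R s) F := isFractionRing_locSub R s hfrac
  set O := locSub R s with hO
  obtain ⟨z, v, hz0, hzv⟩ := exists_local_generator (O := O) hm hf0 (by
    intro π hπ
    have hπF : (π : F) ≠ 0 := fun h => hπ.ne_zero (Subtype.ext h)
    by_cases hdiv : π ∣ (⟨ϖ, le_locSub R s ϖ.2⟩ : O)
    · -- vertical
      have hmemR : ∀ b : R, (∀ i, rv (V i) b = 0) → π ∣ (⟨b, le_locSub R s b.2⟩ : O) := by
        intro b hb
        obtain ⟨e, b', hb'⟩ := hrad b hb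
        have h1 : (⟨b, le_locSub R s b.2⟩ : O) ^ e =
            ⟨ϖ, le_locSub R s ϖ.2⟩ * ⟨b', le_locSub R s b'.2⟩ := Subtype.ext (by
          have := congrArg Subtype.val hb'
          exact this)
        have h2 : π ∣ (⟨b, le_locSub R s b.2⟩ : O) ^ e := by
          rw [h1]; exact hdiv.mul_right _
        exact hπ.dvd_of_dvd_pow h2
      obtain ⟨i, hi⟩ : ∃ i, ∀ a : R, rv (V i) a = 0 → π ∣ (⟨a, le_locSub R s a.2⟩ : O) := by
        by_contra hcon
        push Not at hcon
        choose a ha hna using hcon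
        have h1 : π ∣ (⟨(∏ i, a i : R), le_locSub R s (∏ i, a i : R).2⟩ : O) := by
          apply hmemR
          intro i
          have : ((∏ i, a i : R) : F) = ∏ i, (a i : F) := by
            change (R.subtype (∏ i, a i)) = _
            rw [map_prod]; rfl
          rw [this, rv_prod _ _ (fun j _ => hRV i _ (a j).2)]
          exact Finset.prod_eq_zero (Finset.mem_univ i) (ha i)
        have h2 : (⟨(∏ i, a i : R), le_locSub R s (∏ i, a i : R).2⟩ : O) =
            ∏ i, (⟨a i, le_locSub R s (a i).2⟩ : O) := by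
          change algebraMap R O (∏ i, a i) = _
          rw [map_prod]; rfl
        rw [h2, hπ.dvd_finsetProd_iff] at h1
        obtain ⟨i, -, hi⟩ := h1
        exact hna i hi
      -- ker of ρ_i on O
      have hsi : ∀ a : R, rv (V i) a = 0 → a ∈ s := by
        intro a ha
        by_contra has
        have h1 : IsUnit (⟨a, le_locSub R s a.2⟩ : O) :=
          IsLocalization.map_units O (⟨a, has⟩ : s.primeCompl)
        exact hπ.not_isUnit (isUnit_of_dvd_unit (hi a ha) h1)
      have hOV : ∀ z ∈ O, z ∈ V i := by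
        rintro z ⟨d, hd, hdz⟩
        have hd' : rv (V i) d ≠ 0 := fun h => hd (hsi d h)
        have h1 : z = (d : F)⁻¹ * (d * z) := by
          rw [inv_mul_cancel_left₀ (ne_zero_of_notMem R s hd)]
        rw [h1]
        exact (V i).mul_mem _ _ (rv_ne_zero_iff.1 hd').2.2 (hRV i _ hdz)
      let 𝔮 : Ideal O :=
        { carrier := {z | rv (V i) z = 0}
          zero_mem' := rv_zero
          add_mem' := fun {a b} ha hb => by
            change rv (V i) ((a : F) + b) = 0
            rw [rv_add (hOV _ a.2) (hOV _ b.2), ha, hb, add_zero]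
          smul_mem' := fun c a ha => by
            change rv (V i) ((c : F) * a) = 0
            rw [rv_mul (hOV _ c.2) (hOV _ a.2), ha, mul_zero] }
      have h𝔮 : 𝔮.IsPrime := by
        refine ⟨fun h => ?_, fun {a b} hab => ?_⟩
        · have : (1 : O) ∈ 𝔮 := (Ideal.eq_top_iff_one _).1 h
          have h1 : rv (V i) ((1 : O) : F) = 0 := this
          rw [show ((1 : O) : F) = 1 from rfl, rv_one] at h1
          exact one_ne_zero h1
        · have h1 : rv (V i) ((a : F) * b) = 0 := hab
          rw [rv_mul (hOV _ a.2) (hOV _ b.2)] at h1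
          exact mul_eq_zero.1 h1
      have h𝔮0 : 𝔮 ≠ ⊥ := by
        intro h
        have h1 : (⟨ϖ, le_locSub R s ϖ.2⟩ : O) ∈ 𝔮 := hϖi i
        rw [h] at h1
        exact hϖ0 (congrArg Subtype.val (Ideal.mem_bot.1 h1))
      obtain ⟨π', hπ'𝔮, hπ'⟩ := h𝔮.exists_mem_prime_of_ne_bot h𝔮0
      have h𝔮π : ∀ z ∈ 𝔮, π ∣ z := by
        rintro ⟨z, d, hd, hdz⟩ hz
        have hz' : rv (V i) z = 0 := hz
        have h1 : π ∣ (⟨(⟨_, hdz⟩ : R), le_locSub R s hdz⟩ : O) := by
          apply hi ⟨_, hdz⟩
          change rv (V i) (d * z) = 0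
          rw [rv_mul (hRV i _ d.2) (hOV z ⟨d, hd, hdz⟩), hz', mul_zero]
        have h2 : (⟨(⟨_, hdz⟩ : R), le_locSub R s hdz⟩ : O) =
            ⟨d, le_locSub R s d.2⟩ * ⟨z, ⟨d, hd, hdz⟩⟩ := rfl
        rw [h2] at h1
        rcases hπ.dvd_or_dvd h1 with h3 | h3
        · exfalso
          have h4 : IsUnit (⟨d, le_locSub R s d.2⟩ : O) :=
            IsLocalization.map_units O (⟨d, hd⟩ : s.primeCompl)
          exact hπ.not_isUnit (isUnit_of_dvd_unit h3 h4)
        · exact h3
      have hππ' : Associated π π' := hπ.associated_of_dvd hπ' (h𝔮π π' hπ'𝔮)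
      have hπ𝔮 : π ∈ 𝔮 := by
        obtain ⟨v, hv⟩ := hππ'.symm
        rw [← hv]
        exact 𝔮.mul_mem_right _ hπ'𝔮
      -- f = a / c
      obtain ⟨c, hc, hcf⟩ := hBloc f (fun j => (rv_ne_zero_iff.1 (hfi j)).2.1)
      refine ⟨1, ⟨_, le_locSub R s hcf⟩, ⟨c, le_locSub R s c.2⟩, one_ne_zero, ?_, ?_, ?_⟩
      · intro h
        have h1 : rv (V i) ((c : F) * f) = 0 := by
          obtain ⟨y, hy⟩ := h
          have : (c : F) * f = π * y := congrArg Subtype.val hy
          rw [this, rv_mul (hOV _ π.2) (hOV _ y.2)]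
          have : rv (V i) π = 0 := hπ𝔮
          rw [this, zero_mul]
        rw [rv_mul (hRV i _ c.2) (rv_ne_zero_iff.1 (hfi i)).2.1] at h1
        exact (mul_ne_zero (hc i) (hfi i)) h1
      · intro h
        obtain ⟨y, hy⟩ := h
        have h1 : (c : F) = π * y := congrArg Subtype.val hy
        apply hc i
        rw [h1, rv_mul (hOV _ π.2) (hOV _ y.2)]
        have : rv (V i) π = 0 := hπ𝔮
        rw [this, zero_mul]
      · rw [one_pow, mul_one]
        change f * (c : F) = c * f
        ring
    · -- horizontal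
      let W : ValuationSubring F :=
        { carrier := {z | ∃ a b : O, ¬ π ∣ b ∧ z * b = a}
          zero_mem' := ⟨0, 1, fun h => hπ.not_isUnit (isUnit_of_dvd_one h), by simp⟩
          one_mem' := ⟨1, 1, fun h => hπ.not_isUnit (isUnit_of_dvd_one h), by simp⟩
          add_mem' := by
            rintro z w ⟨a, b, hb, h1⟩ ⟨a', b', hb', h2⟩
            refine ⟨a * b' + a' * b, b * b', fun h => (hπ.dvd_or_dvd h).elim hb hb', ?_⟩
            push_cast
            linear_combination (b' : F) * h1 + (b : F) * h2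
          mul_mem' := by
            rintro z w ⟨a, b, hb, h1⟩ ⟨a', b', hb', h2⟩
            refine ⟨a * a', b * b', fun h => (hπ.dvd_or_dvd h).elim hb hb', ?_⟩
            push_cast
            rw [← h1, ← h2]; ring
          neg_mem' := by
            rintro z ⟨a, b, hb, h1⟩
            exact ⟨-a, b, hb, by push_cast; rw [← h1]; ring⟩
          mem_or_inv_mem' := by
            intro z
            by_cases hz : z = 0
            · left; exact ⟨0, 1, fun h => hπ.not_isUnit (isUnit_of_dvd_one h), by simp [hz]⟩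
            obtain ⟨a, b, hb, hab⟩ := IsFractionRing.div_surjective (A := O) z
            have hb0 : b ≠ 0 := nonZeroDivisors.ne_zero hb
            have ha0 : a ≠ 0 := by
              rintro rfl
              rw [map_zero, zero_div] at hab
              exact hz hab.symm
            obtain ⟨k1, a1, ha1, hka⟩ := WfDvdMonoid.max_power_factor ha0 hπ.irreducible
            obtain ⟨k2, b1, hb1, hkb⟩ := WfDvdMonoid.max_power_factor hb0 hπ.irreducible
            have hbF : (b : F) ≠ 0 := fun h => hb0 (Subtype.ext h)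
            have haF : (a : F) ≠ 0 := fun h => ha0 (Subtype.ext h)
            have hz' : z * b = a := by
              rw [← hab]
              change ((a : F) / b) * b = a
              rw [div_mul_cancel₀ _ hbF]
            have ea : (a : F) = (π : F) ^ k1 * a1 := by
              have := congrArg Subtype.val hka
              exact this
            have eb : (b : F) = (π : F) ^ k2 * b1 := by
              have := congrArg Subtype.val hkb
              exact this
            rcases le_total k2 k1 with hk | hk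
            · left
              obtain ⟨d, rfl⟩ := Nat.exists_eq_add_of_le hk
              refine ⟨π ^ d * a1, b1, hb1, ?_⟩
              push_cast
              rw [ea, eb, pow_add] at hz'
              have : (π : F) ^ k2 ≠ 0 := pow_ne_zero _ hπF
              apply mul_left_cancel₀ this
              linear_combination hz'
            · right
              obtain ⟨d, rfl⟩ := Nat.exists_eq_add_of_le hk
              refine ⟨π ^ d * b1, a1, ha1, ?_⟩
              push_cast
              rw [ea, eb, pow_add] at hz'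
              have h3 : (π : F) ^ k1 ≠ 0 := pow_ne_zero _ hπF
              have h4 : (a1 : F) = z * (π ^ d * b1) := by
                apply mul_left_cancel₀ h3
                linear_combination -hz'
              rw [h4, inv_mul_cancel_left₀ hz] }
      have hOW : ∀ z ∈ O, z ∈ W := fun z hz =>
        ⟨⟨z, hz⟩, 1, fun h => hπ.not_isUnit (isUnit_of_dvd_one h), by simp⟩
      obtain ⟨g, hg⟩ := hhor W (fun z hz => hOW z (le_locSub R s hz))
        ⟨1, ⟨ϖ, le_locSub R s ϖ.2⟩, hdiv, inv_mul_cancel₀ hϖ0⟩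
      obtain ⟨h1, ⟨a, b, hb, hab⟩, ⟨a', b', hb', hab'⟩⟩ := rv_ne_zero_iff.1 hg
      have hg0 : g ≠ 0 := by
        rintro rfl
        rw [zero_pow hm, mul_zero] at h1
        exact h1 rfl
      refine ⟨g, a, b, hg0, ?_, hb, hab⟩
      intro hπa
      -- a * a' = b * b'
      have h2 : a * a' = b * b' := by
        apply Subtype.ext
        push_cast
        rw [← hab, ← hab']
        field_simp
      have h3 : π ∣ b * b' := by rw [← h2]; exact hπa.mul_right _
      exact (hπ.dvd_or_dvd h3).elim hb hb')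
  refine ⟨z, hz0, by rw [hzv]; exact (v : O).2, ?_⟩
  have h1 : (v : O) * (↑v⁻¹ : O) = 1 := Units.mul_inv v
  have h2 : ((v : O) : F) * ((↑v⁻¹ : O) : F) = 1 := congrArg Subtype.val h1
  rw [hzv]
  change ((v : O) : F)⁻¹ ∈ O
  rw [← eq_inv_of_mul_eq_one_right h2]
  exact (↑v⁻¹ : O).2

end Fermat.Agent.H23.R
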