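import Fermat.Agent.H23.R.Key
import Fermat.Agent.H23.R.GlueLocal
import Fermat.Agent.H23.R.LocalGen

/-!
# PROGRAM R (S36): the KEY THEOREM

`F` function field over the fraction field of `A0`; `V i` the vertical valuation rings; two
charts `S c` (`c = 0, 1`), `Rc S V c = {z ∈ S c | ∀ i, z ∈ V i}`.
-/

namespace Fermat.Agent.H23.R

open IsLocalRing

variable {F : Type*} [Field F]

/-- The intersection of the vertical valuation rings. -/
def vert {ι : Type*} (V : ι → ValuationSubring F) : Subring F where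
  carrier := {z | ∀ i, z ∈ V i}
  zero_mem' := fun i => (V i).zero_mem
  one_mem' := fun i => (V i).one_mem
  add_mem' := fun ha hb i => (V i).add_mem _ _ (ha i) (hb i)
  mul_mem' := fun ha hb i => (V i).mul_mem _ _ (ha i) (hb i)
  neg_mem' := fun ha i => (V i).neg_mem _ (ha i)

theorem mem_vert {ι : Type*} {V : ι → ValuationSubring F} {z : F} :
    z ∈ vert V ↔ ∀ i, z ∈ V i := Iff.rfl

/-- Additivity of `{z | z ^ m * f ∈ S}` for an integrally closed `S` as soon as `f` is locally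
an `m`-th power up to units at all valuation rings containing `S`. -/
theorem add_pow_mul_mem {S : Subring F} (hS : ∀ z : F, IsIntegral S z → z ∈ S) {m : ℕ}
    (hm : m ≠ 0) {f : F}
    (hhor : ∀ W : ValuationSubring F, (∀ z ∈ S, z ∈ W) → ∃ g : F, rv W (f * g ^ m) ≠ 0)
    {z w : F} (hz : z ^ m * f ∈ S) (hw : w ^ m * f ∈ S) : (z + w) ^ m * f ∈ S := by
  by_contra hcon
  have : IsIntegrallyClosedIn S F := Subring.isIntegrallyClosedIn_iff.2 fun x hx => hS x hx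
  obtain ⟨W, hSW, hW⟩ := Subring.exists_le_valuationSubring_of_isIntegrallyClosedIn hcon
  apply hW
  obtain ⟨g, hg⟩ := hhor W (fun z hz => hSW hz)
  obtain ⟨h1, h2, h3⟩ := rv_ne_zero_iff.1 hg
  have hg0 : g ≠ 0 := by
    rintro rfl
    rw [zero_pow hm, mul_zero] at h1
    exact h1 rfl
  have hf0 : f ≠ 0 := left_ne_zero_of_mul h1
  have key : ∀ y : F, y ^ m * f ∈ S → y * g⁻¹ ∈ W := by
    intro y hy
    apply mem_of_pow_mem hm
    have : (y * g⁻¹) ^ m = y ^ m * f * (f * g ^ m)⁻¹ := by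
      rw [mul_pow, inv_pow]
      field_simp
    rw [this]
    exact W.mul_mem _ _ (hSW hy) h3
  have h4 : (z + w) * g⁻¹ ∈ W := by
    rw [add_mul]
    exact W.add_mem _ _ (key z hz) (key w hw)
  have h5 : (z + w) ^ m * f = ((z + w) * g⁻¹) ^ m * (f * g ^ m) := by
    rw [mul_pow, inv_pow]
    field_simp
  rw [h5]
  exact W.mul_mem _ _ (pow_mem h4 _) h2

/-- Vertical valuation rings: rank one valuation rings in which `ϖ` is a nonunit. -/
structure Vert {ι : Type*} (V : ι → ValuationSubring F) (ϖ : F) : Prop where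
  ne_zero : ϖ ≠ 0
  mem : ∀ i, ϖ ∈ V i
  res : ∀ i, rv (V i) ϖ = 0
  rk : ∀ i, ∀ z ∈ V i, rv (V i) z = 0 → ∃ e : ℕ, z ^ e * ϖ⁻¹ ∈ V i
  arch : ∀ i, ∀ z : F, ∃ n : ℕ, ϖ ^ n * z ∈ V i

/-- Data for a chart; the ring of the chart is `R = S ⊓ vert V`. -/
structure Chart {ι : Type*} (V : ι → ValuationSubring F) (ϖ : F) (S : Subring F) : Prop where
  ϖ_mem : ϖ ∈ S
  ϖ_inv : ϖ⁻¹ ∈ S
  /-- `S` is integrally closed -/
  closed : ∀ z : F, IsIntegral S z → z ∈ S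
  /-- every element of `F` is a fraction of elements of `R = S ⊓ B` -/
  frac : ∀ z : F, ∃ b ∈ S ⊓ vert V, b ≠ 0 ∧ b * z ∈ S ⊓ vert V
  /-- `B` is a localization of `R` -/
  loc : ∀ b : F, (∀ i, b ∈ V i) → ∃ c ∈ S ⊓ vert V, (∀ i, rv (V i) c ≠ 0) ∧ c * b ∈ S ⊓ vert V
  /-- the images of `R` in the residue fields are closed under roots -/
  root : ∀ (i : ι) (m : ℕ), m ≠ 0 → ∀ (b : ResidueField (V i)), ∀ a ∈ S ⊓ vert V,
    b ^ m = rv (V i) a → ∃ a' ∈ S ⊓ vert V, b = rv (V i) a'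
  /-- local factoriality -/
  ufd : ∀ s : Ideal (S ⊓ vert V : Subring F), s.IsMaximal → (∀ a : (S ⊓ vert V : Subring F),
    (a : F) = ϖ → a ∈ s) → ∀ [s.IsPrime], UniqueFactorizationMonoid (locSub _ s)

/-- The gluing condition at a local ring `O` (of a closed point of the special fibre):
there are a local generator `w` of `f` and representatives `τ i ∈ O` of `rv (V i) w * u i` for
the components `i` through the point, all with the same value at the point. -/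
def GluedAt {ι : Type*} (V : ι → ValuationSubring F) (m : ℕ) (f : F)
    (u : ∀ i, ResidueField (V i)) (O : Subring F) [IsLocalRing O] : Prop :=
  ∃ w : F, w ≠ 0 ∧ w ^ m * f ∈ O ∧ (w ^ m * f)⁻¹ ∈ O ∧ ∃ τ : ι → O,
    (∀ i, (∀ z ∈ O, z ∈ V i) → rv (V i) (τ i) = rv (V i) w * u i) ∧
    ∀ i j, (∀ z ∈ O, z ∈ V i) → (∀ z ∈ O, z ∈ V j) → τ i - τ j ∈ maximalIdeal O

/-- The gluing condition at all closed points of the special fibre of a chart. -/
def Glued {ι : Type*} (V : ι → ValuationSubring F) (ϖ : F) (S : Subring F) (m : ℕ) (f : F)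
    (u : ∀ i, ResidueField (V i)) : Prop :=
  ∀ (s : Ideal (S ⊓ vert V : Subring F)) [s.IsPrime], s.IsMaximal →
    (∀ a : (S ⊓ vert V : Subring F), (a : F) = ϖ → a ∈ s) → GluedAt V m f u (locSub _ s)

theorem le_of_locSub {R : Subring F} {s : Ideal R} [s.IsPrime] {V : ValuationSubring F}
    (hRV : ∀ z ∈ R, z ∈ V) (h : ∀ a : R, rv V a = 0 → a ∈ s) : ∀ z ∈ locSub R s, z ∈ V := by
  rintro z ⟨d, hd, hdz⟩
  have hd' : rv V d ≠ 0 := fun h1 => hd (h d h1)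
  have h1 : z = (d : F)⁻¹ * (d * z) := by
    rw [inv_mul_cancel_left₀ (ne_zero_of_notMem _ s hd)]
  rw [h1]
  exact V.mul_mem _ _ (rv_ne_zero_iff.1 hd').2.2 (hRV _ hdz)

theorem rv_eq_zero_mem_of_le {O : Subring F} [IsLocalRing O] {V : ValuationSubring F}
    (hOV : ∀ z ∈ O, z ∈ V) (z : O) (hz : rv V z = 0) : z ∈ maximalIdeal O := by
  rw [mem_maximalIdeal, mem_nonunits_iff]
  rintro ⟨v, rfl⟩
  have h1 : (v : O) * (↑v⁻¹ : O) = 1 := Units.mul_inv v
  have h2 : ((v : O) : F) * ((↑v⁻¹ : O) : F) = 1 := congrArg Subtype.val h1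
  have h3 : rv V (((v : O) : F) * ((↑v⁻¹ : O) : F)) = 1 := by rw [h2, rv_one]
  rw [rv_mul (hOV _ (v : O).2) (hOV _ (↑v⁻¹ : O).2), hz, zero_mul] at h3
  exact zero_ne_one h3

theorem mem_of_le_locSub {R : Subring F} {s : Ideal R} [s.IsPrime] {V : ValuationSubring F}
    (h : ∀ z ∈ locSub R s, z ∈ V) (a : R) (ha : rv V a = 0) : a ∈ s := by
  by_contra has
  have h1 : rv V ((a : F) * (a : F)⁻¹) = 1 := by
    rw [mul_inv_cancel₀ (ne_zero_of_notMem _ s has), rv_one]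
  rw [rv_mul (h _ (le_locSub R s a.2)) (h _ (inv_mem_locSub R s has)), ha, zero_mul] at h1
  exact zero_ne_one h1

variable {ι : Type*} [Finite ι]

section

variable {V : ι → ValuationSubring F} {ϖ : F} {S : Subring F} (hV : Vert V ϖ)
    (hSc : Chart V ϖ S)

include hV hSc

theorem Chart.rad {b : F} (hbS : b ∈ S) (hbV : ∀ i, b ∈ V i) (hb : ∀ i, rv (V i) b = 0) :
    ∃ (e : ℕ) (b' : F), b' ∈ S ∧ (∀ i, b' ∈ V i) ∧ b ^ e = ϖ * b' := by
  classical
  cases nonempty_fintype ι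
  have hϖ0 := hV.ne_zero
  have h1 : ∀ i, ∃ e : ℕ, b ^ e * ϖ⁻¹ ∈ V i := fun i => hV.rk i _ (hbV i) (hb i)
  choose e he using h1
  let E := Finset.univ.sup e
  have h2 : ∀ i, b ^ E * ϖ⁻¹ ∈ V i := by
    intro i
    obtain ⟨d, hd⟩ := Nat.exists_eq_add_of_le (Finset.le_sup (f := e) (Finset.mem_univ i))
    have h3 : b ^ E * ϖ⁻¹ = b ^ d * (b ^ e i * ϖ⁻¹) := by
      change b ^ (Finset.univ.sup e) * ϖ⁻¹ = _
      rw [hd, pow_add]; ring
    rw [h3]
    exact (V i).mul_mem _ _ (pow_mem (hbV i) _) (he i)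
  refine ⟨E, b ^ E * ϖ⁻¹, S.mul_mem (S.pow_mem hbS _) hSc.ϖ_inv, h2, ?_⟩
  field_simp

theorem Chart.mem_of_R {W : ValuationSubring F} (hRW : ∀ z ∈ S ⊓ vert V, z ∈ W)
    (hϖW : ϖ⁻¹ ∈ W) : ∀ z ∈ S, z ∈ W := by
  classical
  cases nonempty_fintype ι
  have hϖ0 := hV.ne_zero
  intro z hz
  choose n hn using fun i => hV.arch i z
  let E := Finset.univ.sup n
  have h2 : ∀ i, ϖ ^ E * z ∈ V i := by
    intro i
    obtain ⟨d, hd⟩ := Nat.exists_eq_add_of_le (Finset.le_sup (f := n) (Finset.mem_univ i))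
    have h3 : ϖ ^ E * z = ϖ ^ d * (ϖ ^ n i * z) := by
      change ϖ ^ (Finset.univ.sup n) * z = _
      rw [hd, pow_add]; ring
    rw [h3]
    exact (V i).mul_mem _ _ (pow_mem (hV.mem i) _) (hn i)
  have h4 : ϖ ^ E * z ∈ S ⊓ vert V := ⟨S.mul_mem (S.pow_mem hSc.ϖ_mem _) hz, h2⟩
  have h5 : z = (ϖ⁻¹) ^ E * (ϖ ^ E * z) := by
    rw [← mul_assoc, ← mul_pow, inv_mul_cancel₀ hϖ0, one_pow, one_mul]
  rw [h5]
  exact W.mul_mem _ _ (pow_mem hϖW _) (hRW _ h4)

/-- Existence of a local generator at every closed point of the special fibre. -/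
theorem Chart.exists_generator {m : ℕ} (hm : m ≠ 0)
    {f : F} (hf0 : f ≠ 0) (hfi : ∀ i, rv (V i) f ≠ 0)
    (hhor : ∀ W : ValuationSubring F, (∀ z ∈ S, z ∈ W) → ∃ g : F, rv W (f * g ^ m) ≠ 0)
    (s : Ideal (S ⊓ vert V : Subring F)) [s.IsPrime] (hs : s.IsMaximal)
    (hϖs : ∀ a : (S ⊓ vert V : Subring F), (a : F) = ϖ → a ∈ s) :
    ∃ w : F, w ≠ 0 ∧ w ^ m * f ∈ locSub _ s ∧ (w ^ m * f)⁻¹ ∈ locSub _ s := by
  refine exists_generator_at (S ⊓ vert V) s V hm hf0 hfi (fun i z hz => hz.2 i)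
        (by
          intro z
          obtain ⟨b, hb, hb0, hbz⟩ := hSc.frac z
          exact ⟨b, hb, hb0, hbz⟩) ⟨ϖ, hSc.ϖ_mem, hV.mem⟩ hV.ne_zero hV.res ?_
        (by
          intro b hb
          obtain ⟨c, hc, hc1, hc2⟩ := hSc.loc b hb
          exact ⟨⟨c, hc⟩, hc1, hc2⟩) (hSc.ufd s hs hϖs)
        (fun W h1 h2 => hhor W fun z hz => hSc.mem_of_R hV h1 h2 z hz)
  intro b hb
  obtain ⟨e, b', h1, h2, h3⟩ := hSc.rad hV b.2.1 b.2.2 hb
  exact ⟨e, ⟨b', h1, h2⟩, Subtype.ext h3⟩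

omit [Finite ι] hV in
/-- Existence of the representatives `τ`. -/
theorem Chart.exists_tau {m : ℕ} (hm : m ≠ 0)
    {f : F} (hfi : ∀ i, rv (V i) f ≠ 0) (u : ∀ i, ResidueField (V i))
    (hu : ∀ i, u i ^ m = rv (V i) f)
    (s : Ideal (S ⊓ vert V : Subring F)) [s.IsPrime] {w : F} (hw : w ^ m * f ∈ locSub _ s) :
    ∃ τ : ι → locSub _ s, ∀ i, (∀ z ∈ locSub _ s, z ∈ V i) →
      rv (V i) (τ i) = rv (V i) w * u i := by
  classical
  have hfV : ∀ i, f ∈ V i := fun i => (rv_ne_zero_iff.1 (hfi i)).2.1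
  have hfV' : ∀ i, f⁻¹ ∈ V i := fun i => (rv_ne_zero_iff.1 (hfi i)).2.2
  have key : ∀ i, (∀ z ∈ locSub _ s, z ∈ V i) → ∃ τ : locSub _ s,
      rv (V i) τ = rv (V i) w * u i := by
    intro i hi
    have hwV : w ∈ V i := by
      apply mem_of_pow_mem hm
      have hf0 : f ≠ 0 := (rv_ne_zero_iff.1 (hfi i)).1
      have : w ^ m = (w ^ m * f) * f⁻¹ := by field_simp
      rw [this]
      exact (V i).mul_mem _ _ (hi _ hw) (hfV' i)
    obtain ⟨d, hd, hdw⟩ := hw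
    have hRV : ∀ z ∈ S ⊓ vert V, z ∈ V i := fun z hz => hz.2 i
    have hd' : rv (V i) d ≠ 0 := fun h => hd (mem_of_le_locSub hi d h)
    obtain ⟨m', hm'⟩ : ∃ m', m = m' + 1 := Nat.exists_eq_succ_of_ne_zero hm
    obtain ⟨a', ha', hba⟩ := hSc.root i m hm (rv (V i) d * (rv (V i) w * u i))
      ((d : F) ^ m' * (d * (w ^ m * f))) ((S ⊓ vert V).mul_mem ((S ⊓ vert V).pow_mem d.2 _) hdw)
      (by
        have e1 : (d : F) ^ m' * (d * (w ^ m * f)) = (d : F) ^ m * (w ^ m * f) := by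
          rw [hm', pow_succ]; ring
        rw [e1, rv_mul (pow_mem (hRV _ d.2) _)
          ((V i).mul_mem _ _ (pow_mem hwV _) (hfV i)), rv_pow (hRV _ d.2),
          rv_mul (pow_mem hwV _) (hfV i), rv_pow hwV, ← hu i]
        ring)
    refine ⟨⟨a' * (d : F)⁻¹, (locSub _ s).mul_mem (le_locSub _ s ha') (inv_mem_locSub _ s hd)⟩, ?_⟩
    change rv (V i) (a' * (d : F)⁻¹) = _
    rw [rv_mul (hRV _ ha') (rv_ne_zero_iff.1 hd').2.2, rv_inv, ← hba]
    field_simp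
  choose! τ hτ using key
  exact ⟨τ, hτ⟩

/-- In a chart, the `m`-th roots of the residues of `f` lift. -/
theorem Chart.exists_lift
    {m : ℕ} (hm : m ≠ 0) {c : F} (hcS : c ∈ S) (hcV : ∀ i, c ∈ V i) (hmc : (m : F) * c = 1)
    {f : F} (hf0 : f ≠ 0) (hfi : ∀ i, rv (V i) f ≠ 0)
    (hhor : ∀ W : ValuationSubring F, (∀ z ∈ S, z ∈ W) → ∃ g : F, rv W (f * g ^ m) ≠ 0)
    (u : ∀ i, ResidueField (V i)) (hu : ∀ i, u i ^ m = rv (V i) f) (hglue : Glued V ϖ S m f u) :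
    ∃ y : F, y ^ m * f ∈ S ∧ (∀ i, y ∈ V i) ∧ ∀ i, rv (V i) y * u i = 1 := by
  classical
  cases nonempty_fintype ι
  have hϖ0 := hV.ne_zero
  have hfV : ∀ i, f ∈ V i := fun i => (rv_ne_zero_iff.1 (hfi i)).2.1
  have hfV' : ∀ i, f⁻¹ ∈ V i := fun i => (rv_ne_zero_iff.1 (hfi i)).2.2
  have hRV : ∀ i, ∀ z ∈ S ⊓ vert V, z ∈ V i := fun i z hz => hz.2 i
  have hRB : S ⊓ vert V ≤ vert V := inf_le_right
  let ϖR : (S ⊓ vert V : Subring F) := ⟨ϖ, hSc.ϖ_mem, hV.mem⟩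
  let ρ : ∀ i, vert V →+* ResidueField (V i) := fun i =>
    (residue (V i)).comp
      ({ toFun := fun z => ⟨z, z.2 i⟩
         map_one' := rfl
         map_zero' := rfl
         map_mul' := fun _ _ => rfl
         map_add' := fun _ _ => rfl } : vert V →+* V i)
  have hρ : ∀ i (z : F) (hz : z ∈ vert V), ρ i ⟨z, hz⟩ = rv (V i) z :=
    fun i z hz => (rv_of_mem (hz i)).symm
  -- global gluing
  have hglob := glue_global (R := S ⊓ vert V) (B := vert V) hRB hm (f := f) (by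
    intro z w hz hw h1 h2
    refine ⟨add_pow_mul_mem hSc.closed hm hhor h1.1 h2.1, fun i => ?_⟩
    exact (V i).mul_mem _ _ (pow_mem ((V i).add_mem _ _ (hz i) (hw i)) _) (hfV i)) ϖR ρ
    (fun i => by rw [hρ]; exact hV.res i) u (by
      intro s hs hϖs
      have hsP : s.IsPrime := hs.isPrime
      have hϖs' : ∀ a : (S ⊓ vert V : Subring F), (a : F) = ϖ → a ∈ s := by
        intro a ha
        rwa [show a = ϖR from Subtype.ext ha]
      obtain ⟨w, hw0, hw, hw', τ, hτ, hττ⟩ := hglue s hs hϖs'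
      -- components through s
      let C : Finset ι := Finset.univ.filter fun i => ∀ z ∈ locSub _ s, z ∈ V i
      have hmemC : ∀ i, i ∈ C ↔ ∀ z ∈ locSub _ s, z ∈ V i := by
        intro i; simp [C]
      have hCn : ∀ i ∉ C, ∃ a : (S ⊓ vert V : Subring F), a ∉ s ∧ rv (V i) a = 0 := by
        intro i hi
        by_contra hcon
        push Not at hcon
        exact hi ((hmemC i).2 (le_of_locSub (hRV i) fun a ha => by
          by_contra has
          exact hcon a has ha))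
      have hCne : C.Nonempty := by
        by_contra hcon
        rw [Finset.not_nonempty_iff_eq_empty] at hcon
        have h1 : ∀ i, ∃ a : (S ⊓ vert V : Subring F), a ∉ s ∧ rv (V i) a = 0 :=
          fun i => hCn i (by rw [hcon]; exact Finset.notMem_empty i)
        choose a ha ha' using h1
        have h2 : ∀ i, rv (V i) ((∏ j, a j : (S ⊓ vert V : Subring F)) : F) = 0 := by
          intro i
          have : ((∏ j, a j : (S ⊓ vert V : Subring F)) : F) = ∏ j, (a j : F) := by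
            change ((S ⊓ vert V).subtype (∏ j, a j)) = _
            rw [map_prod]; rfl
          rw [this, rv_prod _ _ (fun j _ => hRV i _ (a j).2)]
          exact Finset.prod_eq_zero (Finset.mem_univ i) (ha' i)
        obtain ⟨e, b', hb'S, hb'V, hb'⟩ := hSc.rad hV (∏ j, a j : (S ⊓ vert V : Subring F)).2.1
          (∏ j, a j : (S ⊓ vert V : Subring F)).2.2 h2
        have h3 : (∏ j, a j) ^ e ∈ s := by
          have : (∏ j, a j) ^ e = ϖR * ⟨b', hb'S, hb'V⟩ := Subtype.ext hb'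
          rw [this]; exact s.mul_mem_right _ hϖs
        have h4 : (∏ j, a j) ∈ s := hsP.mem_of_pow_mem _ h3
        obtain ⟨j, -, hj⟩ := (Ideal.IsPrime.prod_mem_iff).1 h4
        exact ha j hj
      have hwV : ∀ i ∈ C, w ∈ V i := by
        intro i hi
        apply mem_of_pow_mem hm
        have : w ^ m = (w ^ m * f) * f⁻¹ := by field_simp
        rw [this]
        exact (V i).mul_mem _ _ ((hmemC i).1 hi _ hw) (hfV' i)
      obtain ⟨i₀, hi₀⟩ := hCne
      have hεu : IsUnit (⟨w ^ m * f, hw⟩ : locSub _ s) := by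
        refine IsUnit.of_mul_eq_one ⟨_, hw'⟩ ?_
        apply Subtype.ext
        exact mul_inv_cancel₀ (mul_ne_zero (pow_ne_zero _ hw0) hf0)
      have hβ : IsUnit (τ i₀) := by
        by_contra hcon
        have h1 : τ i₀ ∈ maximalIdeal (locSub _ s) := (mem_maximalIdeal _).2 hcon
        have h2 : τ i₀ ^ m - ⟨w ^ m * f, hw⟩ ∈ maximalIdeal (locSub _ s) := by
          apply rv_eq_zero_mem_of_le ((hmemC i₀).1 hi₀)
          change rv (V i₀) ((τ i₀ : F) ^ m - w ^ m * f) = 0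
          rw [rv_sub (pow_mem ((hmemC i₀).1 hi₀ _ (τ i₀).2) _) ((hmemC i₀).1 hi₀ _ hw),
            rv_pow ((hmemC i₀).1 hi₀ _ (τ i₀).2), hτ i₀ ((hmemC i₀).1 hi₀), mul_pow, hu,
            rv_mul (pow_mem (hwV i₀ hi₀) _) (hfV i₀), rv_pow (hwV i₀ hi₀), sub_self]
        have h3 : (⟨w ^ m * f, hw⟩ : locSub _ s) ∈ maximalIdeal (locSub _ s) := by
          have : (⟨w ^ m * f, hw⟩ : locSub _ s) = τ i₀ ^ m - (τ i₀ ^ m - ⟨w ^ m * f, hw⟩) := by ring
          rw [this]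
          refine (maximalIdeal (locSub _ s)).sub_mem ?_ h2
          exact Ideal.pow_mem_of_mem _ h1 _ (Nat.pos_of_ne_zero hm)
        exact (mem_nonunits_iff.1 ((mem_maximalIdeal _).1 h3)) hεu
      have hmO : IsUnit (m : locSub _ s) := by
        refine IsUnit.of_mul_eq_one ⟨c, le_locSub _ s ⟨hcS, hcV⟩⟩ ?_
        apply Subtype.ext
        push_cast
        exact hmc
      obtain ⟨cc, hcc, z, hz1, hz2, hz3⟩ := glue_local V hm hfi (S ⊓ vert V) hRV s (locSub _ s)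
        (fun z hz => hz) hmO C ⟨i₀, hi₀⟩ (fun i hi => (hmemC i).1 hi) hCn u hu hwV hw hβ τ (by
          intro i hi
          exact hττ i i₀ ((hmemC i).1 hi) ((hmemC i₀).1 hi₀))
        (fun i hi => (hτ i ((hmemC i).1 hi)).symm)
      refine ⟨cc, hcc, z, hz1, hz2, fun i => ?_⟩
      exact (congrArg (· * u i) (hρ i z hz2)).trans ((hz3 i).trans (hρ i cc (hRB cc.2)).symm))
  obtain ⟨y, h1, h2, h3⟩ := hglob
  refine ⟨y, h1.1, h2, fun i => ?_⟩
  rw [← hρ i y h2]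
  exact h3 i

end

/-- KEY THEOREM: if `f` is an `m`-th power up to units at all places of both charts, all its
vertical residues are `m`-th powers, glued along the special fibre, then `f` is a constant times
an `m`-th power. -/
theorem key_theorem [Nonempty ι] {A0 : Type*} [CommRing A0] [IsNoetherianRing A0] [Algebra A0 F] (ϖ : A0)
    {m : ℕ} (hm : m ≠ 0) {c : A0} (hmc : (m : A0) * c = 1) {V : ι → ValuationSubring F}
    (hV : Vert V (algebraMap A0 F ϖ)) {S₁ S₂ : Subring F}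
    (hS₁ : Chart V (algebraMap A0 F ϖ) S₁) (hS₂ : Chart V (algebraMap A0 F ϖ) S₂)
    (hA1 : ∀ a : A0, algebraMap A0 F a ∈ S₁) (hA2 : ∀ a : A0, algebraMap A0 F a ∈ S₂)
    (hAV : ∀ (a : A0) i, algebraMap A0 F a ∈ V i) {x : F}
    (hx0 : x ≠ 0) (hx1 : x ∈ S₁) (hx2 : x⁻¹ ∈ S₂) (hxV : ∀ i, x ∈ V i) (hxV' : ∀ i, x⁻¹ ∈ V i)
    (h12 : ∀ z ∈ S₁, ∃ e : ℕ, x⁻¹ ^ e * z ∈ S₂) (h21 : ∀ z ∈ S₂, ∃ e : ℕ, x ^ e * z ∈ S₁)
    (hconst : ∀ z, z ∈ S₁ → z ∈ S₂ → (∀ i, z ∈ V i) → ∃ a : A0, algebraMap A0 F a = z)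
    (hfin : ∃ s : Finset F, ∀ z ∈ S₁, (∀ i, z ∈ V i) →
      z ∈ Submodule.span (Algebra.adjoin A0 {x}) (s : Set F))
    {f : F} (hf0 : f ≠ 0) (hfi : ∀ i, rv (V i) f ≠ 0)
    (hhor1 : ∀ W : ValuationSubring F, (∀ z ∈ S₁, z ∈ W) → ∃ g : F, rv W (f * g ^ m) ≠ 0)
    (hhor2 : ∀ W : ValuationSubring F, (∀ z ∈ S₂, z ∈ W) → ∃ g : F, rv W (f * g ^ m) ≠ 0)
    (u : ∀ i, ResidueField (V i)) (hu : ∀ i, u i ^ m = rv (V i) f)
    (hg1 : Glued V (algebraMap A0 F ϖ) S₁ m f u) (hg2 : Glued V (algebraMap A0 F ϖ) S₂ m f u) :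
    ∃ (a : A0) (w : F), w ≠ 0 ∧ f = algebraMap A0 F a * w ^ m := by
  classical
  cases nonempty_fintype ι
  have hmcF : (m : F) * algebraMap A0 F c = 1 := by
    rw [← map_natCast (algebraMap A0 F), ← map_mul, hmc, map_one]
  obtain ⟨y₁, h1, h1V, h1u⟩ := hS₁.exists_lift hV hm (hA1 c) (hAV c) hmcF hf0 hfi hhor1 u hu hg1
  obtain ⟨y₂, h2, h2V, h2u⟩ := hS₂.exists_lift hV hm (hA2 c) (hAV c) hmcF hf0 hfi hhor2 u hu hg2
  have hfV : ∀ i, f ∈ V i := fun i => (rv_ne_zero_iff.1 (hfi i)).2.1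
  have hfV' : ∀ i, f⁻¹ ∈ V i := fun i => (rv_ne_zero_iff.1 (hfi i)).2.2
  have hu0 : ∀ i, u i ≠ 0 := by
    intro i h0
    apply hfi i
    rw [← hu i, h0, zero_pow hm]
  let ρ : ∀ i, vert V →+* ResidueField (V i) := fun i =>
    (residue (V i)).comp
      ({ toFun := fun z => ⟨z, z.2 i⟩
         map_one' := rfl
         map_zero' := rfl
         map_mul' := fun _ _ => rfl
         map_add' := fun _ _ => rfl } : vert V →+* V i)
  have hρ : ∀ i (z : vert V), ρ i z = rv (V i) z :=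
    fun i z => (rv_of_mem (z.2 i)).symm
  refine key_lemma ϖ hm hmc (vert V) S₁ S₂ hA1 hA2 hAV hV.ne_zero hS₁.ϖ_inv hx0 hx1 hx2 hxV hxV'
    h12 h21 hconst ρ ?_ ?_ ?_ hf0 hfV hfV' (fun z w => add_pow_mul_mem hS₁.closed hm hhor1)
    (fun z w => add_pow_mul_mem hS₂.closed hm hhor2) ?_ ?_ hfin h1 h2 h1V h2V ?_ ?_
  · intro b hb i
    have := hb i
    rw [hρ] at this
    exact (rv_ne_zero_iff.1 this).2.2
  · intro b hb
    have hb' : ∀ i, rv (V i) b = 0 := fun i => by rw [← hρ]; exact hb i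
    have h1 : ∀ i, ∃ e : ℕ, (b : F) ^ e * (algebraMap A0 F ϖ)⁻¹ ∈ V i :=
      fun i => hV.rk i _ (b.2 i) (hb' i)
    choose e he using h1
    let E := Finset.univ.sup e
    have h2 : ∀ i, (b : F) ^ E * (algebraMap A0 F ϖ)⁻¹ ∈ V i := by
      intro i
      obtain ⟨d, hd⟩ := Nat.exists_eq_add_of_le (Finset.le_sup (f := e) (Finset.mem_univ i))
      have h3 : (b : F) ^ E * (algebraMap A0 F ϖ)⁻¹ =
          (b : F) ^ d * ((b : F) ^ e i * (algebraMap A0 F ϖ)⁻¹) := by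
        change (b : F) ^ (Finset.univ.sup e) * (algebraMap A0 F ϖ)⁻¹ = _
        rw [hd, pow_add]; ring
      rw [h3]
      exact (V i).mul_mem _ _ (pow_mem (b.2 i) _) (he i)
    refine ⟨E, ⟨(b : F) ^ E * (algebraMap A0 F ϖ)⁻¹, h2⟩, ?_⟩
    have := hV.ne_zero
    change (b : F) ^ E = algebraMap A0 F ϖ * ((b : F) ^ E * (algebraMap A0 F ϖ)⁻¹)
    field_simp
  · intro i
    rw [hρ]
    exact hV.res i
  · intro z hz
    apply hS₁.closed
    refine ⟨Polynomial.X ^ m - Polynomial.C (⟨z ^ m, hz⟩ : S₁), Polynomial.monic_X_pow_sub_C _ hm, ?_⟩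
    rw [Polynomial.eval₂_sub, Polynomial.eval₂_pow, Polynomial.eval₂_X, Polynomial.eval₂_C]
    exact sub_self _
  · obtain ⟨b, hb, hb0, hbf⟩ := hS₁.frac f
    exact ⟨b, hb0, hb.1, hb.2, by rw [mul_comm]; exact hbf.1⟩
  · intro i
    rw [hρ]
    change rv (V i) (y₁ ^ m * f) = 1
    rw [rv_mul (pow_mem (h1V i) _) (hfV i), rv_pow (h1V i), ← hu i, ← mul_pow, h1u i, one_pow]
  · intro i
    rw [hρ, hρ]
    change rv (V i) y₁ = rv (V i) y₂
    apply mul_right_cancel₀ (hu0 i)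
    rw [h1u, h2u]

end Fermat.Agent.H23.R
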