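import Fermat.Agent.H23.R.IntRel
import Fermat.Agent.RV.ChartV

/-!
# PROGRAM R (S36): lifts of reductions, chart `j`
-/

set_option autoImplicit false
set_option maxSynthPendingDepth 3
set_option linter.unusedSectionVars false

noncomputable section

attribute [-instance] HahnSeries.instModule HahnSeries.instSMul HahnSeries.instDistribMulAction
  HahnSeries.instSMulZeroClass

namespace Fermat.Agent.H23.R

open ModularCurve ModularCurve.IgusaScheme Polynomial AlgebraicCurve Fermat.Agent.H26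
  Fermat.Agent.H26.RV
open Fermat.Agent.H28 (modRed jZ jinvZ)
open Fermat.Agent.Q (Red)
open Fermat.Agent.Igusa (modPoly evZ modPoly_monic)

local notation "Qb" => AlgebraicClosure ℚ
local notation "kk" => IsLocalRing.ResidueField

/-! ### the function `j` -/

/-- the function `j` -/
abbrev jK (K : Type*) [Field K] [Algebra ℚ K] (N : ℕ) [NeZero N] :
    laurentBaseChange K (modularFunctionFieldFull N) := iotaK K N (jFull N)

theorem coe_jK (K : Type*) [Field K] [Algebra ℚ K] (N : ℕ) [NeZero N] :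
    ((jK K N : laurentBaseChange K (modularFunctionFieldFull N)) : LaurentSeries K) =
      jqModC K := by
  rw [coe_iotaK, coe_jFull, ← jqModC_rat, ← coeffMap_jqModC (algebraMap ℚ K)]
  ext n
  rw [coeffEmb_coeff, coeffMap_coeff]

theorem jK_ne_zero (K : Type*) [Field K] [Algebra ℚ K] (N : ℕ) [NeZero N] : jK K N ≠ 0 := by
  intro h
  have h1 := coe_jK K N
  rw [h] at h1
  have h2 : Igusa.jd K 1 ≠ 0 := Igusa.jd_ne_zero 1
  rw [Igusa.jd_one] at h2
  exact h2 h1.symm

section Alpha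

variable {K : Type*} [Field K] [Algebra ℚ K] {N : ℕ} [NeZero N] {q : ℕ} [hq : Fact q.Prime]

theorem alpha_jK [NeZero q] : heckeAlphaBar K N q (jK K N) = jK K (N * q) := by
  apply Subtype.ext
  rw [coe_heckeAlphaBar, coe_jK, coe_jK]

theorem mem_intSub_of_modPoly {R F : Type*} [CommRing R] [Field F] [Algebra R F] {x y : F}
    (h : (modPoly q).eval₂ (evZ x) y = 0) : y ∈ intSub R x := by
  have hx : x ∈ Algebra.adjoin R {x} := Algebra.subset_adjoin rfl
  refine ⟨(modPoly q).map (evZ (⟨x, hx⟩ : Algebra.adjoin R {x})), (modPoly_monic q).map _, ?_⟩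
  rw [eval₂_map, Igusa.ringHom_comp_evZ]
  exact h

theorem beta_jK_mem [NeZero q] {R : Type*} [CommRing R]
    [Algebra R (laurentBaseChange K (modularFunctionFieldFull (N * q)))] :
    heckeBetaBar K N q (jK K N) ∈ intSub R (jK K (N * q)) := by
  apply mem_intSub_of_modPoly (q := q)
  apply (laurentBaseChange K (modularFunctionFieldFull (N * q))).val.toRingHom.injective
  rw [Igusa.eval₂_evZ_map, map_zero]
  change (modPoly q).eval₂ (evZ ((jK K (N * q) : laurentBaseChange K
    (modularFunctionFieldFull (N * q))) : LaurentSeries K))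
    ((heckeBetaBar K N q (jK K N) : laurentBaseChange K
    (modularFunctionFieldFull (N * q))) : LaurentSeries K) = 0
  rw [coe_heckeBetaBar, coe_jK, coe_jK]
  exact H05.modPoly_eval_jr q K

theorem jK_mem_beta [NeZero q] {R : Type*} [CommRing R]
    [Algebra R (laurentBaseChange K (modularFunctionFieldFull (N * q)))] :
    jK K (N * q) ∈ intSub R (heckeBetaBar K N q (jK K N)) := by
  apply mem_intSub_of_modPoly (q := q)
  apply (laurentBaseChange K (modularFunctionFieldFull (N * q))).val.toRingHom.injective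
  rw [Igusa.eval₂_evZ_map, map_zero]
  change (modPoly q).eval₂ (evZ ((heckeBetaBar K N q (jK K N) : laurentBaseChange K
    (modularFunctionFieldFull (N * q))) : LaurentSeries K))
    ((jK K (N * q) : laurentBaseChange K
    (modularFunctionFieldFull (N * q))) : LaurentSeries K) = 0
  rw [coe_heckeBetaBar, coe_jK, coe_jK]
  exact H05.modPoly_eval_j q K

theorem intSub_le_intSub {R F : Type*} [CommRing R] [Field F] [Algebra R F] {x y : F}
    (h : x ∈ intSub R y) : intSub R x ≤ intSub R y := by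
  intro z hz
  exact intSub_le (fun z hz => intSub_closed hz) (fun a => algebraMap_mem_intSub a) h hz

theorem intSub_beta [NeZero q] {R : Type*} [CommRing R]
    [Algebra R (laurentBaseChange K (modularFunctionFieldFull (N * q)))] :
    intSub R (heckeBetaBar K N q (jK K N)) = intSub R (jK K (N * q)) :=
  le_antisymm (intSub_le_intSub beta_jK_mem) (intSub_le_intSub jK_mem_beta)

end Alpha

variable {q M : ℕ} [hq : Fact q.Prime] [NeZero M] (hqM : Nat.Coprime q M)
  {A : ValuationSubring Qb} (hA : A.LiesOverPrime q)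

include hA in
theorem qExpand_jqModC : qExpand (kk A) q (jqModC (kk A)) = jqModC (kk A) ^ q := by
  have := charP_kk (q := q) hA
  rw [Q.pow_char q, coeffMap_jqModC]

theorem cFrob_jqModC : cFrob A q (charP_kk hA) (jqModC (kk A)) = jqModC (kk A) :=
  coeffMap_jqModC _

theorem red_eb_jK (N : ℕ) [NeZero N] : Red A (eb (K0 A) N (jK (K0 A) N)) (jqModC (kk A)) := by
  have h1 : Red A (Igusa.jd Qb 1) (Igusa.jd (kk A) 1) := Q.red_jd 1
  rw [Igusa.jd_one, Igusa.jd_one] at h1
  rw [eb_apply, coe_jK]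
  have h2 : cEmb (K0 A) Qb (jqModC (K0 A)) = jqModC Qb := coeffMap_jqModC _
  rwa [h2]

theorem red_ie0_jK : Red A (ie hqM (K0 A) 0 (jK (K0 A) (M * q))) (jqModC (kk A)) := by
  rw [← alpha_jK, ie0_alpha]; exact red_eb_jK M

include hA in
theorem red_ie1_jK : Red A (ie hqM (K0 A) 1 (jK (K0 A) (M * q))) (jqModC (kk A) ^ q) := by
  rw [← alpha_jK, ie1_alpha, ← qExpand_jqModC hA]; exact (red_eb_jK M).qExpand q

theorem red_io0_jK : Red A (io hqM (K0 A) 0 (jK (K0 A) (M * q * q))) (jqModC (kk A)) := by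
  rw [← alpha_jK, io0_alpha]; exact red_ie0_jK hqM

theorem red_io1_jK : Red A (io hqM (K0 A) 1 (jK (K0 A) (M * q * q))) (jqModC (kk A)) := by
  rw [← alpha_jK, io1_alpha]; exact red_ie0_jK hqM

include hA in
theorem red_io2_jK : Red A (io hqM (K0 A) 2 (jK (K0 A) (M * q * q))) (jqModC (kk A) ^ q ^ 2) := by
  rw [← alpha_jK, io2_alpha]
  have h := (red_ie1_jK hqM hA).qExpand q
  rwa [map_pow, qExpand_jqModC hA, ← pow_mul, ← sq] at h

theorem io_algebraMap_A0 (i : Fin 3) (c : A0 A) :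
    io hqM (K0 A) i (algebraMap (A0 A) (LF (K0 A) (M * q * q)) c) =
      HahnSeries.C ((c : K0 A) : Qb) := io_algebraMap hqM (K0 A) i (c : K0 A)

theorem fin3_cases (i : Fin 3) : i = 0 ∨ i = 1 ∨ i = 2 := by
  fin_cases i <;> simp

include hA in
theorem exists_red_io_jK (i : Fin 3) :
    ∃ n : ℕ, Red A (io hqM (K0 A) i (jK (K0 A) (M * q * q))) (jqModC (kk A) ^ n) := by
  rcases fin3_cases i with rfl | rfl | rfl
  · exact ⟨1, by rw [pow_one]; exact red_io0_jK hqM⟩
  · exact ⟨1, by rw [pow_one]; exact red_io1_jK hqM⟩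
  · exact ⟨q ^ 2, red_io2_jK hqM hA⟩

include hA in
/-- the reductions of the functions integral over `A0[j]` are integral over `k[j]` -/
theorem intRel_io (i : Fin 3) {z : LF (K0 A) (M * q * q)} {u : LaurentSeries (kk A)}
    (h : z ∈ intSub (A0 A) (jK (K0 A) (M * q * q))) (hz : Red A (io hqM (K0 A) i z) u) :
    IntRel (kk A) (jqModC (kk A)) u := by
  obtain ⟨n, hn⟩ := exists_red_io_jK hqM hA i
  exact (intRel_of_mem (io_algebraMap_A0 hqM i) hn hz h).of_pow

theorem intRel_cFrob {u : LaurentSeries (kk A)} (h : IntRel (kk A) (jqModC (kk A)) u) :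
    IntRel (kk A) (jqModC (kk A)) (cFrob A q (charP_kk hA) u) := by
  have := charP_kk (q := q) hA
  have h1 := h.semilinear (cFrob A q (charP_kk hA)) (frobenius (kk A) q) (fun c => by
    rw [algebraMap_laurentSeries_eq_single, algebraMap_laurentSeries_eq_single]
    exact Igusa.coeffMap_C _ _)
  rwa [cFrob_jqModC hA] at h1

include hA in
/-- lifting of integral functions, chart `j`, level `M`. -/
theorem exists_lift_M (hG : GoodLvl q M) {u : LaurentSeries (kk A)} (hu : u ∈ LK A M)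
    (hi : IntRel (kk A) (jqModC (kk A)) u) :
    ∃ z ∈ intSub (A0 A) (jK (K0 A) M), Red A (eb (K0 A) M z) u := by
  have h1 : IsIntegral (Algebra.adjoin (kk A) {(modRed M A).ρ (jZ M A)})
      (⟨u, hu⟩ : modularFunctionFieldFullC (kk A) M) := by
    rw [← intRel_iff]
    refine IntRel.of_hom (modularFunctionFieldFullC (kk A) M).val.toRingHom (fun c => rfl) ?_
    have h2 : (modularFunctionFieldFullC (kk A) M).val.toRingHom ((modRed M A).ρ (jZ M A)) =
        jqModC (kk A) := H28.ρ_jZ M A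
    rw [h2]
    exact hi
  obtain ⟨z, hz, hzu⟩ := exists_lift_j hA hG.1 (H29.isChart_j hq.out hA hG) h1
  exact ⟨z, hz, hzu⟩

theorem alpha_mem {N : ℕ} [NeZero N] [NeZero q] {z : LF (K0 A) N}
    (hz : z ∈ intSub (A0 A) (jK (K0 A) N)) :
    heckeAlphaBar (K0 A) N q z ∈ intSub (A0 A) (jK (K0 A) (N * q)) := by
  rw [← alpha_jK]
  exact map_mem_intSub _ hz

theorem beta_mem {N : ℕ} [NeZero N] [NeZero q] {z : LF (K0 A) N}
    (hz : z ∈ intSub (A0 A) (jK (K0 A) N)) :
    heckeBetaBar (K0 A) N q z ∈ intSub (A0 A) (jK (K0 A) (N * q)) := by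
  rw [← intSub_beta]
  exact map_mem_intSub _ hz

include hA in
/-- lifting to level `M q`, first component. -/
theorem exists_lift_ie0 (hG : GoodLvl q M) {u : LaurentSeries (kk A)} (hu : u ∈ LK A M)
    (hi : IntRel (kk A) (jqModC (kk A)) u) :
    ∃ z ∈ intSub (A0 A) (jK (K0 A) (M * q)), Red A (ie hqM (K0 A) 0 z) u := by
  obtain ⟨z, hz, hzu⟩ := exists_lift_M hA hG hu hi
  exact ⟨_, alpha_mem hz, by rwa [ie0_alpha]⟩

include hA in
/-- lifting to level `M q`, second component. -/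
theorem exists_lift_ie1 (hG : GoodLvl q M) {u : LaurentSeries (kk A)} (hu : u ∈ LK A M)
    (hi : IntRel (kk A) (jqModC (kk A)) u) :
    ∃ z ∈ intSub (A0 A) (jK (K0 A) (M * q)), Red A (ie hqM (K0 A) 1 z) u := by
  obtain ⟨z, hz, hzu⟩ := exists_lift_M hA hG hu hi
  exact ⟨_, beta_mem hz, by rwa [ie1_beta]⟩

include hA in
/-- lifting to level `M q²`: the reductions of the chart ring. -/
theorem exists_lift_io (hG : GoodLvl q M) (i : Fin 3) {u : LaurentSeries (kk A)}
    (hu : u ∈ LK A M) (hi : IntRel (kk A) (jqModC (kk A)) u) :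
    ∃ z ∈ intSub (A0 A) (jK (K0 A) (M * q * q)), Red A (io hqM (K0 A) i z) u := by
  obtain ⟨z, hz, hzu⟩ := exists_lift_ie0 hqM hA hG hu hi
  obtain ⟨z', hz', hzu'⟩ := exists_lift_ie1 hqM hA hG hu hi
  rcases fin3_cases i with rfl | rfl | rfl
  · exact ⟨_, alpha_mem hz, by rw [io0_alpha]; exact hzu⟩
  · exact ⟨_, alpha_mem hz, by rw [io1_alpha]; exact hzu⟩
  · exact ⟨_, beta_mem hz', by rw [io2_beta]; exact hzu'⟩

/-- lifts along `α` -/
theorem lift_alpha (hG : GoodLvl q M)
    (hL : ∀ (i : Fin 3) (z : LF (K0 A) (M * q * q)) (u : LaurentSeries (kk A)),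
      Red A (io hqM (K0 A) i z) u → u ∈ LK A M) {R : Subring (LF (K0 A) (M * q * q))}
    (hR : ∀ z ∈ R, z ∈ intSub (A0 A) (jK (K0 A) (M * q * q))) :
    HalfLift (A0 A) (cFrob A q (charP_kk hA)) (jK (K0 A) (M * q)) R
      (fun z u => Red A (ie hqM (K0 A) 0 z) u) (fun z u => Red A (ie hqM (K0 A) 1 z) u)
      (fun z u => Red A (io hqM (K0 A) 0 z) u) (fun z u => Red A (io hqM (K0 A) 1 z) u)
      (fun z u => Red A (io hqM (K0 A) 2 z) u) where
  lift₁ {z u} hz h := exists_lift_ie0 hqM hA hG (hL 0 z u h) (intRel_io hqM hA 0 (hR z hz) h)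
  lift₂ {z u} hz h := exists_lift_ie0 hqM hA hG (hL 1 z u h) (intRel_io hqM hA 1 (hR z hz) h)
  lift₀ {z u} hz h := exists_lift_ie1 hqM hA hG (cFrob_mem hA (hL 2 z u h))
    (intRel_cFrob hA (intRel_io hqM hA 2 (hR z hz) h))

/-- lifts along `β` -/
theorem lift_beta (hG : GoodLvl q M)
    (hL : ∀ (i : Fin 3) (z : LF (K0 A) (M * q * q)) (u : LaurentSeries (kk A)),
      Red A (io hqM (K0 A) i z) u → u ∈ LK A M) {R : Subring (LF (K0 A) (M * q * q))}
    (hR : ∀ z ∈ R, z ∈ intSub (A0 A) (jK (K0 A) (M * q * q))) :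
    HalfLift (A0 A) (cFrob A q (charP_kk hA)) (jK (K0 A) (M * q)) R
      (fun z u => Red A (ie hqM (K0 A) 1 z) u) (fun z u => Red A (ie hqM (K0 A) 0 z) u)
      (fun z u => Red A (io hqM (K0 A) 2 z) u) (fun z u => Red A (io hqM (K0 A) 1 z) u)
      (fun z u => Red A (io hqM (K0 A) 0 z) u) where
  lift₁ {z u} hz h := exists_lift_ie1 hqM hA hG (hL 2 z u h) (intRel_io hqM hA 2 (hR z hz) h)
  lift₂ {z u} hz h := exists_lift_ie1 hqM hA hG (hL 1 z u h) (intRel_io hqM hA 1 (hR z hz) h)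
  lift₀ {z u} hz h := exists_lift_ie0 hqM hA hG (cFrob_mem hA (hL 0 z u h))
    (intRel_cFrob hA (intRel_io hqM hA 0 (hR z hz) h))

include hA in
/-- `Chart.root` for the chart `j`. -/
theorem root_j (hG : GoodLvl q M)
    (hL : ∀ (i : Fin 3) (z : LF (K0 A) (M * q * q)) (u : LaurentSeries (kk A)),
      Red A (io hqM (K0 A) i z) u → u ∈ LK A M)
    (i : Fin 3) (m : ℕ) (hm : m ≠ 0) (b : IsLocalRing.ResidueField (V hqM (K0 A) hA i))
    (a : LF (K0 A) (M * q * q)) (ha : a ∈ intSub (A0 A) (jK (K0 A) (M * q * q)))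
    (hb : b ^ m = rv (V hqM (K0 A) hA i) a) :
    ∃ a' ∈ intSub (A0 A) (jK (K0 A) (M * q * q)), b = rv (V hqM (K0 A) hA i) a' := by
  obtain ⟨y, hy, hyb⟩ := rv_surj b
  obtain ⟨w, hw⟩ := ((redV hqM hA i).mem_iff y).1 hy
  have haV : a ∈ V hqM (K0 A) hA i := by
    by_contra h
    rw [rv_of_not_mem h] at hb
    have : a ∈ V hqM (K0 A) hA i := by
      have hjm : jK (K0 A) (M * q * q) ∈ V hqM (K0 A) hA i := by
        obtain ⟨n, hn⟩ := exists_red_io_jK hqM hA i
        exact (redV hqM hA i).mem hn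
      exact intSub_le_valuationSubring (R := A0 A)
        (fun (c : A0 A) => (const_mem_V hqM hA i (c : K0 A)).2 c.2) hjm ha
    exact h this
  obtain ⟨v, hv⟩ := ((redV hqM hA i).mem_iff a).1 haV
  have h1 : w ^ m = v := by
    rw [← hyb, ← rv_pow hy] at hb
    exact ((redV hqM hA i).rv_eq_iff ((redV hqM hA i).pow hw m) hv).1 hb
  have h2 : IntRel (kk A) (jqModC (kk A)) w := by
    apply IntRel.root hm
    rw [h1]
    exact intRel_io hqM hA i ha hv
  obtain ⟨a', ha', ha'w⟩ := exists_lift_io hqM hA hG i (hL i y w hw) h2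
  exact ⟨a', ha', by rw [← hyb]; exact ((redV hqM hA i).rv_eq_iff hw ha'w).2 rfl⟩

end Fermat.Agent.H23.R
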