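import Fermat.Agent.H23.R.Chart2
import Fermat.Agent.H23.R.LConst
import Fermat.Agent.RV.FundK0

/-!
# PROGRAM R (S36): assembly
-/

set_option autoImplicit false
set_option maxSynthPendingDepth 3
set_option linter.unusedSectionVars false

noncomputable section

attribute [-instance] HahnSeries.instModule HahnSeries.instSMul HahnSeries.instDistribMulAction
  HahnSeries.instSMulZeroClass

namespace Fermat.Agent.H23.R

open ModularCurve ModularCurve.IgusaScheme Polynomial AlgebraicCurve Fermat.Agent.H26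
  Fermat.Agent.H26.RV IsLocalRing
open Fermat.Agent.H28 (modRed jZ jinvZ CR)
open Fermat.Agent.Q (Red)
open scoped IntermediateField

local notation "Qb" => AlgebraicClosure ℚ
local notation "kk" => IsLocalRing.ResidueField

variable {q M : ℕ} [hq : Fact q.Prime] [NeZero M] (hqM : Nat.Coprime q M)
  {A : ValuationSubring Qb} (hA : A.LiesOverPrime q)

/-- the first chart ring -/
abbrev R1 : Subring (LF (K0 A) (M * q * q)) :=
  intSub (K0 A) (jK (K0 A) (M * q * q)) ⊓ vert (V hqM (K0 A) hA)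

/-- the second chart ring -/
abbrev R2 : Subring (LF (K0 A) (M * q * q)) :=
  intSub (K0 A) (jK (K0 A) (M * q * q))⁻¹ ⊓ vert (V hqM (K0 A) hA)

/-- The local analysis in the first chart. -/
def Chart1 : Prop :=
  ∀ (s : Ideal (R1 hqM hA)) [s.IsPrime],
    (∀ a : R1 hqM hA, (a : LF (K0 A) (M * q * q)) = (q : LF (K0 A) (M * q * q)) → a ∈ s) →
    UniqueFactorizationMonoid (locSub _ s) ∧
    ∀ i j, i ≠ j → (∀ a : R1 hqM hA, rv (V hqM (K0 A) hA i) a = 0 → a ∈ s) →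
      (∀ a : R1 hqM hA, rv (V hqM (K0 A) hA j) a = 0 → a ∈ s) →
      ∀ l, ∀ a : R1 hqM hA, rv (V hqM (K0 A) hA l) a = 0 → a ∈ s

variable {hqM hA}

theorem VInput.mem_R1 (h : VInput hqM hA) (z : LF (K0 A) (M * q * q)) :
    z ∈ R1 hqM hA ↔ z ∈ intSub (A0 A) (jK (K0 A) (M * q * q)) := by
  have := isDVR_A0 hq.out hA
  rw [R1, h.ad₁.eq (irreducible_q hq.out hA)]

theorem VInput.mem_R2 (h : VInput hqM hA) (z : LF (K0 A) (M * q * q)) :
    z ∈ R2 hqM hA ↔ z ∈ intSub (A0 A) (jK (K0 A) (M * q * q))⁻¹ := by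
  have := isDVR_A0 hq.out hA
  rw [R2, h.ad₂.eq (irreducible_q hq.out hA)]

theorem q_mem_intSub {x : LF (K0 A) (M * q * q)} :
    (q : LF (K0 A) (M * q * q)) ∈ intSub (K0 A) x := natCast_mem _ q

theorem vert_q : Vert (V hqM (K0 A) hA) (q : LF (K0 A) (M * q * q)) := by
  have := vert_V hqM hA
  rwa [algebraMap_q] at this

theorem VInput.h12 (h : VInput hqM hA) (z : LF (K0 A) (M * q * q)) (hz : z ∈ R1 hqM hA) :
    ∃ e : ℕ, (jK (K0 A) (M * q * q))⁻¹ ^ e * z ∈ R2 hqM hA := by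
  obtain ⟨e, he⟩ := exists_pow_inv_mul_mem (R := A0 A) (jK_ne_zero (K0 A) (M * q * q))
    ((h.mem_R1 z).1 hz)
  exact ⟨e, (h.mem_R2 _).2 he⟩

theorem VInput.h21 (h : VInput hqM hA) (z : LF (K0 A) (M * q * q)) (hz : z ∈ R2 hqM hA) :
    ∃ e : ℕ, jK (K0 A) (M * q * q) ^ e * z ∈ R1 hqM hA := by
  obtain ⟨e, he⟩ := exists_pow_inv_mul_mem (R := A0 A)
    (inv_ne_zero (jK_ne_zero (K0 A) (M * q * q))) ((h.mem_R2 z).1 hz)
  rw [inv_inv] at he
  exact ⟨e, (h.mem_R1 _).2 he⟩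

/-- Points of the second chart with `X ≠ 0`. -/
theorem VInput.transfer (h : VInput hqM hA) (s : Ideal (R2 hqM hA)) [s.IsPrime]
    (hϖ : ∀ a : R2 hqM hA, (a : LF (K0 A) (M * q * q)) = (q : LF (K0 A) (M * q * q)) → a ∈ s)
    (hX : (jK (K0 A) (M * q * q))⁻¹ ∈ R2 hqM hA) (hXs : (⟨_, hX⟩ : R2 hqM hA) ∉ s) :
    ∃ (s' : Ideal (R1 hqM hA)) (_ : s'.IsPrime), locSub (R1 hqM hA) s' = locSub (R2 hqM hA) s ∧
      ∀ a : R1 hqM hA, (a : LF (K0 A) (M * q * q)) = (q : LF (K0 A) (M * q * q)) → a ∈ s' := by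
  obtain ⟨s', hs', h1, h2⟩ := locSub_transfer (jK_ne_zero (K0 A) (M * q * q))
    ((h.mem_R1 _).2 self_mem_intSub) hX h.h12 h.h21 s hXs
  refine ⟨s', hs', h1, ?_⟩
  intro a ha
  have hq2 : (q : LF (K0 A) (M * q * q)) ∈ R2 hqM hA := natCast_mem _ q
  have h3 := (h2 (q : LF (K0 A) (M * q * q)) (natCast_mem _ q) hq2).2 (hϖ ⟨_, hq2⟩ rfl)
  have h4 : a = ⟨(q : LF (K0 A) (M * q * q)), natCast_mem _ q⟩ := Subtype.ext ha
  rw [h4]
  exact h3

set_option maxHeartbeats 1000000 in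
/-- The local analysis in the second chart. -/
theorem VInput.chart2 (h : VInput hqM hA) (hc : Chart1 hqM hA) (s : Ideal (R2 hqM hA))
    [s.IsPrime]
    (hϖ : ∀ a : R2 hqM hA, (a : LF (K0 A) (M * q * q)) = (q : LF (K0 A) (M * q * q)) → a ∈ s) :
    UniqueFactorizationMonoid (locSub _ s) ∧
    ∀ i j, i ≠ j → (∀ a : R2 hqM hA, rv (V hqM (K0 A) hA i) a = 0 → a ∈ s) →
      (∀ a : R2 hqM hA, rv (V hqM (K0 A) hA j) a = 0 → a ∈ s) →
      ∃ (s' : Ideal (R1 hqM hA)) (_ : s'.IsPrime), locSub (R1 hqM hA) s' = locSub (R2 hqM hA) s ∧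
      ∀ a : R1 hqM hA, (a : LF (K0 A) (M * q * q)) = (q : LF (K0 A) (M * q * q)) → a ∈ s' := by
  have hX : (jK (K0 A) (M * q * q))⁻¹ ∈ R2 hqM hA := (h.mem_R2 _).2 self_mem_intSub
  by_cases hXs : (⟨_, hX⟩ : R2 hqM hA) ∈ s
  · obtain ⟨h1, h2⟩ := chart2_cusp hqM hA h s hϖ hX hXs
    exact ⟨h1, fun i j hij hi hj => absurd (h2 i j hi hj) hij⟩
  · obtain ⟨s', hs', h1, h2⟩ := h.transfer s hϖ hX hXs
    exact ⟨ufd_congr h1 (hc s' h2).1, fun i j _ _ _ => ⟨s', hs', h1, h2⟩⟩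

/-- Common points, along `α`. -/
theorem VInput.common_a (h : VInput hqM hA) (s : Ideal (R1 hqM hA)) [s.IsPrime]
    (hϖ : ∀ a : R1 hqM hA, (a : LF (K0 A) (M * q * q)) = (q : LF (K0 A) (M * q * q)) → a ∈ s)
    (hall : ∀ i, ∀ z ∈ locSub _ s, z ∈ V hqM (K0 A) hA i) :
    CommonPt q (heckeAlphaBar (K0 A) (M * q) q) (normHom (heckeAlphaBar (K0 A) (M * q) q))
      (V hqM (K0 A) hA 0) (V hqM (K0 A) hA 1) (V hqM (K0 A) hA 2) (locSub _ s) := by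
  refine commonPt_of_half (A0 := A0 A) (x := jK (K0 A) (M * q)) hq.out.ne_zero vert_q
    (q_inv_mem_intSub _) (natCast_mem _ q) ?_ ?_ (H05.finiteAlong_alpha _ _ _)
    (finrank_alpha_q (K0 A)) fin3_cases (fun i => redV hqM hA i) (redW hqM hA 0) (redW hqM hA 1)
    (half_alpha hqM hA h.hG h.hL) (lift_alpha hqM hA h.hG h.hL fun z hz => (h.mem_R1 z).1 hz) s hϖ
    hall
  · intro z
    rw [alpha_jK]
    exact h.mem_R1 z
  · exact ⟨(q : LF (K0 A) (M * q)), natCast_mem _ q, map_natCast _ _⟩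

/-- Common points, along `β`. -/
theorem VInput.common_b (h : VInput hqM hA) (s : Ideal (R1 hqM hA)) [s.IsPrime]
    (hϖ : ∀ a : R1 hqM hA, (a : LF (K0 A) (M * q * q)) = (q : LF (K0 A) (M * q * q)) → a ∈ s)
    (hall : ∀ i, ∀ z ∈ locSub _ s, z ∈ V hqM (K0 A) hA i) :
    CommonPt q (heckeBetaBar (K0 A) (M * q) q) (normHom (heckeBetaBar (K0 A) (M * q) q))
      (V hqM (K0 A) hA 2) (V hqM (K0 A) hA 1) (V hqM (K0 A) hA 0) (locSub _ s) := by
  refine commonPt_of_half (A0 := A0 A) (x := jK (K0 A) (M * q)) hq.out.ne_zero vert_q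
    (q_inv_mem_intSub _) (natCast_mem _ q) ?_ ?_ (H05.finiteAlong_beta _ _ _)
    (finrank_beta_q (K0 A)) (fun i => ?_) (fun i => redV hqM hA i) (redW hqM hA 1) (redW hqM hA 0)
    (half_beta hqM hA h.hG h.hL) (lift_beta hqM hA h.hG h.hL fun z hz => (h.mem_R1 z).1 hz) s hϖ
    hall
  · intro z
    rw [intSub_beta]
    exact h.mem_R1 z
  · exact ⟨(q : LF (K0 A) (M * q)), natCast_mem _ q, map_natCast _ _⟩
  · rcases fin3_cases i with h | h | h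
    · exact Or.inr (Or.inr h)
    · exact Or.inr (Or.inl h)
    · exact Or.inl h

theorem VInput.common₁ (h : VInput hqM hA) (hc : Chart1 hqM hA) (s : Ideal (R1 hqM hA))
    [s.IsPrime]
    (hϖ : ∀ a : R1 hqM hA, (a : LF (K0 A) (M * q * q)) = (q : LF (K0 A) (M * q * q)) → a ∈ s)
    (i j : Fin 3) (hij : i ≠ j) (hi : ∀ z ∈ locSub _ s, z ∈ V hqM (K0 A) hA i)
    (hj : ∀ z ∈ locSub _ s, z ∈ V hqM (K0 A) hA j) :
    (∀ k, ∀ z ∈ locSub _ s, z ∈ V hqM (K0 A) hA k) ∧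
    CommonPt q (heckeAlphaBar (K0 A) (M * q) q) (normHom (heckeAlphaBar (K0 A) (M * q) q))
      (V hqM (K0 A) hA 0) (V hqM (K0 A) hA 1) (V hqM (K0 A) hA 2) (locSub _ s) ∧
    CommonPt q (heckeBetaBar (K0 A) (M * q) q) (normHom (heckeBetaBar (K0 A) (M * q) q))
      (V hqM (K0 A) hA 2) (V hqM (K0 A) hA 1) (V hqM (K0 A) hA 0) (locSub _ s) := by
  have hRV : ∀ i, ∀ z ∈ R1 hqM hA, z ∈ V hqM (K0 A) hA i := fun i z hz => hz.2 i
  have hk := (hc s hϖ).2 i j hij (ker_le_of_mem (hRV i) s hi) (ker_le_of_mem (hRV j) s hj)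
  have hall : ∀ k, ∀ z ∈ locSub _ s, z ∈ V hqM (K0 A) hA k := fun k =>
    mem_of_ker_le (hRV k) s (hk k)
  exact ⟨hall, h.common_a s hϖ hall, h.common_b s hϖ hall⟩

theorem VInput.common₂ (h : VInput hqM hA) (hc : Chart1 hqM hA) (s : Ideal (R2 hqM hA))
    [s.IsPrime]
    (hϖ : ∀ a : R2 hqM hA, (a : LF (K0 A) (M * q * q)) = (q : LF (K0 A) (M * q * q)) → a ∈ s)
    (i j : Fin 3) (hij : i ≠ j) (hi : ∀ z ∈ locSub _ s, z ∈ V hqM (K0 A) hA i)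
    (hj : ∀ z ∈ locSub _ s, z ∈ V hqM (K0 A) hA j) :
    (∀ k, ∀ z ∈ locSub _ s, z ∈ V hqM (K0 A) hA k) ∧
    CommonPt q (heckeAlphaBar (K0 A) (M * q) q) (normHom (heckeAlphaBar (K0 A) (M * q) q))
      (V hqM (K0 A) hA 0) (V hqM (K0 A) hA 1) (V hqM (K0 A) hA 2) (locSub _ s) ∧
    CommonPt q (heckeBetaBar (K0 A) (M * q) q) (normHom (heckeBetaBar (K0 A) (M * q) q))
      (V hqM (K0 A) hA 2) (V hqM (K0 A) hA 1) (V hqM (K0 A) hA 0) (locSub _ s) := by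
  have hRV : ∀ i, ∀ z ∈ R2 hqM hA, z ∈ V hqM (K0 A) hA i := fun i z hz => hz.2 i
  obtain ⟨s', hs', h1, h2⟩ := (h.chart2 hc s hϖ).2 i j hij (ker_le_of_mem (hRV i) s hi)
    (ker_le_of_mem (hRV j) s hj)
  rw [← h1] at hi hj ⊢
  exact h.common₁ hc s' h2 i j hij hi hj

end Fermat.Agent.H23.R
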