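import Fermat.Agent.H23.R.CuspLoc
import Fermat.Agent.RV.LocalUfd

/-!
# PROGRAM R (S36): local factoriality at the cusps (abstract part)
-/

set_option autoImplicit false
set_option linter.unusedSectionVars false

noncomputable section

open IsLocalRing

namespace Fermat.Agent.H23.R

open Fermat.Agent.H26.RV

section

variable {F : Type*} [Field F] {V : Fin 3 → ValuationSubring F} {ϖ : F} {S : Subring F} {q : ℕ}

theorem mem_V_of_ker_le {i : Fin 3} (s : Ideal (S ⊓ vert V : Subring F)) [hs : s.IsPrime]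
    (hker : ∀ a : (S ⊓ vert V : Subring F), rv (V i) a = 0 → a ∈ s) :
    ∀ z ∈ locSub _ s, z ∈ V i := by
  rintro z ⟨d, hd, hdz⟩
  have hd0 := ne_zero_of_notMem _ s hd
  have h1 : rv (V i) d ≠ 0 := fun h => hd (hker d h)
  have h2 : z = (d : F)⁻¹ * (d * z) := by field_simp
  rw [h2]
  exact (V i).mul_mem _ _ (rv_ne_zero_iff.1 h1).2.2 (hdz.2 i)

/-- an element of `O` with zero residue is in the maximal ideal -/
theorem mem_max_of_rv {O : Subring F} [IsLocalRing O] {W : ValuationSubring F}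
    (hOV : ∀ z ∈ O, z ∈ W) {z : F} (hz : z ∈ O) (h : rv W z = 0) :
    (⟨z, hz⟩ : O) ∈ maximalIdeal O := by
  rw [mem_maximalIdeal, mem_nonunits_iff]
  intro hu
  have h1 := inv_mem_of_isUnit hz hu
  have hz0 : z ≠ 0 := by
    rintro rfl
    obtain ⟨v, hv⟩ := hu
    exact v.ne_zero (hv.trans rfl)
  exact (rv_ne_zero_iff.2 ⟨hz0, hOV z hz, hOV _ h1⟩) h

theorem cusp_ufd [IsNoetherianRing (S ⊓ vert V : Subring F)] (hV : Vert V ϖ) (hϖS : ϖ⁻¹ ∈ S)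
    (hϖm : ϖ ∈ S ⊓ vert V)
    (harch : ∀ l (z y : F), y ∈ V l → rv (V l) y = 0 → ∃ k : ℕ, z * y ^ k ∈ V l)
    (s : Ideal (S ⊓ vert V : Subring F)) [hs : s.IsPrime]
    (hcl : ∀ z : F, IsIntegral (locSub _ s) z → z ∈ locSub _ s)
    (hϖ : ∀ a : (S ⊓ vert V : Subring F), (a : F) = ϖ → a ∈ s)
    (hq : 2 ≤ q) {X X' X'' : F} (hd : CuspData q X X' X'' V)
    (hX : X ∈ S ⊓ vert V) (hXs : (⟨X, hX⟩ : (S ⊓ vert V : Subring F)) ∈ s)
    {D : Type*} [CommRing D] [IsDedekindDomain D]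
    (hρ : ∀ i, ∃ ρ : (S ⊓ vert V : Subring F) →+* D, Function.Surjective ρ ∧
      ∀ a, ρ a = 0 ↔ rv (V i) a = 0)
    (u0 : IsUnif (V 0) ϖ) (u2 : IsUnif (V 2) ϖ) {t : F} (ht : t = 1 - X / X'')
    (htV : rv (V 1) t = 0) (hunif : ∀ z ∈ V 1, rv (V 1) z = 0 → z * t⁻¹ ∈ V 1)
    (hYV : t ^ (q - 1) * ϖ⁻¹ ∈ V 1) {n : ℕ} (hn : n ≠ 0) {U W : (S ⊓ vert V : Subring F)}
    (hUW : rv (V 1) ((t ^ (q - 1) * ϖ⁻¹) ^ n * U) = rv (V 1) W) (hW : W ∉ s)
    (hdiv : ∀ (i : Fin 3), IsUnif (V i) ϖ → ∀ z ∈ V i, rv (V i) z = 0 → z * ϖ⁻¹ ∈ V i) :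
    UniqueFactorizationMonoid (locSub _ s) ∧
      ∀ i j, (∀ a : (S ⊓ vert V : Subring F), rv (V i) a = 0 → a ∈ s) →
        (∀ a : (S ⊓ vert V : Subring F), rv (V j) a = 0 → a ∈ s) → i = j := by
  have hXO := le_locSub _ s hX
  have hXm := mem_maximalIdeal_locSub _ s hXs
  have hexcl : ∀ i j, (∀ a : (S ⊓ vert V : Subring F), rv (V i) a = 0 → a ∈ s) →
        (∀ a : (S ⊓ vert V : Subring F), rv (V j) a = 0 → a ∈ s) → i = j := fun i j hi hj =>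
    hd.excl hq hcl hXO hXm (mem_V_of_ker_le s hi) (mem_V_of_ker_le s hj)
  refine ⟨?_, hexcl⟩
  obtain ⟨i, hi⟩ := exists_ker_le hV hϖS s hϖ hϖm
  have hsep : Sep V S s i := by
    intro l hl
    by_contra hcon
    push Not at hcon
    exact hl (hexcl l i hcon hi)
  have hϖ0 : ϖ ≠ 0 := hV.ne_zero
  have hϖO : ϖ ∈ locSub _ s := le_locSub _ s hϖm
  have hunr : ∀ i, IsUnif (V i) ϖ → (∀ a : (S ⊓ vert V : Subring F), rv (V i) a = 0 → a ∈ s) →
      Sep V S s i → UniqueFactorizationMonoid (locSub _ s) := by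
    intro i hu hi hsep
    obtain ⟨ρ, hρ1, hρ2⟩ := hρ i
    refine hsep.ufd hϖS harch hi ρ hρ1 hρ2 (t := ϖ) (e := 1) one_ne_zero hϖO hϖ0 (hV.res i)
      (hdiv i hu) hϖ0 ?_ ?_
    · rw [pow_one, mul_inv_cancel₀ hϖ0]; exact (V i).one_mem
    · rw [pow_one, mul_inv_cancel₀ hϖ0]; exact Subring.one_mem _
  rcases (by fin_cases i <;> simp : i = 0 ∨ i = 1 ∨ i = 2) with rfl | rfl | rfl
  · exact hunr 0 u0 hi hsep
  · obtain ⟨ρ, hρ1, hρ2⟩ := hρ 1
    have hOV := mem_V_of_ker_le s hi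
    obtain ⟨hm1, hm2⟩ := hd.mid hq hcl hXO hXm hOV
    have htO : t ∈ locSub _ s := by
      rw [ht]; exact Subring.sub_mem _ (Subring.one_mem _) hm1
    have hq1 : q - 1 ≠ 0 := by omega
    have hWr : rv (V 1) W ≠ 0 := fun h => hW (hi W h)
    have ht0 : t ≠ 0 := by
      rintro rfl
      apply hWr
      rw [← hUW, zero_pow hq1, zero_mul, zero_pow hn, zero_mul, rv_zero]
    have hY : t ^ (q - 1) * ϖ⁻¹ ∈ locSub _ s := by
      obtain ⟨d, hd, hdt⟩ := htO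
      refine hsep.mem_locSub harch (d := d ^ (q - 1)) (fun h => hd (hs.mem_of_pow_mem _ h)) ?_ hYV
      have : ((d ^ (q - 1) : (S ⊓ vert V : Subring F)) : F) * (t ^ (q - 1) * ϖ⁻¹) =
          (d * t) ^ (q - 1) * ϖ⁻¹ := by
        push_cast; ring
      rw [this]
      exact S.mul_mem (S.pow_mem hdt.1 _) hϖS
    have hYu : IsUnit (⟨_, hY⟩ : locSub _ s) := by
      by_contra hnu
      have hYm : (⟨_, hY⟩ : locSub _ s) ∈ maximalIdeal (locSub _ s) := hnu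
      -- `Y ^ n U - W` is in the maximal ideal
      have hUO : (U : F) ∈ locSub _ s := le_locSub _ s U.2
      have hWO : (W : F) ∈ locSub _ s := le_locSub _ s W.2
      have h1 : (t ^ (q - 1) * ϖ⁻¹) ^ n * U - W ∈ locSub _ s :=
        Subring.sub_mem _ (Subring.mul_mem _ (pow_mem hY n) hUO) hWO
      have h2 : (⟨_, h1⟩ : locSub _ s) ∈ maximalIdeal (locSub _ s) := by
        apply mem_max_of_rv hOV
        rw [rv_sub (hOV _ (Subring.mul_mem _ (pow_mem hY n) hUO)) (hOV _ hWO), hUW, sub_self]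
      have h3 : (⟨_, hY⟩ : locSub _ s) ^ n * ⟨U, hUO⟩ ∈ maximalIdeal (locSub _ s) :=
        Ideal.mul_mem_right _ _ (Ideal.pow_mem_of_mem _ hYm n (Nat.pos_of_ne_zero hn))
      have h4 : (⟨W, hWO⟩ : locSub _ s) ∈ maximalIdeal (locSub _ s) := by
        have h5 := Ideal.sub_mem _ h3 h2
        have h6 : (⟨_, hY⟩ : locSub _ s) ^ n * ⟨U, hUO⟩ - ⟨_, h1⟩ = ⟨W, hWO⟩ := by
          apply Subtype.ext
          change (t ^ (q - 1) * ϖ⁻¹) ^ n * U - ((t ^ (q - 1) * ϖ⁻¹) ^ n * U - W) = W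
          ring
        rwa [h6] at h5
      have h7 : IsUnit (⟨W, hWO⟩ : locSub _ s) :=
        isUnit_of_inv_mem hWO (ne_zero_of_notMem _ s hW) (inv_mem_locSub _ s hW)
      exact h4 h7
    have hYi := inv_mem_of_isUnit hY hYu
    refine hsep.ufd hϖS harch hi ρ hρ1 hρ2 (t := t) (e := q - 1) hq1 htO ht0 htV hunif hϖ0 hYV ?_
    have : ϖ * (t ^ (q - 1))⁻¹ = (t ^ (q - 1) * ϖ⁻¹)⁻¹ := by
      rw [mul_inv, inv_inv, mul_comm]
    rw [this]
    exact hYi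
  · exact hunr 2 u2 hi hsep

end

end Fermat.Agent.H23.R
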