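import Fermat.Agent.H23.R.Loc2
import Fermat.Agent.H23.R.CuspUfd

/-!
# PROGRAM R (S36): the local rings of the chart `1/j`
-/

set_option autoImplicit false
set_option maxSynthPendingDepth 3
set_option linter.unusedSectionVars false

noncomputable section

attribute [-instance] HahnSeries.instModule HahnSeries.instSMul HahnSeries.instDistribMulAction
  HahnSeries.instSMulZeroClass

namespace Fermat.Agent.H23.R

open ModularCurve ModularCurve.IgusaScheme Polynomial AlgebraicCurve Fermat.Agent.H26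
  Fermat.Agent.H26.RV IsLocalRing
open Fermat.Agent.H28 (modRed jZ jinvZ CR)
open Fermat.Agent.Q (Red)
open Fermat.Agent.Igusa (modPoly evZ modPoly_monic twist theta uTrev)
open scoped IntermediateField

local notation "Qb" => AlgebraicClosure ℚ
local notation "kk" => IsLocalRing.ResidueField

variable {q M : ℕ} [hq : Fact q.Prime] [NeZero M] (hqM : Nat.Coprime q M)
  {A : ValuationSubring Qb} (hA : A.LiesOverPrime q)

/-- The facts about the valuations that we use. -/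
structure VInput (hqM : Nat.Coprime q M) {A : ValuationSubring Qb} (hA : A.LiesOverPrime q) :
    Prop where
  hG : GoodLvl q M
  hL : ∀ (i : Fin 3) (z : LF (K0 A) (M * q * q)) (u : LaurentSeries (kk A)),
      Red A (io hqM (K0 A) i z) u → u ∈ LK A M
  ad₁ : Adapted (A0 A) (K0 A) (V hqM (K0 A) hA) (q : A0 A) (jK (K0 A) (M * q * q))
  ad₂ : Adapted (A0 A) (K0 A) (V hqM (K0 A) hA) (q : A0 A) (jK (K0 A) (M * q * q))⁻¹
  u0 : IsUnif (V hqM (K0 A) hA 0) (q : LF (K0 A) (M * q * q))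
  u2 : IsUnif (V hqM (K0 A) hA 2) (q : LF (K0 A) (M * q * q))
  u1 : ∀ π : LF (K0 A) (M * q * q),
    rv (V hqM (K0 A) hA 1) (π ^ (q - 1) * (q : LF (K0 A) (M * q * q))⁻¹) ≠ 0 →
    ∀ z ∈ V hqM (K0 A) hA 1, rv (V hqM (K0 A) hA 1) z = 0 → z * π⁻¹ ∈ V hqM (K0 A) hA 1
  fin₁ : FiniteDimensional (K0 A)⟮jK (K0 A) (M * q * q)⟯ (LF (K0 A) (M * q * q))
  fin₂ : FiniteDimensional (K0 A)⟮(jK (K0 A) (M * q * q))⁻¹⟯ (LF (K0 A) (M * q * q))

theorem red_evZ {F : Type*} [Field F] {ι : F →+* LaurentSeries Qb} {x : F}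
    {xb : LaurentSeries (kk A)} (h : Red A (ι x) xb) (P : ℤ[X]) :
    Red A (ι (evZ x P)) (evZ xb P) := by
  rw [Igusa.evZ_apply, Igusa.evZ_apply, eval₂_eq_sum_range, eval₂_eq_sum_range, map_sum]
  refine Red.sum _ fun i _ => ?_
  rw [map_mul, map_pow]
  refine Red.mul ?_ (h.pow i)
  rw [eq_intCast, eq_intCast, map_intCast]
  have hn : ∀ n : ℕ, Red A ((n : LaurentSeries Qb)) (n : LaurentSeries (kk A)) := by
    intro n
    induction n with
    | zero => rw [Nat.cast_zero, Nat.cast_zero]; exact Red.zero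
    | succ n ih => rw [Nat.cast_succ, Nat.cast_succ]; exact ih.add Red.one
  obtain ⟨n, hn' | hn'⟩ := (P.coeff i).eq_nat_or_neg
  · rw [hn', Int.cast_natCast, Int.cast_natCast]; exact hn n
  · rw [hn', Int.cast_neg, Int.cast_neg, Int.cast_natCast, Int.cast_natCast]; exact (hn n).neg

theorem jqModC_ne_algebraMap {k : Type*} [Field k] (c : k) : jqModC k ≠ HahnSeries.C c := by
  intro h
  have h1 := congrArg (fun z : LaurentSeries k => z.coeff (-1)) h
  simp only [coeff_jqModC_neg_one] at h1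
  rw [HahnSeries.C_apply, HahnSeries.coeff_single_of_ne (by norm_num)] at h1
  exact one_ne_zero h1

theorem one_sub_ne_zero (k : Type*) [Field k] : (1 : LaurentSeries k) - 1728 * (jqModC k)⁻¹ ≠ 0 := by
  have hj0 : jqModC k ≠ 0 := by
    have := Igusa.jd_ne_zero (R := k) 1
    rwa [Igusa.jd_one] at this
  intro h
  apply jqModC_ne_algebraMap (1728 : k)
  have h1 : jqModC k = 1728 := by
    have h2 : jqModC k * (1 - 1728 * (jqModC k)⁻¹) = jqModC k - 1728 := by field_simp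
    rw [h, mul_zero] at h2
    exact (sub_eq_zero.1 h2.symm)
  rw [h1, map_ofNat]

include hA in
theorem thetaj_ne_zero : (theta (jqModC (kk A)) / jqModC (kk A)) ^ (q - 1) ≠ 0 := by
  have := charP_kk (q := q) hA
  intro h
  have h1 := Igusa.theta_j_cusp (k := kk A) q
  rw [h, zero_pow (by norm_num), zero_mul] at h1
  exact pow_ne_zero _ (one_sub_ne_zero (kk A)) h1.symm


theorem q_inv_mem_intSub (x : LF (K0 A) (M * q * q)) :
    (q : LF (K0 A) (M * q * q))⁻¹ ∈ intSub (K0 A) x := by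
  have h : (q : LF (K0 A) (M * q * q))⁻¹ = algebraMap (K0 A) (LF (K0 A) (M * q * q))
      ((q : K0 A)⁻¹) := by
    rw [map_inv₀, map_natCast]
  rw [h]
  exact algebraMap_mem_intSub _

theorem noeth_of_adapted {x : LF (K0 A) (M * q * q)}
    (ad : Adapted (A0 A) (K0 A) (V hqM (K0 A) hA) (q : A0 A) x)
    (fin : FiniteDimensional (K0 A)⟮x⟯ (LF (K0 A) (M * q * q))) :
    IsNoetherianRing (intSub (K0 A) x ⊓ vert (V hqM (K0 A) hA) :
      Subring (LF (K0 A) (M * q * q))) := by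
  have := isDVR_A0 hq.out hA
  rw [ad.eq (irreducible_q hq.out hA)]
  exact isNoetherianRing_intSub (A0 := A0 A) (K0 := K0 A) ad.tr

/-- The local rings at the cusps of the chart `1/j`. -/
theorem chart2_cusp (h : VInput hqM hA)
    (s : Ideal (intSub (K0 A) (jK (K0 A) (M * q * q))⁻¹ ⊓ vert (V hqM (K0 A) hA) :
      Subring (LF (K0 A) (M * q * q)))) [hs : s.IsPrime]
    (hϖ : ∀ a : (intSub (K0 A) (jK (K0 A) (M * q * q))⁻¹ ⊓ vert (V hqM (K0 A) hA) :
      Subring (LF (K0 A) (M * q * q))), (a : LF (K0 A) (M * q * q)) = (q : LF (K0 A) (M * q * q)) →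
      a ∈ s)
    (hX : (jK (K0 A) (M * q * q))⁻¹ ∈
      intSub (K0 A) (jK (K0 A) (M * q * q))⁻¹ ⊓ vert (V hqM (K0 A) hA))
    (hXs : (⟨_, hX⟩ : (intSub (K0 A) (jK (K0 A) (M * q * q))⁻¹ ⊓ vert (V hqM (K0 A) hA) :
      Subring (LF (K0 A) (M * q * q)))) ∈ s) :
    UniqueFactorizationMonoid (locSub _ s) ∧
      ∀ i j, (∀ a : (intSub (K0 A) (jK (K0 A) (M * q * q))⁻¹ ⊓ vert (V hqM (K0 A) hA) :
        Subring (LF (K0 A) (M * q * q))), rv (V hqM (K0 A) hA i) a = 0 → a ∈ s) →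
        (∀ a : (intSub (K0 A) (jK (K0 A) (M * q * q))⁻¹ ⊓ vert (V hqM (K0 A) hA) :
        Subring (LF (K0 A) (M * q * q))), rv (V hqM (K0 A) hA j) a = 0 → a ∈ s) → i = j := by
  have := isDVR_A0 hq.out hA
  have hchar := charP_kk (q := q) hA
  have hR : ∀ z, z ∈ intSub (K0 A) (jK (K0 A) (M * q * q))⁻¹ ⊓ vert (V hqM (K0 A) hA) ↔
      z ∈ intSub (A0 A) (jK (K0 A) (M * q * q))⁻¹ := fun z => by
    rw [h.ad₂.eq (irreducible_q hq.out hA)]
  have hn := noeth_of_adapted hqM hA h.ad₂ h.fin₂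
  have hded := dedekind_jinv hA h.hG
  have hq0 : (q : LF (K0 A) (M * q * q)) ≠ 0 := Nat.cast_ne_zero.2 hq.out.ne_zero
  have hvert : Vert (V hqM (K0 A) hA) (q : LF (K0 A) (M * q * q)) := by
    have := vert_V hqM hA
    rwa [algebraMap_q] at this
  have hj0 := jK_ne_zero (K0 A) (M * q * q)
  have hj''0 := jK''_ne_zero (K0 A) M q
  have hredX : Red A (io hqM (K0 A) 1 (jK (K0 A) (M * q * q))⁻¹) (jqModC (kk A))⁻¹ := by
    rw [map_inv₀]; exact (red_io1_jK hqM).inv jqModC_kk_ne_zero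
  have hΨ := red_tMid_pow hqM hA (M := M)
  have hY1 : rv (V hqM (K0 A) hA 1) (tMid (K0 A) M q ^ (q - 1) *
      (q : LF (K0 A) (M * q * q))⁻¹) ≠ 0 :=
    ((redV hqM hA 1).rv_ne_zero_iff hΨ).2 (neg_ne_zero.2 (thetaj_ne_zero hA))
  refine cusp_ufd hvert (q_inv_mem_intSub _) ⟨?_, fun i => natCast_mem _ q⟩
    (fun l z y => archV hqM hA l z y) s ((intClosed_of_iff hR).locSub s) hϖ hq.out.two_le
    (cuspData hqM hA) hX hXs (exists_rho_jinv hqM hA h.hG h.hL hR (fun i z hz => hz.2 i))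
    h.u0 h.u2 (t := tMid (K0 A) M q) ?_ ?_ (h.u1 _ hY1) (rv_ne_zero_iff.1 hY1).2.1
    (n := 6) (by norm_num) (U := evZ ⟨_, hX⟩ (uTrev q))
    (W := (1 - 1728 * ⟨_, hX⟩) ^ (3 * (q - 1))) ?_ ?_ (fun i hu z hz hz0 => hu.div_mem hz hz0)
  · exact natCast_mem _ q
  · rw [inv_div_inv]; rfl
  · exact ((redV hqM hA 1).rv_eq_zero_iff (red_tMid hqM hA)).2 rfl
  · have e1 : ((evZ (⟨_, hX⟩ : (intSub (K0 A) (jK (K0 A) (M * q * q))⁻¹ ⊓
        vert (V hqM (K0 A) hA) : Subring (LF (K0 A) (M * q * q)))) (uTrev q) :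
        (intSub (K0 A) (jK (K0 A) (M * q * q))⁻¹ ⊓
        vert (V hqM (K0 A) hA) : Subring (LF (K0 A) (M * q * q)))) : LF (K0 A) (M * q * q)) =
        evZ (jK (K0 A) (M * q * q))⁻¹ (uTrev q) :=
      Igusa.ringHom_evZ (Subring.subtype (intSub (K0 A) (jK (K0 A) (M * q * q))⁻¹ ⊓
        vert (V hqM (K0 A) hA))) ⟨_, hX⟩ (uTrev q)
    have e2 : (((1 - 1728 * ⟨_, hX⟩) ^ (3 * (q - 1)) :
        (intSub (K0 A) (jK (K0 A) (M * q * q))⁻¹ ⊓
        vert (V hqM (K0 A) hA) : Subring (LF (K0 A) (M * q * q)))) : LF (K0 A) (M * q * q)) =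
        (1 - 1728 * (jK (K0 A) (M * q * q))⁻¹) ^ (3 * (q - 1)) := by
      push_cast; rfl
    rw [e1, e2]
    have r1 := (redV hqM hA 1).mul ((redV hqM hA 1).pow hΨ 6) (red_evZ hredX (uTrev q))
    have r0 : Red A (io hqM (K0 A) 1 (1728 : LF (K0 A) (M * q * q))) (1728 : LaurentSeries (kk A)) := by
      have := red_evZ (A := A) hredX (1728 : ℤ[X])
      rw [map_ofNat, map_ofNat, map_ofNat] at this
      rw [map_ofNat]
      exact this
    have r2 := (redV hqM hA 1).pow ((redV hqM hA 1).sub (redV hqM hA 1).one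
      ((redV hqM hA 1).mul r0 hredX)) (3 * (q - 1))
    rw [(redV hqM hA 1).rv_eq_iff r1 r2, Even.neg_pow (by decide)]
    exact Igusa.theta_j_cusp (k := kk A) q
  · intro hW
    have h1 := hs.mem_of_pow_mem _ hW
    apply hs.ne_top
    rw [Ideal.eq_top_iff_one]
    have h2 := s.add_mem h1 (s.mul_mem_left 1728 hXs)
    rwa [sub_add_cancel] at h2

end Fermat.Agent.H23.R
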