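import Fermat.Agent.H23.R.RedRel
import Fermat.Agent.RV.LocalUfd

/-!
# PROGRAM R (S36): construction of `CommonPt`
-/

set_option autoImplicit false
set_option maxSynthPendingDepth 3
set_option linter.unusedSectionVars false

noncomputable section

open IsLocalRing

namespace Fermat.Agent.H23.R

open AlgebraicCurve Fermat.Agent.H26.RV

section Keys

variable {E F Λ : Type*} [Field E] [Field F] [Field Λ] {R : Subring F} {V : ValuationSubring F}
  {Rd : F → Λ → Prop} (hRd : RedRel V Rd)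

include hRd

/-- elements of `R` with the same reduction belong to the same primes. -/
theorem mem_prime_iff {Q : Ideal R} (hker : ∀ z : R, rv V z = 0 → z ∈ Q) {z w : R} {u : Λ}
    (hz : Rd z u) (hw : Rd w u) : z ∈ Q ↔ w ∈ Q := by
  have h1 : z - w ∈ Q := by
    apply hker
    have h2 := hRd.sub hz hw
    rw [sub_self] at h2
    exact (hRd.rv_eq_zero_iff (z := ((z - w : R) : F)) h2).2 rfl
  constructor
  · intro h
    have := Q.sub_mem h h1
    rwa [sub_sub_cancel] at this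
  · intro h
    have := Q.add_mem h1 h
    rwa [sub_add_cancel] at this

end Keys

section Half

variable {A0 K0 E F Λ : Type*} [CommRing A0] [Field K0] [Field E] [Field F] [Field Λ]
  [Algebra A0 K0] [Algebra K0 E] [Algebra K0 F] [Algebra A0 E] [Algebra A0 F]
  [IsScalarTower A0 K0 E] [IsScalarTower A0 K0 F]

/-- Lifting of reductions of the elements of the chart ring to the level below. -/
structure HalfLift (A0 : Type*) {E F Λ : Type*} [CommRing A0] [Field E] [Field F] [Field Λ]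
    [Algebra A0 E] (φ : Λ →+* Λ) (x : E) (R : Subring F) (R' R'₀ : E → Λ → Prop)
    (R₁ R₂ R₀ : F → Λ → Prop) : Prop where
  lift₁ : ∀ {z u}, z ∈ R → R₁ z u → ∃ c ∈ intSub A0 x, R' c u
  lift₂ : ∀ {z u}, z ∈ R → R₂ z u → ∃ c ∈ intSub A0 x, R' c u
  lift₀ : ∀ {z u}, z ∈ R → R₀ z u → ∃ c ∈ intSub A0 x, R'₀ c (φ u)

variable {q : ℕ} {a : E →ₐ[K0] F} {x : E} {V : Fin 3 → ValuationSubring F} {ϖ : F} {S : Subring F}
  {W W' : ValuationSubring E} {R' R'₀ : E → Λ → Prop} {Rd : Fin 3 → F → Λ → Prop}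
  {B φ : Λ →+* Λ} {i₁ i₂ i₀ : Fin 3}

/-- The concrete `CommonPt`. -/
theorem commonPt_of_half (hq : q ≠ 0) (hV : Vert V ϖ) (hϖS : ϖ⁻¹ ∈ S) (hϖm : ϖ ∈ S ⊓ vert V)
    (hS : ∀ z, z ∈ S ⊓ vert V ↔ z ∈ intSub A0 (a x))
    (hϖE : ∃ c ∈ intSub A0 x, a c = ϖ)
    (hfin : FiniteAlong K0 a) (hdeg : finrankAlong K0 a = q)
    (hi : ∀ i : Fin 3, i = i₁ ∨ i = i₂ ∨ i = i₀)
    (hR : ∀ i, RedRel (V i) (Rd i)) (hW : RedRel W R') (hW' : RedRel W' R'₀)
    (hh : HalfRed q (a : E →+* F) B φ R' R'₀ (Rd i₁) (Rd i₂) (Rd i₀))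
    (hl : HalfLift A0 φ x (S ⊓ vert V) R' R'₀ (Rd i₁) (Rd i₂) (Rd i₀))
    (s : Ideal (S ⊓ vert V : Subring F)) [hs : s.IsPrime]
    (hϖ : ∀ a : (S ⊓ vert V : Subring F), (a : F) = ϖ → a ∈ s)
    (hall : ∀ i, ∀ z ∈ locSub _ s, z ∈ V i) :
    CommonPt q a (normHom a) (V i₁) (V i₂) (V i₀) (locSub _ s) := by
  classical
  have haR : ∀ z ∈ intSub A0 x, a z ∈ S ⊓ vert V := fun z hz => (hS _).2 (map_mem_intSub a hz)
  have hkers : ∀ i, ∀ z : (S ⊓ vert V : Subring F), rv (V i) z = 0 → z ∈ s := by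
    intro i z hz
    by_contra hzs
    have hz0 : (z : F) ≠ 0 := ne_zero_of_notMem _ s hzs
    have h1 : (z : F)⁻¹ ∈ locSub _ s := ⟨z, hzs, by rw [mul_inv_cancel₀ hz0]; exact Subring.one_mem _⟩
    have h2 := hall i _ h1
    exact (rv_ne_zero_iff.2 ⟨hz0, z.2.2 i, h2⟩) hz
  -- the key equivalences
  have key₁ : ∀ (i : Fin 3) (Q : Ideal (S ⊓ vert V : Subring F)),
      (∀ z : (S ⊓ vert V : Subring F), rv (V i) z = 0 → z ∈ Q) →
      (∀ {z u}, R' z u → Rd i (a z) u) → ∀ (z : (S ⊓ vert V : Subring F)) (u : Λ) (c : E)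
      (hc : c ∈ intSub A0 x), Rd i z u → R' c u →
      (z ∈ Q ↔ (⟨a c, haR c hc⟩ : (S ⊓ vert V : Subring F)) ∈ Q) := by
    intro i Q hker hov z u c hc hz hc'
    exact mem_prime_iff (hR i) hker hz (hov hc')
  have key₀ : ∀ (Q : Ideal (S ⊓ vert V : Subring F)) [Q.IsPrime],
      (∀ z : (S ⊓ vert V : Subring F), rv (V i₀) z = 0 → z ∈ Q) →
      ∀ (z : (S ⊓ vert V : Subring F)) (u : Λ) (c : E)
      (hc : c ∈ intSub A0 x), Rd i₀ z u → R'₀ c (φ u) →
      (z ∈ Q ↔ (⟨a c, haR c hc⟩ : (S ⊓ vert V : Subring F)) ∈ Q) := by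
    intro Q hQ hker z u c hc hz hc'
    have h1 : Rd i₀ ((z ^ q : (S ⊓ vert V : Subring F)) : F) (u ^ q) := (hR i₀).pow hz q
    have h2 : Rd i₀ (a c) (u ^ q) := by
      have := hh.ov₀ hc'
      rwa [hh.frob] at this
    rw [← mem_prime_iff (hR i₀) hker (w := ⟨a c, haR c hc⟩) h1 h2]
    exact ⟨fun h => Ideal.pow_mem_of_mem Q h q (Nat.pos_of_ne_zero hq),
      fun h => hQ.mem_of_pow_mem q h⟩
  refine ⟨?_, ?_, ?_, ?_⟩
  · -- norms
    intro z hz
    letI := algebraAlong a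
    have : FiniteDimensional E F := hfin
    have hdeg' : @Module.finrank E F _ _ (algebraAlong a).toModule = q := hdeg
    refine nrm_of_unique (RE := intSub A0 x) (a : E →+* F) (normHom a) (q := q) ?_ haR ?_ ?_ s ?_ hz
    · intro z hz
      exact norm_mem_intSub a (fun _ => rfl) ((hS z).1 hz)
    · intro z
      change Algebra.norm E (algebraMap E F z) = _
      rw [Algebra.norm_algebraMap, hdeg']
    · intro z hz
      exact integral_over_intSub a ((hS z).1 hz)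
    · intro Q hQ hQs
      have hQϖ : ∀ a : (S ⊓ vert V : Subring F), (a : F) = ϖ → a ∈ Q := by
        intro y hy
        obtain ⟨c, hc, hcϖ⟩ := hϖE
        have h1 : y = ⟨a c, haR c hc⟩ := Subtype.ext (hy.trans hcϖ.symm)
        rw [h1]
        exact (hQs c hc).2 (hϖ _ hcϖ)
      obtain ⟨i, hiQ⟩ := exists_ker_le hV hϖS Q hQϖ hϖm
      ext z
      rcases hi i with rfl | rfl | rfl
      · obtain ⟨u, hu⟩ := ((hR i).mem_iff z).1 (z.2.2 i)
        obtain ⟨c, hc, hcu⟩ := hl.lift₁ z.2 hu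
        rw [key₁ i Q hiQ (fun h => hh.ov₁ h) z u c hc hu hcu,
          key₁ i s (hkers i) (fun h => hh.ov₁ h) z u c hc hu hcu]
        exact hQs c hc
      · obtain ⟨u, hu⟩ := ((hR i).mem_iff z).1 (z.2.2 i)
        obtain ⟨c, hc, hcu⟩ := hl.lift₂ z.2 hu
        rw [key₁ i Q hiQ (fun h => hh.ov₂ h) z u c hc hu hcu,
          key₁ i s (hkers i) (fun h => hh.ov₂ h) z u c hc hu hcu]
        exact hQs c hc
      · obtain ⟨u, hu⟩ := ((hR i).mem_iff z).1 (z.2.2 i)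
        obtain ⟨c, hc, hcu⟩ := hl.lift₀ z.2 hu
        rw [key₀ Q hiQ z u c hc hu hcu, key₀ s (hkers i) z u c hc hu hcu]
        exact hQs c hc
  · rintro τ ⟨d, hd, hdτ⟩
    have hd0 := ne_zero_of_notMem _ s hd
    obtain ⟨u, hu⟩ := ((hR i₁).mem_iff d).1 (d.2.2 i₁)
    obtain ⟨v, hv⟩ := ((hR i₁).mem_iff _).1 (hdτ.2 i₁)
    have hu0 : u ≠ 0 := by
      intro h0
      exact hd (hkers i₁ d (((hR i₁).rv_eq_zero_iff hu).2 h0))
    obtain ⟨cd, hcd, hcdu⟩ := hl.lift₁ d.2 hu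
    obtain ⟨cn, hcn, hcnv⟩ := hl.lift₁ hdτ hv
    have h1 : (⟨a cd, haR cd hcd⟩ : (S ⊓ vert V : Subring F)) ∉ s := fun h =>
      hd ((key₁ i₁ s (hkers i₁) (fun h => hh.ov₁ h) d u cd hcd hu hcdu).2 h)
    have h2 : a cd ≠ 0 := ne_zero_of_notMem _ s h1
    refine ⟨cn / cd, ⟨_, h1, ?_⟩, ?_⟩
    · change a cd * a (cn / cd) ∈ _
      rw [map_div₀, mul_div_cancel₀ _ h2]
      exact haR cn hcn
    · have e1 : τ = (d * τ) / d := by field_simp
      have h3 : Rd i₁ τ (v / u) := by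
        have h4 := (hR i₁).div hv hu hu0
        rwa [← e1] at h4
      exact ((hR i₁).rv_eq_iff h3 (hh.ov₁ (hW.div hcnv hcdu hu0))).2 rfl
  · rintro τ ⟨d, hd, hdτ⟩
    have hd0 := ne_zero_of_notMem _ s hd
    obtain ⟨u, hu⟩ := ((hR i₂).mem_iff d).1 (d.2.2 i₂)
    obtain ⟨v, hv⟩ := ((hR i₂).mem_iff _).1 (hdτ.2 i₂)
    have hu0 : u ≠ 0 := by
      intro h0
      exact hd (hkers i₂ d (((hR i₂).rv_eq_zero_iff hu).2 h0))
    obtain ⟨cd, hcd, hcdu⟩ := hl.lift₂ d.2 hu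
    obtain ⟨cn, hcn, hcnv⟩ := hl.lift₂ hdτ hv
    have h1 : (⟨a cd, haR cd hcd⟩ : (S ⊓ vert V : Subring F)) ∉ s := fun h =>
      hd ((key₁ i₂ s (hkers i₂) (fun h => hh.ov₂ h) d u cd hcd hu hcdu).2 h)
    have h2 : a cd ≠ 0 := ne_zero_of_notMem _ s h1
    refine ⟨cn / cd, ⟨_, h1, ?_⟩, ?_⟩
    · change a cd * a (cn / cd) ∈ _
      rw [map_div₀, mul_div_cancel₀ _ h2]
      exact haR cn hcn
    · have e1 : τ = (d * τ) / d := by field_simp
      have h3 : Rd i₂ τ (v / u) := by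
        have h4 := (hR i₂).div hv hu hu0
        rwa [← e1] at h4
      exact ((hR i₂).rv_eq_iff h3 (hh.ov₂ (hW.div hcnv hcdu hu0))).2 rfl
  · rintro τ ⟨d, hd, hdτ⟩
    have hd0 := ne_zero_of_notMem _ s hd
    obtain ⟨u, hu⟩ := ((hR i₀).mem_iff d).1 (d.2.2 i₀)
    obtain ⟨v, hv⟩ := ((hR i₀).mem_iff _).1 (hdτ.2 i₀)
    have hu0 : u ≠ 0 := by
      intro h0
      exact hd (hkers i₀ d (((hR i₀).rv_eq_zero_iff hu).2 h0))
    obtain ⟨cd, hcd, hcdu⟩ := hl.lift₀ d.2 hu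
    obtain ⟨cn, hcn, hcnv⟩ := hl.lift₀ hdτ hv
    have h1 : (⟨a cd, haR cd hcd⟩ : (S ⊓ vert V : Subring F)) ∉ s := fun h =>
      hd ((key₀ s (hkers i₀) d u cd hcd hu hcdu).2 h)
    have h2 : a cd ≠ 0 := ne_zero_of_notMem _ s h1
    refine ⟨cn / cd, ⟨_, h1, ?_⟩, ?_⟩
    · change a cd * a (cn / cd) ∈ _
      rw [map_div₀, mul_div_cancel₀ _ h2]
      exact haR cn hcn
    · have e1 : τ = (d * τ) / d := by field_simp
      have h3 : Rd i₀ τ (v / u) := by
        have h4 := (hR i₀).div hv hu hu0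
        rwa [← e1] at h4
      refine ((hR i₀).rv_eq_iff ((hR i₀).pow h3 q)
        (hh.ov₀ (hW'.div hcnv hcdu ((map_ne_zero φ).2 hu0)))).2 ?_
      rw [map_div₀, hh.frob, hh.frob, div_pow]

end Half

section Transfer

variable {F : Type*} [Field F]

/-- The local ring of a point of a chart is the local ring of a point of another chart. -/
theorem locSub_transfer {R₁ R₂ : Subring F} {x : F} (hx0 : x ≠ 0) (hx1 : x ∈ R₁) (hx2 : x⁻¹ ∈ R₂)
    (h12 : ∀ z ∈ R₁, ∃ e : ℕ, x⁻¹ ^ e * z ∈ R₂) (h21 : ∀ z ∈ R₂, ∃ e : ℕ, x ^ e * z ∈ R₁)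
    (s : Ideal R₂) [hs : s.IsPrime] (hxs : (⟨x⁻¹, hx2⟩ : R₂) ∉ s) :
    ∃ (s' : Ideal R₁) (_ : s'.IsPrime), locSub R₁ s' = locSub R₂ s ∧
      ∀ (z : F) (h1 : z ∈ R₁) (h2 : z ∈ R₂), (⟨z, h1⟩ : R₁) ∈ s' ↔ (⟨z, h2⟩ : R₂) ∈ s := by
  classical
  have hpow : ∀ e : ℕ, (⟨x⁻¹, hx2⟩ : R₂) ^ e ∉ s := fun e h => hxs (hs.mem_of_pow_mem e h)
  -- `R₁` lies in the local ring
  have hR₁ : ∀ z ∈ R₁, z ∈ locSub R₂ s := by
    intro z hz
    obtain ⟨e, he⟩ := h12 z hz
    exact ⟨_, hpow e, he⟩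
  -- the prime ideal
  let carrier : Set R₁ := {z | ∃ d : R₂, d ∉ s ∧ ∃ h : (d : F) * z ∈ R₂, (⟨_, h⟩ : R₂) ∈ s}
  have hiff : ∀ (z : F) (d e : R₂) (hd : (d : F) * z ∈ R₂) (he : (e : F) * z ∈ R₂), d ∉ s → e ∉ s →
      ((⟨_, hd⟩ : R₂) ∈ s ↔ (⟨_, he⟩ : R₂) ∈ s) := by
    intro z d e hd he hds hes
    have h1 : e * (⟨_, hd⟩ : R₂) = d * ⟨_, he⟩ := by
      apply Subtype.ext
      change (e : F) * (d * z) = d * (e * z)
      ring
    constructor
    · intro h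
      have h2 := s.mul_mem_left e h
      rw [h1] at h2
      exact (hs.mem_or_mem h2).resolve_left hds
    · intro h
      have h2 := s.mul_mem_left d h
      rw [← h1] at h2
      exact (hs.mem_or_mem h2).resolve_left hes
  have hcar : ∀ z : R₁, z ∈ carrier ↔ ∀ (d : R₂), d ∉ s → ∀ h : (d : F) * z ∈ R₂,
      (⟨_, h⟩ : R₂) ∈ s := by
    intro z
    constructor
    · rintro ⟨d, hd, h, hs'⟩ e he h'
      exact (hiff z d e h h' hd he).1 hs'
    · intro h
      obtain ⟨d, hd, hdz⟩ := hR₁ z z.2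
      exact ⟨d, hd, hdz, h d hd hdz⟩
  let s' : Ideal R₁ :=
    { carrier := carrier
      zero_mem' := ⟨1, fun h => hs.ne_top ((Ideal.eq_top_iff_one s).2 h),
        by change (1 : F) * (0 : F) ∈ R₂; rw [mul_zero]; exact R₂.zero_mem, by
        have : (⟨((1 : R₂) : F) * ((0 : R₁) : F), by
          change (1 : F) * (0 : F) ∈ R₂; rw [mul_zero]; exact R₂.zero_mem⟩ : R₂) = 0 :=
          Subtype.ext (mul_zero _)
        rw [this]; exact s.zero_mem⟩
      add_mem' := by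
        rintro y z ⟨d, hd, h, hs1⟩ ⟨e, he, h', hs2⟩
        have h3 : ((d * e : R₂) : F) * ((y + z : R₁) : F) ∈ R₂ := by
          have : ((d * e : R₂) : F) * ((y + z : R₁) : F) = e * (d * y) + d * (e * z) := by
            push_cast; ring
          rw [this]
          exact R₂.add_mem (R₂.mul_mem e.2 h) (R₂.mul_mem d.2 h')
        refine ⟨d * e, fun h => (hs.mem_or_mem h).elim hd he, h3, ?_⟩
        have : (⟨_, h3⟩ : R₂) = e * ⟨_, h⟩ + d * ⟨_, h'⟩ := by
          apply Subtype.ext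
          change ((d * e : R₂) : F) * ((y + z : R₁) : F) = e * (d * y) + d * (e * z)
          push_cast; ring
        rw [this]
        exact s.add_mem (s.mul_mem_left _ hs1) (s.mul_mem_left _ hs2)
      smul_mem' := by
        rintro c y ⟨d, hd, h, hs1⟩
        obtain ⟨e, he, hec⟩ := hR₁ c c.2
        have h3 : ((e * d : R₂) : F) * ((c • y : R₁) : F) ∈ R₂ := by
          have : ((e * d : R₂) : F) * ((c • y : R₁) : F) = (e * c) * (d * y) := by
            rw [smul_eq_mul]; push_cast; ring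
          rw [this]
          exact R₂.mul_mem hec h
        refine ⟨e * d, fun h => (hs.mem_or_mem h).elim he hd, h3, ?_⟩
        have : (⟨_, h3⟩ : R₂) = ⟨_, hec⟩ * ⟨_, h⟩ := by
          apply Subtype.ext
          change ((e * d : R₂) : F) * ((c • y : R₁) : F) = (e * c) * (d * y)
          rw [smul_eq_mul]; push_cast; ring
        rw [this]
        exact s.mul_mem_left _ hs1 }
  have hmem : ∀ z : R₁, z ∈ s' ↔ z ∈ carrier := fun _ => Iff.rfl
  have hprime : s'.IsPrime := by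
    constructor
    · rw [Ideal.ne_top_iff_one, hmem, hcar]
      intro h
      have h1 := h 1 (fun h => hs.ne_top ((Ideal.eq_top_iff_one s).2 h)) (by
        change (1 : F) * (1 : F) ∈ R₂; rw [mul_one]; exact R₂.one_mem)
      apply hs.ne_top
      rw [Ideal.eq_top_iff_one]
      convert h1 using 1
      exact Subtype.ext (mul_one _).symm
    · intro y z hyz
      rw [hmem, hcar] at hyz
      obtain ⟨d, hd, hdy⟩ := hR₁ y y.2
      obtain ⟨e, he, hez⟩ := hR₁ z z.2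
      have h3 : ((d * e : R₂) : F) * ((y * z : R₁) : F) ∈ R₂ := by
        have : ((d * e : R₂) : F) * ((y * z : R₁) : F) = (d * y) * (e * z) := by
          push_cast; ring
        rw [this]
        exact R₂.mul_mem hdy hez
      have h4 := hyz (d * e) (fun h => (hs.mem_or_mem h).elim hd he) h3
      have h5 : (⟨_, h3⟩ : R₂) = ⟨_, hdy⟩ * ⟨_, hez⟩ := by
        apply Subtype.ext
        change ((d * e : R₂) : F) * ((y * z : R₁) : F) = (d * y) * (e * z)
        push_cast; ring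
      rw [h5] at h4
      rcases hs.mem_or_mem h4 with h | h
      · left; exact ⟨d, hd, hdy, h⟩
      · right; exact ⟨e, he, hez, h⟩
  refine ⟨s', hprime, ?_, ?_⟩
  · ext z
    constructor
    · rintro ⟨d, hd, hdz⟩
      -- `d` is a unit of the local ring
      obtain ⟨e, he, hed⟩ := hR₁ d d.2
      have h1 : (⟨_, hed⟩ : R₂) ∉ s := fun h => hd ⟨e, he, hed, h⟩
      obtain ⟨e', he', hed'⟩ := hR₁ _ hdz
      refine ⟨e' * ⟨_, hed⟩, fun h => (hs.mem_or_mem h).elim he' h1, ?_⟩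
      have : ((e' * ⟨_, hed⟩ : R₂) : F) * z = e * (e' * (d * z)) := by
        change ((e' : F) * (e * d)) * z = _
        ring
      rw [this]
      exact R₂.mul_mem e.2 hed'
    · rintro ⟨d, hd, hdz⟩
      obtain ⟨e, he⟩ := h21 d d.2
      obtain ⟨e', he'⟩ := h21 _ hdz
      have hm : ∀ k, x ^ k ∈ R₁ := fun k => pow_mem hx1 k
      refine ⟨⟨x ^ e' * (x ^ e * d), R₁.mul_mem (hm _) he⟩, ?_, ?_⟩
      · rw [hmem, hcar]
        intro h
        have hinv : ∀ k : ℕ, x⁻¹ ^ k * x ^ k = 1 := fun k => by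
          rw [← mul_pow, inv_mul_cancel₀ hx0, one_pow]
        have h2 : (((⟨x⁻¹, hx2⟩ : R₂) ^ (e' + e) : R₂) : F) * (x ^ e' * (x ^ e * d)) = d := by
          change x⁻¹ ^ (e' + e) * (x ^ e' * (x ^ e * d)) = d
          rw [pow_add]
          linear_combination (x⁻¹ ^ e * x ^ e * (d : F)) * hinv e' + (d : F) * hinv e
        have h3 := h (⟨x⁻¹, hx2⟩ ^ (e' + e)) (hpow _) (by
          change (((⟨x⁻¹, hx2⟩ : R₂) ^ (e' + e) : R₂) : F) * (x ^ e' * (x ^ e * d)) ∈ R₂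
          rw [h2]; exact d.2)
        apply hd
        convert h3 using 1
        exact Subtype.ext h2.symm
      · change x ^ e' * (x ^ e * d) * z ∈ R₁
        have : x ^ e' * (x ^ e * d) * z = x ^ e * (x ^ e' * (d * z)) := by ring
        rw [this]
        exact R₁.mul_mem (hm _) he'
  · intro z h1 h2
    rw [hmem, hcar]
    have h3 : ((1 : R₂) : F) * z ∈ R₂ := by
      change (1 : F) * z ∈ R₂
      rw [one_mul]; exact h2
    have h4 : (⟨_, h3⟩ : R₂) = ⟨z, h2⟩ := Subtype.ext (one_mul _)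
    constructor
    · intro h
      have := h 1 (fun h => hs.ne_top ((Ideal.eq_top_iff_one s).2 h)) h3
      rwa [h4] at this
    · intro h d hd hdz
      have : (⟨_, hdz⟩ : R₂) = d * ⟨z, h2⟩ := Subtype.ext rfl
      rw [this]
      exact s.mul_mem_left _ h

end Transfer

end Fermat.Agent.H23.R
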