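import Fermat.Agent.H23.R.Norm
import Fermat.Agent.FF.T1
import Fermat.Agent.H18_Places

/-!
# PROGRAM R (S36): constant extensions are unramified (elementary form)
-/

set_option autoImplicit false

namespace Fermat.Agent.H23.R

open IsLocalRing Polynomial AlgebraicCurve

section Local

variable {W V : Type*} [CommRing W] [CommRing V] [IsLocalRing W] [IsLocalRing V] (ψ : W →+* V)
  [IsLocalHom ψ]

/-- The local statement: if `θ` is a root of a separable polynomial with unit derivative at `θ`,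
then the maximal ideal of `V` meets `W[θ]_{…}` in the ideal generated by `t`. -/
theorem local_unram {t : W} (ht : ∀ z : W, z ∈ maximalIdeal W → t ∣ z) {θ : V} {P : W[X]}
    (hP : P.Monic) (hPθ : P.eval₂ ψ θ = 0) (hP' : IsUnit ((derivative P).eval₂ ψ θ)) :
    ∃ R : W[X], IsUnit (R.eval₂ ψ θ) ∧ ∀ b : W[X], b.eval₂ ψ θ ∈ maximalIdeal V →
      ∃ b' : W[X], R.eval₂ ψ θ * b.eval₂ ψ θ = ψ t * b'.eval₂ ψ θ := by
  let ρ : ResidueField W →+* ResidueField V := ResidueField.map ψ
  let θ' : ResidueField V := residue V θ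
  have hev : ∀ b : W[X], residue V (b.eval₂ ψ θ) = (b.map (residue W)).eval₂ ρ θ' := by
    intro b
    rw [hom_eval₂, eval₂_map]
    rfl
  let _ : Algebra (ResidueField W) (ResidueField V) := ρ.toAlgebra
  have hθ : IsIntegral (ResidueField W) θ' := by
    refine ⟨P.map (residue W), hP.map _, ?_⟩
    change (P.map (residue W)).eval₂ ρ θ' = 0
    rw [← hev, hPθ, map_zero]
  obtain ⟨Q', hQ'⟩ : ∃ Q', Q' = minpoly (ResidueField W) θ' := ⟨_, rfl⟩
  have hdvd : ∀ b : W[X], b.eval₂ ψ θ ∈ maximalIdeal V → Q' ∣ b.map (residue W) := by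
    intro b hb
    rw [hQ']
    apply minpoly.dvd
    change (b.map (residue W)).eval₂ ρ θ' = 0
    rw [← hev, residue_eq_zero_iff]
    exact hb
  have hlift : ∀ b : (ResidueField W)[X], ∃ B : W[X], B.map (residue W) = b := fun b =>
    map_surjective _ residue_surjective b
  have hker : ∀ b : W[X], b.map (residue W) = 0 → ∃ r : W[X], b = C t * r := by
    intro b hb
    have : C t ∣ b := by
      rw [C_dvd_iff_dvd_coeff]
      intro i
      apply ht
      rw [← residue_eq_zero_iff, ← coeff_map, hb, coeff_zero]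
    exact this
  obtain ⟨Q, hQ⟩ := hlift Q'
  obtain ⟨R', hR'⟩ := hdvd P (by rw [hPθ]; exact Ideal.zero_mem _)
  obtain ⟨R, hR⟩ := hlift R'
  have hQθ : Q'.eval₂ ρ θ' = 0 := by
    rw [hQ']
    exact minpoly.aeval (ResidueField W) θ'
  obtain ⟨S, hS⟩ := hker (P - Q * R) (by
    rw [Polynomial.map_sub, Polynomial.map_mul, hQ, hR, hR', sub_self])
  have hRu : IsUnit (R.eval₂ ψ θ) := by
    by_contra hcon
    have h1 : residue V (R.eval₂ ψ θ) = 0 := by
      rw [residue_eq_zero_iff]; exact hcon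
    rw [hev, hR] at h1
    have h2 : residue V ((derivative P).eval₂ ψ θ) = 0 := by
      rw [hev, ← derivative_map, hR', derivative_mul, eval₂_add, eval₂_mul, eval₂_mul, h1, hQθ,
        mul_zero, zero_mul, add_zero]
    rw [residue_eq_zero_iff] at h2
    exact h2 hP'
  refine ⟨R, hRu, fun b hb => ?_⟩
  obtain ⟨s', hs'⟩ := hdvd b hb
  obtain ⟨s, hs⟩ := hlift s'
  obtain ⟨r, hr⟩ := hker (b - Q * s) (by
    rw [Polynomial.map_sub, Polynomial.map_mul, hQ, hs, hs', sub_self])
  refine ⟨R * r - S * s, ?_⟩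
  have e1 : b.eval₂ ψ θ = Q.eval₂ ψ θ * s.eval₂ ψ θ + ψ t * r.eval₂ ψ θ := by
    have := congrArg (fun p => p.eval₂ ψ θ) hr
    simp only [eval₂_sub, eval₂_mul, eval₂_C] at this
    linear_combination this
  have e2 : Q.eval₂ ψ θ * R.eval₂ ψ θ = - (ψ t * S.eval₂ ψ θ) := by
    have := congrArg (fun p => p.eval₂ ψ θ) hS
    simp only [eval₂_sub, eval₂_mul, eval₂_C, hPθ] at this
    linear_combination -this
  rw [e1, eval₂_sub, eval₂_mul, eval₂_mul]
  linear_combination (s.eval₂ ψ θ) * e2

end Local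

section Global

variable {K0 L F M : Type*} [Field K0] [Field L] [Field F] [Field M] [Algebra K0 L] [Algebra K0 F]
  [Algebra L M] (φ : F →+* M) (v : Place L M)

theorem unit_iff_ord {z : v.toValuationSubring} : IsUnit z ↔ (z : M) ≠ 0 ∧ v.ord z = 0 := by
  rw [isUnit_iff_exists_inv]
  constructor
  · rintro ⟨w, hw⟩
    have h1 : (z : M) * w = 1 := congrArg Subtype.val hw
    have hz : (z : M) ≠ 0 := left_ne_zero_of_mul_eq_one h1
    have hw0 : (w : M) ≠ 0 := right_ne_zero_of_mul_eq_one h1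
    refine ⟨hz, ?_⟩
    have h2 := v.ord_mul hz hw0
    rw [h1, v.ord_one] at h2
    have h3 := (H18.mem_iff v).1 z.2
    have h4 := (H18.mem_iff v).1 w.2
    omega
  · rintro ⟨hz, h0⟩
    refine ⟨⟨(z : M)⁻¹, (H18.mem_iff v).2 (by rw [v.ord_inv, h0, neg_zero])⟩, ?_⟩
    exact Subtype.ext (mul_inv_cancel₀ hz)

theorem mem_max_iff_ord {z : v.toValuationSubring} :
    z ∈ maximalIdeal v.toValuationSubring ↔ (z : M) = 0 ∨ 0 < v.ord z := by
  rw [IsLocalRing.mem_maximalIdeal, mem_nonunits_iff, unit_iff_ord, not_and_or, not_not]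
  have h3 := (H18.mem_iff v).1 z.2
  constructor
  · rintro (h | h)
    · exact Or.inl h
    · exact Or.inr (by omega)
  · rintro (h | h)
    · exact Or.inl h
    · exact Or.inr (by omega)

/-- Minimal order on a subfield. -/
theorem exists_min_ord (hv : ∃ t : F, v.ord (φ t) ≠ 0) : ∃ t : F, 0 < v.ord (φ t) ∧
    ∀ z : F, 0 < v.ord (φ z) → v.ord (φ t) ≤ v.ord (φ z) := by
  classical
  have hex : ∃ n : ℕ, 0 < n ∧ ∃ t : F, v.ord (φ t) = n := by
    obtain ⟨t, ht⟩ := hv
    rcases lt_or_gt_of_ne ht with h | h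
    · refine ⟨(-v.ord (φ t)).toNat, by omega, t⁻¹, ?_⟩
      rw [map_inv₀, v.ord_inv]
      omega
    · exact ⟨(v.ord (φ t)).toNat, by omega, t, by omega⟩
  obtain ⟨hpos, t, ht⟩ := Nat.find_spec hex
  refine ⟨t, by omega, fun z hz => ?_⟩
  rw [ht]
  by_contra hlt
  exact Nat.find_min hex (m := (v.ord (φ z)).toNat) (by omega) ⟨by omega, z, by omega⟩

/-- All orders on `F[θ]` are multiples of the order of `t`. -/
theorem dvd_ord_of_adjoin {t : F} (ht0 : 0 < v.ord (φ t))
    (ht : ∀ z : F, 0 < v.ord (φ z) → v.ord (φ t) ≤ v.ord (φ z))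
    (hφ : ∀ c : K0, φ (algebraMap K0 F c) = algebraMap L M (algebraMap K0 L c))
    {θ : L} (hθ : IsIntegral K0 θ) (hsep : (minpoly K0 θ).Separable) (p : F[X])
    (hp : p.eval₂ φ (algebraMap L M θ) ≠ 0) :
    v.ord (φ t) ∣ v.ord (p.eval₂ φ (algebraMap L M θ)) := by
  classical
  have htn : t ≠ 0 := by rintro rfl; rw [map_zero, v.ord_zero] at ht0; exact lt_irrefl _ ht0
  have hφt : φ t ≠ 0 := fun h => htn ((map_eq_zero φ).1 h)
  let W : ValuationSubring F := v.toValuationSubring.comap φ
  let ψ : W →+* v.toValuationSubring :=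
    (φ.comp W.subtype).codRestrict v.toValuationSubring.toSubring (fun z => z.2)
  have hψ : ∀ z : W, ((ψ z : v.toValuationSubring) : M) = φ z := fun _ => rfl
  have hW : ∀ z : F, z ∈ W ↔ 0 ≤ v.ord (φ z) := fun z => H18.mem_iff v
  have : IsLocalHom ψ := by
    constructor
    intro z hz
    rw [unit_iff_ord, hψ] at hz
    have hz0 : (z : F) ≠ 0 := fun h => hz.1 (by rw [h, map_zero])
    rw [isUnit_iff_exists_inv]
    refine ⟨⟨(z : F)⁻¹, (hW _).2 ?_⟩, Subtype.ext (mul_inv_cancel₀ hz0)⟩
    rw [map_inv₀, v.ord_inv, hz.2, neg_zero]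
  let tW : W := ⟨t, (hW t).2 ht0.le⟩
  have htW : ∀ z : W, z ∈ maximalIdeal W → tW ∣ z := by
    intro z hz
    by_cases hz0 : (z : F) = 0
    · have : z = 0 := Subtype.ext hz0
      rw [this]; exact dvd_zero _
    have h1 : 0 < v.ord (φ z) := by
      by_contra hcon
      have h2 := (hW _).1 z.2
      apply (IsLocalRing.mem_maximalIdeal _).1 hz
      apply isUnit_of_map_unit ψ
      rw [unit_iff_ord, hψ]
      exact ⟨fun h => hz0 ((map_eq_zero φ).1 h), by omega⟩
    refine ⟨⟨z / t, (hW _).2 ?_⟩, Subtype.ext ?_⟩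
    · have h3 := ht z h1
      have h4 := v.ord_mul (f := φ (z / t)) (g := φ t)
        (fun h => div_ne_zero hz0 htn ((map_eq_zero φ).1 h)) hφt
      rw [← map_mul, div_mul_cancel₀ _ htn] at h4
      omega
    · change (z : F) = t * (z / t)
      field_simp
  let θV : v.toValuationSubring := algebraMap L v.toValuationSubring θ
  have hθV : ((θV : v.toValuationSubring) : M) = algebraMap L M θ := rfl
  let ι : K0 →+* W := (algebraMap K0 F).codRestrict W.toSubring (fun c => by
    change φ (algebraMap K0 F c) ∈ v.toValuationSubring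
    rw [hφ]
    exact v.algebraMap_mem' _)
  have hψι : ψ.comp ι = (algebraMap L v.toValuationSubring).comp (algebraMap K0 L) := by
    ext c
    exact hφ c
  let P : W[X] := (minpoly K0 θ).map ι
  have hP : P.Monic := (minpoly.monic hθ).map _
  have hev : ∀ p : K0[X], (p.map ι).eval₂ ψ θV = algebraMap L v.toValuationSubring
      (aeval θ p) := by
    intro p
    rw [eval₂_map, hψι, aeval_def, hom_eval₂]
  have hPθ : P.eval₂ ψ θV = 0 := by
    rw [hev, minpoly.aeval, map_zero]
  have hP' : IsUnit ((derivative P).eval₂ ψ θV) := by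
    rw [derivative_map, hev]
    apply IsUnit.map
    apply IsUnit.mk0
    intro h0
    obtain ⟨a, b, hab⟩ := hsep
    have := congrArg (aeval θ) hab
    rw [map_add, map_mul, map_mul, minpoly.aeval, h0, mul_zero, mul_zero, map_one, add_zero] at this
    exact zero_ne_one this
  obtain ⟨R, hR, hRb⟩ := local_unram ψ htW hP hPθ hP'
  have hcoe : ∀ b : W[X], ((b.eval₂ ψ θV : v.toValuationSubring) : M) =
      (b.map W.subtype).eval₂ φ (algebraMap L M θ) := by
    intro b
    rw [eval₂_map]
    exact hom_eval₂ b ψ v.toValuationSubring.subtype θV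
  -- multiples
  have key : ∀ n : ℕ, ∀ b : W[X], ((b.eval₂ ψ θV : v.toValuationSubring) : M) ≠ 0 →
      v.ord (b.eval₂ ψ θV : v.toValuationSubring) = n →
      v.ord (φ t) ∣ v.ord (b.eval₂ ψ θV : v.toValuationSubring) := by
    intro n
    induction n using Nat.strong_induction_on with
    | _ n ih =>
      intro b hb0 hbn
      by_cases hn : n = 0
      · rw [hbn, hn]; exact dvd_zero _
      have h1 : b.eval₂ ψ θV ∈ maximalIdeal v.toValuationSubring := by
        rw [mem_max_iff_ord]; right; omega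
      obtain ⟨b', hb'⟩ := hRb b h1
      have h2 : ((R.eval₂ ψ θV : v.toValuationSubring) : M) *
          ((b.eval₂ ψ θV : v.toValuationSubring) : M) =
          φ t * ((b'.eval₂ ψ θV : v.toValuationSubring) : M) := congrArg Subtype.val hb'
      obtain ⟨hR0, hRo⟩ := (unit_iff_ord v).1 hR
      have hb'0 : ((b'.eval₂ ψ θV : v.toValuationSubring) : M) ≠ 0 := by
        intro h
        rw [h, mul_zero] at h2
        exact mul_ne_zero hR0 hb0 h2
      have h3 : v.ord (b.eval₂ ψ θV : v.toValuationSubring) =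
          v.ord (φ t) + v.ord (b'.eval₂ ψ θV : v.toValuationSubring) := by
        rw [← v.ord_mul hφt hb'0, ← h2, v.ord_mul hR0 hb0, hRo, zero_add]
      have h4 := (H18.mem_iff v).1 (b'.eval₂ ψ θV).2
      rw [h3]
      exact dvd_add (dvd_refl _)
        (ih (v.ord (b'.eval₂ ψ θV : v.toValuationSubring)).toNat (by omega) b' hb'0 (by omega))
  -- clear denominators
  have hclear : ∃ (n : ℕ) (b : W[X]), b.map W.subtype = C (t ^ n) * p := by
    have h1 : ∀ z : F, ∃ n : ℕ, ∀ k, n ≤ k → t ^ k * z ∈ W := by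
      intro z
      by_cases hz : z = 0
      · exact ⟨0, fun k _ => by rw [hz, mul_zero]; exact W.zero_mem⟩
      refine ⟨(-v.ord (φ z)).toNat, fun k hk => (hW _).2 ?_⟩
      rw [map_mul, v.ord_mul (fun h => pow_ne_zero k htn ((map_eq_zero φ).1 h))
        (fun h => hz ((map_eq_zero φ).1 h)), map_pow, H18.ord_pow]
      have h5 : (-v.ord (φ z)) ≤ (k : ℤ) := by omega
      nlinarith
    choose n hn using h1
    obtain ⟨N, hN⟩ : ∃ N : ℕ, ∀ i ∈ p.support, n (p.coeff i) ≤ N :=
      ⟨p.support.sup fun i => n (p.coeff i), fun i hi =>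
        Finset.le_sup (f := fun i => n (p.coeff i)) hi⟩
    refine ⟨N, ?_⟩
    have h2 : C (t ^ N) * p ∈ Polynomial.lifts W.subtype := by
      rw [Polynomial.lifts_iff_coeff_lifts]
      intro i
      rw [coeff_C_mul]
      by_cases hi : i ∈ p.support
      · exact ⟨⟨_, hn (p.coeff i) N (hN i hi)⟩, rfl⟩
      · rw [notMem_support_iff.1 hi, mul_zero]
        exact ⟨0, map_zero _⟩
    rw [Polynomial.mem_lifts] at h2
    exact h2
  obtain ⟨n, b, hb⟩ := hclear
  have h1 : ((b.eval₂ ψ θV : v.toValuationSubring) : M) =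
      φ t ^ n * p.eval₂ φ (algebraMap L M θ) := by
    rw [hcoe, hb, eval₂_mul, eval₂_C, map_pow]
  have h2 : ((b.eval₂ ψ θV : v.toValuationSubring) : M) ≠ 0 := by
    rw [h1]; exact mul_ne_zero (pow_ne_zero _ hφt) hp
  have h3 := key (v.ord (b.eval₂ ψ θV : v.toValuationSubring)).toNat b h2 (by
    have := (H18.mem_iff v).1 (b.eval₂ ψ θV).2
    omega)
  rw [h1, v.ord_mul (pow_ne_zero _ hφt) hp, H18.ord_pow] at h3
  exact (Int.dvd_add_right (Dvd.intro_left _ rfl)).1 h3

theorem exists_ord_one [CharZero K0] [Algebra.IsAlgebraic K0 L]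
    (hφ : ∀ c : K0, φ (algebraMap K0 F c) = algebraMap L M (algebraMap K0 L c))
    (hgen : ∀ z : M, z ∈ Subfield.closure (Set.range (algebraMap L M) ∪ Set.range φ))
    (hv : ∃ t : F, v.ord (φ t) ≠ 0) : ∃ t : F, v.ord (φ t) = 1 := by
  classical
  obtain ⟨t, ht0, ht⟩ := exists_min_ord φ v hv
  refine ⟨t, ?_⟩
  obtain ⟨z, hz0, hz⟩ := H18.exists_ord_eq_one v
  let _ : Algebra F M := φ.toAlgebra
  have h1 : z ∈ IntermediateField.adjoin F (Set.range (algebraMap L M)) := by
    have h2 : Subfield.closure (Set.range (algebraMap L M) ∪ Set.range φ) ≤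
        (IntermediateField.adjoin F (Set.range (algebraMap L M))).toSubfield := by
      rw [Subfield.closure_le]
      rintro y (hy | ⟨x, rfl⟩)
      · exact IntermediateField.subset_adjoin F _ hy
      · exact IntermediateField.algebraMap_mem _ x
    exact h2 (hgen z)
  obtain ⟨T, hT, hzT⟩ := IntermediateField.exists_finset_of_mem_adjoin h1
  choose! g hg using fun x (hx : x ∈ T) => hT hx
  let T' : Finset L := T.image g
  let K1 : IntermediateField K0 L := IntermediateField.adjoin K0 (T' : Set L)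
  have hK1 : FiniteDimensional K0 K1 := IntermediateField.finiteDimensional_adjoin
    (fun x _ => (Algebra.IsAlgebraic.isAlgebraic x).isIntegral)
  obtain ⟨θ', hθ'⟩ := Field.exists_primitive_element K0 K1
  let θ : L := θ'
  have hθint : IsIntegral K0 θ := (Algebra.IsAlgebraic.isAlgebraic θ).isIntegral
  have hsub : ∀ x ∈ T', ∃ p : K0[X], aeval θ p = x := by
    intro x hx
    have hx1 : x ∈ K1 := IntermediateField.subset_adjoin K0 _ hx
    have h3 : (⟨x, hx1⟩ : K1) ∈ IntermediateField.adjoin K0 {θ'} := by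
      rw [hθ']; exact IntermediateField.mem_top
    rw [← IntermediateField.mem_toSubalgebra,
      IntermediateField.adjoin_simple_toSubalgebra_of_isAlgebraic
      (Algebra.IsAlgebraic.isAlgebraic θ'), Algebra.adjoin_singleton_eq_range_aeval] at h3
    obtain ⟨p, hp⟩ := h3
    refine ⟨p, ?_⟩
    have := congrArg (algebraMap K1 L) hp
    exact (aeval_algebraMap_apply L θ' p).trans this
  have hθM : IsIntegral F (algebraMap L M θ) := by
    refine ⟨(minpoly K0 θ).map (algebraMap K0 F), (minpoly.monic hθint).map _, ?_⟩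
    rw [eval₂_map]
    have e1 : (algebraMap F M).comp (algebraMap K0 F) = (algebraMap L M).comp (algebraMap K0 L) := by
      ext c; exact hφ c
    rw [e1, ← hom_eval₂]
    have := minpoly.aeval K0 θ
    rw [aeval_def] at this
    rw [this, map_zero]
  have h4 : (T : Set M) ⊆ IntermediateField.adjoin F {algebraMap L M θ} := by
    intro y hy
    obtain ⟨p, hp⟩ := hsub (g y) (Finset.mem_image_of_mem g hy)
    have e2 : y = (p.map (algebraMap K0 F)).eval₂ (algebraMap F M) (algebraMap L M θ) := by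
      rw [eval₂_map]
      have e1 : (algebraMap F M).comp (algebraMap K0 F) =
          (algebraMap L M).comp (algebraMap K0 L) := by
        ext c; exact hφ c
      rw [e1, ← hom_eval₂, ← aeval_def, hp, hg y hy]
    rw [e2, ← aeval_def]
    have e3 := aeval_mem_adjoin_singleton (R := F) (p := p.map (algebraMap K0 F)) (algebraMap L M θ)
    exact IntermediateField.algebra_adjoin_le_adjoin F _ e3
  have h5 : z ∈ IntermediateField.adjoin F {algebraMap L M θ} := by
    have h6 : IntermediateField.adjoin F (T : Set M) ≤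
        IntermediateField.adjoin F {algebraMap L M θ} := IntermediateField.adjoin_le_iff.2 h4
    exact h6 hzT
  rw [← IntermediateField.mem_toSubalgebra,
      IntermediateField.adjoin_simple_toSubalgebra_of_isAlgebraic hθM.isAlgebraic,
      Algebra.adjoin_singleton_eq_range_aeval] at h5
  obtain ⟨p, hp⟩ := h5
  have h7 : z = p.eval₂ φ (algebraMap L M θ) := hp.symm
  have hsep : (minpoly K0 θ).Separable := (minpoly.irreducible hθint).separable
  have h8 := dvd_ord_of_adjoin φ v ht0 ht hφ hθint hsep p (h7 ▸ hz0)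
  rw [← h7, hz] at h8
  have := Int.le_of_dvd one_pos h8
  omega

/-- Divisibility of the divisor over the algebraic closure gives the local condition at the
valuation subrings containing the constants. -/
theorem exists_rv_ne_zero [CharZero K0] [Algebra.IsAlgebraic K0 L] [IsAlgClosed L] [CharZero L]
    [FF.FunField L M]
    (hφ : ∀ c : K0, φ (algebraMap K0 F c) = algebraMap L M (algebraMap K0 L c))
    (hgen : ∀ z : M, z ∈ Subfield.closure (Set.range (algebraMap L M) ∪ Set.range φ))
    {m : ℕ} {f : F} (hf0 : f ≠ 0) (hf : ∀ v : Place L M, (m : ℤ) ∣ v.ord (φ f))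
    (W : ValuationSubring F) (hW : ∀ c : K0, algebraMap K0 F c ∈ W) :
    ∃ g : F, rv W (f * g ^ m) ≠ 0 := by
  by_cases htop : ∀ z : F, z ∈ W
  · exact ⟨1, rv_ne_zero_iff.2 ⟨by rwa [one_pow, mul_one], htop _, htop _⟩⟩
  push Not at htop
  obtain ⟨z₁, hz₁⟩ := htop
  obtain ⟨V, hV⟩ := exists_extension φ W
  have hVL : ∀ c : L, algebraMap L M c ∈ V := by
    intro c
    have hc : IsIntegral K0 c := (Algebra.IsAlgebraic.isAlgebraic c).isIntegral
    let ι : K0 →+* V := (φ.comp (algebraMap K0 F)).codRestrict V.toSubring (fun c => (hV _).2 (hW c))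
    have h1 : (V.subtype).IsIntegralElem (algebraMap L M c) := by
      refine ⟨(minpoly K0 c).map ι, (minpoly.monic hc).map _, ?_⟩
      rw [eval₂_map]
      have e1 : V.subtype.comp ι = (algebraMap L M).comp (algebraMap K0 L) := by
        ext c; exact hφ c
      rw [e1, ← hom_eval₂]
      have := minpoly.aeval K0 c
      rw [aeval_def] at this
      rw [this, map_zero]
    obtain ⟨y, hy⟩ := IsIntegrallyClosed.isIntegral_iff.1
      (show IsIntegral V (algebraMap L M c) from h1)
    rw [← hy]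
    exact y.2
  have hVtop : V ≠ ⊤ := by
    intro h
    apply hz₁
    rw [← hV, h]
    exact ValuationSubring.mem_top _
  let v : Place L M := FF.placeOf V hVL hVtop
  have hv : ∀ z : M, z ∈ V ↔ 0 ≤ v.ord z := fun z => H18.mem_iff v
  obtain ⟨t, ht⟩ := exists_ord_one φ v hφ hgen ⟨z₁, by
    intro h
    apply hz₁
    rw [← hV, hv, h]⟩
  obtain ⟨n, hn⟩ := hf v
  have ht0 : t ≠ 0 := by rintro rfl; rw [map_zero, v.ord_zero] at ht; exact zero_ne_one ht
  have hφf : φ f ≠ 0 := fun h => hf0 ((map_eq_zero φ).1 h)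
  have hφt : φ t ≠ 0 := fun h => ht0 ((map_eq_zero φ).1 h)
  refine ⟨t ^ (-n), rv_ne_zero_iff.2 ⟨mul_ne_zero hf0 (pow_ne_zero _ (zpow_ne_zero _ ht0)), ?_, ?_⟩⟩
  · rw [← hV, hv, map_mul, map_pow, map_zpow₀, v.ord_mul hφf (pow_ne_zero _ (zpow_ne_zero _ hφt)),
      H18.ord_pow, v.ord_zpow, ht, hn]
    apply le_of_eq; ring
  · rw [← hV, hv, map_inv₀, v.ord_inv, map_mul, map_pow, map_zpow₀,
      v.ord_mul hφf (pow_ne_zero _ (zpow_ne_zero _ hφt)), H18.ord_pow, v.ord_zpow, ht, hn]
    apply le_of_eq; ring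

end Global

end Fermat.Agent.H23.R
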