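import Fermat.Agent.H23.R.CuspRel
import Fermat.Agent.H23.R.CommonMk

/-!
# PROGRAM R (S36): local rings at the cusps (abstract part)
-/

set_option autoImplicit false
set_option linter.unusedSectionVars false

noncomputable section

open IsLocalRing

namespace Fermat.Agent.H23.R

open Fermat.Agent.H26.RV

section Gen

variable {F : Type*} [Field F]

/-- Localizations of integrally closed rings are integrally closed. -/
theorem locSub_closed {R : Subring F} (hR : ∀ z : F, IsIntegral R z → z ∈ R) (s : Ideal R)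
    [hs : s.IsPrime] (z : F) (hz : IsIntegral (locSub R s) z) : z ∈ locSub R s := by
  have : IsScalarTower R (locSub R s) F := IsScalarTower.of_algebraMap_eq fun x => rfl
  obtain ⟨m, hm⟩ := IsIntegral.exists_multiple_integral_of_isLocalization s.primeCompl z hz
  refine ⟨m, m.2, ?_⟩
  have h1 : (m : R) • z = ((m : R) : F) * z := Algebra.smul_def _ _
  have h2 := hR _ hm
  rwa [Submonoid.smul_def, h1] at h2

theorem rv_ne_one_of_max {O : Subring F} [IsLocalRing O] {V : ValuationSubring F}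
    (hOV : ∀ z ∈ O, z ∈ V) {z : F} (hz : z ∈ O)
    (hm : (⟨z, hz⟩ : O) ∈ maximalIdeal O) : rv V z ≠ 1 := by
  intro h1
  obtain ⟨w, hw⟩ : ∃ w : O, w = ⟨z, hz⟩ + (-1) := ⟨_, rfl⟩
  have h2 : IsUnit w := by
    rw [hw, add_comm]
    exact isUnit_add_max isUnit_one.neg hm
  have h3 : rv V (w : F) = 0 := by
    rw [hw]
    change rv V (z + -1) = 0
    rw [rv_add (hOV z hz) (V.neg_mem _ V.one_mem), rv_neg V.one_mem, rv_one, h1, add_neg_cancel]
  obtain ⟨v, hv⟩ := h2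
  have h4 : ((v : O) : F) * (((v⁻¹ : Oˣ) : O) : F) = 1 := congrArg Subtype.val v.mul_inv
  have h5 := rv_mul (V := V) (hOV _ (v : O).2) (hOV _ ((v⁻¹ : Oˣ) : O).2)
  rw [h4, rv_one, hv, h3, zero_mul] at h5
  exact one_ne_zero h5

theorem isUnit_of_inv_mem {O : Subring F} {z : F} (hz : z ∈ O) (hz0 : z ≠ 0) (hzi : z⁻¹ ∈ O) :
    IsUnit (⟨z, hz⟩ : O) :=
  IsUnit.of_mul_eq_one ⟨z⁻¹, hzi⟩ (Subtype.ext (mul_inv_cancel₀ hz0))

theorem inv_mem_of_isUnit {O : Subring F} {z : F} (hz : z ∈ O) (h : IsUnit (⟨z, hz⟩ : O)) :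
    z⁻¹ ∈ O := by
  obtain ⟨v, hv⟩ := h
  have h4 : ((v : O) : F) * (((v⁻¹ : Oˣ) : O) : F) = 1 := congrArg Subtype.val v.mul_inv
  rw [hv] at h4
  change z * _ = 1 at h4
  rw [inv_eq_of_mul_eq_one_right h4]
  exact ((v⁻¹ : Oˣ) : O).2

end Gen

section Cusp

variable {F : Type*} [Field F] {O : Subring F} [IsLocalRing O] {q : ℕ}

theorem not_div_mem (hq : 2 ≤ q) {V : ValuationSubring F} (hOV : ∀ z ∈ O, z ∈ V) {Y Z : F}
    (hY : Y ∈ O) (hYm : (⟨Y, hY⟩ : O) ∈ maximalIdeal O) (hc : rv V (Y ^ q / Z) = 1) :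
    Y / Z ∉ O := by
  intro h
  obtain ⟨n, rfl⟩ : ∃ n, q = n + 2 := ⟨q - 2, by omega⟩
  have e1 : Y ^ (n + 2) / Z = Y ^ n * (Y * (Y / Z)) := by ring
  have h1 : Y ^ (n + 2) / Z ∈ O := by
    rw [e1]; exact O.mul_mem (O.pow_mem hY _) (O.mul_mem hY h)
  refine rv_ne_one_of_max hOV h1 ?_ hc
  have e2 : (⟨Y ^ (n + 2) / Z, h1⟩ : O) = (⟨Y, hY⟩ : O) ^ n * ⟨Y / Z, h⟩ * ⟨Y, hY⟩ := by
    apply Subtype.ext
    change Y ^ (n + 2) / Z = Y ^ n * (Y / Z) * Y
    rw [e1]; ring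
  rw [e2]
  exact (maximalIdeal O).mul_mem_left _ hYm

/-- The local rings of points with `X = 0`, of a component on which `X'`, `X''` have the given
reductions. -/
structure CuspData (q : ℕ) (X X' X'' : F) (V : Fin 3 → ValuationSubring F) : Prop where
  rel : CuspRel q X X'
  rel' : CuspRel q X' X''
  ne : X ≠ 0
  ne' : X' ≠ 0
  ne'' : X'' ≠ 0
  c0a : rv (V 0) (X ^ q / X') = 1
  c0b : rv (V 0) (X' ^ q / X'') = 1
  c1a : rv (V 1) (X ^ q / X') = 1
  c1b : rv (V 1) (X'' ^ q / X') = 1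
  c2a : rv (V 2) (X' ^ q / X) = 1
  c2b : rv (V 2) (X'' ^ q / X') = 1

namespace CuspData

variable {X X' X'' : F} {V : Fin 3 → ValuationSubring F} (h : CuspData q X X' X'' V)
  (hq : 2 ≤ q) (hO : ∀ z : F, IsIntegral O z → z ∈ O) (hX : X ∈ O)
  (hXm : (⟨X, hX⟩ : O) ∈ maximalIdeal O)

include h hq hO hXm

theorem excl {i j : Fin 3} (hi : ∀ z ∈ O, z ∈ V i) (hj : ∀ z ∈ O, z ∈ V j) : i = j := by
  obtain ⟨hX', hXm'⟩ := h.rel.mem_max hO hX hXm
  obtain ⟨hX'', hXm''⟩ := h.rel'.mem_max hO hX' hXm'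
  -- component 0
  have a0 : (∀ z ∈ O, z ∈ V 0) → X / X' ∉ O := fun hV => not_div_mem hq hV hX hXm h.c0a
  have b0 : (∀ z ∈ O, z ∈ V 0) → X' / X'' ∉ O := fun hV => not_div_mem hq hV hX' hXm' h.c0b
  have a1 : (∀ z ∈ O, z ∈ V 1) → X / X' ∉ O := fun hV => not_div_mem hq hV hX hXm h.c1a
  have b1 : (∀ z ∈ O, z ∈ V 1) → X'' / X' ∉ O := fun hV => not_div_mem hq hV hX'' hXm'' h.c1b
  have a2 : (∀ z ∈ O, z ∈ V 2) → X' / X ∉ O := fun hV => not_div_mem hq hV hX' hXm' h.c2a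
  have b2 : (∀ z ∈ O, z ∈ V 2) → X'' / X' ∉ O := fun hV => not_div_mem hq hV hX'' hXm'' h.c2b
  have ca := h.rel.comparable hO hq h.ne hX hXm
  have cb := h.rel'.comparable hO hq h.ne' hX' hXm'
  have e01 : (∀ z ∈ O, z ∈ V 0) → (∀ z ∈ O, z ∈ V 1) → False := fun h0 h1 => by
    rcases cb with c | c
    · exact b1 h1 c
    · exact b0 h0 c
  have e02 : (∀ z ∈ O, z ∈ V 0) → (∀ z ∈ O, z ∈ V 2) → False := fun h0 h1 => by
    rcases ca with c | c
    · exact a2 h1 c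
    · exact a0 h0 c
  have e12 : (∀ z ∈ O, z ∈ V 1) → (∀ z ∈ O, z ∈ V 2) → False := fun h0 h1 => by
    rcases ca with c | c
    · exact a2 h1 c
    · exact a1 h0 c
  rcases (by fin_cases i <;> simp : i = 0 ∨ i = 1 ∨ i = 2) with rfl | rfl | rfl <;>
  rcases (by fin_cases j <;> simp : j = 0 ∨ j = 1 ∨ j = 2) with rfl | rfl | rfl
  · rfl
  · exact (e01 hi hj).elim
  · exact (e02 hi hj).elim
  · exact (e01 hj hi).elim
  · rfl
  · exact (e12 hi hj).elim
  · exact (e02 hj hi).elim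
  · exact (e12 hj hi).elim
  · rfl

/-- at a cusp of the middle component `X''/X` is a unit. -/
theorem mid (hi : ∀ z ∈ O, z ∈ V 1) : X / X'' ∈ O ∧ X'' / X ∈ O := by
  obtain ⟨hX', hXm'⟩ := h.rel.mem_max hO hX hXm
  obtain ⟨hX'', hXm''⟩ := h.rel'.mem_max hO hX' hXm'
  have a1 : X / X' ∉ O := not_div_mem hq hi hX hXm h.c1a
  have b1 : X'' / X' ∉ O := not_div_mem hq hi hX'' hXm'' h.c1b
  have ca := (h.rel.comparable hO hq h.ne hX hXm).resolve_right a1
  have cb := (h.rel'.comparable hO hq h.ne' hX' hXm').resolve_left b1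
  refine CuspRel.unit_middle hO hq h.ne h.ne'' h.rel h.rel' hX hXm ca ?_ cb ?_
  · by_contra hu
    have := inv_mem_of_isUnit ca (by
      rwa [mem_maximalIdeal, mem_nonunits_iff, not_not] at hu)
    rw [inv_div] at this
    exact a1 this
  · by_contra hu
    have := inv_mem_of_isUnit cb (by
      rwa [mem_maximalIdeal, mem_nonunits_iff, not_not] at hu)
    rw [inv_div] at this
    exact b1 this

end CuspData

end Cusp

end Fermat.Agent.H23.R
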