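import Fermat.Agent.H23.R.Lifts
import Fermat.Agent.H23.R.CuspLoc
import Fermat.Agent.Igusa.RTC

/-!
# PROGRAM R (S36): the cusps of the chart `1/j`
-/

set_option autoImplicit false
set_option maxSynthPendingDepth 3
set_option linter.unusedSectionVars false

noncomputable section

attribute [-instance] HahnSeries.instModule HahnSeries.instSMul HahnSeries.instDistribMulAction
  HahnSeries.instSMulZeroClass

namespace Fermat.Agent.H23.R

open ModularCurve ModularCurve.IgusaScheme Polynomial AlgebraicCurve Fermat.Agent.H26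
  Fermat.Agent.H26.RV
open Fermat.Agent.H28 (modRed jZ jinvZ)
open Fermat.Agent.Q (Red)
open Fermat.Agent.Igusa (modPoly evZ modPoly_monic twist theta)

local notation "Qb" => AlgebraicClosure ℚ
local notation "kk" => IsLocalRing.ResidueField

section Elts

variable (K : Type*) [Field K] [Algebra ℚ K] (M q : ℕ) [NeZero M] [hq : Fact q.Prime]

/-- `j(t^q)` in level `M q²` -/
def jK' : laurentBaseChange K (modularFunctionFieldFull (M * q * q)) :=
  heckeAlphaBar K (M * q) q (heckeBetaBar K M q (jK K M))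

/-- `j(t^{q²})` in level `M q²` -/
def jK'' : laurentBaseChange K (modularFunctionFieldFull (M * q * q)) :=
  heckeBetaBar K (M * q) q (heckeBetaBar K M q (jK K M))

theorem coe_jK' : ((jK' K M q : laurentBaseChange K (modularFunctionFieldFull (M * q * q))) :
    LaurentSeries K) = Igusa.jd K q := by
  rw [jK', coe_heckeAlphaBar, coe_heckeBetaBar, coe_jK]
  rfl

theorem coe_jK'' : ((jK'' K M q : laurentBaseChange K (modularFunctionFieldFull (M * q * q))) :
    LaurentSeries K) = Igusa.jd K (q * q) := by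
  rw [jK'', coe_heckeBetaBar, coe_heckeBetaBar, coe_jK, ← Igusa.jd_one, Igusa.qExpand_jd,
    Igusa.qExpand_jd]
  exact Igusa.jd_congr K (by rw [mul_one])

theorem jK'_ne_zero : jK' K M q ≠ 0 := by
  intro h
  have h1 := coe_jK' K M q
  rw [h] at h1
  exact Igusa.jd_ne_zero q h1.symm

theorem jK''_ne_zero : jK'' K M q ≠ 0 := by
  intro h
  have h1 := coe_jK'' K M q
  rw [h] at h1
  exact Igusa.jd_ne_zero (q * q) h1.symm

theorem cuspRel_jK : CuspRel q (jK K (M * q * q))⁻¹ (jK' K M q)⁻¹ := by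
  apply CuspRel.of_map (laurentBaseChange K (modularFunctionFieldFull (M * q * q))).val.toRingHom
  rw [map_inv₀, map_inv₀]
  change CuspRel q ((jK K (M * q * q) : laurentBaseChange K
    (modularFunctionFieldFull (M * q * q))) : LaurentSeries K)⁻¹
    ((jK' K M q : laurentBaseChange K
    (modularFunctionFieldFull (M * q * q))) : LaurentSeries K)⁻¹
  rw [coe_jK, coe_jK', ← Igusa.jd_one]
  have := cuspRel_jd K q 1
  rwa [Igusa.jd_congr K (one_mul q)] at this

theorem cuspRel_jK' : CuspRel q (jK' K M q)⁻¹ (jK'' K M q)⁻¹ := by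
  apply CuspRel.of_map (laurentBaseChange K (modularFunctionFieldFull (M * q * q))).val.toRingHom
  rw [map_inv₀, map_inv₀]
  change CuspRel q ((jK' K M q : laurentBaseChange K
    (modularFunctionFieldFull (M * q * q))) : LaurentSeries K)⁻¹
    ((jK'' K M q : laurentBaseChange K
    (modularFunctionFieldFull (M * q * q))) : LaurentSeries K)⁻¹
  rw [coe_jK', coe_jK'']
  exact cuspRel_jd K q q

end Elts

variable {q M : ℕ} [hq : Fact q.Prime] [NeZero M] (hqM : Nat.Coprime q M)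
  {A : ValuationSubring Qb} (hA : A.LiesOverPrime q)

theorem jqModC_kk_ne_zero : jqModC (kk A) ≠ 0 := by
  have := Igusa.jd_ne_zero (R := kk A) 1
  rwa [Igusa.jd_one] at this

include hA

theorem red_qExpand_jM :
    Red A (qExpand Qb q (eb (K0 A) M (jK (K0 A) M))) (jqModC (kk A) ^ q) := by
  rw [← qExpand_jqModC hA]; exact (red_eb_jK M).qExpand q

theorem red_io0_jK' : Red A (io hqM (K0 A) 0 (jK' (K0 A) M q)) (jqModC (kk A) ^ q) := by
  rw [jK', io0_alpha, ie0_beta]; exact red_qExpand_jM hA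

theorem red_io1_jK' : Red A (io hqM (K0 A) 1 (jK' (K0 A) M q)) (jqModC (kk A) ^ q) := by
  rw [jK', io1_alpha, ie0_beta]; exact red_qExpand_jM hA

theorem red_io2_jK' : Red A (io hqM (K0 A) 2 (jK' (K0 A) M q)) (jqModC (kk A) ^ q) := by
  rw [jK', io2_alpha, ie1_beta]; exact red_qExpand_jM hA

theorem red_io0_jK'' : Red A (io hqM (K0 A) 0 (jK'' (K0 A) M q)) (jqModC (kk A) ^ q ^ 2) := by
  rw [jK'', io0_beta, ie0_beta]
  have h := (red_qExpand_jM (M := M) hA).qExpand q
  rwa [map_pow, qExpand_jqModC hA, ← pow_mul, ← sq] at h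

theorem red_io1_jK'' : Red A (io hqM (K0 A) 1 (jK'' (K0 A) M q)) (jqModC (kk A)) := by
  rw [jK'', io1_beta, ie1_beta]
  exact red_twist hq.out hA (zt_pow Qb hqM) (red_eb_jK M)

omit hA in
theorem red_io2_jK'' : Red A (io hqM (K0 A) 2 (jK'' (K0 A) M q)) (jqModC (kk A)) := by
  rw [jK'', io2_beta, ie1_beta]
  exact red_eb_jK M

theorem rv_eq_one {i : Fin 3} {y z : LF (K0 A) (M * q * q)} {n m l : ℕ}
    (hy : Red A (io hqM (K0 A) i y) (jqModC (kk A) ^ n))
    (hz : Red A (io hqM (K0 A) i z) (jqModC (kk A) ^ m)) (h : n * l = m) :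
    rv (V hqM (K0 A) hA i) (y⁻¹ ^ l / z⁻¹) = 1 := by
  have hj := jqModC_kk_ne_zero (A := A)
  have h1 := (redV hqM hA i).div ((redV hqM hA i).pow ((redV hqM hA i).inv hy
    (pow_ne_zero n hj)) l) ((redV hqM hA i).inv hz (pow_ne_zero m hj))
    (inv_ne_zero (pow_ne_zero m hj))
  rw [← rv_one (V := V hqM (K0 A) hA i), (redV hqM hA i).rv_eq_iff h1 (redV hqM hA i).one,
    div_inv_eq_mul, inv_pow, ← pow_mul, h, inv_mul_cancel₀ (pow_ne_zero m hj)]

/-- the cusp data. -/
theorem cuspData : CuspData q (jK (K0 A) (M * q * q))⁻¹ (jK' (K0 A) M q)⁻¹ (jK'' (K0 A) M q)⁻¹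
    (V hqM (K0 A) hA) where
  rel := cuspRel_jK _ M q
  rel' := cuspRel_jK' _ M q
  ne := inv_ne_zero (jK_ne_zero _ _)
  ne' := inv_ne_zero (jK'_ne_zero _ _ _)
  ne'' := inv_ne_zero (jK''_ne_zero _ _ _)
  c0a := rv_eq_one hqM hA (n := 1) (by rw [pow_one]; exact red_io0_jK hqM)
    (red_io0_jK' hqM hA) (one_mul q)
  c0b := rv_eq_one hqM hA (red_io0_jK' hqM hA) (red_io0_jK'' hqM hA) (sq q).symm
  c1a := rv_eq_one hqM hA (n := 1) (by rw [pow_one]; exact red_io1_jK hqM)
    (red_io1_jK' hqM hA) (one_mul q)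
  c1b := rv_eq_one hqM hA (n := 1) (by rw [pow_one]; exact red_io1_jK'' hqM hA)
    (red_io1_jK' hqM hA) (one_mul q)
  c2a := rv_eq_one hqM hA (red_io2_jK' hqM hA) (red_io2_jK hqM hA) (sq q).symm
  c2b := rv_eq_one hqM hA (n := 1) (by rw [pow_one]; exact red_io2_jK'' hqM)
    (red_io2_jK' hqM hA) (one_mul q)

omit hA in
/-- the function `t = 1 - j''/j` on the middle component -/
def tMid (K : Type*) [Field K] [Algebra ℚ K] (M q : ℕ) [NeZero M] [Fact q.Prime] :
    laurentBaseChange K (modularFunctionFieldFull (M * q * q)) :=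
  1 - jK'' K M q / jK K (M * q * q)

theorem red_tMid : Red A (io hqM (K0 A) 1 (tMid (K0 A) M q)) 0 := by
  have h := (redV hqM hA 1).sub (redV hqM hA 1).one ((redV hqM hA 1).div (red_io1_jK'' hqM hA)
    (red_io1_jK hqM) (jqModC_kk_ne_zero (A := A)))
  rwa [div_self (jqModC_kk_ne_zero (A := A)), sub_self] at h

/-- `t^{q-1}/q` on the middle component -/
theorem red_tMid_pow : Red A (io hqM (K0 A) 1 (tMid (K0 A) M q ^ (q - 1) * (q : LF (K0 A) (M * q * q))⁻¹))
    (-((theta (jqModC (kk A)) / jqModC (kk A)) ^ (q - 1))) := by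
  have := charP_kk (q := q) hA
  have hj0 := jqModC_kk_ne_zero (A := A)
  have hq0 : (q : Qb) ≠ 0 := Nat.cast_ne_zero.2 hq.out.ne_zero
  have h1 := Igusa.red_twist_j (K := Qb) (A := A) (l := q) hq0 (zt_prim Qb hqM)
  have h2 := (Q.red_jd (K := Qb) (A := A) 1).pow (q - 1)
  rw [Igusa.jd_one, Igusa.jd_one] at h2
  have h3 := h1.div h2 (pow_ne_zero _ hj0)
  have hjQ : jqModC Qb ≠ 0 := by
    have := Igusa.jd_ne_zero (R := Qb) 1
    rwa [Igusa.jd_one] at this
  have e1 : io hqM (K0 A) 1 (tMid (K0 A) M q ^ (q - 1) * (q : LF (K0 A) (M * q * q))⁻¹) =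
      HahnSeries.C (q : Qb)⁻¹ * (jqModC Qb - twist (zt Qb hqM) (jqModC Qb)) ^ (q - 1) /
        jqModC Qb ^ (q - 1) := by
    have e2 : io hqM (K0 A) 1 (jK (K0 A) (M * q * q)) = jqModC Qb := by
      rw [← alpha_jK, ← alpha_jK, io1_alpha, ie0_alpha, eb_apply, coe_jK]
      exact coeffMap_jqModC _
    have e3 : io hqM (K0 A) 1 (jK'' (K0 A) M q) = twist (zt Qb hqM) (jqModC Qb) := by
      rw [jK'', io1_beta, ie1_beta, eb_apply, coe_jK]
      congr 1
      exact coeffMap_jqModC _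
    rw [map_mul, map_pow, tMid, map_sub, map_one, map_div₀, e2, e3, map_inv₀, map_natCast]
    have e4 : (1 : LaurentSeries Qb) - twist (zt Qb hqM) (jqModC Qb) / jqModC Qb =
        (jqModC Qb - twist (zt Qb hqM) (jqModC Qb)) / jqModC Qb := by
      field_simp
    rw [e4, div_pow, map_inv₀, map_natCast]
    ring
  rw [e1]
  have e5 : -((theta (jqModC (kk A)) / jqModC (kk A)) ^ (q - 1)) =
      -theta (jqModC (kk A)) ^ (q - 1) / jqModC (kk A) ^ (q - 1) := by
    rw [div_pow, neg_div]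
  rw [e5]
  exact h3

end Fermat.Agent.H23.R
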