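import Fermat.Agent.H23.R.NewB

/-!
# PROGRAM R (S36): the function field theorem (abstract form), final part
-/

namespace Fermat.Agent.H23.R

open IsLocalRing

variable {A0 K0 E F : Type*} [CommRing A0] [Field K0] [Field E] [Field F]
    [Algebra A0 K0] [Algebra A0 F] [Algebra K0 E] [Algebra K0 F] {q : ℕ} {ϖ : A0}
    {V : Fin 3 → ValuationSubring F} {W : Fin 2 → ValuationSubring E} {a b : E →ₐ[K0] F}
    {Na Nb : F →* E} {S₁ S₂ : Subring F} {x : F}

/-- Step 4: after raising to the power `q ^ 2 - 1` the gluing data are trivial. -/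
theorem RSetup.step4 (hS : RSetup q ϖ V W a b Na Nb S₁ S₂ x) {m : ℕ} (hm : m ≠ 0)
    (hμ : ∀ i, ∀ x : ResidueField (W i), x ^ m = 1 →
      ∃ ζ : K0, ζ ^ m = 1 ∧ rv (W i) (algebraMap K0 E ζ) = x)
    {f : F} (hf : ∀ i, rv (V i) f ≠ 0) {ha hb : E} (hNa : Na f = ha ^ m) (hNb : Nb f = hb ^ m)
    (u : ∀ i, ResidueField (V i)) (hu : ∀ i, u i ^ m = rv (V i) f) :
    ∃ u' : ∀ i, ResidueField (V i),
      (∀ i, u' i ^ m = rv (V i) (f ^ ((q - 1) * (q + 1)))) ∧
      ∀ (S : Subring F), Chart V (algebraMap A0 F ϖ) S →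
        (∀ W : ValuationSubring F, (∀ z ∈ S, z ∈ W) → ∃ g : F, rv W (f * g ^ m) ≠ 0) →
        (∀ (s : Ideal (S ⊓ vert V : Subring F)) [s.IsPrime], s.IsMaximal →
    (∀ a : (S ⊓ vert V : Subring F), (a : F) = algebraMap A0 F ϖ → a ∈ s) →
    ∀ i j : Fin 3, i ≠ j → (∀ z ∈ locSub _ s, z ∈ V i) → (∀ z ∈ locSub _ s, z ∈ V j) →
    (∀ k, ∀ z ∈ locSub _ s, z ∈ V k) ∧ CommonPt q a Na (V 0) (V 1) (V 2) (locSub _ s) ∧
      CommonPt q b Nb (V 2) (V 1) (V 0) (locSub _ s)) →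
        Glued V (algebraMap A0 F ϖ) S m (f ^ ((q - 1) * (q + 1))) u' := by
  have hq2 := hS.hq.two_le
  have hf0 : f ≠ 0 := (rv_ne_zero_iff.1 (hf 0)).1
  have hfm : ∀ i, f ∈ V i := fun i => (rv_ne_zero_iff.1 (hf i)).2.1
  have hu0 : ∀ i, u i ≠ 0 := fun i h0 => hf i (by rw [← hu i, h0, zero_pow hm])
  obtain ⟨za, za', hza, hza', hrelA⟩ := hS.sysA.relation hm (hμ 0) (hμ 1) (hf 0) (hf 1) (hf 2)
    (hu 0) (hu 1) (hu 2) hNa
  obtain ⟨zb, zb', hzb, hzb', hrelB⟩ := hS.sysB.relation hm (hμ 1) (hμ 0) (hf 2) (hf 1) (hf 0)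
    (hu 2) (hu 1) (hu 0) hNb
  have hza0 : za ≠ 0 := by rintro rfl; rw [zero_pow hm] at hza; exact zero_ne_one hza
  have hza0' : za' ≠ 0 := by rintro rfl; rw [zero_pow hm] at hza'; exact zero_ne_one hza'
  have hzb0 : zb ≠ 0 := by rintro rfl; rw [zero_pow hm] at hzb; exact zero_ne_one hzb
  have hzb0' : zb' ≠ 0 := by rintro rfl; rw [zero_pow hm] at hzb'; exact zero_ne_one hzb'
  let ξ : Fin 3 → K0 := ![1, (zb' / zb) ^ q * (za' / za), ((zb' * za) / (zb * za')) ^ (q - 1)]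
  have hξm : ∀ i, ξ i ^ m = 1 := by
    intro i
    fin_cases i
    · change (1 : K0) ^ m = 1; exact one_pow m
    · change ((zb' / zb) ^ q * (za' / za)) ^ m = 1
      rw [mul_pow, ← pow_mul, mul_comm q m, pow_mul, div_pow zb' zb m, div_pow za' za m, hza,
        hza', hzb, hzb']
      simp
    · change (((zb' * za) / (zb * za')) ^ (q - 1)) ^ m = 1
      rw [← pow_mul, mul_comm (q - 1) m, pow_mul, div_pow, mul_pow, mul_pow, hza, hza', hzb, hzb']
      simp
  have hξ0 : ∀ i, ξ i ≠ 0 := fun i h0 => by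
    have := hξm i; rw [h0, zero_pow hm] at this; exact zero_ne_one this
  have oξ : ∀ i, rv (V i) (algebraMap K0 F (ξ i)) ≠ 0 := fun i =>
    rv_root_ne_zero hm (by rw [← map_pow, hξm, map_one])
  obtain ⟨e, he⟩ : ∃ e, e = (q - 1) * (q + 1) := ⟨_, rfl⟩
  rw [← he]
  refine ⟨fun i => u i ^ e * (rv (V i) (algebraMap K0 F (ξ i)))⁻¹, ?_, ?_⟩
  · intro i
    rw [mul_pow, inv_pow, ← rv_pow (rv_ne_zero_iff.1 (oξ i)).2.1, ← map_pow, hξm, map_one, rv_one,
      inv_one, mul_one, ← pow_mul, mul_comm e m, pow_mul, hu, rv_pow (hfm i)]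
  · intro S hSc hhor hcommon s hsP hs hϖs
    obtain ⟨w, hw0, hw, hw'⟩ := hSc.exists_generator hS.vrt hm hf0 hf hhor s hs hϖs
    obtain ⟨τ, hτ⟩ := hSc.exists_tau hm hf u hu s hw
    have hroot : ∀ z : F, z ^ m ∈ locSub _ s → z ∈ locSub _ s := fun z hz =>
      root_closed_of_ufd (fun z => hSc.frac z) (hSc.ufd s hs hϖs) hm hz
    have hξO : ∀ i, algebraMap K0 F (ξ i) ∈ locSub _ s := fun i => by
      apply hroot; rw [← map_pow, hξm, map_one]; exact (locSub _ s).one_mem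
    have hξO' : ∀ i, (algebraMap K0 F (ξ i))⁻¹ ∈ locSub _ s := fun i => by
      apply hroot; rw [inv_pow, ← map_pow, hξm, map_one, inv_one]; exact (locSub _ s).one_mem
    refine ⟨w ^ e, pow_ne_zero _ hw0, ?_, ?_, fun i => τ i ^ e * ⟨_, hξO' i⟩, ?_, ?_⟩
    · have : (w ^ e) ^ m * f ^ e = (w ^ m * f) ^ e := by
        rw [mul_pow, ← pow_mul, ← pow_mul, mul_comm e m]
      rw [this]
      exact (locSub _ s).pow_mem hw _
    · have : ((w ^ e) ^ m * f ^ e)⁻¹ = ((w ^ m * f)⁻¹) ^ e := by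
        rw [inv_pow, mul_pow, ← pow_mul, ← pow_mul, mul_comm e m]
      rw [this]
      exact (locSub _ s).pow_mem hw' _
    · intro i hi
      change rv (V i) ((τ i : F) ^ e * (algebraMap K0 F (ξ i))⁻¹) = _
      have hwV : w ∈ V i := by
        apply mem_of_pow_mem hm
        have : w ^ m = (w ^ m * f) * f⁻¹ := by field_simp
        rw [this]
        exact (V i).mul_mem _ _ (hi _ hw) (rv_ne_zero_iff.1 (hf i)).2.2
      rw [rv_mul (pow_mem (hi _ (τ i).2) _) (hi _ (hξO' i)), rv_inv, rv_pow (hi _ (τ i).2), hτ i hi,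
        rv_pow hwV]
      ring
    · intro i j hi hj
      by_cases hij : i = j
      · subst hij; rw [sub_self]; exact (maximalIdeal _).zero_mem
      obtain ⟨hall, hcA, hcB⟩ := hcommon s hs hϖs i j hij hi hj
      obtain ⟨ma, ma', rA⟩ := hrelA (locSub _ s) hroot (hall 0) (hall 1) (hall 2) hcA w hw0 hw hw'
        (τ 0) (τ 1) (τ 2) (hτ 0 (hall 0)) (hτ 1 (hall 1)) (hτ 2 (hall 2))
      obtain ⟨mb, mb', rB⟩ := hrelB (locSub _ s) hroot (hall 2) (hall 1) (hall 0) hcB w hw0 hw hw'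
        (τ 2) (τ 1) (τ 0) (hτ 2 (hall 2)) (hτ 1 (hall 1)) (hτ 0 (hall 0))
      -- the residues are nonzero
      have ow : ∀ k, rv (V k) w ≠ 0 := by
        intro k
        apply rv_ne_zero_of_pow hm
        have e1 : rv (V k) (w ^ m * f) ≠ 0 :=
          rv_ne_zero_iff.2 ⟨mul_ne_zero (pow_ne_zero _ hw0) hf0, hall k _ hw, hall k _ hw'⟩
        have e2 : w ^ m = (w ^ m * f) * f⁻¹ := by field_simp
        rw [e2]
        exact rv_ne_zero_mul e1 (rv_ne_zero_inv (hf k))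
      have hunitO : ∀ y : locSub _ s, ∀ k, (y : F) ^ m ∈ locSub _ s → rv (V k) (y ^ m : F) =
          rv (V k) (w ^ m * f) → residue (locSub _ s) y ≠ 0 := by
        intro y k hy hyk h0
        rw [residue_eq_zero_iff] at h0
        have h1 : (⟨w ^ m * f, hw⟩ : locSub _ s) - y ^ m ∈ maximalIdeal (locSub _ s) := by
          apply rv_eq_zero_mem_of_le (hall k)
          change rv (V k) (w ^ m * f - (y : F) ^ m) = 0
          rw [rv_sub (hall k _ hw) (hall k _ hy), hyk, sub_self]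
        have h2 : (⟨w ^ m * f, hw⟩ : locSub _ s) ∈ maximalIdeal (locSub _ s) := by
          have : (⟨w ^ m * f, hw⟩ : locSub _ s) = (⟨w ^ m * f, hw⟩ - y ^ m) + y ^ m := by ring
          rw [this]
          exact (maximalIdeal _).add_mem h1 (Ideal.pow_mem_of_mem _ h0 _ (Nat.pos_of_ne_zero hm))
        have h3 : IsUnit (⟨w ^ m * f, hw⟩ : locSub _ s) := by
          refine IsUnit.of_mul_eq_one ⟨_, hw'⟩ ?_
          apply Subtype.ext
          exact mul_inv_cancel₀ (mul_ne_zero (pow_ne_zero _ hw0) hf0)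
        exact (mem_nonunits_iff.1 ((mem_maximalIdeal _).1 h2)) h3
      have hτne : ∀ k, residue (locSub _ s) (τ k) ≠ 0 := by
        intro k
        refine hunitO (τ k) k ((locSub _ s).pow_mem (τ k).2 _) ?_
        rw [rv_pow (hall k _ (τ k).2), hτ k (hall k), mul_pow, hu,
          rv_mul (rv_ne_zero_iff.1 (rv_ne_zero_pow (ow k) m)).2.1 (hfm k),
          rv_pow (rv_ne_zero_iff.1 (ow k)).2.1]
      have hcne : ∀ (z : K0) (hz : algebraMap K0 F z ∈ locSub _ s), z ^ m = 1 →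
          residue (locSub _ s) ⟨_, hz⟩ ≠ 0 := by
        intro z hz hzm h0
        have h1 : residue (locSub _ s) ⟨_, hz⟩ ^ m = 1 := by
          rw [← map_pow, ← map_one (residue (locSub _ s))]
          congr 1
          apply Subtype.ext
          change (algebraMap K0 F z) ^ m = 1
          rw [← map_pow, hzm, map_one]
        rw [h0, zero_pow hm] at h1
        exact zero_ne_one h1
      obtain ⟨g1, g2⟩ := common_algebra hq2 (hτne 0) (hτne 1) (hcne za ma hza) (hcne za' ma' hza')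
        (hcne zb mb hzb) (hcne zb' mb' hzb') rA rB
      -- residues of the ξ
      obtain ⟨rξ, hrξ⟩ : ∃ rξ : Fin 3 → ResidueField (locSub _ s), ∀ k, rξ k =
          residue (locSub _ s) ⟨_, hξO k⟩ := ⟨_, fun k => rfl⟩
      have hrξ0 : ∀ k, rξ k ≠ 0 := fun k => by rw [hrξ]; exact hcne _ _ (hξm k)
      have hr0 : rξ 0 = 1 := by
        rw [hrξ, ← map_one (residue (locSub _ s))]
        congr 1
        apply Subtype.ext
        exact map_one _
      have hinv : ∀ (z : K0) (hz : algebraMap K0 F z ∈ locSub _ s)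
          (hz' : (algebraMap K0 F z)⁻¹ ∈ locSub _ s), z ^ m = 1 →
          residue (locSub _ s) ⟨_, hz'⟩ = (residue (locSub _ s) ⟨_, hz⟩)⁻¹ := by
        intro z hz hz' hzm
        have hz0 : z ≠ 0 := by rintro rfl; rw [zero_pow hm] at hzm; exact zero_ne_one hzm
        apply eq_inv_of_mul_eq_one_right
        rw [← map_mul, ← map_one (residue (locSub _ s))]
        congr 1
        apply Subtype.ext
        exact mul_inv_cancel₀ ((map_ne_zero _).2 hz0)
      have hr1 : rξ 1 = (residue (locSub _ s) ⟨_, mb'⟩ / residue (locSub _ s) ⟨_, mb⟩) ^ q *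
          (residue (locSub _ s) ⟨_, ma'⟩ / residue (locSub _ s) ⟨_, ma⟩) := by
        have hd : rξ 1 * (residue (locSub _ s) ⟨_, mb⟩ ^ q * residue (locSub _ s) ⟨_, ma⟩) =
            residue (locSub _ s) ⟨_, mb'⟩ ^ q * residue (locSub _ s) ⟨_, ma'⟩ := by
          rw [hrξ, ← map_pow, ← map_mul, ← map_mul, ← map_pow, ← map_mul]
          congr 1
          apply Subtype.ext
          change algebraMap K0 F ((zb' / zb) ^ q * (za' / za)) *
            (algebraMap K0 F zb ^ q * algebraMap K0 F za) =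
              algebraMap K0 F zb' ^ q * algebraMap K0 F za'
          rw [← map_pow, ← map_pow, ← map_mul, ← map_mul, ← map_mul]
          congr 1
          rw [div_pow]
          field_simp
        have n1 := hcne zb mb hzb
        have n2 := hcne za ma hza
        rw [div_pow]
        field_simp
        linear_combination hd
      have hr2 : rξ 2 = (residue (locSub _ s) ⟨_, mb'⟩ * residue (locSub _ s) ⟨_, ma⟩ /
          (residue (locSub _ s) ⟨_, mb⟩ * residue (locSub _ s) ⟨_, ma'⟩)) ^ (q - 1) := by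
        have hd : rξ 2 * (residue (locSub _ s) ⟨_, mb⟩ * residue (locSub _ s) ⟨_, ma'⟩) ^ (q - 1) =
            (residue (locSub _ s) ⟨_, mb'⟩ * residue (locSub _ s) ⟨_, ma⟩) ^ (q - 1) := by
          rw [hrξ, ← map_mul, ← map_mul, ← map_pow, ← map_mul, ← map_pow]
          congr 1
          apply Subtype.ext
          change algebraMap K0 F (((zb' * za) / (zb * za')) ^ (q - 1)) *
            (algebraMap K0 F zb * algebraMap K0 F za') ^ (q - 1) =
              (algebraMap K0 F zb' * algebraMap K0 F za) ^ (q - 1)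
          rw [← map_mul, ← map_mul, ← map_pow, ← map_pow, ← map_mul]
          congr 1
          rw [← mul_pow]
          congr 1
          field_simp
        have n1 := hcne zb mb hzb
        have n2 := hcne za' ma' hza'
        rw [div_pow, eq_div_iff (pow_ne_zero _ (mul_ne_zero n1 n2))]
        exact hd
      -- all residues equal that of τ 0 ^ e
      have hfin : ∀ k, residue (locSub _ s) (τ k ^ e * ⟨_, hξO' k⟩) =
          residue (locSub _ s) (τ 0) ^ e := by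
        intro k
        rw [map_mul, map_pow, hinv _ (hξO k) (hξO' k) (hξm k), ← hrξ]
        have h0 := hrξ0 k
        rw [← div_eq_mul_inv, div_eq_iff h0]
        fin_cases k
        · change residue (locSub _ s) (τ 0) ^ e = residue (locSub _ s) (τ 0) ^ e * rξ 0
          rw [hr0, mul_one]
        · change residue (locSub _ s) (τ 1) ^ e = residue (locSub _ s) (τ 0) ^ e * rξ 1
          rw [hr1, he, g2]; ring
        · change residue (locSub _ s) (τ 2) ^ e = residue (locSub _ s) (τ 0) ^ e * rξ 2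
          rw [hr2, he, g1]; ring
      rw [← residue_eq_zero_iff, map_sub, hfin, hfin, sub_self]

/-- THE FUNCTION FIELD THEOREM: if `f` is locally an `m`-th power up to units at all horizontal
places and its norms along both embeddings are constants times `m`-th powers, then
`f ^ ((q - 1) ^ 2 * (q + 1) ^ 2)` is a constant times an `m`-th power. -/
theorem RSetup.main [IsNoetherianRing A0] [IsScalarTower A0 K0 F]
    (hS : RSetup q ϖ V W a b Na Nb S₁ S₂ x) {m : ℕ} (hm : m ≠ 0)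
    (hqm : Nat.Coprime q m) {c : A0} (hmc : (m : A0) * c = 1)
    (hμ : ∀ i, ∀ x : ResidueField (W i), x ^ m = 1 →
      ∃ ζ : K0, ζ ^ m = 1 ∧ rv (W i) (algebraMap K0 E ζ) = x)
    (hk : ∀ c : K0, c ≠ 0 → ∃ (γ : K0) (n : ℤ), c = algebraMap A0 K0 ϖ ^ n * γ ^ m)
    {f : F} (hf0 : f ≠ 0)
    (hhor1 : ∀ W : ValuationSubring F, (∀ z ∈ S₁, z ∈ W) → ∃ g : F, rv W (f * g ^ m) ≠ 0)
    (hhor2 : ∀ W : ValuationSubring F, (∀ z ∈ S₂, z ∈ W) → ∃ g : F, rv W (f * g ^ m) ≠ 0)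
    {ca cb : K0} {ha hb : E} (hNa : Na f = algebraMap K0 E ca * ha ^ m)
    (hNb : Nb f = algebraMap K0 E cb * hb ^ m) :
    ∃ (c : K0) (w : F), w ≠ 0 ∧ f ^ (((q + 1) * (q - 1)) * ((q - 1) * (q + 1))) =
      algebraMap K0 F c * w ^ m := by
  have hq2 := hS.hq.two_le
  have hϖF : algebraMap A0 F ϖ = algebraMap K0 F (algebraMap A0 K0 ϖ) :=
    IsScalarTower.algebraMap_apply A0 K0 F ϖ
  -- absorb constants
  have habs : ∀ (N : F →* E), (∀ z : F, z ≠ 0 → N z ≠ 0) → ∀ (c : K0) (h : E),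
      N f = algebraMap K0 E c * h ^ m → ∃ (n : ℤ) (H : E), H ≠ 0 ∧
        N f = algebraMap K0 E (algebraMap A0 K0 ϖ) ^ n * H ^ m := by
    intro N hN0 c h hN
    have hc0 : c ≠ 0 := by
      rintro rfl
      rw [map_zero, zero_mul] at hN
      exact hN0 f hf0 hN
    obtain ⟨γ, n, hγ⟩ := hk c hc0
    refine ⟨n, algebraMap K0 E γ * h, ?_, ?_⟩
    · intro h0
      apply hN0 f hf0
      rw [hN, hγ, map_mul, map_pow, mul_assoc, ← mul_pow, h0, zero_pow hm, mul_zero]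
    · rw [hN, hγ, map_mul, map_pow, map_zpow₀, mul_pow]; ring
  obtain ⟨na, Ha, hHa, hNa'⟩ := habs Na hS.sysA.ne_zero ca ha hNa
  obtain ⟨nb, Hb, hHb, hNb'⟩ := habs Nb hS.sysB.ne_zero cb hb hNb
  obtain ⟨k, G, hG, hu⟩ := hS.step1 hf0 hHa hHb hNa' hNb'
  obtain ⟨ha2, hNa2⟩ := hS.step2a hHa hG hNa' hu
  obtain ⟨hb2, hNb2⟩ := hS.step2b hHb hG hNb' hu
  obtain ⟨f2, hf2⟩ : ∃ f2 : F, f2 = f ^ (q + 1) * algebraMap K0 F (algebraMap A0 K0 ϖ) ^ k * G ^ m :=
    ⟨_, rfl⟩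
  rw [← hf2] at hNa2 hNb2
  rw [← hf2] at hu
  have hu3 := hS.step3 hm hqm hu hNa2 hNb2
  choose u hu3 using hu3
  have of3 : ∀ i, rv (V i) (f2 ^ (q - 1)) ≠ 0 := fun i => rv_ne_zero_pow (hu i) _
  obtain ⟨u', hu', hglue⟩ := hS.step4 hm hμ of3 (ha := ha2 ^ (q - 1)) (hb := hb2 ^ (q - 1))
    (by rw [map_pow, hNa2, ← pow_mul, ← pow_mul, mul_comm])
    (by rw [map_pow, hNb2, ← pow_mul, ← pow_mul, mul_comm]) u hu3
  have hf20 : f2 ≠ 0 := (rv_ne_zero_iff.1 (hu 0)).1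
  have ht0 : algebraMap K0 F (algebraMap A0 K0 ϖ) ≠ 0 := hS.unifV0.ne_zero
  -- horizontal condition
  have hhor : ∀ (S : Subring F), Chart V (algebraMap A0 F ϖ) S →
      (∀ W : ValuationSubring F, (∀ z ∈ S, z ∈ W) → ∃ g : F, rv W (f * g ^ m) ≠ 0) →
      ∀ r : ℕ, ∀ W : ValuationSubring F, (∀ z ∈ S, z ∈ W) → ∃ g : F, rv W (f2 ^ r * g ^ m) ≠ 0 := by
    intro S hSc hh r W hSW
    obtain ⟨g, hg⟩ := hh W hSW
    refine ⟨(g ^ (q + 1) * G⁻¹) ^ r, ?_⟩
    have e1 : f2 ^ r * ((g ^ (q + 1) * G⁻¹) ^ r) ^ m =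
        ((f * g ^ m) ^ (q + 1) * algebraMap K0 F (algebraMap A0 K0 ϖ) ^ k) ^ r := by
      rw [hf2, ← pow_mul, mul_comm r m, pow_mul, ← mul_pow]
      congr 1
      rw [mul_pow, inv_pow, ← pow_mul, mul_comm (q + 1) m, pow_mul, mul_pow]
      field_simp
    rw [e1]
    refine rv_ne_zero_pow (rv_ne_zero_mul (rv_ne_zero_pow hg _) (rv_ne_zero_zpow ?_ _)) _
    rw [← hϖF]
    exact rv_ne_zero_iff.2 ⟨by rw [hϖF]; exact ht0, hSW _ hSc.ϖ_mem, hSW _ hSc.ϖ_inv⟩
  obtain ⟨a0, w, hw0, hw⟩ := key_theorem (A0 := A0) ϖ hm hmc hS.vrt hS.ch₁ hS.ch₂ hS.hA1 hS.hA2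
    hS.hAV hS.hx0 hS.hx1 hS.hx2 hS.hxV hS.hxV' hS.h12 hS.h21 hS.hconst hS.hfin
    (f := (f2 ^ (q - 1)) ^ ((q - 1) * (q + 1)))
    (pow_ne_zero _ (pow_ne_zero _ hf20)) (fun i => rv_ne_zero_pow (of3 i) _)
    (by rw [← pow_mul]; exact hhor S₁ hS.ch₁ hhor1 _)
    (by rw [← pow_mul]; exact hhor S₂ hS.ch₂ hhor2 _) u' hu'
    (hglue S₁ hS.ch₁ (hhor S₁ hS.ch₁ hhor1 _) hS.common₁)
    (hglue S₂ hS.ch₂ (hhor S₂ hS.ch₂ hhor2 _) hS.common₂)
  obtain ⟨M, hM⟩ : ∃ M, M = (q - 1) * ((q - 1) * (q + 1)) := ⟨_, rfl⟩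
  refine ⟨algebraMap A0 K0 a0 * (algebraMap A0 K0 ϖ ^ k)⁻¹ ^ M, w * (G⁻¹) ^ M,
    mul_ne_zero hw0 (pow_ne_zero _ (inv_ne_zero hG)), ?_⟩
  have e1 : f ^ (((q + 1) * (q - 1)) * ((q - 1) * (q + 1))) = (f ^ (q + 1)) ^ M := by
    rw [← pow_mul, hM, mul_assoc]
  have e2 : f ^ (q + 1) = f2 * (algebraMap K0 F (algebraMap A0 K0 ϖ) ^ k)⁻¹ * (G ^ m)⁻¹ := by
    rw [hf2]
    field_simp
  have e3 : f2 ^ M = algebraMap A0 F a0 * w ^ m := by
    rw [hM, pow_mul]; exact hw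
  rw [e1, e2, mul_pow, mul_pow, e3, map_mul, map_pow, map_inv₀, map_zpow₀,
    ← IsScalarTower.algebraMap_apply A0 K0 F a0, mul_pow, inv_pow, inv_pow, inv_pow, ← pow_mul G,
    inv_pow, ← pow_mul G M m, mul_comm M m]
  ring

end Fermat.Agent.H23.R
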