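import Fermat.Agent.H12.Tame
import Fermat.Agent.H23.R.NewC
import Fermat.Prelude.Def_ModularCurve_HeckeOperator

/-!
# PROGRAM R (S36): the inertia field `K0` and its valuation ring `A0`
-/

set_option autoImplicit false
set_option maxSynthPendingDepth 3

noncomputable section

namespace Fermat.Agent.H23.R

open IsLocalRing Fermat.Agent.H05 Fermat.Agent.H09

local notation "Qb" => AlgebraicClosure ℚ

/-- The inertia field. -/
abbrev K0 (A : ValuationSubring Qb) : IntermediateField ℚ Qb :=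
  IntermediateField.fixedField (A.inertiaSubgroupIn ℚ)

/-- The valuation ring of the inertia field. -/
abbrev A0 (A : ValuationSubring Qb) : ValuationSubring (K0 A) :=
  A.comap (algebraMap (K0 A) Qb)

section Inst

open ModularCurve

variable (A : ValuationSubring Qb) (F₀ : IntermediateField ℚ (LaurentSeries ℚ))

instance (priority := high) instAlgLbc (K : Type*) [Field K] [Algebra ℚ K] :
    Algebra K (laurentBaseChange K F₀) := inferInstance

example : Algebra (K0 A) (laurentBaseChange (K0 A) F₀) := inferInstance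

set_option synthInstance.maxHeartbeats 400000 in
instance instAlgA0 : Algebra (A0 A) (laurentBaseChange (K0 A) F₀) := Algebra.ofSubsemiring (A0 A)

set_option synthInstance.maxHeartbeats 400000 in
instance instTowA0 : IsScalarTower (A0 A) (K0 A) (laurentBaseChange (K0 A) F₀) :=
  IsScalarTower.of_algebraMap_eq fun _ => rfl

end Inst

variable {A : ValuationSubring Qb} {q : ℕ}

theorem mem_A0 (z : K0 A) : z ∈ A0 A ↔ (z : Qb) ∈ A := Iff.rfl

theorem exists_zpow_K0 (hq : q.Prime) (hA : A.LiesOverPrime q) {z : K0 A} (hz : z ≠ 0) :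
    ∃ (n : ℤ) (u : K0 A), A.valuation (u : Qb) = 1 ∧ z = (q : K0 A) ^ n * u := by
  have hq0 : (q : Qb) ≠ 0 := Nat.cast_ne_zero.mpr hq.ne_zero
  have hq0' : (q : K0 A) ≠ 0 := Nat.cast_ne_zero.mpr hq.ne_zero
  have hz' : (z : Qb) ≠ 0 := fun h => hz (Subtype.ext h)
  obtain ⟨n, hn⟩ := H12.exists_valuation_eq_zpow hq hA (z : Qb) hz' (by
    intro σ hσ
    exact z.2 ⟨σ, hσ⟩)
  refine ⟨n, z / (q : K0 A) ^ n, ?_, by field_simp⟩
  rw [show ((z / (q : K0 A) ^ n : K0 A) : Qb) = (z : Qb) / (q : Qb) ^ n by push_cast; rfl, map_div₀,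
    hn, map_zpow₀]
  exact div_self (zpow_ne_zero _ ((map_ne_zero _).2 hq0))

theorem val_coe (n : ℤ) (u : K0 A) : A.valuation (((q : K0 A) ^ n * u : K0 A) : Qb) =
    A.valuation (q : Qb) ^ n * A.valuation (u : Qb) := by
  rw [← map_zpow₀, ← map_mul]
  congr 1

theorem isUnit_A0 {u : A0 A} : IsUnit u ↔ A.valuation ((u : K0 A) : Qb) = 1 := by
  constructor
  · rintro ⟨v, rfl⟩
    have h1 : ((v : A0 A) : K0 A) * ((v⁻¹ : (A0 A)ˣ) : A0 A) = 1 := congrArg Subtype.val v.mul_inv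
    have h2 : (((v : A0 A) : K0 A) : Qb) * (((v⁻¹ : (A0 A)ˣ) : A0 A) : K0 A) = 1 :=
      congrArg Subtype.val h1
    have h3 := congrArg A.valuation h2
    rw [map_mul, map_one] at h3
    have h4 : A.valuation (((v : A0 A) : K0 A) : Qb) ≤ 1 :=
      (A.valuation_le_one_iff _).2 (v : A0 A).2
    have h5 : A.valuation ((((v⁻¹ : (A0 A)ˣ) : A0 A) : K0 A) : Qb) ≤ 1 :=
      (A.valuation_le_one_iff _).2 ((v⁻¹ : (A0 A)ˣ) : A0 A).2
    exact le_antisymm h4 (by
      rw [← h3]
      exact mul_le_of_le_one_right' h5)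
  · intro h
    have h0 : (u : K0 A) ≠ 0 := by
      intro h0
      rw [h0] at h
      change A.valuation 0 = 1 at h
      rw [map_zero] at h
      exact zero_ne_one h
    rw [isUnit_iff_exists_inv]
    refine ⟨⟨(u : K0 A)⁻¹, ?_⟩, Subtype.ext (mul_inv_cancel₀ h0)⟩
    rw [mem_A0, ← A.valuation_le_one_iff]
    change A.valuation (((u : K0 A) : Qb)⁻¹) ≤ 1
    rw [map_inv₀, h, inv_one]

theorem irreducible_q (hq : q.Prime) (hA : A.LiesOverPrime q) : Irreducible (q : A0 A) := by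
  have hlt : A.valuation (q : Qb) < 1 := val_natCast_lt_one hA
  have hq0 : (q : Qb) ≠ 0 := Nat.cast_ne_zero.mpr hq.ne_zero
  have hcast : (((q : A0 A) : K0 A) : Qb) = (q : Qb) := rfl
  refine ⟨fun h => ?_, fun a b hab => ?_⟩
  · rw [isUnit_A0, hcast] at h
    exact absurd h hlt.ne
  · have ha0 : (a : K0 A) ≠ 0 := by
      intro h
      have h1 := congrArg (fun z : A0 A => ((z : K0 A) : Qb)) hab
      apply hq0
      change (q : Qb) = (((a * b : A0 A) : K0 A) : Qb) at h1
      rw [h1]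
      change (((a : K0 A) * b : K0 A) : Qb) = 0
      rw [h, zero_mul]; rfl
    have hb0 : (b : K0 A) ≠ 0 := by
      intro h
      have h1 := congrArg (fun z : A0 A => ((z : K0 A) : Qb)) hab
      apply hq0
      change (q : Qb) = (((a * b : A0 A) : K0 A) : Qb) at h1
      rw [h1]
      change (((a : K0 A) * b : K0 A) : Qb) = 0
      rw [h, mul_zero]; rfl
    obtain ⟨n, u, hu, ha⟩ := exists_zpow_K0 hq hA ha0
    obtain ⟨k, v, hv, hb⟩ := exists_zpow_K0 hq hA hb0
    have hv0 : 0 < A.valuation (q : Qb) := by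
      rw [zero_lt_iff]; exact (map_ne_zero _).mpr hq0
    have hva : A.valuation ((a : K0 A) : Qb) = A.valuation (q : Qb) ^ n := by
      rw [ha, val_coe, hu, mul_one]
    have hvb : A.valuation ((b : K0 A) : Qb) = A.valuation (q : Qb) ^ k := by
      rw [hb, val_coe, hv, mul_one]
    have h1 : A.valuation (q : Qb) ^ (1 : ℤ) = A.valuation (q : Qb) ^ (n + k) := by
      rw [zpow_add₀ hv0.ne', ← hva, ← hvb, ← map_mul, zpow_one]
      congr 1
      exact congrArg (fun z : A0 A => ((z : K0 A) : Qb)) hab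
    have h2 : (1 : ℤ) = n + k := (zpow_right_strictAnti₀ hv0 hlt).injective h1
    have h3 : 0 ≤ n := by
      by_contra hn
      have : A.valuation ((a : K0 A) : Qb) ≤ 1 := (A.valuation_le_one_iff _).2 a.2
      rw [hva, ← zpow_zero (A.valuation (q : Qb))] at this
      have := (zpow_right_strictAnti₀ hv0 hlt).le_iff_ge.1 this
      omega
    have h4 : 0 ≤ k := by
      by_contra hn
      have : A.valuation ((b : K0 A) : Qb) ≤ 1 := (A.valuation_le_one_iff _).2 b.2
      rw [hvb, ← zpow_zero (A.valuation (q : Qb))] at this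
      have := (zpow_right_strictAnti₀ hv0 hlt).le_iff_ge.1 this
      omega
    rcases (show n = 0 ∨ k = 0 by omega) with h | h
    · left
      rw [isUnit_A0, hva, h, zpow_zero]
    · right
      rw [isUnit_A0, hvb, h, zpow_zero]

theorem isDVR_A0 (hq : q.Prime) (hA : A.LiesOverPrime q) : IsDiscreteValuationRing (A0 A) := by
  apply IsDiscreteValuationRing.ofHasUnitMulPowIrreducibleFactorization
  refine ⟨(q : A0 A), irreducible_q hq hA, fun {z} hz => ?_⟩
  have hlt : A.valuation (q : Qb) < 1 := val_natCast_lt_one hA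
  have hq0 : (q : Qb) ≠ 0 := Nat.cast_ne_zero.mpr hq.ne_zero
  have hv0 : 0 < A.valuation (q : Qb) := by
    rw [zero_lt_iff]; exact (map_ne_zero _).mpr hq0
  have hz0 : (z : K0 A) ≠ 0 := fun h => hz (Subtype.ext h)
  obtain ⟨n, u, hu, ha⟩ := exists_zpow_K0 hq hA hz0
  have hva : A.valuation ((z : K0 A) : Qb) = A.valuation (q : Qb) ^ n := by
    rw [ha, val_coe, hu, mul_one]
  have h3 : 0 ≤ n := by
    by_contra hn
    have : A.valuation ((z : K0 A) : Qb) ≤ 1 := (A.valuation_le_one_iff _).2 z.2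
    rw [hva, ← zpow_zero (A.valuation (q : Qb))] at this
    have := (zpow_right_strictAnti₀ hv0 hlt).le_iff_ge.1 this
    omega
  obtain ⟨k, rfl⟩ := Int.eq_ofNat_of_zero_le h3
  have huA : u ∈ A0 A := by
    rw [mem_A0, ← A.valuation_le_one_iff, hu]
  have hU : IsUnit (⟨u, huA⟩ : A0 A) := isUnit_A0.2 hu
  refine ⟨k, hU.unit, Subtype.ext ?_⟩
  rw [ha]
  simp

theorem isNoetherian_A0 (hq : q.Prime) (hA : A.LiesOverPrime q) : IsNoetherianRing (A0 A) := by
  have := isDVR_A0 hq hA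
  infer_instance

/-- Roots of units of `A0` are in `K0`. -/
theorem exists_root_A0 (hq : q.Prime) (hA : A.LiesOverPrime q) {m : ℕ} (hm : ¬ q ∣ m)
    {u : K0 A} (hu : A.valuation (u : Qb) = 1) : ∃ γ : K0 A, γ ^ m = u := by
  have hm0 : m ≠ 0 := by rintro rfl; exact hm (dvd_zero _)
  obtain ⟨w, hw⟩ := IsAlgClosed.exists_pow_nat_eq (u : Qb) (Nat.pos_of_ne_zero hm0)
  have hw0 : w ≠ 0 := by
    rintro rfl
    rw [zero_pow hm0] at hw
    rw [← hw, map_zero] at hu
    exact zero_ne_one hu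
  have hvw : A.valuation w = 1 := by
    have h1 : A.valuation w ^ m = 1 := by
      rw [← map_pow, hw, hu]
    exact (pow_eq_one_iff.mp h1).resolve_right hm0
  have hwfix : w ∈ K0 A := by
    rw [IntermediateField.mem_fixedField_iff]
    intro σ hσ
    have h1 : A.valuation (σ w - w) < 1 := val_sub_lt_one_of_inertia hσ hvw.le
    have h2 : (σ w / w) ^ m = 1 := by
      rw [div_pow, ← map_pow, hw]
      have : σ (u : Qb) = u := u.2 ⟨σ, hσ⟩
      rw [this, div_self]
      rw [← hw]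
      exact pow_ne_zero _ hw0
    have h3 : σ w / w = 1 := by
      apply rootsOfUnity_eq_of_residue_eq hq hA hm h2 (one_pow m)
      rw [ValuationSubring.mem_nonunits_iff]
      have : σ w / w - 1 = (σ w - w) / w := by field_simp
      rw [this, map_div₀, hvw, div_one]
      exact h1
    exact (div_eq_one_iff_eq hw0).mp h3
  exact ⟨⟨w, hwfix⟩, Subtype.ext hw⟩

theorem hk_K0 (hq : q.Prime) (hA : A.LiesOverPrime q) {m : ℕ} (hm : ¬ q ∣ m) (c : K0 A)
    (hc : c ≠ 0) : ∃ (γ : K0 A) (n : ℤ), c = algebraMap (A0 A) (K0 A) (q : A0 A) ^ n * γ ^ m := by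
  obtain ⟨n, u, hu, hcu⟩ := exists_zpow_K0 hq hA hc
  obtain ⟨γ, hγ⟩ := exists_root_A0 hq hA hm hu
  exact ⟨γ, n, by rw [hγ, hcu]; rfl⟩

theorem exists_inv_A0 (hq : q.Prime) (hA : A.LiesOverPrime q) {m : ℕ} (hm : ¬ q ∣ m) :
    ∃ c : A0 A, (m : A0 A) * c = 1 := by
  rw [← isUnit_iff_exists_inv, isUnit_A0]
  change A.valuation (m : Qb) = 1
  have h := val_intCast_eq_one hq hA (c := (m : ℤ)) (by exact_mod_cast hm)
  exact_mod_cast h

theorem exists_primitive_K0 (hq : q.Prime) (hA : A.LiesOverPrime q) {m : ℕ} (hm : ¬ q ∣ m) :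
    ∃ ζ : K0 A, IsPrimitiveRoot ζ m := by
  have hm0 : m ≠ 0 := by rintro rfl; exact hm (dvd_zero _)
  have : NeZero m := ⟨hm0⟩
  have : NeZero (m : Qb) := ⟨Nat.cast_ne_zero.2 hm0⟩
  obtain ⟨ζ, hζ⟩ := HasEnoughRootsOfUnity.exists_primitiveRoot Qb m
  have hmem : ζ ∈ K0 A := by
    rw [IntermediateField.mem_fixedField_iff]
    intro σ hσ
    exact inertia_apply_rootOfUnity hq hA hm hσ hζ.pow_eq_one
  refine ⟨⟨ζ, hmem⟩, ?_⟩
  rw [← IsPrimitiveRoot.map_iff_of_injective (f := algebraMap (K0 A) Qb)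
    (algebraMap (K0 A) Qb).injective]
  exact hζ

/-- Roots of unity of the residue fields come from `K0`. -/
theorem hμ_K0 (hq : q.Prime) (hA : A.LiesOverPrime q) {m : ℕ} (hm : ¬ q ∣ m)
    {E : Type*} [Field E] [Algebra (K0 A) E] (W : ValuationSubring E)
    (hW : ∀ c : A0 A, algebraMap (K0 A) E c ∈ W) (x : ResidueField W) (hx : x ^ m = 1) :
    ∃ ζ : K0 A, ζ ^ m = 1 ∧ rv W (algebraMap (K0 A) E ζ) = x := by
  have hm0 : m ≠ 0 := by rintro rfl; exact hm (dvd_zero _)
  obtain ⟨ζ, hζ⟩ := exists_primitive_K0 hq hA hm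
  obtain ⟨y, hy, hyx⟩ := rv_surj x
  have hE : IsPrimitiveRoot (algebraMap (K0 A) E ζ) m :=
    hζ.map_of_injective (algebraMap (K0 A) E).injective
  have hroot : ∀ η : K0 A, η ^ m = 1 → algebraMap (K0 A) E η ∈ W := by
    intro η hη
    refine hW ⟨η, ?_⟩
    rw [mem_A0, ← A.valuation_le_one_iff]
    have h1 : A.valuation (η : Qb) ^ m = 1 := by
      rw [← map_pow, show ((η : Qb) ^ m) = 1 from congrArg Subtype.val hη, map_one]
    exact ((pow_eq_one_iff.mp h1).resolve_right hm0).le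
  have h1 : y ^ m - 1 = ∏ η ∈ Polynomial.nthRootsFinset m (1 : K0 A),
      (y - algebraMap (K0 A) E η) := by
    have h2 := Polynomial.X_pow_sub_one_eq_prod (Nat.pos_of_ne_zero hm0) hζ
    have h3 := congrArg (Polynomial.eval₂ (algebraMap (K0 A) E) y) h2
    rw [Polynomial.eval₂_finsetProd] at h3
    simpa using h3
  have h4 : rv W (y ^ m - 1) = 0 := by
    rw [rv_sub (pow_mem hy m) W.one_mem, rv_pow hy, hyx, hx, rv_one, sub_self]
  have hmem : ∀ η ∈ Polynomial.nthRootsFinset m (1 : K0 A), η ^ m = 1 := by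
    intro η hη
    exact (Polynomial.mem_nthRootsFinset (Nat.pos_of_ne_zero hm0) 1).1 hη
  rw [h1, rv_prod _ _ (fun η hη => W.toSubring.sub_mem hy (hroot η (hmem η hη))), Finset.prod_eq_zero_iff]
    at h4
  obtain ⟨η, hη, h5⟩ := h4
  refine ⟨η, hmem η hη, ?_⟩
  rw [rv_sub hy (hroot η (hmem η hη)), sub_eq_zero] at h5
  rw [← h5, hyx]

end Fermat.Agent.H23.R
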