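import Fermat.Agent.Descent.NormBC2

/-!
# Norms along `q ↦ q ^ ℓ` commute with base change
-/

set_option autoImplicit false
set_option maxSynthPendingDepth 3

namespace Fermat.Agent.H23.R

open ModularCurve AlgebraicCurve Fermat.Agent.H26

theorem coeffEmb_qExpand (L : Type*) [Field L] [Algebra ℚ L] (ℓ : ℕ) [NeZero ℓ]
    (z : LaurentSeries ℚ) : coeffEmb L (qExpand ℚ ℓ z) = qExpand L ℓ (coeffEmb L z) := by
  ext k
  by_cases hk : (ℓ : ℤ) ∣ k
  · obtain ⟨m, rfl⟩ := hk
    rw [coeffEmb_coeff, qExpand_coeff_mul, qExpand_coeff_mul, coeffEmb_coeff]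
  · rw [coeffEmb_coeff, qExpand_coeff_of_not_dvd ℓ _ hk, qExpand_coeff_of_not_dvd ℓ _ hk, map_zero]

theorem cEmb_qExpand {K : Type*} (L : Type*) [Field K] [Field L] [Algebra K L] (ℓ : ℕ) [NeZero ℓ]
    (z : LaurentSeries K) : cEmb K L (qExpand K ℓ z) = qExpand L ℓ (cEmb K L z) := by
  ext k
  by_cases hk : (ℓ : ℤ) ∣ k
  · obtain ⟨m, rfl⟩ := hk
    rw [coeffMap_coeff, qExpand_coeff_mul, qExpand_coeff_mul, coeffMap_coeff]
  · rw [coeffMap_coeff, qExpand_coeff_of_not_dvd ℓ _ hk, qExpand_coeff_of_not_dvd ℓ _ hk, map_zero]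

theorem lbc_map (L : Type*) [Field L] [Algebra ℚ L] (F₀ : IntermediateField ℚ (LaurentSeries ℚ))
    (ℓ : ℕ) [NeZero ℓ] : laurentBaseChange L (F₀.map (qExpandₐ ℓ)) =
      (laurentBaseChange L F₀).map (qExpandAlgHomC L ℓ) := by
  rw [laurentBaseChange, laurentBaseChange, IntermediateField.adjoin_map]
  congr 1
  ext z
  constructor
  · rintro ⟨_, ⟨y, hy, rfl⟩, rfl⟩
    exact ⟨coeffEmb L y, ⟨y, hy, rfl⟩, (coeffEmb_qExpand L ℓ y).symm⟩
  · rintro ⟨_, ⟨y, hy, rfl⟩, rfl⟩
    exact ⟨qExpand ℚ ℓ y, ⟨y, hy, rfl⟩, coeffEmb_qExpand L ℓ y⟩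

variable {K : Type*} (L : Type*) [Field K] [Field L] [Algebra K L] [Algebra ℚ K] [Algebra ℚ L]

theorem qExpand_mem_map (R : Type*) [Field R] [Algebra ℚ R]
    (F₀ : IntermediateField ℚ (LaurentSeries ℚ)) (ℓ : ℕ) [NeZero ℓ] (c : laurentBaseChange R F₀) :
    qExpand R ℓ (c : LaurentSeries R) ∈ laurentBaseChange R (F₀.map (qExpandₐ ℓ)) := by
  rw [lbc_map]
  exact ⟨(c : LaurentSeries R), c.2, rfl⟩

theorem exists_qExpand_of_mem_map (R : Type*) [Field R] [Algebra ℚ R]
    (F₀ : IntermediateField ℚ (LaurentSeries ℚ)) (ℓ : ℕ) [NeZero ℓ] {a : LaurentSeries R}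
    (ha : a ∈ laurentBaseChange R (F₀.map (qExpandₐ ℓ))) :
    ∃ c : laurentBaseChange R F₀, qExpand R ℓ (c : LaurentSeries R) = a := by
  rw [lbc_map] at ha
  obtain ⟨c, hc, hca⟩ := ha
  exact ⟨⟨c, hc⟩, hca⟩

/-- Norms along `heckeBetaBar` commute with base change. -/
theorem embBC_normAlong_heckeBetaBar (N ℓ : ℕ) [NeZero N] [NeZero ℓ]
    (y : laurentBaseChange K (modularFunctionFieldFull (N * ℓ))) :
    embBC L _ (H05.normAlong (heckeBetaBar K N ℓ) y) =
      H05.normAlong (heckeBetaBar L N ℓ) (embBC L _ y) := by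
  let F₀ := modularFunctionFieldFull N
  let F₀' : IntermediateField ℚ (LaurentSeries ℚ) := F₀.map (qExpandₐ ℓ)
  have hof : ∀ (a : laurentBaseChange K F₀'), ∃ c : laurentBaseChange K F₀,
      qExpand K ℓ (c : LaurentSeries K) = a := fun a => exists_qExpand_of_mem_map K F₀ ℓ a.2
  have hof' : ∀ (a : laurentBaseChange L F₀'), ∃ c : laurentBaseChange L F₀,
      qExpand L ℓ (c : LaurentSeries L) = a := fun a => exists_qExpand_of_mem_map L F₀ ℓ a.2
  have hle : laurentBaseChange K F₀' ≤ laurentBaseChange K (modularFunctionFieldFull (N * ℓ)) := by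
    intro z hz
    obtain ⟨c, hc⟩ := hof ⟨z, hz⟩
    have h1 := (heckeBetaBar K N ℓ c).2
    rw [coe_heckeBetaBar] at h1
    rw [hc] at h1
    exact h1
  have key := normAlong_transfer (K := K) (L := L) (A := laurentBaseChange K F₀)
    (B := laurentBaseChange K (modularFunctionFieldFull (N * ℓ))) (C := laurentBaseChange L F₀)
    (D := laurentBaseChange L (modularFunctionFieldFull (N * ℓ))) (P := LaurentSeries K)
    (Q := LaurentSeries L) (heckeBetaBar K N ℓ) (heckeBetaBar L N ℓ) (H05.finiteAlong_beta K N ℓ)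
    (laurentBaseChange K (modularFunctionFieldFull (N * ℓ))).val.toRingHom
    (laurentBaseChange L (modularFunctionFieldFull (N * ℓ))).val.toRingHom (cEmb K L)
    (embBC L F₀) (embBC L (modularFunctionFieldFull (N * ℓ)))
    (fun a => embBC_heckeBetaBar L N ℓ a) (val_aux L)
  refine key ?_ ?_ y
  · intro n b hb c hc
    have hc' : ∑ i, qExpand L ℓ (c i : LaurentSeries L) * cEmb K L (b i) = 0 := by
      rw [← hc]
      refine Finset.sum_congr rfl fun i _ => ?_
      rfl
    have hb' : ∀ a : Fin n → laurentBaseChange K F₀', ∑ i, (a i : LaurentSeries K) * b i = 0 →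
        ∀ i, a i = 0 := by
      intro a ha i
      choose c' hc' using fun i => hof (a i)
      have h1 := hb c' (by
        rw [← ha]
        refine Finset.sum_congr rfl fun i _ => ?_
        rw [← hc']
        rfl) i
      apply Subtype.ext
      rw [← hc', h1]
      exact map_zero _
    have h2 := li_aux L n b hb' (fun i => ⟨_, qExpand_mem_map L F₀ ℓ (c i)⟩) hc'
    intro i
    have h3 : qExpand L ℓ (c i : LaurentSeries L) = 0 := congrArg Subtype.val (h2 i)
    apply Subtype.ext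
    exact (map_eq_zero (qExpand L ℓ)).1 h3
  · intro n b hb2 hb z
    obtain ⟨c, hc⟩ := sp_aux L hle n b (fun i => by
      obtain ⟨w, hw⟩ := hb2 i
      rw [← hw]
      exact w.2) (fun z => by
        obtain ⟨a, ha⟩ := hb z
        refine ⟨fun i => ⟨_, qExpand_mem_map K F₀ ℓ (a i)⟩, Eq.trans ha ?_⟩
        refine Finset.sum_congr rfl fun i _ => ?_
        rfl) z
    choose c' hc' using fun i => hof' (c i)
    refine ⟨c', Eq.trans hc ?_⟩
    refine Finset.sum_congr rfl fun i _ => ?_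
    rw [← hc']
    rfl

end Fermat.Agent.H23.R
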