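import Fermat.Agent.RR.Stmt
import Fermat.Agent.H23.R.K0
import Fermat.Agent.H23.R.Kummer
import Fermat.Agent.H23.R.ConstExt
import Fermat.Agent.H23.R.NormBeta

/-!
# PROGRAM R (S36): `THEOREM R` from the function field set-up over the inertia field
-/

set_option autoImplicit false
set_option maxSynthPendingDepth 3

noncomputable section

namespace Fermat.Agent.H23.R

open AlgebraicCurve ModularCurve Fermat.Agent.H26 Fermat.Agent.H05 Fermat.Agent.RR

local notation "Qb" => AlgebraicClosure ℚ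

/-- The norm along an embedding, as a monoid homomorphism. -/
def normHom {K F F' : Type*} [Field K] [Field F] [Field F'] [Algebra K F] [Algebra K F']
    (φ : F →ₐ[K] F') : F' →* F :=
  letI := algebraAlong φ
  Algebra.norm F

@[simp]
theorem normHom_apply {K F F' : Type*} [Field K] [Field F] [Field F'] [Algebra K F] [Algebra K F']
    (φ : F →ₐ[K] F') (z : F') : normHom φ z = normAlong φ z := rfl

theorem Kum.npow {K F : Type*} [Field K] [Field F] [Algebra K F] {m : ℕ} {x : Pic0 K F} {f : F}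
    (h : Kum m x f) (k : ℕ) : Kum m (k • x) (f ^ k) := by
  induction k with
  | zero => rw [zero_smul, pow_zero]; exact kum_zero_one m
  | succ k ih => rw [succ_nsmul, pow_succ]; exact ih.mul h

/-- A function over the fixed field that becomes an `m`-th power over `ℚ̄` is a constant times
an `m`-th power. -/
theorem root_descent (H : Subgroup (Qb ≃ₐ[ℚ] Qb)) (F₀ : IntermediateField ℚ (LaurentSeries ℚ))
    {m : ℕ} (hm : m ≠ 0) {y : laurentBaseChange (IntermediateField.fixedField H) F₀} (hy : y ≠ 0)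
    {g : laurentBaseChange Qb F₀} (hg : embBC Qb F₀ y = g ^ m) :
    ∃ (c : IntermediateField.fixedField H) (h : laurentBaseChange (IntermediateField.fixedField H) F₀),
      y = algebraMap _ _ c * h ^ m := by
  have hy0 : (y : LaurentSeries (IntermediateField.fixedField H)) ≠ 0 := fun h => hy (Subtype.ext h)
  obtain ⟨c, hc⟩ : ∃ c, c = (y : LaurentSeries (IntermediateField.fixedField H)).leadingCoeff :=
    ⟨_, rfl⟩
  have hc0 : c ≠ 0 := by rw [hc]; exact HahnSeries.leadingCoeff_ne_zero.2 hy0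
  have hyE : embBC Qb F₀ y ≠ 0 := fun h => hy ((map_eq_zero _).1 h)
  have hg0 : (g : LaurentSeries Qb) ≠ 0 := by
    intro h
    have : g = 0 := Subtype.ext h
    rw [this, zero_pow hm] at hg
    exact hyE hg
  have hl0 : (g : LaurentSeries Qb).leadingCoeff ≠ 0 := HahnSeries.leadingCoeff_ne_zero.2 hg0
  have hgc : (g : LaurentSeries Qb).leadingCoeff ^ m = (c : Qb) := by
    have h1 := congrArg (fun z : laurentBaseChange Qb F₀ => (z : LaurentSeries Qb).leadingCoeff) hg
    change (cEmb _ Qb (y : LaurentSeries (IntermediateField.fixedField H))).leadingCoeff =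
      ((g : LaurentSeries Qb) ^ m).leadingCoeff at h1
    rw [leadingCoeff_pow] at h1
    rw [← h1, hc]
    exact leadingCoeff_coeffMap _ _
  -- the normalised root
  obtain ⟨g1, hg1⟩ : ∃ g1 : laurentBaseChange Qb F₀, g1 = g * algebraMap Qb _
    ((g : LaurentSeries Qb).leadingCoeff)⁻¹ := ⟨_, rfl⟩
  have hlead : (g1 : LaurentSeries Qb).leadingCoeff = 1 := by
    rw [hg1]
    change ((g : LaurentSeries Qb) * algebraMap Qb (LaurentSeries Qb) _).leadingCoeff = 1
    rw [laurent_leadingCoeff_mul, algebraMap_laurentSeries_eq_single,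
      HahnSeries.leadingCoeff_of_single, mul_inv_cancel₀ hl0]
  have hg1m : g1 ^ m = embBC Qb F₀ (y * algebraMap _ _ c⁻¹) := by
    rw [hg1, mul_pow, ← hg, ← map_pow, inv_pow, hgc, map_mul, embBC_algebraMap, map_inv₀,
      map_inv₀, map_inv₀]
    rfl
  obtain ⟨h, hh⟩ := mem_embBC_of_fixed H F₀ g1 fun σ hσ => by
    apply Subtype.ext
    refine laurent_root_unique hm ?_ hlead ?_
    · change (coeffMap (σ : Qb →+* Qb) (g1 : LaurentSeries Qb)).leadingCoeff = 1
      rw [leadingCoeff_coeffMap, hlead, map_one]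
    · have h2 := congrArg (arithmeticRingAut F₀ σ) hg1m
      rw [fixed_embBC H F₀ σ hσ, ← hg1m, map_pow] at h2
      exact congrArg Subtype.val h2
  refine ⟨c, h, ?_⟩
  apply (embBC (K := IntermediateField.fixedField H) Qb F₀).injective
  rw [map_mul, map_pow, hh, hg1m, ← map_mul]
  congr 1
  rw [map_inv₀]
  have : algebraMap _ (laurentBaseChange (IntermediateField.fixedField H) F₀) c ≠ 0 := by
    rw [ne_eq, map_eq_zero]; exact hc0
  field_simp

theorem lbc_gen (K : IntermediateField ℚ Qb) (F₀ : IntermediateField ℚ (LaurentSeries ℚ))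
    (z : laurentBaseChange Qb F₀) :
    z ∈ Subfield.closure (Set.range (algebraMap Qb (laurentBaseChange Qb F₀)) ∪
      Set.range (embBC (K := K) Qb F₀)) := by
  obtain ⟨z, hz⟩ := z
  have h := hz
  rw [mem_laurentBaseChange_iff] at h
  have key : ∀ z ∈ Subfield.closure (Set.range (algebraMap Qb (LaurentSeries Qb)) ∪
      (⇑(coeffEmb Qb) '' (F₀ : Set (LaurentSeries ℚ)))),
      z ∈ (Subfield.closure (Set.range (algebraMap Qb (laurentBaseChange Qb F₀)) ∪
      Set.range (embBC (K := K) Qb F₀))).map (laurentBaseChange Qb F₀).val.toRingHom := by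
    intro z hz
    refine (Subfield.closure_le.2 ?_) hz
    rintro y (⟨a, rfl⟩ | ⟨x, hx, rfl⟩)
    · exact ⟨algebraMap Qb _ a, Subfield.subset_closure (Or.inl ⟨a, rfl⟩), rfl⟩
    · refine ⟨embBC (K := K) Qb F₀ ⟨coeffEmb K x, coeffEmb_mem_laurentBaseChange K hx⟩,
        Subfield.subset_closure (Or.inr ⟨_, rfl⟩), ?_⟩
      change coeffMap (algebraMap K Qb) (coeffEmb K x) = _
      ext n
      rw [coeffMap_coeff, coeffEmb_coeff, coeffEmb_coeff]
      exact (IsScalarTower.algebraMap_apply ℚ K Qb _).symm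
  obtain ⟨w, hw, hwz⟩ := key z h
  have : w = ⟨z, hz⟩ := Subtype.ext hwz
  rwa [this] at hw

/-- `hhor` in concrete form. -/
theorem hhor_conc (K : IntermediateField ℚ Qb) (N : ℕ) [NeZero N] {m : ℕ}
    {f : laurentBaseChange K (modularFunctionFieldFull N)} (hf0 : f ≠ 0)
    (hf : ∀ v : Place Qb (laurentBaseChange Qb (modularFunctionFieldFull N)),
      (m : ℤ) ∣ v.ord (embBC Qb _ f))
    (W : ValuationSubring (laurentBaseChange K (modularFunctionFieldFull N)))
    (hW : ∀ c : K, algebraMap K (laurentBaseChange K (modularFunctionFieldFull N)) c ∈ W) :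
    ∃ g, rv W (f * g ^ m) ≠ 0 := by
  have : Algebra.IsAlgebraic K Qb := Algebra.IsAlgebraic.tower_top (K := ℚ) K
  exact exists_rv_ne_zero (K0 := K) (L := Qb) (embBC Qb (modularFunctionFieldFull N))
    (fun c => embBC_algebraMap Qb _ c) (lbc_gen K _) hf0 hf W hW

/-- `THEOREM R` from the set-up over the inertia field. -/
theorem theoremR_of_setup {M' q p : ℕ} [NeZero M'] [NeZero q] {A : ValuationSubring Qb}
    (hq : q.Prime) (hp : p.Prime) (hpq : p ≠ q) (hA : A.LiesOverPrime q)
    (H : ∃ (V : Fin 3 → ValuationSubring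
        (laurentBaseChange (K0 A) (modularFunctionFieldFull (M' * q * q))))
      (W : Fin 2 → ValuationSubring (laurentBaseChange (K0 A) (modularFunctionFieldFull (M' * q))))
      (S₁ S₂ : Subring (laurentBaseChange (K0 A) (modularFunctionFieldFull (M' * q * q))))
      (x : laurentBaseChange (K0 A) (modularFunctionFieldFull (M' * q * q))),
      RSetup q (q : A0 A) V W (heckeAlphaBar (K0 A) (M' * q) q) (heckeBetaBar (K0 A) (M' * q) q)
        (normHom (heckeAlphaBar (K0 A) (M' * q) q)) (normHom (heckeBetaBar (K0 A) (M' * q) q))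
        S₁ S₂ x) :
    TheoremR M' q p A := by
  obtain ⟨V, W, S₁, S₂, x₀, hS⟩ := H
  have hq2 := hq.two_le
  refine ⟨((q + 1) * (q - 1)) * ((q - 1) * (q + 1)), by
    have : 0 < q - 1 := by omega
    positivity, ?_⟩
  intro n x hx hfix hxa hxb
  obtain ⟨m, hm⟩ : ∃ m, m = p ^ n := ⟨_, rfl⟩
  rw [← hm] at hx
  have hm0 : m ≠ 0 := by rw [hm]; exact pow_ne_zero _ hp.ne_zero
  have hqm : ¬ q ∣ m := by
    rw [hm]
    intro h
    exact hpq ((Nat.prime_dvd_prime_iff_eq hq hp).1 (hq.dvd_of_dvd_pow h)).symm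
  obtain ⟨v₀, -⟩ := exists_place_infinity_bc Qb (M' * q * q)
  obtain ⟨v₁, -⟩ := exists_place_infinity_bc Qb (M' * q)
  have hv₀ := deg_eq_one_bc Qb (M' * q * q) v₀
  have hv₁ := deg_eq_one_bc Qb (M' * q) v₁
  obtain ⟨f, hf⟩ := kummer_descent (A.inertiaSubgroupIn ℚ) (modularFunctionFieldFull (M' * q * q))
    hv₀ hm0 hx hfix
  have hf0 : f ≠ 0 := by
    rintro rfl
    exact hf.ne_zero (map_zero _)
  -- norms
  have hNa : ∃ (c : K0 A) (h : laurentBaseChange (K0 A) (modularFunctionFieldFull (M' * q))),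
      normHom (heckeAlphaBar (K0 A) (M' * q) q) f = algebraMap _ _ c * h ^ m := by
    have h1 := hf.degPush
    change Kum m (aPush (M' * q) q x) _ at h1
    rw [hxa] at h1
    obtain ⟨g, -, hg⟩ := h1.exists_pow_of_zero hv₁ hm0
    rw [← embBC_normAlong_heckeAlphaBar] at hg
    exact root_descent _ _ hm0 (hS.sysA.ne_zero f hf0) hg
  have hNb : ∃ (c : K0 A) (h : laurentBaseChange (K0 A) (modularFunctionFieldFull (M' * q))),
      normHom (heckeBetaBar (K0 A) (M' * q) q) f = algebraMap _ _ c * h ^ m := by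
    have h1 := hf.degPushB
    change Kum m (bPush (M' * q) q x) _ at h1
    rw [hxb] at h1
    obtain ⟨g, -, hg⟩ := h1.exists_pow_of_zero hv₁ hm0
    rw [← embBC_normAlong_heckeBetaBar] at hg
    exact root_descent _ _ hm0 (hS.sysB.ne_zero f hf0) hg
  obtain ⟨ca, ha, hNa⟩ := hNa
  obtain ⟨cb, hb, hNb⟩ := hNb
  have hnoeth := isNoetherian_A0 hq hA
  obtain ⟨c, hmc⟩ := exists_inv_A0 hq hA hqm
  -- constants
  have hconstS : ∀ (S : Subring (laurentBaseChange (K0 A) (modularFunctionFieldFull (M' * q * q)))),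
      (∀ a : A0 A, algebraMap (A0 A) _ a ∈ S) →
      (algebraMap (A0 A) (laurentBaseChange (K0 A) (modularFunctionFieldFull (M' * q * q)))
        (q : A0 A))⁻¹ ∈ S →
      ∀ c : K0 A, algebraMap (K0 A) _ c ∈ S := by
    intro S hS1 hS2 c
    by_cases hc : c = 0
    · rw [hc, map_zero]; exact S.zero_mem
    obtain ⟨k, u, hu, hcu⟩ := exists_zpow_K0 hq hA hc
    have huA : u ∈ A0 A := by rw [mem_A0, ← A.valuation_le_one_iff, hu]
    rw [hcu, map_mul, map_zpow₀]
    refine S.mul_mem ?_ (hS1 ⟨u, huA⟩)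
    rcases Int.eq_nat_or_neg k with ⟨j, hj | hj⟩
    · rw [hj, zpow_natCast]
      exact pow_mem (hS1 (q : A0 A)) _
    · rw [hj, zpow_neg, zpow_natCast, ← inv_pow]
      exact pow_mem hS2 _
  have hdvd : ∀ v : Place Qb (laurentBaseChange Qb (modularFunctionFieldFull (M' * q * q))),
      (m : ℤ) ∣ v.ord (embBC Qb _ f) := fun v => hf.dvd v
  obtain ⟨c', w, hw0, hw⟩ := hS.main hm0 ((Nat.Prime.coprime_iff_not_dvd hq).2 hqm) hmc
    (fun i => hμ_K0 hq hA hqm (W i) (fun c => by
      fin_cases i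
      · have h1 := (hS.sysA.over₁ (algebraMap (K0 A) _ (c : K0 A))).1 (by
          rw [AlgHom.commutes]; exact hS.hAV c 0)
        exact h1
      · have h1 := (hS.sysA.over₀ (algebraMap (K0 A) _ (c : K0 A))).1 (by
          rw [AlgHom.commutes]; exact hS.hAV c 2)
        exact h1)) (hk_K0 hq hA hqm) hf0
    (fun W' hW' => hhor_conc _ _ hf0 hdvd W' fun c => hW' _ (hconstS S₁ hS.hA1 hS.ch₁.ϖ_inv c))
    (fun W' hW' => hhor_conc _ _ hf0 hdvd W' fun c => hW' _ (hconstS S₂ hS.hA2 hS.ch₂.ϖ_inv c))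
    hNa hNb
  have h1 := Kum.npow hf (((q + 1) * (q - 1)) * ((q - 1) * (q + 1)))
  rw [← map_pow, hw, map_mul, map_pow, embBC_algebraMap] at h1
  have hc'0 : c' ≠ 0 := by
    rintro rfl
    rw [map_zero, zero_mul] at hw
    exact pow_ne_zero _ hf0 hw
  have h2 := (kum_zero_algebraMap (K := Qb)
    (F := laurentBaseChange Qb (modularFunctionFieldFull (M' * q * q))) m
    (c := algebraMap (K0 A) Qb c') (by rw [ne_eq, map_eq_zero]; exact hc'0)).mul_pow'
    (g := embBC Qb _ w) (fun h => hw0 ((map_eq_zero _).1 h))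
  exact h1.unique_left hm0 h2

end Fermat.Agent.H23.R
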