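import Fermat.Agent.RV.Fund
import Fermat.Agent.H23.R.NewC

/-!
# PROGRAM R (S36): consequences of the fundamental inequality
-/

set_option autoImplicit false
set_option linter.unusedSectionVars false

noncomputable section

open IsLocalRing

namespace Fermat.Agent.H23.R

open Fermat.Agent.H26.RV

variable {E F : Type*} [Field E] [Field F] [Algebra E F] {ι : Type*} [Fintype ι] [DecidableEq ι]

theorem rv_eq_of_val {V : ValuationSubring F} {z y : F} (hz : z ∈ V) (hy : y ∈ V)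
    (h : V.valuation (z - y) < 1) : rv V z = rv V y := by
  rw [← sub_eq_zero, ← rv_sub hz hy, rv_eq_zero_iff_val (V.toSubring.sub_mem hz hy)]
  exact h

section

variable {W : ValuationSubring E} {ϖ : E} {V : ι → ValuationSubring F} {e f : ι → ℕ}
  {s π : ι → F} {b : ∀ i, Fin (f i) → F} (h : Fund W ϖ V e f s π b)

include h

/-- Residue degree one. -/
theorem Fund_sur [FiniteDimensional E F] (i : ι) (hf : f i = 1) {z : F} (hz : z ∈ V i) :
    ∃ c ∈ W, rv (V i) z = rv (V i) (algebraMap E F c) := by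
  obtain ⟨k₀, hk₀⟩ : ∃ k₀ : Fin (f i), ∀ k, k = k₀ := by
    refine ⟨⟨0, by omega⟩, fun k => Fin.ext ?_⟩
    have := k.2
    simp only
    omega
  have hex : ∀ z ∈ V i, ∃ c ∈ W, rv (V i) z = rv (V i) (algebraMap E F c) * rv (V i) (b i k₀) := by
    intro z hz
    obtain ⟨c, hc, hcz⟩ := h.exists_residue i hz
    have h1 : ∑ k, algebraMap E F (c k) * b i k = algebraMap E F (c k₀) * b i k₀ := by
      rw [Finset.sum_eq_single k₀ (fun k _ hk => absurd (hk₀ k) hk)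
        (fun hk => absurd (Finset.mem_univ _) hk)]
    rw [h1] at hcz
    have h2 : algebraMap E F (c k₀) ∈ V i := (h.lies i _).2 (hc k₀)
    refine ⟨c k₀, hc k₀, ?_⟩
    rw [← rv_mul h2 (h.b_mem i k₀)]
    exact rv_eq_of_val hz ((V i).mul_mem _ _ h2 (h.b_mem i k₀)) hcz
  obtain ⟨c, hc, hcz⟩ := hex z hz
  obtain ⟨d, hd, hd1⟩ := hex 1 (V i).one_mem
  rw [rv_one] at hd1
  have hd0 : rv (V i) (algebraMap E F d) ≠ 0 := left_ne_zero_of_mul (hd1 ▸ one_ne_zero)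
  have hdW : rv W d ≠ 0 := by
    rw [ne_eq, ← rv_map_eq_zero_iff (φ := algebraMap E F) (h.lies i)]; exact hd0
  refine ⟨c * d⁻¹, W.mul_mem _ _ hc (rv_ne_zero_iff.1 hdW).2.2, ?_⟩
  rw [map_mul, map_inv₀, rv_mul ((h.lies i _).2 hc) (rv_ne_zero_iff.1 hd0).2.2, rv_inv, hcz]
  field_simp
  rw [mul_assoc, mul_comm (rv (V i) (b i k₀)), ← hd1, mul_one]

theorem Fund_exists_zpow [FiniteDimensional E F] (i : ι) {z : F} (hz : z ≠ 0) :
    ∃ n : ℤ, rv (V i) (z * π i ^ n) ≠ 0 := by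
  classical
  have hπ0 : π i ≠ 0 := by
    intro h0
    exact h.val_π_ne i (by rw [h0, map_zero])
  have hv0 : 0 < (V i).valuation (π i) := zero_lt_iff.2 (h.val_π_ne i)
  have hπV : π i ∈ V i := mem_iff_val.2 (h.val_π_lt i).le
  have hπr : rv (V i) (π i) = 0 := (rv_eq_zero_iff_val hπV).2 (h.val_π_lt i)
  -- bounded
  obtain ⟨k₁, hk₁⟩ := h.arch i z (π i) hπV hπr
  obtain ⟨k₂, hk₂⟩ := h.arch i z⁻¹ (π i) hπV hπr
  -- largest `n` with `z * π ^ (-n) ∈ V`
  have hzv : 0 < (V i).valuation z := zero_lt_iff.2 ((Valuation.ne_zero_iff _).2 hz)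
  have hle : (V i).valuation (π i) ^ (k₂ : ℤ) ≤ (V i).valuation z := by
    rw [mem_iff_val, map_mul, map_inv₀, map_pow] at hk₂
    rw [zpow_natCast]
    calc (V i).valuation (π i) ^ k₂ = (V i).valuation z *
          (((V i).valuation z)⁻¹ * (V i).valuation (π i) ^ k₂) := by
            rw [← mul_assoc, mul_inv_cancel₀ hzv.ne', one_mul]
      _ ≤ (V i).valuation z * 1 := mul_le_mul_right hk₂ _
      _ = _ := mul_one _
  have hex : ∃ n : ℕ, (V i).valuation (π i) ^ ((n : ℤ) - k₁) ≤ (V i).valuation z := by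
    refine ⟨k₁ + k₂, ?_⟩
    rw [show (((k₁ + k₂ : ℕ) : ℤ) - k₁) = k₂ by push_cast; ring]
    exact hle
  have hz1 : (V i).valuation z ≤ (V i).valuation (π i) ^ (((0 : ℕ) : ℤ) - k₁) := by
    rw [mem_iff_val, map_mul, map_pow] at hk₁
    rw [show (((0 : ℕ) : ℤ) - k₁) = -(k₁ : ℤ) by push_cast; ring, zpow_neg, zpow_natCast]
    rw [← one_mul (_⁻¹), le_mul_inv_iff₀ (pow_pos hv0 _)]
    exact hk₁
  -- minimal n
  obtain ⟨n, hn, hmin⟩ : ∃ n : ℕ, (V i).valuation (π i) ^ ((n : ℤ) - k₁) ≤ (V i).valuation z ∧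
      ∀ m < n, ¬ (V i).valuation (π i) ^ ((m : ℤ) - k₁) ≤ (V i).valuation z :=
    ⟨Nat.find hex, Nat.find_spec hex, fun m hm => Nat.find_min hex hm⟩
  refine ⟨-((n : ℤ) - k₁), ?_⟩
  rw [rv_ne_zero_iff_val, map_mul, map_zpow₀, zpow_neg]
  have hpn : 0 < (V i).valuation (π i) ^ ((n : ℤ) - k₁) := zpow_pos hv0 _
  rw [mul_inv_eq_one₀ hpn.ne']
  refine le_antisymm ?_ hn
  rcases Nat.eq_zero_or_pos n with h0 | hpos
  · rw [h0]; exact hz1
  · obtain ⟨m, rfl⟩ : ∃ m, n = m + 1 := ⟨n - 1, by omega⟩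
    have h1 := hmin m (Nat.lt_succ_self m)
    rw [not_le] at h1
    -- `z / π^(m - k₁)` is a nonunit
    have h2 : (V i).valuation (z * π i ^ (-((m : ℤ) - k₁))) < 1 := by
      rw [map_mul, map_zpow₀, zpow_neg, mul_inv_lt_iff₀ (zpow_pos hv0 _), one_mul]
      exact h1
    have h3 := h.val_le_π i h2
    rw [map_mul, map_zpow₀, zpow_neg, mul_inv_le_iff₀ (zpow_pos hv0 _)] at h3
    rw [show (((m + 1 : ℕ) : ℤ) - k₁) = 1 + ((m : ℤ) - k₁) by push_cast; ring,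
      zpow_add₀ hv0.ne', zpow_one]
    exact h3

/-- Unramified: `ϖ` is a uniformizer. -/
theorem Fund_isUnif [FiniteDimensional E F] (i : ι) (he : e i = 1) :
    IsUnif (V i) (algebraMap E F ϖ) := by
  have hram := h.ram i
  rw [he, pow_one] at hram
  have hϖV : algebraMap E F ϖ ∈ V i := (h.lies i _).2 h.unif.mem
  refine ⟨h.ϖ_ne, hϖV, (rv_map_eq_zero_iff (φ := algebraMap E F) (h.lies i)).2 h.unif.res, ?_⟩
  intro z hz
  obtain ⟨n, hn⟩ := Fund_exists_zpow h i hz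
  refine ⟨n, ?_⟩
  have h1 := rv_ne_zero_mul hn (rv_ne_zero_inv (rv_ne_zero_zpow hram n))
  have h2 : z * π i ^ n * ((π i * (algebraMap E F ϖ)⁻¹) ^ n)⁻¹ = z * (algebraMap E F ϖ) ^ n := by
    have hπ0 : π i ≠ 0 := by
      intro h0
      exact h.val_π_ne i (by rw [h0, map_zero])
    rw [mul_zpow, mul_inv, inv_zpow, inv_inv]
    have := zpow_ne_zero n hπ0
    field_simp
  rwa [h2] at h1

/-- Ramified case. -/
theorem Fund_ord [FiniteDimensional E F] (i : ι) {z : F} (hz : z ≠ 0) :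
    ∃ n : ℤ, rv (V i) (z ^ e i * (algebraMap E F ϖ) ^ n) ≠ 0 := by
  obtain ⟨n, hn⟩ := Fund_exists_zpow h i hz
  refine ⟨n, ?_⟩
  have h1 := rv_ne_zero_mul (rv_ne_zero_pow hn (e i)) (rv_ne_zero_inv (rv_ne_zero_zpow (h.ram i) n))
  have h2 : (z * π i ^ n) ^ e i * ((π i ^ e i * (algebraMap E F ϖ)⁻¹) ^ n)⁻¹ =
      z ^ e i * (algebraMap E F ϖ) ^ n := by
    have hπ0 : π i ≠ 0 := by
      intro h0
      exact h.val_π_ne i (by rw [h0, map_zero])
    rw [mul_zpow, mul_inv, inv_zpow, inv_inv, mul_pow]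
    have h3 : (π i ^ n) ^ e i = (π i ^ e i) ^ n := by
      rw [← zpow_natCast, ← zpow_natCast, ← zpow_mul, ← zpow_mul, mul_comm]
    rw [h3]
    have := zpow_ne_zero n (pow_ne_zero (e i) hπ0)
    field_simp
  rwa [h2] at h1

/-- Weak approximation. -/
theorem Fund_wa (z : ι → F) (hz : ∀ i, z i ≠ 0) : ∃ g : F, ∀ i, rv (V i) (g * (z i)⁻¹) ≠ 0 := by
  classical
  -- exponents
  have h1 : ∀ i l, ∃ k : ℕ, l ≠ i → ∀ n ≥ k, s i ^ n * (z i * (z l)⁻¹) ∈ V l ∧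
      rv (V l) (s i ^ n * (z i * (z l)⁻¹)) = 0 := by
    intro i l
    by_cases hl : l ≠ i
    · obtain ⟨k, hk⟩ := h.arch l (z i * (z l)⁻¹) (s i) (h.s_mem i l) (h.s_zero i l hl)
      refine ⟨k + 1, fun _ n hn => ?_⟩
      obtain ⟨m, rfl⟩ : ∃ m, n = k + (m + 1) := ⟨n - (k + 1), by omega⟩
      have h2 : s i ^ (k + (m + 1)) * (z i * (z l)⁻¹) =
          s i ^ m * (s i * (z i * (z l)⁻¹ * s i ^ k)) := by
        rw [pow_add, pow_succ]; ring
      have h3 : s i * (z i * (z l)⁻¹ * s i ^ k) ∈ V l := (V l).mul_mem _ _ (h.s_mem i l) hk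
      rw [h2]
      refine ⟨(V l).mul_mem _ _ (pow_mem (h.s_mem i l) m) h3, ?_⟩
      rw [rv_mul (pow_mem (h.s_mem i l) m) h3, rv_mul (h.s_mem i l) hk, h.s_zero i l hl, zero_mul,
        mul_zero]
    · exact ⟨0, fun h => absurd h hl⟩
  choose k hk using h1
  let N := Finset.univ.sup fun i => Finset.univ.sup (k i)
  have hN : ∀ i l, k i l ≤ N := fun i l => le_trans (Finset.le_sup (f := k i) (Finset.mem_univ l))
    (Finset.le_sup (f := fun i => Finset.univ.sup (k i)) (Finset.mem_univ i))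
  refine ⟨∑ i, s i ^ N * z i, fun l => ?_⟩
  have h3 : (∑ i, s i ^ N * z i) * (z l)⁻¹ = s l ^ N +
      ∑ i ∈ Finset.univ.erase l, s i ^ N * (z i * (z l)⁻¹) := by
    rw [Finset.sum_mul, ← Finset.add_sum_erase _ _ (Finset.mem_univ l)]
    congr 1
    · rw [mul_assoc, mul_inv_cancel₀ (hz l), mul_one]
    · exact Finset.sum_congr rfl fun i _ => mul_assoc _ _ _
  have h4 : ∀ i ∈ Finset.univ.erase l, (V l).valuation (s i ^ N * (z i * (z l)⁻¹)) < 1 := by
    intro i hi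
    have hne : l ≠ i := fun h => (Finset.mem_erase.1 hi).1 h.symm
    obtain ⟨h5, h6⟩ := hk i l hne N (hN i l)
    exact (rv_eq_zero_iff_val h5).1 h6
  have h5 : (V l).valuation (∑ i ∈ Finset.univ.erase l, s i ^ N * (z i * (z l)⁻¹)) < 1 :=
    Valuation.map_sum_lt _ one_ne_zero h4
  rw [h3, rv_ne_zero_iff_val, Valuation.map_add_eq_of_lt_left]
  · rw [map_pow, h.val_s_eq, one_pow]
  · rw [map_pow, h.val_s_eq, one_pow]; exact h5

end

/-- Two valuation rings, `e = (1, q - 1)`, `f = (1, 1)`. -/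
theorem splitData_of_fund [FiniteDimensional E F] {q : ℕ} {W : ValuationSubring E} {ϖ : E}
    {V : Fin 2 → ValuationSubring F} {e f : Fin 2 → ℕ} {s π : Fin 2 → F} {b : ∀ i, Fin (f i) → F}
    (h : Fund W ϖ V e f s π b) (he : e 1 = q - 1) (hf : f 0 = 1)
    (hdeg : Module.finrank E F = q) : SplitData q ϖ W (V 0) (V 1) := by
  -- the idempotent
  have hidem : ∃ ε : F, ε ∈ V 0 ∧ ε ∈ V 1 ∧ rv (V 0) ε = 1 ∧ rv (V 1) ε = 0 := by
    obtain ⟨c, hc, hcs⟩ := Fund_sur h 0 hf (h.s_mem 0 0)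
    have hc0 : rv (V 0) (algebraMap E F c) ≠ 0 := by rw [← hcs]; exact h.s_ne 0
    have hcW : rv W c ≠ 0 := by
      rw [ne_eq, ← rv_map_eq_zero_iff (φ := algebraMap E F) (h.lies 0)]; exact hc0
    have hcW' := (rv_ne_zero_iff.1 hcW).2.2
    refine ⟨s 0 * algebraMap E F c⁻¹, (V 0).mul_mem _ _ (h.s_mem 0 0) ((h.lies 0 _).2 hcW'),
      (V 1).mul_mem _ _ (h.s_mem 0 1) ((h.lies 1 _).2 hcW'), ?_, ?_⟩
    · rw [rv_mul (h.s_mem 0 0) ((h.lies 0 _).2 hcW'), map_inv₀, rv_inv, hcs, mul_inv_cancel₀ hc0]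
    · rw [rv_mul (h.s_mem 0 1) ((h.lies 1 _).2 hcW'), h.s_zero 0 1 (by decide), zero_mul]
  refine ⟨h.lies 0, h.lies 1, ?_, h.arch 0, h.arch 1, hidem, ?_, hdeg⟩
  · intro z h0 h1
    exact h.isIntegral (fun i => by fin_cases i; exacts [h0, h1])
  · have hπ0 : π 1 ≠ 0 := by
      intro h0
      exact h.val_π_ne 1 (by rw [h0, map_zero])
    obtain ⟨g, hg⟩ := Fund_wa h (![1, π 1]) (by
      intro i
      fin_cases i
      · exact one_ne_zero
      · exact hπ0)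
    have h0 := hg 0
    have h1 : rv (V 1) (g * (π 1)⁻¹) ≠ 0 := hg 1
    simp only [Matrix.cons_val_zero, inv_one, mul_one] at h0
    refine ⟨g, h0, ?_⟩
    have h2 := rv_ne_zero_mul (rv_ne_zero_pow h1 (q - 1)) (h.ram 1)
    rw [he] at h2
    have h3 : (g * (π 1)⁻¹) ^ (q - 1) * (π 1 ^ (q - 1) * (algebraMap E F ϖ)⁻¹) =
        g ^ (q - 1) * (algebraMap E F ϖ)⁻¹ := by
      rw [mul_pow, inv_pow]
      have := pow_ne_zero (q - 1) hπ0
      field_simp
    rwa [h3] at h2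

/-- One valuation ring, unramified of residue degree `q`. -/
theorem insepData_of_fund [FiniteDimensional E F] {q : ℕ} {W : ValuationSubring E} {ϖ : E}
    {V : Fin 1 → ValuationSubring F} {e f : Fin 1 → ℕ} {s π : Fin 1 → F} {b : ∀ i, Fin (f i) → F}
    (h : Fund W ϖ V e f s π b) (hchar : rv W (q : E) = 0)
    (hdeg : Module.finrank E F = q) : InsepData q W (V 0) :=
  ⟨h.lies 0, fun z hz => h.isIntegral (fun i => by fin_cases i; exact hz), h.arch 0, hchar, hdeg⟩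

end Fermat.Agent.H23.R
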