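import Fermat.Agent.H23.R.LiftK0

/-!
# PROGRAM R (S36), (P7b): every function on the special fibre is a quotient of liftable ones
-/

set_option autoImplicit false
set_option maxSynthPendingDepth 3

noncomputable section

attribute [-instance] HahnSeries.instModule HahnSeries.instSMul HahnSeries.instDistribMulAction
  HahnSeries.instSMulZeroClass

namespace Fermat.Agent.H23.R

open ModularCurve ModularCurve.IgusaScheme Polynomial Fermat.Agent.H26 Fermat.Agent.H26.RV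
open Fermat.Agent.Igusa (Rl CL)
open Fermat.Agent.H28 (IntOver evA modRed jBar jZ jinvZ RedData)
open Fermat.Agent.Q (Red)

local notation "Qb" => AlgebraicClosure ℚ
local notation "kk" => IsLocalRing.ResidueField

/-- An algebraic element is a quotient of integral ones. -/
theorem exists_frac_of_isAlgebraic {k L : Type*} [Field k] [Field L] [Algebra k L] (t : L)
    (h : Algebra.IsAlgebraic (Algebra.adjoin k {t}) L) (u : L) :
    ∃ u₁ u₂ : L, IsIntegral (Algebra.adjoin k {t}) u₁ ∧ IsIntegral (Algebra.adjoin k {t}) u₂ ∧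
      u₂ ≠ 0 ∧ u * u₂ = u₁ := by
  obtain ⟨y, hy, h1⟩ := (h.1 u).exists_integral_multiple
  refine ⟨y • u, (y : L), h1, isIntegral_algebraMap (x := y), ?_, ?_⟩
  · intro h2
    exact hy (Subtype.ext h2)
  · rw [Algebra.smul_def, mul_comm]
    rfl

variable {A : ValuationSubring Qb} {q : ℕ} [hq : Fact q.Prime] {N : ℕ} [NeZero N]

/-- **(P7b)**, chart `j`. -/
theorem exists_frac_j (hA : A.LiesOverPrime q) (hN : ¬ q ∣ N)
    (h : (modRed N A).IsChart (jZ N A)) (u : modularFunctionFieldFullC (kk A) N) :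
    ∃ z₁ z₂ : laurentBaseChange (K0 A) (modularFunctionFieldFull N),
      ∃ u₁ u₂ : modularFunctionFieldFullC (kk A) N,
      z₁ ∈ intSub (A0 A) (iotaK (K0 A) N (jFull N)) ∧
      z₂ ∈ intSub (A0 A) (iotaK (K0 A) N (jFull N)) ∧
      Red A (cEmb (K0 A) Qb z₁) (u₁ : LaurentSeries (kk A)) ∧
      Red A (cEmb (K0 A) Qb z₂) (u₂ : LaurentSeries (kk A)) ∧ u₂ ≠ 0 ∧ u * u₂ = u₁ := by
  obtain ⟨u₁, u₂, h1, h2, h3, h4⟩ := exists_frac_of_isAlgebraic _
    (H28.isAlgebraic_full (kk A) N _ (H28.ρ_jZ N A)) u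
  obtain ⟨z₁, hz₁, hr₁⟩ := exists_lift_j hA hN h h1
  obtain ⟨z₂, hz₂, hr₂⟩ := exists_lift_j hA hN h h2
  exact ⟨z₁, z₂, u₁, u₂, hz₁, hz₂, hr₁, hr₂, h3, h4⟩

/-- **(P7b)**, chart `1/j`. -/
theorem exists_frac_jinv (hA : A.LiesOverPrime q) (hN : ¬ q ∣ N)
    (h : (modRed N A).IsChart (jinvZ N A)) (u : modularFunctionFieldFullC (kk A) N) :
    ∃ z₁ z₂ : laurentBaseChange (K0 A) (modularFunctionFieldFull N),
      ∃ u₁ u₂ : modularFunctionFieldFullC (kk A) N,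
      z₁ ∈ intSub (A0 A) (iotaK (K0 A) N (jFull N)⁻¹) ∧
      z₂ ∈ intSub (A0 A) (iotaK (K0 A) N (jFull N)⁻¹) ∧
      Red A (cEmb (K0 A) Qb z₁) (u₁ : LaurentSeries (kk A)) ∧
      Red A (cEmb (K0 A) Qb z₂) (u₂ : LaurentSeries (kk A)) ∧ u₂ ≠ 0 ∧ u * u₂ = u₁ := by
  obtain ⟨u₁, u₂, h1, h2, h3, h4⟩ := exists_frac_of_isAlgebraic _
    (H28.isAlgebraic_full_inv (kk A) N _ (H28.ρ_jinvZ N A)) u
  obtain ⟨z₁, hz₁, hr₁⟩ := exists_lift_jinv hA hN h h1
  obtain ⟨z₂, hz₂, hr₂⟩ := exists_lift_jinv hA hN h h2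
  exact ⟨z₁, z₂, u₁, u₂, hz₁, hz₂, hr₁, hr₂, h3, h4⟩

end Fermat.Agent.H23.R
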