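import Fermat.Agent.RV.VW
import Fermat.Agent.H23.R.CommonMk
import Fermat.Agent.H23.R.LiftFrac
import Fermat.Agent.Q.Frobenius
import Fermat.Agent.H29.GR
import Fermat.Agent.RR.Fricke

/-!
# PROGRAM R (S36): the concrete reductions
-/

set_option autoImplicit false
set_option maxSynthPendingDepth 3
set_option linter.unusedSectionVars false

noncomputable section

attribute [-instance] HahnSeries.instModule HahnSeries.instSMul HahnSeries.instDistribMulAction
  HahnSeries.instSMulZeroClass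

namespace Fermat.Agent.H23.R

open ModularCurve Polynomial AlgebraicCurve Fermat.Agent.H26 Fermat.Agent.H26.RV
open Fermat.Agent.H28 (modRed jZ jinvZ)
open Fermat.Agent.Q (Red)

local notation "Qb" => AlgebraicClosure ℚ
local notation "kk" => IsLocalRing.ResidueField

/-- the levels to which good reduction applies -/
def GoodLvl (q M : ℕ) : Prop := ¬ q ∣ M ∧ ((2 ∣ M ∧ q ≠ 2) ∨ (3 ∣ M ∧ q ≠ 3))

variable {q M : ℕ} [hq : Fact q.Prime] [NeZero M] (hqM : Nat.Coprime q M)
  {A : ValuationSubring Qb} (hA : A.LiesOverPrime q)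

theorem redRel_gauss {F : Type*} [Field F] {ι : F →+* LaurentSeries Qb}
    {hι : ∀ z, ι z ∈ Q.FL A} : RedRel (gaussV hq.out hA ι hι) (fun z u => Red A (ι z) u) where
  mem_iff _ := Iff.rfl
  uniq h h' := Red.unique h h'
  one := by rw [map_one]; exact Red.one
  mul h h' := by rw [map_mul]; exact h.mul h'
  sub h h' := by rw [map_sub]; exact h.sub h'
  inv h h0 := by rw [map_inv₀]; exact h.inv h0

theorem redV (i : Fin 3) :
    RedRel (V hqM (K0 A) hA i) (fun z u => Red A (io hqM (K0 A) i z) u) := redRel_gauss hA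

theorem redW (i : Fin 2) :
    RedRel (W hqM (K0 A) hA i) (fun z u => Red A (ie hqM (K0 A) i z) u) := redRel_gauss hA

include hA in
theorem charP_kk : CharP (kk A) q := charP_residue hq.out hA

include hA in
theorem charP_lkk : CharP (LaurentSeries (kk A)) q := by
  have := charP_kk (q := q) hA
  exact charP_of_injective_algebraMap (algebraMap (kk A) (LaurentSeries (kk A))).injective q

/-- coefficientwise Frobenius -/
def cFrob (A : ValuationSubring Qb) (q : ℕ) [Fact q.Prime] (h : CharP (kk A) q) :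
    LaurentSeries (kk A) →+* LaurentSeries (kk A) :=
  letI := h
  coeffMap (frobenius (kk A) q)

theorem qExpand_cFrob (u : LaurentSeries (kk A)) :
    qExpand (kk A) q (cFrob A q (charP_kk hA) u) = u ^ q := by
  have := charP_kk (q := q) hA
  exact (Q.pow_char q u).symm

/-- the function field of the special fibre -/
abbrev LK (A : ValuationSubring Qb) (M : ℕ) [NeZero M] :
    IntermediateField (kk A) (LaurentSeries (kk A)) :=
  modularFunctionFieldFullC (kk A) M

theorem cFrob_mem {u : LaurentSeries (kk A)} (hu : u ∈ LK A M) :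
    cFrob A q (charP_kk hA) u ∈ LK A M := by
  have := charP_kk (q := q) hA
  exact Q.coeffMap_frobenius_mem q M hu

include hA in
/-- lifting to characteristic zero -/
theorem exists_eb_red (hG : GoodLvl q M) {u : LaurentSeries (kk A)} (hu : u ∈ LK A M) :
    ∃ z : LF (K0 A) M, Red A (eb (K0 A) M z) u := by
  obtain ⟨z₁, z₂, u₁, u₂, -, -, h1, h2, h3, h4⟩ :=
    exists_frac_j hA hG.1 (H29.isChart_j hq.out hA hG) ⟨u, hu⟩
  have h20 : (u₂ : LaurentSeries (kk A)) ≠ 0 := fun h => h3 (Subtype.ext h)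
  refine ⟨z₁ / z₂, ?_⟩
  rw [map_div₀]
  have h5 : u = (u₁ : LaurentSeries (kk A)) / u₂ := by
    rw [eq_div_iff h20]
    exact congrArg Subtype.val h4
  rw [h5]
  exact h1.div h2 h20

/-- the reductions along `α` -/
theorem half_alpha (hG : GoodLvl q M)
    (hL : ∀ (i : Fin 3) (z : LF (K0 A) (M * q * q)) (u : LaurentSeries (kk A)),
      Red A (io hqM (K0 A) i z) u → u ∈ LK A M) :
    HalfRed q (heckeAlphaBar (K0 A) (M * q) q : LF (K0 A) (M * q) →+* LF (K0 A) (M * q * q))
      (qExpand (kk A) q) (cFrob A q (charP_kk hA))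
      (fun z u => Red A (ie hqM (K0 A) 0 z) u) (fun z u => Red A (ie hqM (K0 A) 1 z) u)
      (fun z u => Red A (io hqM (K0 A) 0 z) u) (fun z u => Red A (io hqM (K0 A) 1 z) u)
      (fun z u => Red A (io hqM (K0 A) 2 z) u) where
  ov₁ {z u} h := by
    change Red A (io hqM (K0 A) 0 (heckeAlphaBar (K0 A) (M * q) q z)) u
    rwa [io0_alpha]
  ov₂ {z u} h := by
    change Red A (io hqM (K0 A) 1 (heckeAlphaBar (K0 A) (M * q) q z)) u
    rwa [io1_alpha]
  ov₀ {z u} h := by
    change Red A (io hqM (K0 A) 2 (heckeAlphaBar (K0 A) (M * q) q z)) _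
    rw [io2_alpha]
    exact h.qExpand q
  frob u := qExpand_cFrob hA u
  sur₁ {z u} h := by
    obtain ⟨c, hc⟩ := exists_eb_red hA hG (hL 0 z u h)
    refine ⟨heckeAlphaBar (K0 A) M q c, ?_⟩
    rwa [ie0_alpha]
  sur₂ {z u} h := by
    obtain ⟨c, hc⟩ := exists_eb_red hA hG (hL 1 z u h)
    refine ⟨heckeAlphaBar (K0 A) M q c, ?_⟩
    rwa [ie0_alpha]
  sur₀ {z u} h := by
    obtain ⟨c, hc⟩ := exists_eb_red hA hG (cFrob_mem hA (hL 2 z u h))
    refine ⟨heckeBetaBar (K0 A) M q c, ?_⟩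
    rwa [ie1_beta]

/-- the reductions along `β` -/
theorem half_beta (hG : GoodLvl q M)
    (hL : ∀ (i : Fin 3) (z : LF (K0 A) (M * q * q)) (u : LaurentSeries (kk A)),
      Red A (io hqM (K0 A) i z) u → u ∈ LK A M) :
    HalfRed q (heckeBetaBar (K0 A) (M * q) q : LF (K0 A) (M * q) →+* LF (K0 A) (M * q * q))
      (qExpand (kk A) q) (cFrob A q (charP_kk hA))
      (fun z u => Red A (ie hqM (K0 A) 1 z) u) (fun z u => Red A (ie hqM (K0 A) 0 z) u)
      (fun z u => Red A (io hqM (K0 A) 2 z) u) (fun z u => Red A (io hqM (K0 A) 1 z) u)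
      (fun z u => Red A (io hqM (K0 A) 0 z) u) where
  ov₁ {z u} h := by
    change Red A (io hqM (K0 A) 2 (heckeBetaBar (K0 A) (M * q) q z)) u
    rwa [io2_beta]
  ov₂ {z u} h := by
    change Red A (io hqM (K0 A) 1 (heckeBetaBar (K0 A) (M * q) q z)) u
    rw [io1_beta]
    exact red_twist hq.out hA (zt_pow Qb hqM) h
  ov₀ {z u} h := by
    change Red A (io hqM (K0 A) 0 (heckeBetaBar (K0 A) (M * q) q z)) _
    rw [io0_beta]
    exact h.qExpand q
  frob u := qExpand_cFrob hA u
  sur₁ {z u} h := by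
    obtain ⟨c, hc⟩ := exists_eb_red hA hG (hL 2 z u h)
    refine ⟨heckeBetaBar (K0 A) M q c, ?_⟩
    rwa [ie1_beta]
  sur₂ {z u} h := by
    obtain ⟨c, hc⟩ := exists_eb_red hA hG (hL 1 z u h)
    refine ⟨heckeBetaBar (K0 A) M q c, ?_⟩
    rwa [ie1_beta]
  sur₀ {z u} h := by
    obtain ⟨c, hc⟩ := exists_eb_red hA hG (cFrob_mem hA (hL 0 z u h))
    refine ⟨heckeAlphaBar (K0 A) M q c, ?_⟩
    rwa [ie0_alpha]

theorem jqModC_not_range (k : Type*) [Field k] (q : ℕ) [hq : Fact q.Prime] :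
    haveI : NeZero q := ⟨hq.out.ne_zero⟩
    jqModC k ∉ Set.range (qExpand k q) := by
  haveI : NeZero q := ⟨hq.out.ne_zero⟩
  rintro ⟨z, hz⟩
  have h1 : (jqModC k).coeff (-1) = 1 := coeff_jqModC_neg_one k
  rw [← hz, qExpand_coeff_of_not_dvd] at h1
  · exact zero_ne_one h1
  · intro h
    have h2 : (q : ℤ) ∣ 1 := by rwa [dvd_neg] at h
    have h3 : q ∣ 1 := by exact_mod_cast h2
    exact hq.out.one_lt.ne' (Nat.dvd_one.1 h3)

theorem finrank_alpha_q [NeZero q] (K : Type*) [Field K] [Algebra ℚ K] :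
    finrankAlong K (heckeAlphaBar K (M * q) q) = q := by
  rw [H05.heckeAlphaBar_eq, H05.finrankAlong_inc_prime K hq.out _ rfl, if_pos (dvd_mul_left q M)]

theorem finrank_beta_q [NeZero q] (K : Type*) [Field K] [Algebra ℚ K] [Algebra.IsAlgebraic ℚ K] :
    finrankAlong K (heckeBetaBar K (M * q) q) = q := by
  rw [H05.heckeBetaBar_eq, RR.finrankAlong_qe_prime K hq.out rfl, if_pos (dvd_mul_left q M)]

end Fermat.Agent.H23.R
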