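import Fermat.Agent.H23.R.Inst

/-!
# PROGRAM R (S36): integral relations and their reductions
-/

set_option autoImplicit false
set_option maxSynthPendingDepth 3
set_option linter.unusedSectionVars false

noncomputable section

attribute [-instance] HahnSeries.instModule HahnSeries.instSMul HahnSeries.instDistribMulAction
  HahnSeries.instSMulZeroClass

namespace Fermat.Agent.H23.R

open ModularCurve Polynomial AlgebraicCurve Fermat.Agent.H26 Fermat.Agent.H26.RV
open Fermat.Agent.H28 (modRed jZ jinvZ)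
open Fermat.Agent.Q (Red)

local notation "Qb" => AlgebraicClosure ℚ
local notation "kk" => IsLocalRing.ResidueField

section IntRel

/-- `u` is integral over `k[x]`. -/
def IntRel (k : Type*) {Λ : Type*} [CommRing k] [CommRing Λ] [Algebra k Λ] (x u : Λ) : Prop :=
  ∃ P : k[X][X], P.Monic ∧ P.eval₂ (aeval x : k[X] →ₐ[k] Λ).toRingHom u = 0

variable {k Λ : Type*} [CommRing k] [Field Λ] [Algebra k Λ] {x u : Λ}

theorem intRel_iff : IntRel k x u ↔ IsIntegral (Algebra.adjoin k {x}) u := by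
  let g : k[X] →+* Algebra.adjoin k {x} :=
    (aeval (⟨x, Algebra.subset_adjoin rfl⟩ : Algebra.adjoin k {x})).toRingHom
  have hg : (algebraMap (Algebra.adjoin k {x}) Λ).comp g =
      (aeval x : k[X] →ₐ[k] Λ).toRingHom := by
    apply Polynomial.ringHom_ext
    · intro c
      change ((aeval (⟨x, _⟩ : Algebra.adjoin k {x}) (C c) : Algebra.adjoin k {x}) : Λ) =
        aeval x (C c)
      rw [aeval_C, aeval_C]
      rfl
    · change ((aeval (⟨x, _⟩ : Algebra.adjoin k {x}) (X : k[X]) : Algebra.adjoin k {x}) : Λ) =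
        aeval x (X : k[X])
      rw [aeval_X, aeval_X]
  have hgs : Function.Surjective g := by
    rintro ⟨y, hy⟩
    have h1 := hy
    rw [Algebra.adjoin_singleton_eq_range_aeval] at h1
    obtain ⟨p, hp⟩ := h1
    refine ⟨p, Subtype.ext ?_⟩
    have := congrArg (fun f : k[X] →+* Λ => f p) hg
    exact this.trans hp
  constructor
  · rintro ⟨P, hP, hPu⟩
    refine ⟨P.map g, hP.map g, ?_⟩
    rw [eval₂_map, hg]
    exact hPu
  · rintro ⟨p, hp, hpu⟩
    have h1 : p ∈ lifts g := by
      rw [lifts_iff_coeff_lifts]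
      intro n
      exact hgs _
    obtain ⟨P, hP, -, hPm⟩ := lifts_and_natDegree_eq_and_monic h1 hp
    refine ⟨P, hPm, ?_⟩
    rw [← hg, ← eval₂_map, hP]
    exact hpu

theorem IntRel.root {m : ℕ} (hm : m ≠ 0) (h : IntRel k x (u ^ m)) : IntRel k x u := by
  rw [intRel_iff] at h ⊢
  exact IsIntegral.of_pow (Nat.pos_of_ne_zero hm) h

theorem IntRel.of_pow {n : ℕ} (h : IntRel k (x ^ n) u) : IntRel k x u := by
  obtain ⟨P, hP, hPu⟩ := h
  refine ⟨P.map (expand k n).toRingHom, hP.map _, ?_⟩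
  rw [eval₂_map]
  have : (aeval x : k[X] →ₐ[k] Λ).toRingHom.comp (expand k n).toRingHom =
      (aeval (x ^ n) : k[X] →ₐ[k] Λ).toRingHom := by
    apply RingHom.ext
    intro p
    exact expand_aeval n p x
  rw [this]
  exact hPu

theorem IntRel.semilinear (σ : Λ →+* Λ) (σ₀ : k →+* k)
    (hσ : ∀ c, σ (algebraMap k Λ c) = algebraMap k Λ (σ₀ c)) (h : IntRel k x u) :
    IntRel k (σ x) (σ u) := by
  obtain ⟨P, hP, hPu⟩ := h
  refine ⟨P.map (mapRingHom σ₀), hP.map _, ?_⟩
  rw [eval₂_map]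
  have : (aeval (σ x) : k[X] →ₐ[k] Λ).toRingHom.comp (mapRingHom σ₀) =
      σ.comp (aeval x : k[X] →ₐ[k] Λ).toRingHom := by
    apply Polynomial.ringHom_ext
    · intro c
      change aeval (σ x) ((C c : k[X]).map σ₀) = σ (aeval x (C c))
      rw [map_C, aeval_C, aeval_C, hσ]
    · change aeval (σ x) ((X : k[X]).map σ₀) = σ (aeval x (X : k[X]))
      rw [map_X, aeval_X, aeval_X]
  rw [this, ← hom_eval₂, hPu, map_zero]

theorem IntRel.of_hom {M : Type*} [Field M] [Algebra k M] (σ : Λ →+* M)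
    (hσ : ∀ c, σ (algebraMap k Λ c) = algebraMap k M c) (h : IntRel k (σ x) (σ u)) :
    IntRel k x u := by
  obtain ⟨P, hP, hPu⟩ := h
  refine ⟨P, hP, σ.injective ?_⟩
  rw [hom_eval₂, map_zero]
  have : σ.comp (aeval x : k[X] →ₐ[k] Λ).toRingHom =
      (aeval (σ x) : k[X] →ₐ[k] M).toRingHom := by
    apply Polynomial.ringHom_ext
    · intro c
      change σ (aeval x (C c)) = aeval (σ x) (C c)
      rw [aeval_C, aeval_C, hσ]
    · change σ (aeval x (X : k[X])) = aeval (σ x) (X : k[X])
      rw [aeval_X, aeval_X]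
  rw [this]
  exact hPu

end IntRel

section RedInt

variable {A : ValuationSubring Qb}

/-- `A0 → k` -/
def resA0 (A : ValuationSubring Qb) : A0 A →+* kk A :=
  (IsLocalRing.residue A).comp
    ({ toFun := fun c => ⟨((c : K0 A) : Qb), c.2⟩
       map_one' := rfl
       map_mul' := fun _ _ => rfl
       map_zero' := rfl
       map_add' := fun _ _ => rfl } : A0 A →+* A)

variable {F : Type*} [Field F] [Algebra (A0 A) F] {ι : F →+* LaurentSeries Qb}
  (hι : ∀ c : A0 A, ι (algebraMap (A0 A) F c) = HahnSeries.C ((c : K0 A) : Qb))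

include hι

theorem red_algebraMap (c : A0 A) :
    Red A (ι (algebraMap (A0 A) F c)) (algebraMap (kk A) (LaurentSeries (kk A)) (resA0 A c)) := by
  rw [hι, algebraMap_laurentSeries_eq_single]
  exact Red.C (A := A) (c := ((c : K0 A) : Qb)) c.2

theorem red_aeval {x : F} {xb : LaurentSeries (kk A)} (hx : Red A (ι x) xb) (p : (A0 A)[X]) :
    Red A (ι (aeval x p)) (aeval xb (p.map (resA0 A))) := by
  rw [aeval_eq_sum_range, map_sum, aeval_def, eval₂_map,
    eval₂_eq_sum_range]
  refine Red.sum _ fun i _ => ?_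
  rw [Algebra.smul_def, map_mul, map_pow]
  exact (red_algebraMap hι _).mul (hx.pow i)

/-- Integral relations can be reduced. -/
theorem intRel_of_mem {x z : F} {xb u : LaurentSeries (kk A)} (hx : Red A (ι x) xb)
    (hz : Red A (ι z) u) (h : z ∈ intSub (A0 A) x) : IntRel (kk A) xb u := by
  rw [mem_intSub, ← intRel_iff] at h
  obtain ⟨P, hP, hPz⟩ := h
  refine ⟨P.map (mapRingHom (resA0 A)), hP.map _, ?_⟩
  have h1 : Red A (ι (P.eval₂ (aeval x : (A0 A)[X] →ₐ[A0 A] F).toRingHom z))
      ((P.map (mapRingHom (resA0 A))).eval₂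
        (aeval xb : (kk A)[X] →ₐ[kk A] LaurentSeries (kk A)).toRingHom u) := by
    rw [eval₂_map, eval₂_eq_sum_range, eval₂_eq_sum_range, map_sum]
    refine Red.sum _ fun i _ => ?_
    rw [map_mul, map_pow]
    exact (red_aeval hι hx _).mul (hz.pow i)
  rw [hPz, map_zero] at h1
  exact h1.unique Red.zero

end RedInt

end Fermat.Agent.H23.R
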