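import Mathlib

/-!
# PROGRAM R (S36): the two-chart KEY LEMMA

`F` the function field over the fraction field of a Noetherian ring `A0`, `B` the ring of
elements integral at the vertical valuations, `S₁ S₂` the rings of elements integral at the
horizontal places of two charts (`x` finite, `x⁻¹` finite).
-/

namespace Fermat.Agent.H23.R

open Polynomial

/-- `(1 - η) (1 + c η)^m = 1 - η² Q`. -/
theorem newton_identity {R : Type*} [CommRing R] (m : ℕ) (c η : R) (h : (m : R) * c = 1) :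
    ∃ Q : R, (1 - η) * (1 + c * η) ^ m = 1 - η ^ 2 * Q := by
  obtain ⟨k, hk⟩ := Polynomial.powAddExpansion (1 : R) (c * η) m
  refine ⟨1 - (1 - η) * k * c ^ 2, ?_⟩
  have h' : (m : R) * (c * η) = η := by rw [← mul_assoc, h, one_mul]
  rw [hk, one_pow, one_pow, mul_one]
  linear_combination (1 - η) * h'

variable {F : Type*} [Field F]

/-- One Newton step for `y ^ m * f = 1`. -/
theorem newton_step (R : Subring F) (m : ℕ) {c y f : F} (hc : c ∈ R) (hmc : (m : F) * c = 1)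
    (hy : y ^ m * f ∈ R) :
    (y * (1 + c * (1 - y ^ m * f))) ^ m * f ∈ R ∧
      ∃ Q ∈ R, 1 - (y * (1 + c * (1 - y ^ m * f))) ^ m * f = (1 - y ^ m * f) ^ 2 * Q := by
  have hη : 1 - y ^ m * f ∈ R := R.sub_mem R.one_mem hy
  have hmc' : ((m : R)) * (⟨c, hc⟩ : R) = 1 := by
    apply Subtype.ext
    push_cast
    exact hmc
  obtain ⟨⟨Q, hQ⟩, hQe⟩ := newton_identity m (⟨c, hc⟩ : R) ⟨_, hη⟩ hmc'
  have e := congrArg (Subtype.val) hQe
  push_cast at e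
  have e2 : (y * (1 + c * (1 - y ^ m * f))) ^ m * f =
      (1 - (1 - y ^ m * f)) * (1 + c * (1 - y ^ m * f)) ^ m := by rw [mul_pow]; ring
  refine ⟨?_, Q, hQ, ?_⟩
  · rw [e2]
    refine R.mul_mem (R.sub_mem R.one_mem hη) (R.pow_mem ?_ _)
    exact R.add_mem R.one_mem (R.mul_mem hc hη)
  · rw [e2, e]; ring

/-- Newton iteration for `y ^ m * f = 1`. -/
theorem newton_iterate (R : Subring F) (m : ℕ) {c y f : F} (hc : c ∈ R) (hmc : (m : F) * c = 1)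
    (hy : y ^ m * f ∈ R) (n : ℕ) :
    ∃ y' : F, y' ^ m * f ∈ R ∧ (∃ Q ∈ R, 1 - y' ^ m * f = (1 - y ^ m * f) ^ (2 ^ n) * Q) ∧
      ∃ t ∈ R, y' = y * (1 + (1 - y ^ m * f) * t) := by
  induction n with
  | zero => exact ⟨y, hy, ⟨1, R.one_mem, by ring⟩, 0, R.zero_mem, by ring⟩
  | succ n ih =>
    obtain ⟨y', h1, ⟨Q, hQ, h2⟩, t, ht, h3⟩ := ih
    obtain ⟨h4, Q', hQ', h5⟩ := newton_step R m hc hmc h1
    have hη : 1 - y ^ m * f ∈ R := R.sub_mem R.one_mem hy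
    refine ⟨_, h4, ⟨Q ^ 2 * Q', R.mul_mem (R.pow_mem hQ _) hQ', ?_⟩, ?_⟩
    · rw [h5, h2, pow_succ 2 n, pow_mul]; ring
    · -- y'' = y (1 + η t)(1 + c η^{2^n} Q)
      obtain ⟨r, hr⟩ : ∃ r, 2 ^ n = r + 1 := Nat.exists_eq_succ_of_ne_zero (by positivity)
      refine ⟨t + (1 + (1 - y ^ m * f) * t) * c * (1 - y ^ m * f) ^ r * Q, ?_, ?_⟩
      · refine R.add_mem ht (R.mul_mem (R.mul_mem (R.mul_mem ?_ hc) (R.pow_mem hη _)) hQ)
        exact R.add_mem R.one_mem (R.mul_mem hη ht)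
      · rw [h2, hr, h3, pow_succ]; ring

variable {A0 : Type*} [CommRing A0] [IsNoetherianRing A0] [Algebra A0 F]

/-- Bounded torsion: if `W ≤ L ⊔ T` with `T` finitely generated over the Noetherian ring `A0`,
the `ϖ`-power torsion of `W` modulo `L` is bounded. -/
theorem bounded_torsion {M : Type*} [AddCommGroup M] [Module A0 M] (ϖ : A0)
    (L W T : Submodule A0 M) (hT : T.FG) (hW : W ≤ L ⊔ T) :
    ∃ C : ℕ, ∀ n, ∀ z ∈ W, ϖ ^ n • z ∈ L → ϖ ^ C • z ∈ L := by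
  have h1 : IsNoetherian A0 (T.map L.mkQ) := isNoetherian_of_fg_of_noetherian _ (hT.map _)
  have h2 : W.map L.mkQ ≤ T.map L.mkQ := by
    refine (Submodule.map_mono hW).trans ?_
    rw [Submodule.map_sup]
    refine sup_le ?_ le_rfl
    rw [Submodule.mkQ_map_self]
    exact bot_le
  have h3 : IsNoetherian A0 (W.map L.mkQ) := isNoetherian_of_le h2
  let K : ℕ →o Submodule A0 (W.map L.mkQ) :=
    { toFun := fun n => LinearMap.ker (LinearMap.lsmul A0 (W.map L.mkQ) (ϖ ^ n))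
      monotone' := by
        intro a b hab z hz
        rw [LinearMap.mem_ker, LinearMap.lsmul_apply] at hz ⊢
        obtain ⟨d, rfl⟩ := Nat.exists_eq_add_of_le hab
        rw [pow_add, mul_comm, mul_smul, hz, smul_zero] }
  obtain ⟨C, hC⟩ := monotone_stabilizes_iff_noetherian.2 h3 K
  refine ⟨C, fun n z hz hn => ?_⟩
  have hzW : L.mkQ z ∈ W.map L.mkQ := Submodule.mem_map_of_mem hz
  have key : (⟨L.mkQ z, hzW⟩ : W.map L.mkQ) ∈ K n := by
    change _ ∈ LinearMap.ker _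
    rw [LinearMap.mem_ker, LinearMap.lsmul_apply]
    apply Subtype.ext
    change ϖ ^ n • L.mkQ z = 0
    rw [← map_smul, Submodule.mkQ_apply, Submodule.Quotient.mk_eq_zero]
    exact hn
  have key2 : (⟨L.mkQ z, hzW⟩ : W.map L.mkQ) ∈ K C := by
    rcases le_total n C with hnC | hnC
    · exact K.monotone hnC key
    · rw [hC n hnC]; exact key
  change _ ∈ LinearMap.ker _ at key2
  rw [LinearMap.mem_ker, LinearMap.lsmul_apply] at key2
  have e := congrArg Subtype.val key2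
  change ϖ ^ C • L.mkQ z = 0 at e
  rw [← map_smul, Submodule.mkQ_apply, Submodule.Quotient.mk_eq_zero] at e
  exact e

/-- The set `{z | z ^ m * f ∈ S ⊓ B}` as an `A0`-submodule. -/
def LL (m : ℕ) (f : F) (S B : Subring F) (hAS : ∀ a : A0, algebraMap A0 F a ∈ S)
    (hAB : ∀ a : A0, algebraMap A0 F a ∈ B) (hm : m ≠ 0)
    (hadd : ∀ z w, z ^ m * f ∈ S → w ^ m * f ∈ S → (z + w) ^ m * f ∈ S) : Submodule A0 F where
  carrier := {z | z ^ m * f ∈ S ∧ z ∈ B}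
  zero_mem' := ⟨by rw [zero_pow hm, zero_mul]; exact S.zero_mem, B.zero_mem⟩
  add_mem' := fun {a b} ha hb => ⟨hadd a b ha.1 hb.1, B.add_mem ha.2 hb.2⟩
  smul_mem' := fun c z hz => by
    refine ⟨?_, ?_⟩
    · rw [Algebra.smul_def, mul_pow, mul_assoc]
      exact S.mul_mem (S.pow_mem (hAS c) _) hz.1
    · rw [Algebra.smul_def]
      exact B.mul_mem (hAB c) hz.2

/-- KEY LEMMA (final step). -/
theorem key_lemma (ϖ : A0) {m : ℕ} (hm : m ≠ 0) {c : A0} (hmc : (m : A0) * c = 1) {x f : F}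
    (B S₁ S₂ : Subring F)
    (hA1 : ∀ a : A0, algebraMap A0 F a ∈ S₁) (hA2 : ∀ a : A0, algebraMap A0 F a ∈ S₂)
    (hAB : ∀ a : A0, algebraMap A0 F a ∈ B)
    (hϖ0 : algebraMap A0 F ϖ ≠ 0)
    (hϖ1 : (algebraMap A0 F ϖ)⁻¹ ∈ S₁)
    (hx0 : x ≠ 0) (hx1 : x ∈ S₁) (hx2 : x⁻¹ ∈ S₂) (hxB : x ∈ B) (hxB' : x⁻¹ ∈ B)
    (h12 : ∀ z ∈ S₁, ∃ e : ℕ, x⁻¹ ^ e * z ∈ S₂) (h21 : ∀ z ∈ S₂, ∃ e : ℕ, x ^ e * z ∈ S₁)
    (hconst : ∀ z, z ∈ S₁ → z ∈ S₂ → z ∈ B → ∃ a : A0, algebraMap A0 F a = z)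
    {ι : Type*} [Nonempty ι] {κ : ι → Type*} [∀ i, Field (κ i)] (ρ : ∀ i, B →+* κ i)
    (hunit : ∀ b : B, (∀ i, ρ i b ≠ 0) → (b : F)⁻¹ ∈ B)
    (hrad : ∀ b : B, (∀ i, ρ i b = 0) → ∃ (e : ℕ) (b' : B), (b : F) ^ e = algebraMap A0 F ϖ * b')
    (hρϖ : ∀ i, ρ i ⟨algebraMap A0 F ϖ, hAB ϖ⟩ = 0)
    (hf0 : f ≠ 0) (hfB : f ∈ B) (hfB' : f⁻¹ ∈ B)
    (hadd1 : ∀ z w, z ^ m * f ∈ S₁ → w ^ m * f ∈ S₁ → (z + w) ^ m * f ∈ S₁)
    (hadd2 : ∀ z w, z ^ m * f ∈ S₂ → w ^ m * f ∈ S₂ → (z + w) ^ m * f ∈ S₂)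
    (hroot : ∀ z : F, z ^ m ∈ S₁ → z ∈ S₁)
    (hfrac : ∃ b : F, b ≠ 0 ∧ b ∈ S₁ ∧ b ∈ B ∧ f * b ∈ S₁)
    (hfin : ∃ s : Finset F, ∀ z ∈ S₁, z ∈ B →
      z ∈ Submodule.span (Algebra.adjoin A0 {x}) (s : Set F))
    {y₁ y₂ : F} (hy₁ : y₁ ^ m * f ∈ S₁) (hy₂ : y₂ ^ m * f ∈ S₂) (hy₁B : y₁ ∈ B) (hy₂B : y₂ ∈ B)
    (hρ₁ : ∀ i, ρ i ⟨y₁ ^ m * f, B.mul_mem (B.pow_mem hy₁B _) hfB⟩ = 1)
    (hρ₁₂ : ∀ i, ρ i ⟨y₁, hy₁B⟩ = ρ i ⟨y₂, hy₂B⟩) :
    ∃ (a : A0) (w : F), w ≠ 0 ∧ f = algebraMap A0 F a * w ^ m := by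
  classical
  have hmcF : (m : F) * algebraMap A0 F c = 1 := by
    rw [← map_natCast (algebraMap A0 F), ← map_mul, hmc, map_one]
  obtain ⟨m', rfl⟩ : ∃ m', m = m' + 1 := Nat.exists_eq_succ_of_ne_zero hm
  -- the submodules
  let L1 : Submodule A0 F := LL (m' + 1) f S₁ B hA1 hAB hm hadd1
  let L2 : Submodule A0 F := LL (m' + 1) f S₂ B hA2 hAB hm hadd2
  have memL1 : ∀ z, z ∈ L1 ↔ (z ^ (m' + 1) * f ∈ S₁ ∧ z ∈ B) := fun z => Iff.rfl
  have memL2 : ∀ z, z ∈ L2 ↔ (z ^ (m' + 1) * f ∈ S₂ ∧ z ∈ B) := fun z => Iff.rfl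
  have hxL1 : ∀ (k : ℕ), ∀ u ∈ L1, x ^ k * u ∈ L1 := by
    intro k u hu
    rw [memL1] at hu ⊢
    refine ⟨?_, B.mul_mem (B.pow_mem hxB _) hu.2⟩
    rw [mul_pow, mul_assoc]
    exact S₁.mul_mem (S₁.pow_mem (S₁.pow_mem hx1 _) _) hu.1
  have hxL2 : ∀ (k : ℕ), ∀ u ∈ L2, x⁻¹ ^ k * u ∈ L2 := by
    intro k u hu
    rw [memL2] at hu ⊢
    refine ⟨?_, B.mul_mem (B.pow_mem hxB' _) hu.2⟩
    rw [mul_pow, mul_assoc]
    exact S₂.mul_mem (S₂.pow_mem (S₂.pow_mem hx2 _) _) hu.1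
  have h12' : ∀ z ∈ L1, ∃ e : ℕ, x⁻¹ ^ e * z ∈ L2 := by
    intro z hz
    rw [memL1] at hz
    obtain ⟨e, he⟩ := h12 _ hz.1
    refine ⟨e, ?_⟩
    rw [memL2]
    refine ⟨?_, B.mul_mem (B.pow_mem hxB' _) hz.2⟩
    have : (x⁻¹ ^ e * z) ^ (m' + 1) * f =
        (x⁻¹ ^ e) ^ m' * (x⁻¹ ^ e * (z ^ (m' + 1) * f)) := by
      rw [mul_pow]; ring
    rw [this]
    exact S₂.mul_mem (S₂.pow_mem (S₂.pow_mem hx2 _) _) he
  have h21' : ∀ z ∈ L2, ∃ e : ℕ, x ^ e * z ∈ L1 := by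
    intro z hz
    rw [memL2] at hz
    obtain ⟨e, he⟩ := h21 _ hz.1
    refine ⟨e, ?_⟩
    rw [memL1]
    refine ⟨?_, B.mul_mem (B.pow_mem hxB _) hz.2⟩
    have : (x ^ e * z) ^ (m' + 1) * f =
        (x ^ e) ^ m' * (x ^ e * (z ^ (m' + 1) * f)) := by
      rw [mul_pow]; ring
    rw [this]
    exact S₁.mul_mem (S₁.pow_mem (S₁.pow_mem hx1 _) _) he
  let L12 : Submodule A0 F :=
    { carrier := {z | z ∈ B ∧ ∃ e : ℕ, x ^ e * z ∈ L1}
      zero_mem' := ⟨B.zero_mem, 0, by rw [mul_zero]; exact L1.zero_mem⟩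
      add_mem' := by
        rintro a b ⟨ha, e, he⟩ ⟨hb, e', he'⟩
        refine ⟨B.add_mem ha hb, e + e', ?_⟩
        have : x ^ (e + e') * (a + b) = x ^ e' * (x ^ e * a) + x ^ e * (x ^ e' * b) := by
          rw [pow_add]; ring
        rw [this]
        exact L1.add_mem (hxL1 _ _ he) (hxL1 _ _ he')
      smul_mem' := by
        rintro a z ⟨hz, e, he⟩
        refine ⟨by rw [Algebra.smul_def]; exact B.mul_mem (hAB a) hz, e, ?_⟩
        rw [mul_smul_comm]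
        exact L1.smul_mem a he }
  have memL12 : ∀ z, z ∈ L12 ↔ (z ∈ B ∧ ∃ e : ℕ, x ^ e * z ∈ L1) := fun z => Iff.rfl
  have hL1le : L1 ≤ L12 := fun z hz => ⟨((memL1 z).1 hz).2, 0, by rw [pow_zero, one_mul]; exact hz⟩
  have hL2le : L2 ≤ L12 := fun z hz => ⟨((memL2 z).1 hz).2, h21' z hz⟩
  -- finite generation
  obtain ⟨T, hTfg, hT⟩ : ∃ T : Submodule A0 F, T.FG ∧ L12 ≤ (L1 ⊔ L2) ⊔ T := by
    let P := Algebra.adjoin A0 ({x} : Set F)
    have hPle1 : ∀ p ∈ P, p ∈ S₁ := by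
      intro p hp
      have : P ≤ ({ S₁ with algebraMap_mem' := hA1 } : Subalgebra A0 F) :=
        Algebra.adjoin_le (by rintro y rfl; exact hx1)
      exact this hp
    have hPleB : ∀ p ∈ P, p ∈ B := by
      intro p hp
      have : P ≤ ({ B with algebraMap_mem' := hAB } : Subalgebra A0 F) :=
        Algebra.adjoin_le (by rintro y rfl; exact hxB)
      exact this hp
    have hPnoeth : IsNoetherianRing P := by
      have : Algebra.FiniteType A0 P := (Subalgebra.fg_iff_finiteType _).1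
        ⟨{x}, by rw [Finset.coe_singleton]⟩
      exact Algebra.FiniteType.isNoetherianRing A0 P
    let L1P : Submodule P F :=
      { carrier := {z | z ∈ L1}
        zero_mem' := L1.zero_mem
        add_mem' := fun {a b} ha hb => L1.add_mem ha hb
        smul_mem' := by
          rintro ⟨p, hp⟩ z hz
          change p * z ∈ L1
          have hz' := (memL1 z).1 hz
          rw [memL1]
          refine ⟨?_, B.mul_mem (hPleB p hp) hz'.2⟩
          rw [mul_pow, mul_assoc]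
          exact S₁.mul_mem (S₁.pow_mem (hPle1 p hp) _) hz'.1 }
    obtain ⟨s, hs⟩ := hfin
    obtain ⟨b, hb0, hb1, hbB, hfb⟩ := hfrac
    have hL1Pfg : L1P.FG := by
      have hinj : Function.Injective (LinearMap.mulLeft P (f * b)) := by
        intro u v huv
        simp only [LinearMap.mulLeft_apply] at huv
        exact mul_left_cancel₀ (mul_ne_zero hf0 hb0) huv
      apply Submodule.fg_of_fg_map_injective _ hinj
      have hN : IsNoetherian P (Submodule.span P (s : Set F)) :=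
        isNoetherian_of_fg_of_noetherian _ ⟨s, rfl⟩
      have hle : L1P.map (LinearMap.mulLeft P (f * b)) ≤ Submodule.span P (s : Set F) := by
        rintro _ ⟨z, hz, rfl⟩
        have hz' := (memL1 z).1 hz
        simp only [LinearMap.mulLeft_apply]
        apply hs
        · apply hroot
          have : (f * b * z) ^ (m' + 1) = (f * b) ^ m' * (b * (z ^ (m' + 1) * f)) := by
            rw [mul_pow]; ring
          rw [this]
          exact S₁.mul_mem (S₁.pow_mem hfb _) (S₁.mul_mem hb1 hz'.1)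
        · exact B.mul_mem (B.mul_mem hfB hbB) hz'.2
      have := isNoetherian_of_le hle
      exact IsNoetherian.noetherian _ |> fun h => (Submodule.fg_top _).1 h
    obtain ⟨g, hg⟩ := hL1Pfg
    have hgL1 : ∀ u ∈ g, u ∈ L1 := by
      intro u hu
      have : u ∈ L1P := by rw [← hg]; exact Submodule.subset_span hu
      exact this
    have hE : ∃ E : ℕ, ∀ u ∈ g, x⁻¹ ^ E * u ∈ L2 := by
      have h1 : ∀ u ∈ g, ∃ e : ℕ, x⁻¹ ^ e * u ∈ L2 := fun u hu => h12' u (hgL1 u hu)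
      choose! e he using h1
      refine ⟨g.sup e, fun u hu => ?_⟩
      obtain ⟨d, hd⟩ := Nat.exists_eq_add_of_le (Finset.le_sup (f := e) hu)
      rw [hd, pow_add, mul_comm (x⁻¹ ^ e u), mul_assoc]
      exact hxL2 _ _ (he u hu)
    obtain ⟨E, hE⟩ := hE
    let T : Submodule A0 F := Submodule.span A0
      (((g ×ˢ Finset.range E).image (fun p => x⁻¹ ^ p.2 * p.1) : Finset F) : Set F)
    refine ⟨T, ⟨_, rfl⟩, ?_⟩
    have hQ : ∀ z ∈ L1P, ∀ k : ℤ, x ^ k * z ∈ (L1 ⊔ L2) ⊔ T := by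
      intro z hz
      rw [← hg] at hz
      induction hz using Submodule.span_induction with
      | mem u hu =>
        intro k
        rcases le_or_gt 0 k with hk | hk
        · obtain ⟨n, rfl⟩ := Int.eq_ofNat_of_zero_le hk
          refine Submodule.mem_sup_left (Submodule.mem_sup_left ?_)
          rw [zpow_natCast]
          exact hxL1 n u (hgL1 u hu)
        · obtain ⟨n, hn⟩ := Int.eq_ofNat_of_zero_le (a := -k) (by omega)
          have hk' : k = -(n : ℤ) := by omega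
          rw [hk', zpow_neg, zpow_natCast, ← inv_pow]
          rcases lt_or_ge n E with hnE | hnE
          · refine Submodule.mem_sup_right (Submodule.subset_span ?_)
            rw [Finset.coe_image]
            exact ⟨(u, n), by simp [hu, hnE], rfl⟩
          · refine Submodule.mem_sup_left (Submodule.mem_sup_right ?_)
            obtain ⟨d, rfl⟩ := Nat.exists_eq_add_of_le hnE
            rw [pow_add, mul_comm (x⁻¹ ^ E), mul_assoc]
            exact hxL2 _ _ (hE u hu)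
      | zero => intro k; rw [mul_zero]; exact Submodule.zero_mem _
      | add u v _ _ hu hv =>
        intro k; rw [mul_add]; exact Submodule.add_mem _ (hu k) (hv k)
      | smul p u hu' hu =>
        clear hu'
        obtain ⟨p, hp⟩ := p
        change ∀ k : ℤ, x ^ k * (p * u) ∈ _
        induction hp using Algebra.adjoin_induction generalizing u with
        | mem y hy =>
          obtain rfl : y = x := hy
          intro k
          rw [← mul_assoc, ← zpow_add_one₀ hx0]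
          exact hu (k + 1)
        | algebraMap r =>
          intro k
          have : x ^ k * (algebraMap A0 F r * u) = r • (x ^ k * u) := by
            rw [Algebra.smul_def]; ring
          rw [this]
          exact Submodule.smul_mem _ _ (hu k)
        | add p q _ _ hp hq =>
          intro k
          have : x ^ k * ((p + q) * u) = x ^ k * (p * u) + x ^ k * (q * u) := by ring
          rw [this]
          exact Submodule.add_mem _ (hp u hu k) (hq u hu k)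
        | mul p q _ _ hp hq =>
          intro k
          rw [mul_assoc]
          exact hp (q * u) (hq u hu) k
    rintro z ⟨hzB, e, he⟩
    have := hQ _ he (-(e : ℤ))
    rwa [zpow_neg, zpow_natCast, inv_mul_cancel_left₀ (pow_ne_zero _ hx0)] at this
  obtain ⟨C, hC⟩ := bounded_torsion ϖ (L1 ⊔ L2) L12 T hTfg hT
  -- Newton
  have hρm : ∀ i, ((m' + 1 : ℕ) : κ i) ≠ 0 := by
    intro i h0
    have h1 : (((m' + 1 : ℕ) : B)) * ⟨algebraMap A0 F c, hAB c⟩ = 1 := by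
      apply Subtype.ext
      push_cast
      push_cast at hmcF
      exact hmcF
    have h2 := congrArg (ρ i) h1
    rw [map_mul, map_natCast, h0, zero_mul, map_one] at h2
    exact zero_ne_one h2
  have newton : ∀ (S : Subring F) (hAS : ∀ a : A0, algebraMap A0 F a ∈ S) (y : F) (hyB : y ∈ B),
      y ^ (m' + 1) * f ∈ S →
      (∀ i, ρ i ⟨y ^ (m' + 1) * f, B.mul_mem (B.pow_mem hyB _) hfB⟩ = 1) →
      ∀ N : ℕ, ∃ y' : F, ∃ hy'B : y' ∈ B, y' ^ (m' + 1) * f ∈ S ∧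
        (∃ b ∈ B, 1 - y' ^ (m' + 1) * f = algebraMap A0 F ϖ ^ N * b) ∧
        ∀ i, ρ i ⟨y', hy'B⟩ = ρ i ⟨y, hyB⟩ := by
    intro S hAS y hyB hyS hyρ N
    have hR : y ^ (m' + 1) * f ∈ S ⊓ B := ⟨hyS, B.mul_mem (B.pow_mem hyB _) hfB⟩
    have hcR : algebraMap A0 F c ∈ S ⊓ B := ⟨hAS c, hAB c⟩
    have hηB : 1 - y ^ (m' + 1) * f ∈ B := B.sub_mem B.one_mem hR.2
    have hηρ : ∀ i, ρ i ⟨_, hηB⟩ = 0 := by
      intro i
      have : (⟨_, hηB⟩ : B) = 1 - ⟨y ^ (m' + 1) * f, B.mul_mem (B.pow_mem hyB _) hfB⟩ := rfl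
      rw [this, map_sub, map_one, hyρ i, sub_self]
    obtain ⟨e, b', hb'⟩ := hrad ⟨_, hηB⟩ hηρ
    obtain ⟨y', h1, ⟨Q, hQ, h2⟩, t, ht, h3⟩ := newton_iterate (S ⊓ B) (m' + 1) hcR hmcF hR (e * N)
    have hy'B : y' ∈ B := by
      rw [h3]
      exact B.mul_mem hyB (B.add_mem B.one_mem (B.mul_mem hηB ht.2))
    refine ⟨y', hy'B, h1.1, ?_, ?_⟩
    · obtain ⟨d, hd⟩ := Nat.exists_eq_add_of_le (Nat.lt_two_pow_self (n := e * N)).le
      refine ⟨(b' : F) ^ N * (1 - y ^ (m' + 1) * f) ^ d * Q,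
        B.mul_mem (B.mul_mem (B.pow_mem b'.2 _) (B.pow_mem hηB _)) hQ.2, ?_⟩
      rw [h2, hd, pow_add, pow_mul]
      simp only at hb'
      rw [hb', mul_pow]
      ring
    · intro i
      have : (⟨y', hy'B⟩ : B) = ⟨y, hyB⟩ * (1 + ⟨_, hηB⟩ * ⟨t, ht.2⟩) := Subtype.ext h3
      rw [this, map_mul, map_add, map_mul, hηρ i, zero_mul, add_zero, map_one, mul_one]
  obtain ⟨z₁, hz₁B, hz₁S, ⟨b₁, hb₁B, hb₁⟩, hz₁ρ⟩ := newton S₁ hA1 y₁ hy₁B hy₁ hρ₁ (C + 1)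
  have hρ₂ : ∀ i, ρ i ⟨y₂ ^ (m' + 1) * f, B.mul_mem (B.pow_mem hy₂B _) hfB⟩ = 1 := by
    intro i
    have e1 : (⟨y₂ ^ (m' + 1) * f, B.mul_mem (B.pow_mem hy₂B _) hfB⟩ : B) =
      ⟨y₂, hy₂B⟩ ^ (m' + 1) * ⟨f, hfB⟩ := rfl
    have e2 : (⟨y₁ ^ (m' + 1) * f, B.mul_mem (B.pow_mem hy₁B _) hfB⟩ : B) =
      ⟨y₁, hy₁B⟩ ^ (m' + 1) * ⟨f, hfB⟩ := rfl
    rw [← hρ₁ i, e1, e2, map_mul, map_mul, map_pow, map_pow, hρ₁₂ i]
  obtain ⟨z₂, hz₂B, hz₂S, ⟨b₂, hb₂B, hb₂⟩, hz₂ρ⟩ := newton S₂ hA2 y₂ hy₂B hy₂ hρ₂ (C + 1)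
  have hz₁₂ : ∀ i, ρ i ⟨z₁, hz₁B⟩ = ρ i ⟨z₂, hz₂B⟩ := fun i => by
    rw [hz₁ρ, hz₂ρ, hρ₁₂]
  have hz₁0 : ∀ i, ρ i ⟨z₁, hz₁B⟩ ≠ 0 := by
    intro i h0
    rw [hz₁ρ] at h0
    have e2 : (⟨y₁ ^ (m' + 1) * f, B.mul_mem (B.pow_mem hy₁B _) hfB⟩ : B) =
      ⟨y₁, hy₁B⟩ ^ (m' + 1) * ⟨f, hfB⟩ := rfl
    have e3 := hρ₁ i
    rw [e2, map_mul, map_pow, h0, zero_pow hm, zero_mul] at e3
    exact zero_ne_one e3
  -- the difference
  obtain ⟨z, hzB, hz⟩ : ∃ z ∈ B, z₁ - z₂ = algebraMap A0 F ϖ ^ (C + 1) * z := by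
    let U : B := ∑ i ∈ Finset.range (m' + 1), (⟨z₁, hz₁B⟩ : B) ^ i * ⟨z₂, hz₂B⟩ ^ (m' + 1 - 1 - i)
    have hUρ : ∀ i, ρ i U ≠ 0 := by
      intro i
      have : ρ i U = ((m' + 1 : ℕ) : κ i) * ρ i ⟨z₁, hz₁B⟩ ^ m' := by
        simp only [U, map_sum, map_mul, map_pow]
        rw [← hz₁₂ i]
        rw [Finset.sum_congr rfl (g := fun _ => ρ i ⟨z₁, hz₁B⟩ ^ m')]
        · rw [Finset.sum_const, Finset.card_range, nsmul_eq_mul]
        · intro j hj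
          rw [← pow_add]
          congr 1
          have := Finset.mem_range.1 hj
          omega
      rw [this]
      exact mul_ne_zero (hρm i) (pow_ne_zero _ (hz₁0 i))
    have hUB : (U : F)⁻¹ ∈ B := hunit U hUρ
    have hU0 : (U : F) ≠ 0 := by
      intro h0
      have : U = 0 := Subtype.ext h0
      obtain ⟨i⟩ := (inferInstance : Nonempty ι)
      exact hUρ i (by rw [this, map_zero])
    have hgeom : (U : F) * (z₁ - z₂) = z₁ ^ (m' + 1) - z₂ ^ (m' + 1) := by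
      have h1 : U * ((⟨z₁, hz₁B⟩ : B) - ⟨z₂, hz₂B⟩) =
          (⟨z₁, hz₁B⟩ : B) ^ (m' + 1) - ⟨z₂, hz₂B⟩ ^ (m' + 1) :=
        (Commute.all _ _).geom_sum₂_mul (m' + 1)
      have h2 := congrArg Subtype.val h1
      push_cast at h2
      exact h2
    have hdiff : (z₁ ^ (m' + 1) - z₂ ^ (m' + 1)) * f = algebraMap A0 F ϖ ^ (C + 1) * (b₂ - b₁) := by
      linear_combination hb₂ - hb₁
    refine ⟨(U : F)⁻¹ * f⁻¹ * (b₂ - b₁), B.mul_mem (B.mul_mem hUB hfB') (B.sub_mem hb₂B hb₁B), ?_⟩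
    have h3 : (z₁ - z₂) = (U : F)⁻¹ * f⁻¹ * ((U : F) * (z₁ - z₂) * f) := by
      field_simp
    rw [h3, hgeom, hdiff]
    ring
  have hz₁L : z₁ ∈ L1 := ⟨hz₁S, hz₁B⟩
  have hz₂L : z₂ ∈ L2 := ⟨hz₂S, hz₂B⟩
  have hϖpow : ∀ n : ℕ, (algebraMap A0 F ϖ)⁻¹ ^ n ∈ S₁ := fun n => S₁.pow_mem hϖ1 n
  have hzL12 : z ∈ L12 := by
    obtain ⟨-, e, he⟩ := L12.sub_mem (hL1le hz₁L) (hL2le hz₂L)
    refine ⟨hzB, e, ?_⟩
    rw [hz] at he
    have he' := ((memL1 _).1 he).1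
    rw [memL1]
    refine ⟨?_, B.mul_mem (B.pow_mem hxB _) hzB⟩
    have : (x ^ e * z) ^ (m' + 1) * f = ((algebraMap A0 F ϖ)⁻¹ ^ (C + 1)) ^ (m' + 1) *
        ((x ^ e * (algebraMap A0 F ϖ ^ (C + 1) * z)) ^ (m' + 1) * f) := by
      have h4 : (algebraMap A0 F ϖ)⁻¹ ^ (C + 1) * algebraMap A0 F ϖ ^ (C + 1) = 1 := by
        rw [← mul_pow, inv_mul_cancel₀ hϖ0, one_pow]
      calc (x ^ e * z) ^ (m' + 1) * f
          = ((algebraMap A0 F ϖ)⁻¹ ^ (C + 1) * algebraMap A0 F ϖ ^ (C + 1)) ^ (m' + 1) *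
            ((x ^ e * z) ^ (m' + 1) * f) := by rw [h4, one_pow, one_mul]
        _ = _ := by simp only [mul_pow]; ring
    rw [this]
    exact S₁.mul_mem (S₁.pow_mem (hϖpow _) _) he'
  have hmem : ϖ ^ C • z ∈ L1 ⊔ L2 := by
    apply hC (C + 1) z hzL12
    rw [Algebra.smul_def, map_pow, ← hz]
    exact Submodule.sub_mem _ (Submodule.mem_sup_left hz₁L) (Submodule.mem_sup_right hz₂L)
  obtain ⟨l₁, hl₁, l₂, hl₂, hl⟩ := Submodule.mem_sup.1 hmem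
  have hl' : z₁ - z₂ = algebraMap A0 F ϖ * (l₁ + l₂) := by
    rw [hl, Algebra.smul_def, map_pow, hz, pow_succ]; ring
  -- the common element
  let y : F := z₁ - algebraMap A0 F ϖ * l₁
  have hy1 : y ∈ L1 := by
    have : y = z₁ - ϖ • l₁ := by rw [Algebra.smul_def]
    rw [this]
    exact L1.sub_mem hz₁L (L1.smul_mem _ hl₁)
  have hy2 : y ∈ L2 := by
    have : y = z₂ + ϖ • l₂ := by
      rw [Algebra.smul_def]
      change z₁ - algebraMap A0 F ϖ * l₁ = _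
      linear_combination hl'
    rw [this]
    exact L2.add_mem hz₂L (L2.smul_mem _ hl₂)
  have hy0 : y ≠ 0 := by
    intro h0
    obtain ⟨i⟩ := (inferInstance : Nonempty ι)
    have e1 : (⟨y, hy1.2⟩ : B) = ⟨z₁, hz₁B⟩ - ⟨algebraMap A0 F ϖ, hAB ϖ⟩ * ⟨l₁, hl₁.2⟩ := rfl
    have e2 := congrArg (ρ i) e1
    have e3 : (⟨y, hy1.2⟩ : B) = 0 := Subtype.ext h0
    rw [e3, map_zero, map_sub, map_mul, hρϖ i, zero_mul, sub_zero] at e2
    exact hz₁0 i e2.symm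
  obtain ⟨a, ha⟩ := hconst (y ^ (m' + 1) * f) hy1.1 hy2.1 (B.mul_mem (B.pow_mem hy1.2 _) hfB)
  refine ⟨a, y⁻¹, inv_ne_zero hy0, ?_⟩
  rw [ha, inv_pow]
  have := pow_ne_zero (m' + 1) hy0
  field_simp

end Fermat.Agent.H23.R
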