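import Fermat.Agent.Descent.FG
import Fermat.Agent.H23.R.ResK0
import Fermat.Agent.RV.ChartInt
import Fermat.Agent.H28.ModCharts
import Fermat.Agent.Q.Galois

/-!
# PROGRAM R (S36), (P7): lifting of functions on the special fibre to the inertia field
-/

set_option autoImplicit false
set_option maxSynthPendingDepth 3

noncomputable section

attribute [-instance] HahnSeries.instModule HahnSeries.instSMul HahnSeries.instDistribMulAction
  HahnSeries.instSMulZeroClass

namespace Fermat.Agent.H23.R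

open ModularCurve ModularCurve.IgusaScheme Polynomial Fermat.Agent.H26 Fermat.Agent.H26.RV
open Fermat.Agent.Igusa (Rl CL)
open Fermat.Agent.H28 (IntOver evA modRed jBar jZ jinvZ RedData)
open Fermat.Agent.Q (Red)

local notation "Qb" => AlgebraicClosure ℚ
local notation "kk" => IsLocalRing.ResidueField

instance (priority := high) instAlgFullC (K : Type*) [Field K] (N : ℕ) :
    Algebra K (modularFunctionFieldFullC K N) := inferInstance

/-- `F_N → K F_N`. -/
def iotaK (K : Type*) [Field K] [Algebra ℚ K] (N : ℕ) :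
    ↥(modularFunctionFieldFull N) →+* laurentBaseChange K (modularFunctionFieldFull N) where
  toFun x := ⟨coeffEmb K x, coeffEmb_mem_laurentBaseChange _ x.2⟩
  map_one' := Subtype.ext (map_one _)
  map_mul' _ _ := Subtype.ext (map_mul _ _ _)
  map_zero' := Subtype.ext (map_zero _)
  map_add' _ _ := Subtype.ext (map_add _ _ _)

theorem coe_iotaK (K : Type*) [Field K] [Algebra ℚ K] (N : ℕ)
    (x : ↥(modularFunctionFieldFull N)) :
    ((iotaK K N x : laurentBaseChange K (modularFunctionFieldFull N)) : LaurentSeries K) =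
      coeffEmb K x := rfl

variable {A : ValuationSubring Qb} {q : ℕ} [hq : Fact q.Prime] {N : ℕ} [NeZero N]

theorem iotaK_adjoin (hA : A.LiesOverPrime q) {x₀ y : ↥(modularFunctionFieldFull N)}
    (hy : y ∈ Algebra.adjoin (Rl q) {x₀}) :
    iotaK (K0 A) N y ∈ Algebra.adjoin (A0 A) {iotaK (K0 A) N x₀} := by
  induction hy using Algebra.adjoin_induction with
  | mem z hz => rw [Set.mem_singleton_iff] at hz; rw [hz]; exact Algebra.subset_adjoin rfl
  | algebraMap c =>
    have hc : algebraMap ℚ (K0 A) c ∈ A0 A := by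
      rw [mem_A0]
      have h1 := algebraMap_Rl_mem A hA c
      have h2 : ((algebraMap ℚ (K0 A) c : K0 A) : Qb) = algebraMap ℚ Qb c :=
        (IsScalarTower.algebraMap_apply ℚ (K0 A) Qb c).symm
      rw [h2]; exact h1
    have h3 : iotaK (K0 A) N (algebraMap (Rl q) ↥(modularFunctionFieldFull N) c) =
        algebraMap (A0 A) _ ⟨_, hc⟩ := by
      apply Subtype.ext
      rw [coe_iotaK]
      have h4 : ((algebraMap (Rl q) ↥(modularFunctionFieldFull N) c :
          ↥(modularFunctionFieldFull N)) : LaurentSeries ℚ) =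
          algebraMap ℚ (LaurentSeries ℚ) c := by
        rw [algebraMap_laurentSeries_eq_single]
        exact Igusa.coe_algebraMap_Rl (N := N) c
      rw [h4]
      exact coeffMap_algebraMap' _ _
    rw [h3]
    exact Subalgebra.algebraMap_mem _ _
  | add y z _ _ hy hz => rw [map_add]; exact add_mem hy hz
  | mul y z _ _ hy hz => rw [map_mul]; exact mul_mem hy hz

theorem iotaK_mem_intSub (hA : A.LiesOverPrime q) {x₀ w : ↥(modularFunctionFieldFull N)}
    (hw : w ∈ chartAlg N q {x₀}) :
    iotaK (K0 A) N w ∈ intSub (A0 A) (iotaK (K0 A) N x₀) := by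
  rw [mem_chartAlg_iff] at hw
  rw [mem_intSub]
  let φ : Algebra.adjoin (Rl q) {x₀} →+* Algebra.adjoin (A0 A) {iotaK (K0 A) N x₀} :=
    ((iotaK (K0 A) N).comp (algebraMap (Algebra.adjoin (Rl q) {x₀}) _)).codRestrict _
      (fun y => iotaK_adjoin hA y.2)
  exact IsIntegral.map_of_comp_eq φ (iotaK (K0 A) N) (by ext; rfl) hw

/-- Every function integral over `A[j^{±1}]` is congruent to one over the inertia field. -/
theorem exists_congr_K0 (hA : A.LiesOverPrime q) (hN : ¬ q ∣ N)
    {x₀ : ↥(modularFunctionFieldFull N)} (hx₀ : x₀ = jFull N ∨ x₀ = (jFull N)⁻¹)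
    {x : modularFunctionFieldBar N} (hx : IntOver A (iotaBar N x₀) x) :
    ∃ z : laurentBaseChange (K0 A) (modularFunctionFieldFull N),
      z ∈ intSub (A0 A) (iotaK (K0 A) N x₀) ∧
      Red A (cEmb (K0 A) Qb z - (x : LaurentSeries Qb)) 0 := by
  obtain ⟨d, a, o, ho, hxo⟩ := exists_chart_expansion A hA hN hx₀ hx
  choose c hc using fun j => exists_A0_residue hq.out hA (a j)
  refine ⟨∑ j, algebraMap (K0 A) _ (c j : K0 A) * iotaK (K0 A) N (o j), ?_, ?_⟩
  · refine Subring.sum_mem _ fun j _ => Subring.mul_mem _ ?_ (iotaK_mem_intSub hA (ho j))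
    exact algebraMap_mem_intSub (R := A0 A) (c j)
  · have hS : ({x₀} : Set ↥(modularFunctionFieldFull N)) ⊆ {jFull N, (jFull N)⁻¹} := by
      rcases hx₀ with rfl | rfl <;> simp
    have h1 : cEmb (K0 A) Qb ((∑ j, algebraMap (K0 A) _ (c j : K0 A) * iotaK (K0 A) N (o j) :
        laurentBaseChange (K0 A) (modularFunctionFieldFull N)) : LaurentSeries (K0 A)) -
        (x : LaurentSeries Qb) = ∑ j, HahnSeries.C (((c j : K0 A) : Qb) - a j) *
          coeffEmb Qb (o j : LaurentSeries ℚ) := by
      rw [hxo, AddSubmonoidClass.coe_finsetSum, AddSubmonoidClass.coe_finsetSum, map_sum,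
        ← Finset.sum_sub_distrib]
      refine Finset.sum_congr rfl fun j _ => ?_
      have h2 : cEmb (K0 A) Qb (((algebraMap (K0 A)
          (laurentBaseChange (K0 A) (modularFunctionFieldFull N)) (c j : K0 A) *
          iotaK (K0 A) N (o j) : laurentBaseChange (K0 A) (modularFunctionFieldFull N))) :
          LaurentSeries (K0 A)) =
          HahnSeries.C ((c j : K0 A) : Qb) * coeffEmb Qb (o j : LaurentSeries ℚ) := by
        change cEmb (K0 A) Qb (algebraMap (K0 A) (LaurentSeries (K0 A)) (c j : K0 A) *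
          coeffEmb (K0 A) (o j : LaurentSeries ℚ)) = _
        rw [map_mul, coeffMap_algebraMap', algebraMap_laurentSeries_eq_single]
        congr 1
      rw [h2]
      have h3 : ((algebraMap Qb (modularFunctionFieldBar N) (a j : Qb) * iotaBar N (o j) :
          modularFunctionFieldBar N) : LaurentSeries Qb) =
          HahnSeries.C (a j : Qb) * coeffEmb Qb (o j : LaurentSeries ℚ) := by
        change algebraMap Qb (LaurentSeries Qb) (a j : Qb) * _ = _
        rw [algebraMap_laurentSeries_eq_single]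
        rfl
      rw [h3, ← sub_mul, ← map_sub]
    rw [h1]
    have h4 : Red A (∑ j, HahnSeries.C (((c j : K0 A) : Qb) - a j) *
          coeffEmb Qb (o j : LaurentSeries ℚ)) (∑ _j : Fin d, 0) := by
      refine Red.sum _ fun j _ => ?_
      have hmem : coeffEmb Qb (o j : LaurentSeries ℚ) ∈ Q.intL A := by
        rw [Q.mem_intL]
        intro n
        rw [coeffEmb_coeff]
        have hC : (o j : LaurentSeries ℚ) ∈ CL q := Igusa.chartAlg_le_CL hS (ho j)
        exact algebraMap_Rl_mem A hA ⟨_, hC n⟩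
      have h5 := Red.of_intL (A := A) ⟨_, hmem⟩
      have hcA : ((c j : K0 A) : Qb) - a j ∈ A := A.toSubring.sub_mem (c j).2 (a j).2
      have h6 := (Red.C hcA).mul h5
      have h7 : IsLocalRing.residue A ⟨((c j : K0 A) : Qb) - a j, hcA⟩ = 0 := by
        rw [IsLocalRing.residue_eq_zero_iff]
        have h8 := (IsLocalRing.maximalIdeal A).neg_mem (hc j)
        have h9 : -(a j - ⟨((c j : K0 A) : Qb), (c j).2⟩ : A) =
            ⟨((c j : K0 A) : Qb) - a j, hcA⟩ := by
          apply Subtype.ext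
          change -((a j : Qb) - ((c j : K0 A) : Qb)) = ((c j : K0 A) : Qb) - a j
          ring
        rwa [h9] at h8
      rw [h7, map_zero, zero_mul] at h6
      exact h6
    rwa [Finset.sum_const_zero] at h4

omit [NeZero N] in
theorem red_of_mem {x : modularFunctionFieldBar N} (hx : x ∈ (modRed N A).Z) :
    Red A (x : LaurentSeries Qb) (((modRed N A).ρ ⟨x, hx⟩ : modularFunctionFieldFullC (kk A) N) :
      LaurentSeries (kk A)) := by
  obtain ⟨y, hy, hy2⟩ := H28.mem_laurentRed.1 hx
  rw [H28.laurentRed_ρ ⟨x, hx⟩ hy]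
  have hmem : (x : LaurentSeries Qb) ∈ Q.intL A := by
    rw [Q.mem_intL]
    intro n
    rw [← hy, coeffMap_coeff]
    exact (y.coeff n).2
  have h1 := Red.of_intL (A := A) ⟨_, hmem⟩
  convert h1 using 1
  ext n
  rw [coeffMap_coeff, Q.redL_coeff]
  congr 1
  apply Subtype.ext
  change ((y.coeff n : A) : Qb) = (x : LaurentSeries Qb).coeff n
  rw [← hy, coeffMap_coeff]
  rfl

/-- **(P7)**, chart `j`. -/
theorem exists_lift_j (hA : A.LiesOverPrime q) (hN : ¬ q ∣ N)
    (h : (modRed N A).IsChart (jZ N A)) {u : modularFunctionFieldFullC (kk A) N}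
    (hu : IsIntegral (Algebra.adjoin (kk A) {(modRed N A).ρ (jZ N A)}) u) :
    ∃ z : laurentBaseChange (K0 A) (modularFunctionFieldFull N),
      z ∈ intSub (A0 A) (iotaK (K0 A) N (jFull N)) ∧
      Red A (cEmb (K0 A) Qb z) (u : LaurentSeries (kk A)) := by
  obtain ⟨x, hx, hxu⟩ := h.red_surj u hu
  obtain ⟨z, hz, hzx⟩ := exists_congr_K0 hA hN (x₀ := jFull N) (Or.inl rfl) (x := x) (by
    rw [iotaBar_jFull]; exact hx)
  refine ⟨z, hz, ?_⟩
  have h1 := hzx.add (red_of_mem (h.mem x hx))
  rwa [sub_add_cancel, zero_add, hxu] at h1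

/-- **(P7)**, chart `1/j`. -/
theorem exists_lift_jinv (hA : A.LiesOverPrime q) (hN : ¬ q ∣ N)
    (h : (modRed N A).IsChart (jinvZ N A)) {u : modularFunctionFieldFullC (kk A) N}
    (hu : IsIntegral (Algebra.adjoin (kk A) {(modRed N A).ρ (jinvZ N A)}) u) :
    ∃ z : laurentBaseChange (K0 A) (modularFunctionFieldFull N),
      z ∈ intSub (A0 A) (iotaK (K0 A) N (jFull N)⁻¹) ∧
      Red A (cEmb (K0 A) Qb z) (u : LaurentSeries (kk A)) := by
  obtain ⟨x, hx, hxu⟩ := h.red_surj u hu
  obtain ⟨z, hz, hzx⟩ := exists_congr_K0 hA hN (x₀ := (jFull N)⁻¹) (Or.inr rfl) (x := x) (by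
    rw [iotaBar_jFull_inv]; exact hx)
  refine ⟨z, hz, ?_⟩
  have h1 := hzx.add (red_of_mem (h.mem x hx))
  rwa [sub_add_cancel, zero_add, hxu] at h1

end Fermat.Agent.H23.R
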