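import Fermat.Agent.H23.R.Lifts
import Fermat.Agent.H28.ModCharts

/-!
# PROGRAM R (S36): the reduction homomorphisms onto Dedekind domains
-/

set_option autoImplicit false
set_option maxSynthPendingDepth 3
set_option linter.unusedSectionVars false

noncomputable section

attribute [-instance] HahnSeries.instModule HahnSeries.instSMul HahnSeries.instDistribMulAction
  HahnSeries.instSMulZeroClass

namespace Fermat.Agent.H23.R

open ModularCurve ModularCurve.IgusaScheme Polynomial AlgebraicCurve Fermat.Agent.H26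
  Fermat.Agent.H26.RV
open Fermat.Agent.H28 (modRed jZ jinvZ CR)
open Fermat.Agent.Q (Red)

local notation "Qb" => AlgebraicClosure ℚ
local notation "kk" => IsLocalRing.ResidueField

section Hom

variable {F Λ : Type*} [Field F] [Field Λ] {V : ValuationSubring F} {Rd : F → Λ → Prop}

/-- The reduction homomorphism. -/
def RedRel.hom (h : RedRel V Rd) (R : Subring F) (hR : ∀ z ∈ R, z ∈ V) : R →+* Λ where
  toFun z := ((h.mem_iff z).1 (hR z z.2)).choose
  map_one' := h.uniq ((h.mem_iff _).1 (hR _ (1 : R).2)).choose_spec h.one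
  map_mul' a b := h.uniq ((h.mem_iff _).1 (hR _ (a * b).2)).choose_spec
    (h.mul ((h.mem_iff _).1 (hR _ a.2)).choose_spec ((h.mem_iff _).1 (hR _ b.2)).choose_spec)
  map_zero' := h.uniq ((h.mem_iff _).1 (hR _ (0 : R).2)).choose_spec h.zero
  map_add' a b := h.uniq ((h.mem_iff _).1 (hR _ (a + b).2)).choose_spec
    (h.add ((h.mem_iff _).1 (hR _ a.2)).choose_spec ((h.mem_iff _).1 (hR _ b.2)).choose_spec)

theorem RedRel.hom_spec (h : RedRel V Rd) (R : Subring F) (hR : ∀ z ∈ R, z ∈ V) (z : R) :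
    Rd z (h.hom R hR z) := ((h.mem_iff z).1 (hR z z.2)).choose_spec

end Hom

section Rho

variable {k Λ : Type*} [Field k] [Field Λ] [Algebra k Λ] (L : IntermediateField k Λ)
  {F : Type*} [Field F] {V : ValuationSubring F} {Rd : F → Λ → Prop}

/-- The reduction homomorphism onto the ring of integral functions. -/
theorem exists_rho (h : RedRel V Rd) {R : Subring F} (hR : ∀ z ∈ R, z ∈ V) (xb : L)
    (hint : ∀ z ∈ R, ∀ u, Rd z u → u ∈ L ∧ IntRel k (xb : Λ) u)
    (hsurj : ∀ u ∈ L, IntRel k (xb : Λ) u → ∃ z ∈ R, Rd z u) :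
    ∃ ρ : R →+* CR k xb, Function.Surjective ρ ∧ ∀ a, ρ a = 0 ↔ rv V a = 0 := by
  have hmem : ∀ z : R, h.hom R hR z ∈ L := fun z => (hint z z.2 _ (h.hom_spec R hR z)).1
  have hI : ∀ z : R, IsIntegral (Algebra.adjoin k {xb}) (⟨h.hom R hR z, hmem z⟩ : L) := by
    intro z
    rw [← intRel_iff]
    exact IntRel.of_hom L.val.toRingHom (fun c => rfl) (hint z z.2 _ (h.hom_spec R hR z)).2
  let ρ : R →+* CR k xb :=
    { toFun := fun z => ⟨⟨h.hom R hR z, hmem z⟩, hI z⟩
      map_one' := Subtype.ext (Subtype.ext (map_one _))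
      map_mul' := fun a b => Subtype.ext (Subtype.ext (map_mul _ _ _))
      map_zero' := Subtype.ext (Subtype.ext (map_zero _))
      map_add' := fun a b => Subtype.ext (Subtype.ext (map_add _ _ _)) }
  refine ⟨ρ, ?_, ?_⟩
  · rintro ⟨⟨u, hu⟩, hui⟩
    have hui' : IsIntegral (Algebra.adjoin k {xb}) (⟨u, hu⟩ : L) := hui
    rw [← intRel_iff] at hui'
    have h1 : IntRel k (xb : Λ) u := by
      obtain ⟨P, hP, hPu⟩ := hui'
      refine ⟨P, hP, ?_⟩
      have h2 := congrArg L.val hPu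
      rw [map_zero] at h2
      have h3 := hom_eval₂ P (aeval xb : k[X] →ₐ[k] L).toRingHom L.val.toRingHom ⟨u, hu⟩
      have h4 : L.val.toRingHom.comp (aeval xb : k[X] →ₐ[k] L).toRingHom =
          (aeval (xb : Λ) : k[X] →ₐ[k] Λ).toRingHom := by
        apply Polynomial.ringHom_ext
        · intro c
          change ((aeval xb (C c) : L) : Λ) = aeval (xb : Λ) (C c)
          rw [aeval_C, aeval_C]
          rfl
        · change ((aeval xb (X : k[X]) : L) : Λ) = aeval (xb : Λ) (X : k[X])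
          rw [aeval_X, aeval_X]
      rw [h4] at h3
      exact h3.symm.trans h2
    obtain ⟨z, hz, hzu⟩ := hsurj u hu h1
    refine ⟨⟨z, hz⟩, Subtype.ext (Subtype.ext ?_)⟩
    exact h.uniq (h.hom_spec R hR ⟨z, hz⟩) hzu
  · intro a
    rw [h.rv_eq_zero_iff (h.hom_spec R hR a)]
    constructor
    · intro h0
      exact congrArg (fun y : CR k xb => ((y : L) : Λ)) h0
    · intro h0
      exact Subtype.ext (Subtype.ext h0)

end Rho

variable {q M : ℕ} [hq : Fact q.Prime] [NeZero M] (hqM : Nat.Coprime q M)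
  {A : ValuationSubring Qb} (hA : A.LiesOverPrime q)

include hA in
theorem dedekind_j (hG : GoodLvl q M) : IsDedekindDomain (CR (kk A) ((modRed M A).ρ (jZ M A))) :=
  (H28.modCharts M A (H29.isChart_j hq.out hA hG) (H29.isChart_jinv hq.out hA hG)).dedB₁

include hA in
theorem dedekind_jinv (hG : GoodLvl q M) :
    IsDedekindDomain (CR (kk A) ((modRed M A).ρ (jinvZ M A))) :=
  (H28.modCharts M A (H29.isChart_j hq.out hA hG) (H29.isChart_jinv hq.out hA hG)).dedB₂

/-- the reduction of the chart ring `A0[j]^~` onto a Dedekind domain -/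
theorem exists_rho_j (hG : GoodLvl q M)
    (hL : ∀ (i : Fin 3) (z : LF (K0 A) (M * q * q)) (u : LaurentSeries (kk A)),
      Red A (io hqM (K0 A) i z) u → u ∈ LK A M) {R : Subring (LF (K0 A) (M * q * q))}
    (hR : ∀ z, z ∈ R ↔ z ∈ intSub (A0 A) (jK (K0 A) (M * q * q)))
    (hRV : ∀ i, ∀ z ∈ R, z ∈ V hqM (K0 A) hA i) (i : Fin 3) :
    ∃ ρ : R →+* CR (kk A) ((modRed M A).ρ (jZ M A)), Function.Surjective ρ ∧
      ∀ a, ρ a = 0 ↔ rv (V hqM (K0 A) hA i) a = 0 := by
  have h2 : ((modRed M A).ρ (jZ M A) : LaurentSeries (kk A)) = jqModC (kk A) := H28.ρ_jZ M A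
  refine exists_rho (LK A M) (redV hqM hA i) (hRV i) _ ?_ ?_
  · intro z hz u hu
    rw [h2]
    exact ⟨hL i z u hu, intRel_io hqM hA i ((hR z).1 hz) hu⟩
  · intro u hu hui
    rw [h2] at hui
    obtain ⟨z, hz, hzu⟩ := exists_lift_io hqM hA hG i hu hui
    exact ⟨z, (hR z).2 hz, hzu⟩

end Fermat.Agent.H23.R
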