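import Fermat.Agent.H23.R.Cusp2
import Fermat.Agent.H23.R.RhoMk

/-!
# PROGRAM R (S36): the chart `1/j`
-/

set_option autoImplicit false
set_option maxSynthPendingDepth 3
set_option linter.unusedSectionVars false

noncomputable section

attribute [-instance] HahnSeries.instModule HahnSeries.instSMul HahnSeries.instDistribMulAction
  HahnSeries.instSMulZeroClass

namespace Fermat.Agent.H23.R

open ModularCurve ModularCurve.IgusaScheme Polynomial AlgebraicCurve Fermat.Agent.H26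
  Fermat.Agent.H26.RV IsLocalRing
open Fermat.Agent.H28 (modRed jZ jinvZ CR)
open Fermat.Agent.Q (Red)
open Fermat.Agent.Igusa (modPoly evZ modPoly_monic twist theta)

local notation "Qb" => AlgebraicClosure ℚ
local notation "kk" => IsLocalRing.ResidueField

section Gen

variable {F : Type*} [Field F]

theorem mem_of_ker_le {R : Subring F} {V : ValuationSubring F} (hRV : ∀ z ∈ R, z ∈ V)
    (s : Ideal R) [hs : s.IsPrime] (hker : ∀ a : R, rv V a = 0 → a ∈ s) :
    ∀ z ∈ locSub R s, z ∈ V := by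
  rintro z ⟨d, hd, hdz⟩
  have hd0 := ne_zero_of_notMem _ s hd
  have h1 : rv V d ≠ 0 := fun h => hd (hker d h)
  have h2 : z = (d : F)⁻¹ * (d * z) := by field_simp
  rw [h2]
  exact V.mul_mem _ _ (rv_ne_zero_iff.1 h1).2.2 (hRV _ hdz)

theorem ker_le_of_mem {R : Subring F} {V : ValuationSubring F} (hRV : ∀ z ∈ R, z ∈ V)
    (s : Ideal R) [hs : s.IsPrime] (h : ∀ z ∈ locSub R s, z ∈ V) :
    ∀ a : R, rv V a = 0 → a ∈ s := by
  intro a ha
  by_contra has
  have ha0 := ne_zero_of_notMem _ s has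
  exact (rv_ne_zero_iff.2 ⟨ha0, hRV _ a.2, h _ (inv_mem_locSub _ s has)⟩) ha

/-- approximation of local functions -/
theorem exists_of_local {R : Subring F} {V : ValuationSubring F} (hRV : ∀ z ∈ R, z ∈ V) {z : F}
    (hzV : z ∈ V) (hloc : ∀ (s : Ideal R) [s.IsPrime], s.IsMaximal →
      (∀ a : R, rv V a = 0 → a ∈ s) → z ∈ locSub R s) : ∃ z' ∈ R, rv V z' = rv V z := by
  classical
  let I : Ideal R :=
    { carrier := {c | (c : F) * z ∈ R}
      zero_mem' := by change (0 : F) * z ∈ R; rw [zero_mul]; exact R.zero_mem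
      add_mem' := fun {a b} ha hb => by
        change ((a : F) + b) * z ∈ R
        rw [add_mul]; exact R.add_mem ha hb
      smul_mem' := fun c a ha => by
        change ((c : F) * a) * z ∈ R
        rw [mul_assoc]; exact R.mul_mem c.2 ha }
  let K : Ideal R :=
    { carrier := {c | rv V c = 0}
      zero_mem' := rv_zero
      add_mem' := fun {a b} ha hb => by
        change rv V ((a : F) + b) = 0
        rw [rv_add (hRV _ a.2) (hRV _ b.2)]
        change rv V a = 0 at ha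
        change rv V b = 0 at hb
        rw [ha, hb, add_zero]
      smul_mem' := fun c a ha => by
        change rv V ((c : F) * a) = 0
        rw [rv_mul (hRV _ c.2) (hRV _ a.2)]
        change rv V a = 0 at ha
        rw [ha, mul_zero] }
  have htop : I ⊔ K = ⊤ := by
    by_contra hne
    obtain ⟨s, hs, hle⟩ := Ideal.exists_le_maximal _ hne
    have : s.IsPrime := hs.isPrime
    obtain ⟨d, hd, hdz⟩ := hloc s hs (fun a ha => hle (Ideal.mem_sup_right ha))
    exact hd (hle (Ideal.mem_sup_left hdz))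
  have h1 : (1 : R) ∈ I ⊔ K := by rw [htop]; trivial
  obtain ⟨c, hc, κ, hκ, hcκ⟩ := Submodule.mem_sup.1 h1
  refine ⟨(c : F) * z, hc, ?_⟩
  have h2 : (c : F) = 1 - κ := by
    have := congrArg Subtype.val hcκ
    change (c : F) + κ = 1 at this
    rw [← this]; ring
  have h3 : rv V (c : F) = 1 := by
    rw [h2, rv_sub V.one_mem (hRV _ κ.2), rv_one]
    change rv V κ = 0 at hκ
    rw [hκ, sub_zero]
  rw [rv_mul (hRV _ c.2) hzV, h3, one_mul]

theorem IsUnif.div_mem {V : ValuationSubring F} {ϖ : F} (h : IsUnif V ϖ) {z : F} (hz : z ∈ V)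
    (hz0 : rv V z = 0) : z * ϖ⁻¹ ∈ V := by
  by_cases h0 : z = 0
  · rw [h0, zero_mul]; exact V.zero_mem
  obtain ⟨n, hn⟩ := h.exists_zpow z h0
  have hn0 : n < 0 := by
    by_contra hcon
    push Not at hcon
    obtain ⟨m, rfl⟩ := Int.eq_ofNat_of_zero_le hcon
    apply hn
    change rv V (z * ϖ ^ (m : ℤ)) = 0
    rw [zpow_natCast, rv_mul hz (pow_mem h.mem m), hz0, zero_mul]
  obtain ⟨m, hm⟩ := Int.eq_ofNat_of_zero_le (show 0 ≤ -n - 1 by omega)
  have h1 : z * ϖ⁻¹ = (z * ϖ ^ n) * ϖ ^ m := by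
    have hz : n = -(m : ℤ) - 1 := by
      have : -n - 1 = (m : ℤ) := hm
      omega
    rw [hz, mul_assoc, ← zpow_natCast ϖ m, ← zpow_add₀ h.ne_zero]
    congr 1
    rw [show -(m : ℤ) - 1 + m = -1 by ring, zpow_neg_one]
  rw [h1]
  exact V.mul_mem _ _ (rv_ne_zero_iff.1 hn).2.1 (pow_mem h.mem m)

theorem inv_eq_mul_pow {x y : F} (hx : x ≠ 0) (hy : y ≠ 0) {n : ℕ} (hn : n ≠ 0) :
    y⁻¹ = x * y ^ (n - 1) * (x * y ^ n)⁻¹ := by
  obtain ⟨m, rfl⟩ := Nat.exists_eq_succ_of_ne_zero hn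
  rw [Nat.succ_eq_add_one, Nat.add_sub_cancel, pow_succ]
  have := pow_ne_zero m hy
  field_simp

/-- `R` is integrally closed in `F`. -/
def IntClosed (R : Subring F) : Prop := ∀ z : F, IsIntegral R z → z ∈ R

theorem intClosed_of_iff {B : Type*} [CommRing B] [Algebra B F] {x : F} {R : Subring F}
    (hR : ∀ z, z ∈ R ↔ z ∈ intSub B x) : IntClosed R := by
  have hRe : R = intSub B x := by ext z; exact hR z
  subst hRe
  exact fun z hz => intSub_closed hz

theorem IntClosed.locSub {R : Subring F} (h : IntClosed R) (s : Ideal R) [s.IsPrime] :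
    IntClosed (locSub R s) := locSub_closed h s

theorem IntClosed.intSub_mem {B : Type*} [CommRing B] [Algebra B F] {x : F} {O : Subring F}
    (h : IntClosed O) (hB : ∀ c : B, algebraMap B F c ∈ O) (hx : x ∈ O) {z : F}
    (hz : z ∈ intSub B x) : z ∈ O := intSub_le h hB hx hz

theorem ufd_congr {O O' : Subring F} (h : O = O') (hu : UniqueFactorizationMonoid O) :
    UniqueFactorizationMonoid O' := by
  subst h; exact hu

end Gen

variable {q M : ℕ} [hq : Fact q.Prime] [NeZero M] (hqM : Nat.Coprime q M)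
  {A : ValuationSubring Qb} (hA : A.LiesOverPrime q)

theorem algebraMap_q : algebraMap (A0 A) (LF (K0 A) (M * q * q)) (q : A0 A) =
    (q : LF (K0 A) (M * q * q)) := map_natCast _ _

/-- The valuations are vertical. -/
theorem vert_V : Vert (V hqM (K0 A) hA) (algebraMap (A0 A) (LF (K0 A) (M * q * q)) (q : A0 A)) where
  ne_zero := by
    rw [algebraMap_q]
    exact Nat.cast_ne_zero.2 hq.out.ne_zero
  mem i := by
    rw [algebraMap_q]
    exact natCast_mem _ q
  res i := by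
    rw [algebraMap_q]
    exact rv_q_V hqM hA i
  rk i z hz hz0 := by
    obtain ⟨k, hk⟩ := archV hqM hA i (algebraMap (A0 A) (LF (K0 A) (M * q * q)) (q : A0 A))⁻¹ z hz
      hz0
    exact ⟨k, by rw [mul_comm (z ^ k)]; exact hk⟩
  arch i z := by
    have hq0 : rv (V hqM (K0 A) hA i)
        (algebraMap (A0 A) (LF (K0 A) (M * q * q)) (q : A0 A)) = 0 := by
      rw [algebraMap_q]
      exact rv_q_V hqM hA i
    obtain ⟨k, hk⟩ := archV hqM hA i z _ (by
      rw [algebraMap_q]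
      exact natCast_mem _ q) hq0
    exact ⟨k, by rw [mul_comm _ z]; exact hk⟩

include hA in
/-- lifting of integral functions, chart `1/j`, level `M`. -/
theorem exists_lift_M_inv (hG : GoodLvl q M) {u : LaurentSeries (kk A)} (hu : u ∈ LK A M)
    (hi : IntRel (kk A) (jqModC (kk A))⁻¹ u) :
    ∃ z ∈ intSub (A0 A) (jK (K0 A) M)⁻¹, Red A (eb (K0 A) M z) u := by
  have h1 : IsIntegral (Algebra.adjoin (kk A) {(modRed M A).ρ (jinvZ M A)})
      (⟨u, hu⟩ : modularFunctionFieldFullC (kk A) M) := by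
    rw [← intRel_iff]
    refine IntRel.of_hom (modularFunctionFieldFullC (kk A) M).val.toRingHom (fun c => rfl) ?_
    have h2 : (modularFunctionFieldFullC (kk A) M).val.toRingHom ((modRed M A).ρ (jinvZ M A)) =
        (jqModC (kk A))⁻¹ := H28.ρ_jinvZ M A
    rw [h2]
    exact hi
  obtain ⟨z, hz, hzu⟩ := exists_lift_jinv hA hG.1 (H29.isChart_jinv hq.out hA hG) h1
  rw [map_inv₀] at hz
  exact ⟨z, hz, hzu⟩

theorem alpha_mem_inv {N : ℕ} [NeZero N] {z : LF (K0 A) N}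
    (hz : z ∈ intSub (A0 A) (jK (K0 A) N)⁻¹) :
    heckeAlphaBar (K0 A) N q z ∈ intSub (A0 A) (jK (K0 A) (N * q))⁻¹ := by
  have := map_mem_intSub (A0 := A0 A) (heckeAlphaBar (K0 A) N q) hz
  rwa [map_inv₀, alpha_jK] at this

include hA in
theorem intRel_io_inv (i : Fin 3) {z : LF (K0 A) (M * q * q)} {u : LaurentSeries (kk A)}
    (h : z ∈ intSub (A0 A) (jK (K0 A) (M * q * q))⁻¹) (hz : Red A (io hqM (K0 A) i z) u) :
    IntRel (kk A) (jqModC (kk A))⁻¹ u := by
  obtain ⟨n, hn⟩ := exists_red_io_jK hqM hA i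
  have h1 : Red A (io hqM (K0 A) i (jK (K0 A) (M * q * q))⁻¹) ((jqModC (kk A))⁻¹ ^ n) := by
    rw [inv_pow, map_inv₀]
    exact hn.inv (pow_ne_zero _ jqModC_kk_ne_zero)
  exact (intRel_of_mem (io_algebraMap_A0 hqM i) h1 hz h).of_pow

variable {S₂ : Subring (LF (K0 A) (M * q * q))}

/-- `j''⁻¹` is regular at all points of the last component in the chart `1/j`. -/
theorem jK''_inv_mem {R : Subring (LF (K0 A) (M * q * q))}
    (hR : ∀ z, z ∈ R ↔ z ∈ intSub (A0 A) (jK (K0 A) (M * q * q))⁻¹)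
    (hRV : ∀ i, ∀ z ∈ R, z ∈ V hqM (K0 A) hA i) (s : Ideal R) [hs : s.IsPrime]
    (hker : ∀ a : R, rv (V hqM (K0 A) hA 2) a = 0 → a ∈ s) :
    (jK'' (K0 A) M q)⁻¹ ∈ locSub R s := by
  have hO := (intClosed_of_iff hR).locSub s
  have hA0 : ∀ c : A0 A, algebraMap (A0 A) (LF (K0 A) (M * q * q)) c ∈ locSub R s := fun c =>
    le_locSub _ s ((hR _).2 (algebraMap_mem_intSub c))
  have hX : (jK (K0 A) (M * q * q))⁻¹ ∈ R := (hR _).2 self_mem_intSub
  have hOV := mem_of_ker_le (hRV 2) s hker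
  have hd := cuspData hqM hA
  by_cases hXs : (⟨_, hX⟩ : R) ∈ s
  · obtain ⟨h1, h2⟩ := hd.rel.mem_max hO (le_locSub _ s hX) (mem_maximalIdeal_locSub _ s hXs)
    obtain ⟨h3, h4⟩ := hd.rel'.mem_max hO h1 h2
    exact h3
  · have hj : jK (K0 A) (M * q * q) ∈ locSub R s := by
      have := inv_mem_locSub _ s hXs
      rwa [inv_inv] at this
    have hj'' : jK'' (K0 A) M q ∈ locSub R s := by
      have h1 : jK'' (K0 A) M q ∈ intSub (A0 A) (jK (K0 A) (M * q * q)) :=
        beta_mem (beta_mem self_mem_intSub)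
      exact hO.intSub_mem hA0 hj h1
    have hXO := le_locSub _ s hX
    have hw : (jK (K0 A) (M * q * q))⁻¹ * jK'' (K0 A) M q ^ q ^ 2 ∈ locSub R s :=
      (locSub R s).mul_mem hXO (pow_mem hj'' _)
    have hjb := jqModC_kk_ne_zero (A := A)
    have hw1 : rv (V hqM (K0 A) hA 2) ((jK (K0 A) (M * q * q))⁻¹ * jK'' (K0 A) M q ^ q ^ 2) = 1 := by
      have h1 := (redV hqM hA 2).mul ((redV hqM hA 2).inv (red_io2_jK hqM hA)
        (pow_ne_zero _ hjb)) ((redV hqM hA 2).pow (red_io2_jK'' hqM) (q ^ 2))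
      rw [← rv_one (V := V hqM (K0 A) hA 2), (redV hqM hA 2).rv_eq_iff h1 (redV hqM hA 2).one,
        inv_mul_cancel₀ (pow_ne_zero _ hjb)]
    have hwu : IsUnit (⟨_, hw⟩ : locSub R s) := by
      by_contra h
      exact rv_ne_one_of_max hOV hw h hw1
    have hwi := inv_mem_of_isUnit hw hwu
    have e1 := inv_eq_mul_pow (inv_ne_zero (jK_ne_zero (K0 A) (M * q * q)))
      (jK''_ne_zero (K0 A) M q) (n := q ^ 2) (pow_ne_zero 2 hq.out.ne_zero)
    rw [e1]
    exact (locSub R s).mul_mem ((locSub R s).mul_mem hXO (pow_mem hj'' _)) hwi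

include hA in
/-- Surjectivity of the reductions, chart `1/j`. -/
theorem exists_lift_io_inv (hG : GoodLvl q M) {R : Subring (LF (K0 A) (M * q * q))}
    (hR : ∀ z, z ∈ R ↔ z ∈ intSub (A0 A) (jK (K0 A) (M * q * q))⁻¹)
    (hRV : ∀ i, ∀ z ∈ R, z ∈ V hqM (K0 A) hA i) (i : Fin 3) {u : LaurentSeries (kk A)}
    (hu : u ∈ LK A M) (hi : IntRel (kk A) (jqModC (kk A))⁻¹ u) :
    ∃ z ∈ R, Red A (io hqM (K0 A) i z) u := by
  obtain ⟨z, hz, hzu⟩ := exists_lift_M_inv hA hG hu hi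
  rcases fin3_cases i with rfl | rfl | rfl
  · exact ⟨_, (hR _).2 (alpha_mem_inv (alpha_mem_inv hz)), by rw [io0_alpha, ie0_alpha]; exact hzu⟩
  · exact ⟨_, (hR _).2 (alpha_mem_inv (alpha_mem_inv hz)), by rw [io1_alpha, ie0_alpha]; exact hzu⟩
  · have hz2 : Red A (io hqM (K0 A) 2 (heckeBetaBar (K0 A) (M * q) q
        (heckeBetaBar (K0 A) M q z))) u := by
      rw [io2_beta, ie1_beta]; exact hzu
    obtain ⟨z', hz', hzz'⟩ := exists_of_local (hRV 2) ((redV hqM hA 2).mem hz2) (by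
      intro s hs hsm hker
      have h1 := jK''_inv_mem hqM hA hR hRV s hker
      have h2 : heckeBetaBar (K0 A) (M * q) q (heckeBetaBar (K0 A) M q z) ∈
          intSub (A0 A) (jK'' (K0 A) M q)⁻¹ := by
        have h3 := map_mem_intSub (A0 := A0 A) (heckeBetaBar (K0 A) (M * q) q)
          (map_mem_intSub (A0 := A0 A) (heckeBetaBar (K0 A) M q) hz)
        rwa [map_inv₀, map_inv₀] at h3
      exact ((intClosed_of_iff hR).locSub s).intSub_mem (fun c =>
        le_locSub _ s ((hR _).2 (algebraMap_mem_intSub c))) h1 h2)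
    obtain ⟨w, hw⟩ := ((redV hqM hA 2).mem_iff z').1 (hRV 2 z' hz')
    have h4 := ((redV hqM hA 2).rv_eq_iff hw hz2).1 hzz'
    rw [h4] at hw
    exact ⟨z', hz', hw⟩

/-- the reduction of the chart ring `A0[1/j]^~` onto a Dedekind domain -/
theorem exists_rho_jinv (hG : GoodLvl q M)
    (hL : ∀ (i : Fin 3) (z : LF (K0 A) (M * q * q)) (u : LaurentSeries (kk A)),
      Red A (io hqM (K0 A) i z) u → u ∈ LK A M) {R : Subring (LF (K0 A) (M * q * q))}
    (hR : ∀ z, z ∈ R ↔ z ∈ intSub (A0 A) (jK (K0 A) (M * q * q))⁻¹)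
    (hRV : ∀ i, ∀ z ∈ R, z ∈ V hqM (K0 A) hA i) (i : Fin 3) :
    ∃ ρ : R →+* CR (kk A) ((modRed M A).ρ (jinvZ M A)), Function.Surjective ρ ∧
      ∀ a, ρ a = 0 ↔ rv (V hqM (K0 A) hA i) a = 0 := by
  have h2 : ((modRed M A).ρ (jinvZ M A) : LaurentSeries (kk A)) = (jqModC (kk A))⁻¹ :=
    H28.ρ_jinvZ M A
  refine exists_rho (LK A M) (redV hqM hA i) (hRV i) _ ?_ ?_
  · intro z hz u hu
    rw [h2]
    exact ⟨hL i z u hu, intRel_io_inv hqM hA i ((hR z).1 hz) hu⟩
  · intro u hu hui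
    rw [h2] at hui
    exact exists_lift_io_inv hqM hA hG hR hRV i hu hui

/-- `Chart.root` for the chart `1/j`. -/
theorem root_jinv (hG : GoodLvl q M)
    (hL : ∀ (i : Fin 3) (z : LF (K0 A) (M * q * q)) (u : LaurentSeries (kk A)),
      Red A (io hqM (K0 A) i z) u → u ∈ LK A M)
    (hRV : ∀ i, ∀ z ∈ intSub (A0 A) (jK (K0 A) (M * q * q))⁻¹, z ∈ V hqM (K0 A) hA i)
    (i : Fin 3) (m : ℕ) (hm : m ≠ 0) (b : IsLocalRing.ResidueField (V hqM (K0 A) hA i))
    (a : LF (K0 A) (M * q * q)) (ha : a ∈ intSub (A0 A) (jK (K0 A) (M * q * q))⁻¹)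
    (hb : b ^ m = rv (V hqM (K0 A) hA i) a) :
    ∃ a' ∈ intSub (A0 A) (jK (K0 A) (M * q * q))⁻¹, b = rv (V hqM (K0 A) hA i) a' := by
  obtain ⟨y, hy, hyb⟩ := rv_surj b
  obtain ⟨w, hw⟩ := ((redV hqM hA i).mem_iff y).1 hy
  obtain ⟨v, hv⟩ := ((redV hqM hA i).mem_iff a).1 (hRV i a ha)
  have h1 : w ^ m = v := by
    rw [← hyb, ← rv_pow hy] at hb
    exact ((redV hqM hA i).rv_eq_iff ((redV hqM hA i).pow hw m) hv).1 hb
  have h2 : IntRel (kk A) (jqModC (kk A))⁻¹ w := by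
    apply IntRel.root hm
    rw [h1]
    exact intRel_io_inv hqM hA i ha hv
  obtain ⟨a', ha', ha'w⟩ := exists_lift_io_inv hqM hA hG (fun z => Iff.rfl) hRV i (hL i y w hw) h2
  exact ⟨a', ha', by rw [← hyb]; exact ((redV hqM hA i).rv_eq_iff hw ha'w).2 rfl⟩

end Fermat.Agent.H23.R
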