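import Fermat.Agent.H23.R.Assembly

/-!
# PROGRAM R (S36): the set-up
-/

set_option autoImplicit false
set_option maxSynthPendingDepth 3
set_option linter.unusedSectionVars false

noncomputable section

attribute [-instance] HahnSeries.instModule HahnSeries.instSMul HahnSeries.instDistribMulAction
  HahnSeries.instSMulZeroClass

namespace Fermat.Agent.H23.R

open ModularCurve ModularCurve.IgusaScheme Polynomial AlgebraicCurve Fermat.Agent.H26
  Fermat.Agent.H26.RV IsLocalRing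
open Fermat.Agent.H28 (modRed jZ jinvZ CR)
open Fermat.Agent.Q (Red)
open scoped IntermediateField

local notation "Qb" => AlgebraicClosure ℚ
local notation "kk" => IsLocalRing.ResidueField

section Abs

variable {E₀ F : Type*} [Field E₀] [Field F] [Algebra E₀ F] {G : ValuationSubring E₀} {ϖ₀ : E₀}
  {V : Fin 3 → ValuationSubring F} {e f : Fin 3 → ℕ} {s π : Fin 3 → F} {b : ∀ i, Fin (f i) → F}

/-- Weak approximation, in the form of `RSetup.wa`. -/
theorem wa_of_fund [FiniteDimensional E₀ F] (h : Fund G ϖ₀ V e f s π b) {q : ℕ}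
    (he : e 1 = q - 1) (n₁ n₂ : ℤ) :
    ∃ g : F, rv (V 0) g ≠ 0 ∧ rv (V 1) (g ^ (q - 1) * algebraMap E₀ F ϖ₀ ^ n₁) ≠ 0 ∧
      rv (V 2) (g * algebraMap E₀ F ϖ₀ ^ n₂) ≠ 0 := by
  have hϖ0 : algebraMap E₀ F ϖ₀ ≠ 0 := h.ϖ_ne
  have hπ0 : π 1 ≠ 0 := by
    intro h0
    exact h.val_π_ne 1 (by rw [h0, map_zero])
  obtain ⟨g, hg⟩ := Fund_wa h ![1, π 1 ^ (-n₁), algebraMap E₀ F ϖ₀ ^ (-n₂)] (by
    intro i
    rcases fin3_cases i with rfl | rfl | rfl
    · exact one_ne_zero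
    · exact zpow_ne_zero _ hπ0
    · exact zpow_ne_zero _ hϖ0)
  have h0 : rv (V 0) (g * (1 : F)⁻¹) ≠ 0 := hg 0
  have h1 : rv (V 1) (g * (π 1 ^ (-n₁))⁻¹) ≠ 0 := hg 1
  have h2 : rv (V 2) (g * (algebraMap E₀ F ϖ₀ ^ (-n₂))⁻¹) ≠ 0 := hg 2
  rw [inv_one, mul_one] at h0
  refine ⟨g, h0, ?_, ?_⟩
  · have h3 := rv_ne_zero_mul (rv_ne_zero_pow h1 (q - 1))
      (rv_ne_zero_inv (rv_ne_zero_zpow (h.ram 1) n₁))
    rw [he] at h3
    have h4 : (g * (π 1 ^ (-n₁))⁻¹) ^ (q - 1) * ((π 1 ^ (q - 1) * (algebraMap E₀ F ϖ₀)⁻¹) ^ n₁)⁻¹ =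
        g ^ (q - 1) * algebraMap E₀ F ϖ₀ ^ n₁ := by
      rw [zpow_neg, inv_inv, mul_pow, mul_zpow, mul_inv, inv_zpow, inv_inv]
      have h5 : (π 1 ^ n₁) ^ (q - 1) = (π 1 ^ (q - 1)) ^ n₁ := by
        rw [← zpow_natCast, ← zpow_natCast, ← zpow_mul, ← zpow_mul, mul_comm]
      rw [h5]
      have := zpow_ne_zero n₁ (pow_ne_zero (q - 1) hπ0)
      field_simp
    rwa [h4] at h3
  · rwa [zpow_neg, inv_inv] at h2

theorem hconst_abs {A0 K0 F : Type*} [CommRing A0] [Field K0] [Field F] [Algebra A0 K0]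
    [Algebra K0 F] [Algebra A0 F] [IsScalarTower A0 K0 F] {x z : F} {V : ValuationSubring F}
    (hc : ∀ z : F, IsIntegral K0 z → ∃ c : K0, algebraMap K0 F c = z)
    (hV : ∀ c : K0, algebraMap K0 F c ∈ V → ∃ a : A0, algebraMap A0 K0 a = c)
    (h1 : z ∈ intSub K0 x) (h2 : z ∈ intSub K0 x⁻¹) (h3 : z ∈ V) :
    ∃ a : A0, algebraMap A0 F a = z := by
  obtain ⟨c, hcz⟩ := hc z (isAlgebraic_of_mem_both h1 h2)
  obtain ⟨a, ha⟩ := hV c (by rw [hcz]; exact h3)
  exact ⟨a, by rw [IsScalarTower.algebraMap_apply A0 K0 F, ha, hcz]⟩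

theorem hfin_abs {A0 K0 F : Type*} [CommRing A0] [IsDomain A0] [IsDiscreteValuationRing A0]
    [Field K0] [Algebra A0 K0] [IsFractionRing A0 K0] [Field F] [Algebra K0 F] [Algebra A0 F]
    [IsScalarTower A0 K0 F] {x : F} [CharZero K0] [FiniteDimensional K0⟮x⟯ F]
    {V : Fin 3 → ValuationSubring F} {ϖ : A0} (hϖ : Irreducible ϖ) (h : Adapted A0 K0 V ϖ x) :
    ∃ s : Finset F, ∀ z ∈ intSub K0 x, (∀ i, z ∈ V i) →
      z ∈ Submodule.span (Algebra.adjoin A0 {x}) (s : Set F) := by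
  obtain ⟨s, hs⟩ := exists_finset_intSub (A0 := A0) (K0 := K0) h.tr
  refine ⟨s, fun z hz hzV => hs z ?_⟩
  rw [← h.eq hϖ]
  exact ⟨hz, hzV⟩

end Abs

variable {q M : ℕ} [hq : Fact q.Prime] [NeZero M] (hqM : Nat.Coprime q M)
  {A : ValuationSubring Qb} (hA : A.LiesOverPrime q)

/-- The facts about the valuations. -/
theorem vInput (hG : GoodLvl q M) : VInput hqM hA where
  hG := hG
  hL := FK.hL hqM hA
  ad₁ := FK.adapted_jK hqM hA
  ad₂ := FK.adapted_jK_inv hqM hA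
  u0 := FK.isUnif_0 hqM hA
  u2 := FK.isUnif_2 hqM hA
  u1 _ hπ _ hz hz0 := FK.unif_1 hqM hA hπ hz hz0
  fin₁ := inferInstance
  fin₂ := inferInstance

theorem const_of_integral {N : ℕ} [NeZero N] (z : LF (K0 A) N) (hz : IsIntegral (K0 A) z) :
    ∃ c : K0 A, algebraMap (K0 A) (LF (K0 A) N) c = z := by
  have h1 : IsIntegral (K0 A) ((LF (K0 A) N).val z) := hz.map (LF (K0 A) N).val
  obtain ⟨c, hc⟩ := laurent_const h1
  refine ⟨c, Subtype.ext ?_⟩
  rw [coe_algebraMap_LF]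
  exact hc.symm

/-- Constants, in the chart rings. -/
theorem hconst (z : LF (K0 A) (M * q * q))
    (h1 : z ∈ intSub (K0 A) (jK (K0 A) (M * q * q)))
    (h2 : z ∈ intSub (K0 A) (jK (K0 A) (M * q * q))⁻¹) (h3 : ∀ i, z ∈ V hqM (K0 A) hA i) :
    ∃ a : A0 A, algebraMap (A0 A) (LF (K0 A) (M * q * q)) a = z :=
  hconst_abs (K0 := K0 A) (V := V hqM (K0 A) hA 0) (fun z hz => const_of_integral z hz)
    (fun c hc => ⟨⟨c, (const_mem_V hqM hA 0 c).1 hc⟩, rfl⟩) h1 h2 (h3 0)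


theorem sysA (hG : GoodLvl q M) :
    NormSys q (algebraMap (A0 A) (K0 A) (q : A0 A)) (heckeAlphaBar (K0 A) (M * q) q)
      (normHom (heckeAlphaBar (K0 A) (M * q) q)) (W hqM (K0 A) hA 0) (W hqM (K0 A) hA 1)
      (V hqM (K0 A) hA 0) (V hqM (K0 A) hA 1) (V hqM (K0 A) hA 2) ∧
    IsUnif (W hqM (K0 A) hA 0)
      (algebraMap (K0 A) (LF (K0 A) (M * q)) (algebraMap (A0 A) (K0 A) (q : A0 A))) ∧
    IsUnif (W hqM (K0 A) hA 1)
      (algebraMap (K0 A) (LF (K0 A) (M * q)) (algebraMap (A0 A) (K0 A) (q : A0 A))) := by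
  obtain ⟨b, hF, -⟩ := FK.fundj_K0 hqM hA
  have := charP_lkk (q := q) hA
  have hL := FK.hL hqM hA
  refine normSys_of_half (heckeAlphaBar (K0 A) (M * q) q) _ hF ?_ (H05.finiteAlong_alpha _ _ _)
    (finrank_alpha_q (K0 A)) (i₁ := 0) (i₂ := 1) (i₀ := 2) (by decide) rfl rfl rfl
    (fun i => redV hqM hA i) (redW hqM hA 0) (redW hqM hA 1) (half_alpha hqM hA hG hL)
    (red_io2_jK'' hqM (A := A)) (jqModC_not_range (kk A) q) (rv_q_V hqM hA 2)
  rw [map_natCast, map_natCast, map_natCast]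

theorem sysB (hG : GoodLvl q M) :
    NormSys q (algebraMap (A0 A) (K0 A) (q : A0 A)) (heckeBetaBar (K0 A) (M * q) q)
      (normHom (heckeBetaBar (K0 A) (M * q) q)) (W hqM (K0 A) hA 1) (W hqM (K0 A) hA 0)
      (V hqM (K0 A) hA 2) (V hqM (K0 A) hA 1) (V hqM (K0 A) hA 0) := by
  obtain ⟨b, hF, -⟩ := FK.fundj_K0 hqM hA
  have := charP_lkk (q := q) hA
  have hL := FK.hL hqM hA
  refine (normSys_of_half (heckeBetaBar (K0 A) (M * q) q) _ hF ?_ (H05.finiteAlong_beta _ _ _)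
    (finrank_beta_q (K0 A)) (i₁ := 2) (i₂ := 1) (i₀ := 0) (by decide) rfl rfl rfl
    (fun i => redV hqM hA i) (redW hqM hA 1) (redW hqM hA 0) (half_beta hqM hA hG hL)
    (red_io0_jK hqM (A := A)) (jqModC_not_range (kk A) q) (rv_q_V hqM hA 0)).1
  rw [map_natCast, map_natCast, map_natCast]


set_option maxHeartbeats 1000000 in
/-- The complete set-up. -/
theorem rSetup (hG : GoodLvl q M) (hc : Chart1 hqM hA) :
    RSetup q (q : A0 A) (V hqM (K0 A) hA) (W hqM (K0 A) hA) (heckeAlphaBar (K0 A) (M * q) q)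
      (heckeBetaBar (K0 A) (M * q) q) (normHom (heckeAlphaBar (K0 A) (M * q) q))
      (normHom (heckeBetaBar (K0 A) (M * q) q)) (intSub (K0 A) (jK (K0 A) (M * q * q)))
      (intSub (K0 A) (jK (K0 A) (M * q * q))⁻¹) (jK (K0 A) (M * q * q)) := by
  have hDVR := isDVR_A0 hq.out hA
  have hirr := irreducible_q hq.out hA
  have hV := vInput hqM hA hG
  obtain ⟨sA, uW0, uW1⟩ := sysA hqM hA hG
  obtain ⟨b, hF, -⟩ := FK.fundj_K0 hqM hA
  have e1 : algebraMap (A0 A) (LF (K0 A) (M * q * q)) (q : A0 A) =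
      (q : LF (K0 A) (M * q * q)) := algebraMap_q
  have e2 : algebraMap (K0 A) (LF (K0 A) (M * q * q)) (algebraMap (A0 A) (K0 A) (q : A0 A)) =
      (q : LF (K0 A) (M * q * q)) := by rw [map_natCast, map_natCast]
  have e3 : algebraMap (Bj q M (K0 A)) (LF (K0 A) (M * q * q)) (q : Bj q M (K0 A)) =
      (q : LF (K0 A) (M * q * q)) := map_natCast _ _
  have hx0 := jK_ne_zero (K0 A) (M * q * q)
  have hxV : ∀ i, jK (K0 A) (M * q * q) ∈ V hqM (K0 A) hA i := hV.ad₁.x_mem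
  have hxV' : ∀ i, (jK (K0 A) (M * q * q))⁻¹ ∈ V hqM (K0 A) hA i := hV.ad₂.x_mem
  have hA1 : ∀ (x : LF (K0 A) (M * q * q)) (a : A0 A),
      algebraMap (A0 A) (LF (K0 A) (M * q * q)) a ∈ intSub (K0 A) x := fun x a => by
    rw [IsScalarTower.algebraMap_apply (A0 A) (K0 A) (LF (K0 A) (M * q * q))]
    exact algebraMap_mem_intSub _
  exact
  { hq := hq.out
    sysA := sA
    sysB := sysB hqM hA hG
    unifV0 := by rw [e2]; exact hV.u0
    unifV2 := by rw [e2]; exact hV.u2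
    ordV1 := fun z hz => by
      rw [e2]
      have := Fund_ord hF 1 hz
      rwa [e3] at this
    unifW := fun i => by
      fin_cases i
      · exact uW0
      · exact uW1
    wa := fun n₁ n₂ => by
      rw [e2]
      have := wa_of_fund hF (q := q) rfl n₁ n₂
      rwa [e3] at this
    vrt := vert_V hqM hA
    ch₁ := by
      have := hV.fin₁
      refine hV.ad₁.chart hirr (root_j hqM hA hG hV.hL) ?_
      intro s _ hs hsp
      rw [e1] at hs
      exact (hc s hs).1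
    ch₂ := by
      have := hV.fin₂
      refine hV.ad₂.chart hirr (root_jinv hqM hA hG hV.hL
        (fun i z hz => hV.ad₂.intSub_le hz i)) ?_
      intro s _ hs hsp
      rw [e1] at hs
      exact (hV.chart2 hc s hs).1
    hA1 := hA1 _
    hA2 := hA1 _
    hAV := fun a i => hV.ad₁.mem i a
    hx0 := hx0
    hx1 := self_mem_intSub
    hx2 := self_mem_intSub
    hxV := hxV
    hxV' := hxV'
    h12 := fun z hz => exists_pow_inv_mul_mem hx0 hz
    h21 := fun z hz => by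
      have := exists_pow_inv_mul_mem (inv_ne_zero hx0) hz
      rwa [inv_inv] at this
    hconst := hconst hqM hA
    hfin := by
      have := hV.fin₁
      exact hfin_abs hirr hV.ad₁
    common₁ := by
      intro s hsp _ hs i j hij hi hj
      rw [e1] at hs
      exact hV.common₁ hc s hs i j hij hi hj
    common₂ := by
      intro s hsp _ hs i j hij hi hj
      rw [e1] at hs
      exact hV.common₂ hc s hs i j hij hi hj }


/-- `THEOREM R` from the local analysis of the chart `j`. -/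
theorem theoremR_of_chart1 {p : ℕ} (hp : p.Prime) (hpq : p ≠ q) (hG : GoodLvl q M)
    (hc : Chart1 hqM hA) [NeZero q] : RR.TheoremR M q p A :=
  theoremR_of_setup hq.out hp hpq hA ⟨_, _, _, _, _, rSetup hqM hA hG hc⟩

/-- `TheoremRAux` from the local analysis of the chart `j`. -/
theorem theoremRAux_of_chart1
    (H : ∀ (q M : ℕ) [Fact q.Prime] [NeZero M] (hqM : Nat.Coprime q M) (A : ValuationSubring Qb)
      (hA : A.LiesOverPrime q), GoodLvl q M → Chart1 hqM hA) : RR.TheoremRAux := by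
  intro M q p _ _ A hq hp hpq hqM h4 h9 hA
  haveI : Fact q.Prime := ⟨hq⟩
  have hco : Nat.Coprime q M := (Nat.Prime.coprime_iff_not_dvd hq).2 hqM
  have hG : GoodLvl q M := by
    refine ⟨hqM, ?_⟩
    by_cases h2 : q = 2
    · refine Or.inr ⟨dvd_trans (by norm_num) (h9 h2), by rw [h2]; norm_num⟩
    · exact Or.inl ⟨dvd_trans (by norm_num) (h4 h2), h2⟩
  exact theoremR_of_chart1 hco hA hp hpq hG (H q M hco A hA hG)

end Fermat.Agent.H23.R
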