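import Fermat.Agent.H23.R.KeyThm
import Fermat.Agent.H23.R.Norm

/-!
# PROGRAM R (S36): newness kills the gluing data (abstract form)
-/

namespace Fermat.Agent.H23.R

open IsLocalRing

variable {K0 E F : Type*} [Field K0] [Field E] [Field F] [Algebra K0 E] [Algebra K0 F]

/-- The properties of the norm `N : F → E` along the embedding `a : E → F` that we use. -/
structure NormSys (q : ℕ) (ϖ : K0) (a : E →ₐ[K0] F) (N : F →* E) (W W' : ValuationSubring E)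
    (V₁ V₂ V₀ : ValuationSubring F) : Prop where
  over₁ : ∀ z : E, a z ∈ V₁ ↔ z ∈ W
  over₂ : ∀ z : E, a z ∈ V₂ ↔ z ∈ W
  over₀ : ∀ z : E, a z ∈ V₀ ↔ z ∈ W'
  const : ∀ c : K0, N (algebraMap K0 F c) = algebraMap K0 E c ^ q
  ne_zero : ∀ z : F, z ≠ 0 → N z ≠ 0
  res : ∀ (z : F) (c₁ c₂ : E), rv V₁ z ≠ 0 → rv V₂ z ≠ 0 → rv V₁ z = rv V₁ (a c₁) →
    rv V₂ z = rv V₂ (a c₂) → rv W (N z) = rv W (c₁ * c₂ ^ (q - 1))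
  ord : ∀ (z : F) (α β : ℤ), rv V₁ (z * algebraMap K0 F ϖ ^ (-α)) ≠ 0 →
    rv V₂ (z ^ (q - 1) * algebraMap K0 F ϖ ^ (-β)) ≠ 0 →
    rv W (N z * algebraMap K0 E ϖ ^ (-(α + β))) ≠ 0
  res₀ : ∀ (z : F) (c : E), rv V₀ z ≠ 0 → rv V₀ (z ^ q) = rv V₀ (a c) → rv W' (N z) = rv W' c
  ord₀ : ∀ (z : F) (α : ℤ), rv V₀ (z * algebraMap K0 F ϖ ^ (-α)) ≠ 0 →
    rv W' (N z * algebraMap K0 E ϖ ^ (-(q * α))) ≠ 0
  sur₁ : ∀ z ∈ V₁, ∃ c : E, rv V₁ z = rv V₁ (a c)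
  sur₂ : ∀ z ∈ V₂, ∃ c : E, rv V₂ z = rv V₂ (a c)
  sur₀ : ∀ z ∈ V₀, ∃ c : E, rv V₀ (z ^ q) = rv V₀ (a c)

/-- The properties of the local ring `O` of a common point with respect to `a`, `N`. -/
structure CommonPt (q : ℕ) (a : E →ₐ[K0] F) (N : F →* E) (V₁ V₂ V₀ : ValuationSubring F)
    (O : Subring F) : Prop where
  nrm : ∀ z ∈ O, a (N z) ∈ O
  rep₁ : ∀ τ ∈ O, ∃ c : E, a c ∈ O ∧ rv V₁ τ = rv V₁ (a c)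
  rep₂ : ∀ τ ∈ O, ∃ c : E, a c ∈ O ∧ rv V₂ τ = rv V₂ (a c)
  rep₀ : ∀ τ ∈ O, ∃ c : E, a c ∈ O ∧ rv V₀ (τ ^ q) = rv V₀ (a c)

theorem rv_root_ne_zero {L : Type*} [Field L] {V : ValuationSubring L} {ζ : L} {m : ℕ} (hm : m ≠ 0)
    (h : ζ ^ m = 1) : rv V ζ ≠ 0 := by
  apply rv_ne_zero_of_pow hm
  rw [h, rv_one]
  exact one_ne_zero

/-- The relation between the gluing data at a common point. -/
theorem NormSys.relation {q : ℕ} {ϖ : K0} {a : E →ₐ[K0] F} {N : F →* E}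
    {W W' : ValuationSubring E} {V₁ V₂ V₀ : ValuationSubring F}
    (hs : NormSys q ϖ a N W W' V₁ V₂ V₀) {m : ℕ} (hm : m ≠ 0)
    (hμ : ∀ x : ResidueField W, x ^ m = 1 → ∃ ζ : K0, ζ ^ m = 1 ∧ rv W (algebraMap K0 E ζ) = x)
    (hμ' : ∀ x : ResidueField W', x ^ m = 1 →
      ∃ ζ : K0, ζ ^ m = 1 ∧ rv W' (algebraMap K0 E ζ) = x)
    {f : F} (hf₁ : rv V₁ f ≠ 0) (hf₂ : rv V₂ f ≠ 0) (hf₀ : rv V₀ f ≠ 0)
    {u₁ : ResidueField V₁} {u₂ : ResidueField V₂} {u₀ : ResidueField V₀}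
    (hu₁ : u₁ ^ m = rv V₁ f) (hu₂ : u₂ ^ m = rv V₂ f) (hu₀ : u₀ ^ m = rv V₀ f)
    {h : E} (hN : N f = h ^ m) :
    ∃ ζ ζ' : K0, ζ ^ m = 1 ∧ ζ' ^ m = 1 ∧ ∀ (O : Subring F) [IsLocalRing O],
      (∀ z : F, z ^ m ∈ O → z ∈ O) → (∀ z ∈ O, z ∈ V₁) → (∀ z ∈ O, z ∈ V₂) →
      (∀ z ∈ O, z ∈ V₀) → CommonPt q a N V₁ V₂ V₀ O →
      ∀ w : F, w ≠ 0 → w ^ m * f ∈ O → (w ^ m * f)⁻¹ ∈ O → ∀ τ₁ τ₂ τ₀ : O,
      rv V₁ τ₁ = rv V₁ w * u₁ → rv V₂ τ₂ = rv V₂ w * u₂ → rv V₀ τ₀ = rv V₀ w * u₀ →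
      ∃ (hζ : algebraMap K0 F ζ ∈ O) (hζ' : algebraMap K0 F ζ' ∈ O),
        residue O τ₁ * residue O τ₂ ^ (q - 1) * residue O ⟨_, hζ⟩ =
        residue O τ₀ ^ q * residue O ⟨_, hζ'⟩ := by
  have hu₁0 : u₁ ≠ 0 := fun h0 => hf₁ (by rw [← hu₁, h0, zero_pow hm])
  have hu₂0 : u₂ ≠ 0 := fun h0 => hf₂ (by rw [← hu₂, h0, zero_pow hm])
  have hu₀0 : u₀ ≠ 0 := fun h0 => hf₀ (by rw [← hu₀, h0, zero_pow hm])
  have hf0 : f ≠ 0 := (rv_ne_zero_iff.1 hf₁).1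
  -- representatives of the `u`
  obtain ⟨y₁, hy₁, hy₁u⟩ := rv_surj u₁
  obtain ⟨y₂, hy₂, hy₂u⟩ := rv_surj u₂
  obtain ⟨y₀, hy₀, hy₀u⟩ := rv_surj u₀
  obtain ⟨e₁, he₁⟩ := hs.sur₁ y₁ hy₁
  obtain ⟨e₂, he₂⟩ := hs.sur₂ y₂ hy₂
  obtain ⟨e₀, he₀⟩ := hs.sur₀ y₀ hy₀
  rw [hy₁u] at he₁
  rw [hy₂u] at he₂
  rw [rv_pow hy₀, hy₀u] at he₀
  have oe₁ : rv V₁ (a e₁) ≠ 0 := by rw [← he₁]; exact hu₁0
  have oe₂ : rv V₂ (a e₂) ≠ 0 := by rw [← he₂]; exact hu₂0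
  have oe₀ : rv V₀ (a e₀) ≠ 0 := by rw [← he₀]; exact pow_ne_zero _ hu₀0
  have oe₁W : rv W e₁ ≠ 0 := by
    rw [ne_eq, ← rv_map_eq_zero_iff (φ := (a : E →+* F)) hs.over₁]; exact oe₁
  have oe₂W : rv W e₂ ≠ 0 := by
    rw [ne_eq, ← rv_map_eq_zero_iff (φ := (a : E →+* F)) hs.over₂]; exact oe₂
  have oe₀W : rv W' e₀ ≠ 0 := by
    rw [ne_eq, ← rv_map_eq_zero_iff (φ := (a : E →+* F)) hs.over₀]; exact oe₀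
  have hNf : rv W (h ^ m) = rv W (e₁ ^ m * (e₂ ^ m) ^ (q - 1)) := by
    rw [← hN]
    apply hs.res f _ _ hf₁ hf₂
    · rw [map_pow, rv_pow (rv_ne_zero_iff.1 oe₁).2.1, ← he₁, hu₁]
    · rw [map_pow, rv_pow (rv_ne_zero_iff.1 oe₂).2.1, ← he₂, hu₂]
  have hNf' : rv W' (h ^ m) = rv W' (e₀ ^ m) := by
    rw [← hN]
    apply hs.res₀ f _ hf₀
    rw [map_pow, rv_pow (rv_ne_zero_iff.1 oe₀).2.1, ← he₀, rv_pow (rv_ne_zero_iff.1 hf₀).2.1, ← hu₀,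
      ← pow_mul, ← pow_mul, mul_comm]
  have ohW : rv W h ≠ 0 := by
    apply rv_ne_zero_of_pow hm
    rw [hNf]
    exact rv_ne_zero_mul (rv_ne_zero_pow oe₁W _) (rv_ne_zero_pow (rv_ne_zero_pow oe₂W _) _)
  have ohW' : rv W' h ≠ 0 := by
    apply rv_ne_zero_of_pow hm
    rw [hNf']
    exact rv_ne_zero_pow oe₀W _
  have oD : rv W (e₁ * e₂ ^ (q - 1)) ≠ 0 := rv_ne_zero_mul oe₁W (rv_ne_zero_pow oe₂W _)
  obtain ⟨ζ, hζm, hζ⟩ := hμ (rv W (h / (e₁ * e₂ ^ (q - 1)))) (by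
    rw [rv_div (rv_ne_zero_iff.1 ohW).2.1 oD, div_pow, ← rv_pow (rv_ne_zero_iff.1 ohW).2.1,
      ← rv_pow (rv_ne_zero_iff.1 oD).2.1, hNf, mul_pow, ← pow_mul e₂ m, mul_comm m (q - 1), pow_mul]
    exact div_self (rv_ne_zero_mul (rv_ne_zero_pow oe₁W _) (rv_ne_zero_pow (rv_ne_zero_pow oe₂W _) _)))
  obtain ⟨ζ', hζm', hζ'⟩ := hμ' (rv W' (h / e₀)) (by
    rw [rv_div (rv_ne_zero_iff.1 ohW').2.1 oe₀W, div_pow, ← rv_pow (rv_ne_zero_iff.1 ohW').2.1,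
      ← rv_pow (rv_ne_zero_iff.1 oe₀W).2.1, hNf']
    exact div_self (rv_ne_zero_pow oe₀W _))
  refine ⟨ζ, ζ', hζm, hζm', ?_⟩
  intro O _ hroot hOV₁ hOV₂ hOV₀ hcp w hw0 hw hw' τ₁ τ₂ τ₀ hτ₁ hτ₂ hτ₀
  have hζO : algebraMap K0 F ζ ∈ O := by
    apply hroot; rw [← map_pow, hζm, map_one]; exact O.one_mem
  have hζO' : algebraMap K0 F ζ' ∈ O := by
    apply hroot; rw [← map_pow, hζm', map_one]; exact O.one_mem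
  refine ⟨hζO, hζO', ?_⟩
  -- `w` is a unit at the `V`
  have owV : ∀ V : ValuationSubring F, (∀ z ∈ O, z ∈ V) → rv V f ≠ 0 → rv V w ≠ 0 := by
    intro V hOV hfV
    apply rv_ne_zero_of_pow hm
    have e1 : rv V (w ^ m * f) ≠ 0 :=
      rv_ne_zero_iff.2 ⟨mul_ne_zero (pow_ne_zero _ hw0) hf0, hOV _ hw, hOV _ hw'⟩
    have e2 : w ^ m = (w ^ m * f) * f⁻¹ := by field_simp
    rw [e2]
    exact rv_ne_zero_mul e1 (rv_ne_zero_inv hfV)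
  have ow₁ := owV V₁ hOV₁ hf₁
  have ow₂ := owV V₂ hOV₂ hf₂
  have ow₀ := owV V₀ hOV₀ hf₀
  obtain ⟨c₁, hc₁O, hc₁⟩ := hcp.rep₁ τ₁ τ₁.2
  obtain ⟨c₂, hc₂O, hc₂⟩ := hcp.rep₂ τ₂ τ₂.2
  obtain ⟨c₀, hc₀O, hc₀⟩ := hcp.rep₀ τ₀ τ₀.2
  have oc₁ : rv V₁ (a c₁) ≠ 0 := by rw [← hc₁, hτ₁]; exact mul_ne_zero ow₁ hu₁0
  have oc₂ : rv V₂ (a c₂) ≠ 0 := by rw [← hc₂, hτ₂]; exact mul_ne_zero ow₂ hu₂0
  have oc₀ : rv V₀ (a c₀) ≠ 0 := by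
    rw [← hc₀, rv_pow (hOV₀ _ τ₀.2), hτ₀]; exact pow_ne_zero _ (mul_ne_zero ow₀ hu₀0)
  have oc₁W : rv W c₁ ≠ 0 := by
    rw [ne_eq, ← rv_map_eq_zero_iff (φ := (a : E →+* F)) hs.over₁]; exact oc₁
  have oc₂W : rv W c₂ ≠ 0 := by
    rw [ne_eq, ← rv_map_eq_zero_iff (φ := (a : E →+* F)) hs.over₂]; exact oc₂
  have oc₀W : rv W' c₀ ≠ 0 := by
    rw [ne_eq, ← rv_map_eq_zero_iff (φ := (a : E →+* F)) hs.over₀]; exact oc₀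
  -- g
  obtain ⟨g, hg⟩ : ∃ g : E, g = N w * h := ⟨_, rfl⟩
  have hgO : a g ∈ O := by
    apply hroot
    have : (a g) ^ m = a (N (w ^ m * f)) := by
      rw [hg, map_mul N, map_pow N, hN, ← map_pow a, mul_pow]
    rw [this]
    exact hcp.nrm _ hw
  have hNw : rv W (N w) = rv W ((c₁ / e₁) * (c₂ / e₂) ^ (q - 1)) := by
    apply hs.res w _ _ ow₁ ow₂
    · rw [map_div₀, rv_div (rv_ne_zero_iff.1 oc₁).2.1 oe₁, ← he₁, ← hc₁, hτ₁]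
      field_simp
    · rw [map_div₀, rv_div (rv_ne_zero_iff.1 oc₂).2.1 oe₂, ← he₂, ← hc₂, hτ₂]
      field_simp
  have oce : rv W ((c₁ / e₁) * (c₂ / e₂) ^ (q - 1)) ≠ 0 := by
    rw [div_eq_mul_inv, div_eq_mul_inv]
    exact rv_ne_zero_mul (rv_ne_zero_mul oc₁W (rv_ne_zero_inv oe₁W))
      (rv_ne_zero_pow (rv_ne_zero_mul oc₂W (rv_ne_zero_inv oe₂W)) _)
  have oNw : rv W (N w) ≠ 0 := by rw [hNw]; exact oce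
  have hNw' : rv W' (N w) = rv W' (c₀ / e₀) := by
    apply hs.res₀ w _ ow₀
    rw [map_div₀, rv_div (rv_ne_zero_iff.1 oc₀).2.1 oe₀, ← he₀, ← hc₀, rv_pow (hOV₀ _ τ₀.2),
      rv_pow (rv_ne_zero_iff.1 ow₀).2.1, hτ₀, mul_pow]
    have := pow_ne_zero q hu₀0
    field_simp
  have oce₀ : rv W' (c₀ / e₀) ≠ 0 := by
    rw [div_eq_mul_inv]
    exact rv_ne_zero_mul oc₀W (rv_ne_zero_inv oe₀W)
  have oNw' : rv W' (N w) ≠ 0 := by rw [hNw']; exact oce₀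
  have he₁0 : e₁ ≠ 0 := (rv_ne_zero_iff.1 oe₁W).1
  have he₂0 : e₂ ≠ 0 := (rv_ne_zero_iff.1 oe₂W).1
  have he₀0 : e₀ ≠ 0 := (rv_ne_zero_iff.1 oe₀W).1
  have oζ : rv W (algebraMap K0 E ζ) ≠ 0 :=
    rv_root_ne_zero hm (by rw [← map_pow, hζm, map_one])
  have oζ' : rv W' (algebraMap K0 E ζ') ≠ 0 :=
    rv_root_ne_zero hm (by rw [← map_pow, hζm', map_one])
  have hgW : rv W g = rv W (c₁ * c₂ ^ (q - 1) * algebraMap K0 E ζ) := by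
    rw [rv_mul (rv_ne_zero_iff.1 (rv_ne_zero_mul oc₁W (rv_ne_zero_pow oc₂W _))).2.1
      (rv_ne_zero_iff.1 oζ).2.1, hζ, ← rv_mul
      (rv_ne_zero_iff.1 (rv_ne_zero_mul oc₁W (rv_ne_zero_pow oc₂W _))).2.1
      (rv_ne_zero_iff.1 (by rw [div_eq_mul_inv]; exact rv_ne_zero_mul ohW (rv_ne_zero_inv oD))).2.1,
      hg, rv_mul (rv_ne_zero_iff.1 oNw).2.1 (rv_ne_zero_iff.1 ohW).2.1, hNw,
      ← rv_mul (rv_ne_zero_iff.1 oce).2.1 (rv_ne_zero_iff.1 ohW).2.1]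
    congr 1
    rw [div_pow]
    field_simp
  have hgW' : rv W' g = rv W' (c₀ * algebraMap K0 E ζ') := by
    rw [rv_mul (rv_ne_zero_iff.1 oc₀W).2.1
      (rv_ne_zero_iff.1 oζ').2.1, hζ', ← rv_mul
      (rv_ne_zero_iff.1 oc₀W).2.1
      (rv_ne_zero_iff.1 (by rw [div_eq_mul_inv]; exact rv_ne_zero_mul ohW' (rv_ne_zero_inv oe₀W))).2.1,
      hg, rv_mul (rv_ne_zero_iff.1 oNw').2.1 (rv_ne_zero_iff.1 ohW').2.1, hNw',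
      ← rv_mul (rv_ne_zero_iff.1 oce₀).2.1 (rv_ne_zero_iff.1 ohW').2.1]
    congr 1
    field_simp
  have ogW : g ∈ W := (rv_ne_zero_iff.1 (by rw [hg]; exact rv_ne_zero_mul oNw ohW)).2.1
  have ogW' : g ∈ W' := (rv_ne_zero_iff.1 (by rw [hg]; exact rv_ne_zero_mul oNw' ohW')).2.1
  -- congruences in O
  have hres : ∀ (V : ValuationSubring F), (∀ z ∈ O, z ∈ V) → ∀ x y : O, rv V x = rv V y →
      residue O x = residue O y := by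
    intro V hOV x y hxy
    rw [← sub_eq_zero, ← map_sub, residue_eq_zero_iff]
    apply rv_eq_zero_mem_of_le hOV
    change rv V ((x : F) - y) = 0
    rw [rv_sub (hOV _ x.2) (hOV _ y.2), hxy, sub_self]
  have k1 : residue O τ₁ = residue O ⟨a c₁, hc₁O⟩ := hres V₁ hOV₁ _ _ hc₁
  have k2 : residue O τ₂ = residue O ⟨a c₂, hc₂O⟩ := hres V₂ hOV₂ _ _ hc₂
  have k0 : residue O τ₀ ^ q = residue O ⟨a c₀, hc₀O⟩ := by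
    rw [← map_pow]
    exact hres V₀ hOV₀ _ _ hc₀
  have k3 : residue O ⟨a g, hgO⟩ = residue O (⟨a c₁, hc₁O⟩ * ⟨a c₂, hc₂O⟩ ^ (q - 1) * ⟨_, hζO⟩) := by
    apply hres V₁ hOV₁
    have : ((⟨a c₁, hc₁O⟩ * ⟨a c₂, hc₂O⟩ ^ (q - 1) * ⟨_, hζO⟩ : O) : F) =
        a (c₁ * c₂ ^ (q - 1) * algebraMap K0 E ζ) := by
      rw [map_mul, map_mul, map_pow, a.commutes]; rfl
    rw [this]
    exact (rv_map_eq_iff (φ := (a : E →+* F)) hs.over₁ ogW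
      (W.mul_mem _ _ (W.mul_mem _ _ (rv_ne_zero_iff.1 oc₁W).2.1
        (pow_mem (rv_ne_zero_iff.1 oc₂W).2.1 _)) (rv_ne_zero_iff.1 oζ).2.1)).2 hgW
  have k4 : residue O ⟨a g, hgO⟩ = residue O (⟨a c₀, hc₀O⟩ * ⟨_, hζO'⟩) := by
    apply hres V₀ hOV₀
    have : ((⟨a c₀, hc₀O⟩ * ⟨_, hζO'⟩ : O) : F) =
        a (c₀ * algebraMap K0 E ζ') := by
      rw [map_mul, a.commutes]; rfl
    rw [this]
    exact (rv_map_eq_iff (φ := (a : E →+* F)) hs.over₀ ogW'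
      (W'.mul_mem _ _ (rv_ne_zero_iff.1 oc₀W).2.1 (rv_ne_zero_iff.1 oζ').2.1)).2 hgW'
  rw [k1, k2, k0, ← map_pow, ← map_mul, ← map_mul, ← map_mul, ← k3, k4]

end Fermat.Agent.H23.R
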