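import Fermat.Agent.H23.R.NewA

/-!
# PROGRAM R (S36): the function field theorem (abstract form)
-/

namespace Fermat.Agent.H23.R

open IsLocalRing

theorem IsUnif.zpow_inj {E : Type*} [Field E] {W : ValuationSubring E} {ϖ : E}
    (h : IsUnif W ϖ) {z : E} {a b : ℤ} (h1 : rv W (z * ϖ ^ a) ≠ 0) (h2 : rv W (z * ϖ ^ b) ≠ 0) :
    a = b := by
  have hz : z ≠ 0 := left_ne_zero_of_mul (rv_ne_zero_iff.1 h1).1
  have h3 : rv W (ϖ ^ (a - b)) ≠ 0 := by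
    have h4 := rv_ne_zero_mul h1 (rv_ne_zero_inv h2)
    have h5 : z * ϖ ^ a * (z * ϖ ^ b)⁻¹ = ϖ ^ (a - b) := by
      rw [zpow_sub₀ h.ne_zero]
      have := zpow_ne_zero b h.ne_zero
      field_simp
    rwa [h5] at h4
  have := h.eq_zero_of_zpow h3
  omega

theorem coprime_root {L : Type*} [Field L] {q m : ℕ} (h : Nat.Coprime q m) {X Y : L} (hX : X ≠ 0)
    (hXY : X ^ q = Y ^ m) : ∃ u : L, u ^ m = X := by
  have hb := Nat.gcd_eq_gcd_ab q m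
  rw [Nat.Coprime.gcd_eq_one h] at hb
  have hY : m = 0 ∨ Y ≠ 0 := by
    by_cases hm : m = 0
    · left; exact hm
    · right; rintro rfl; rw [zero_pow hm] at hXY; exact pow_ne_zero q hX hXY
  rcases hY with hm | hY
  · subst hm
    have : q = 1 := by simpa using h
    subst this
    refine ⟨1, ?_⟩
    rw [pow_zero] at hXY
    rw [pow_one] at hXY
    rw [pow_zero, hXY]
  refine ⟨Y ^ (q.gcdA m) * X ^ (q.gcdB m), ?_⟩
  calc (Y ^ (q.gcdA m) * X ^ (q.gcdB m)) ^ m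
      = (Y ^ m) ^ (q.gcdA m) * X ^ ((m : ℤ) * q.gcdB m) := by
        rw [mul_pow, ← zpow_natCast, ← zpow_natCast, ← zpow_natCast Y m, ← zpow_mul, ← zpow_mul,
          ← zpow_mul]
        congr 2 <;> ring
    _ = X ^ ((q : ℤ) * q.gcdA m + (m : ℤ) * q.gcdB m) := by
        rw [← hXY, ← zpow_natCast X q, ← zpow_mul, zpow_add₀ hX]
    _ = X := by rw [← hb]; simp

/-- algebra in the residue field at a common point -/
theorem common_algebra {L : Type*} [Field L] {q : ℕ} (hq : 2 ≤ q) {A B C a a' b b' : L}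
    (hA : A ≠ 0) (hB : B ≠ 0) (ha : a ≠ 0) (ha' : a' ≠ 0) (hb : b ≠ 0) (hb' : b' ≠ 0)
    (h1 : A * B ^ (q - 1) * a = C ^ q * a') (h2 : C * B ^ (q - 1) * b = A ^ q * b') :
    C ^ ((q - 1) * (q + 1)) = ((b' * a) / (b * a')) ^ (q - 1) * A ^ ((q - 1) * (q + 1)) ∧
    B ^ ((q - 1) * (q + 1)) = ((b' / b) ^ q * (a' / a)) * A ^ ((q - 1) * (q + 1)) := by
  have h3 : C ^ (q + 1) = (b' * a) / (b * a') * A ^ (q + 1) := by
    have hBq := pow_ne_zero (q - 1) hB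
    have e1 : (A * B ^ (q - 1) * a) * (A ^ q * b') = (C ^ q * a') * (C * B ^ (q - 1) * b) := by
      rw [h1, h2]
    have e2 : A ^ (q + 1) * (a * b') = C ^ (q + 1) * (a' * b) := by
      apply mul_left_cancel₀ hBq
      rw [pow_succ, pow_succ]
      linear_combination e1
    field_simp
    linear_combination -e2
  have h4 : B ^ (q - 1) * A = C ^ q * (a' / a) := by
    field_simp
    linear_combination h1
  constructor
  · rw [mul_comm (q - 1) (q + 1), pow_mul, pow_mul, h3, mul_pow]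
  · -- (B^(q-1))^(q+1) * A^(q+1) = C^(q(q+1)) (a'/a)^(q+1)
    have h5 : B ^ ((q - 1) * (q + 1)) * A ^ (q + 1) =
        (C ^ (q + 1)) ^ q * (a' / a) ^ (q + 1) := by
      rw [pow_mul, ← mul_pow, h4, mul_pow, ← pow_mul, ← pow_mul, mul_comm q (q + 1)]
    have hAq := pow_ne_zero (q + 1) hA
    apply mul_right_cancel₀ hAq
    rw [h5, h3, mul_pow, ← pow_mul A]
    have h6 : (q + 1) * q = (q - 1) * (q + 1) + (q + 1) := by
      obtain ⟨r, rfl⟩ : ∃ r, q = r + 1 := ⟨q - 1, by omega⟩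
      rw [Nat.add_sub_cancel]; ring
    rw [h6, pow_add, pow_succ (a' / a) q]
    have h7 : (b' * a / (b * a')) ^ q * (a' / a) ^ q = (b' / b) ^ q := by
      rw [← mul_pow]
      congr 1
      field_simp
    linear_combination (A ^ ((q - 1) * (q + 1)) * A ^ (q + 1) * (a' / a)) * h7

theorem root_closed_of_ufd {F : Type*} [Field F] {R : Subring F} {s : Ideal R} [s.IsPrime]
    (hfrac : ∀ z : F, ∃ b ∈ R, b ≠ 0 ∧ b * z ∈ R)
    (hu : UniqueFactorizationMonoid (locSub R s)) {m : ℕ} (hm : m ≠ 0) {z : F}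
    (hz : z ^ m ∈ locSub R s) : z ∈ locSub R s := by
  have : IsFractionRing (locSub R s) F := isFractionRing_locSub R s hfrac
  have h1 : IsIntegral (locSub R s) z := by
    refine ⟨Polynomial.X ^ m - Polynomial.C (⟨z ^ m, hz⟩ : locSub R s),
      Polynomial.monic_X_pow_sub_C _ hm, ?_⟩
    rw [Polynomial.eval₂_sub, Polynomial.eval₂_pow, Polynomial.eval₂_X, Polynomial.eval₂_C]
    exact sub_self _
  obtain ⟨y, hy⟩ := (IsIntegrallyClosed.isIntegral_iff (R := locSub R s) (K := F)).1 h1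
  rw [← hy]
  exact y.2

/-- The complete set-up for the function field theorem. -/
structure RSetup {A0 K0 E F : Type*} [CommRing A0] [Field K0] [Field E] [Field F]
    [Algebra A0 K0] [Algebra A0 F] [Algebra K0 E] [Algebra K0 F] (q : ℕ) (ϖ : A0)
    (V : Fin 3 → ValuationSubring F) (W : Fin 2 → ValuationSubring E) (a b : E →ₐ[K0] F)
    (Na Nb : F →* E) (S₁ S₂ : Subring F) (x : F) : Prop where
  hq : q.Prime
  sysA : NormSys q (algebraMap A0 K0 ϖ) a Na (W 0) (W 1) (V 0) (V 1) (V 2)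
  sysB : NormSys q (algebraMap A0 K0 ϖ) b Nb (W 1) (W 0) (V 2) (V 1) (V 0)
  unifV0 : IsUnif (V 0) (algebraMap K0 F (algebraMap A0 K0 ϖ))
  unifV2 : IsUnif (V 2) (algebraMap K0 F (algebraMap A0 K0 ϖ))
  ordV1 : ∀ z : F, z ≠ 0 → ∃ n : ℤ,
    rv (V 1) (z ^ (q - 1) * algebraMap K0 F (algebraMap A0 K0 ϖ) ^ n) ≠ 0
  unifW : ∀ i, IsUnif (W i) (algebraMap K0 E (algebraMap A0 K0 ϖ))
  wa : ∀ n₁ n₂ : ℤ, ∃ g : F, rv (V 0) g ≠ 0 ∧
    rv (V 1) (g ^ (q - 1) * algebraMap K0 F (algebraMap A0 K0 ϖ) ^ n₁) ≠ 0 ∧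
    rv (V 2) (g * algebraMap K0 F (algebraMap A0 K0 ϖ) ^ n₂) ≠ 0
  vrt : Vert V (algebraMap A0 F ϖ)
  ch₁ : Chart V (algebraMap A0 F ϖ) S₁
  ch₂ : Chart V (algebraMap A0 F ϖ) S₂
  hA1 : ∀ a : A0, algebraMap A0 F a ∈ S₁
  hA2 : ∀ a : A0, algebraMap A0 F a ∈ S₂
  hAV : ∀ (a : A0) i, algebraMap A0 F a ∈ V i
  hx0 : x ≠ 0
  hx1 : x ∈ S₁
  hx2 : x⁻¹ ∈ S₂
  hxV : ∀ i, x ∈ V i
  hxV' : ∀ i, x⁻¹ ∈ V i
  h12 : ∀ z ∈ S₁, ∃ e : ℕ, x⁻¹ ^ e * z ∈ S₂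
  h21 : ∀ z ∈ S₂, ∃ e : ℕ, x ^ e * z ∈ S₁
  hconst : ∀ z, z ∈ S₁ → z ∈ S₂ → (∀ i, z ∈ V i) → ∃ a : A0, algebraMap A0 F a = z
  hfin : ∃ s : Finset F, ∀ z ∈ S₁, (∀ i, z ∈ V i) →
      z ∈ Submodule.span (Algebra.adjoin A0 {x}) (s : Set F)
  common₁ : ∀ (s : Ideal (S₁ ⊓ vert V : Subring F)) [s.IsPrime], s.IsMaximal →
    (∀ a : (S₁ ⊓ vert V : Subring F), (a : F) = algebraMap A0 F ϖ → a ∈ s) →
    ∀ i j : Fin 3, i ≠ j → (∀ z ∈ locSub _ s, z ∈ V i) → (∀ z ∈ locSub _ s, z ∈ V j) →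
    (∀ k, ∀ z ∈ locSub _ s, z ∈ V k) ∧ CommonPt q a Na (V 0) (V 1) (V 2) (locSub _ s) ∧
      CommonPt q b Nb (V 2) (V 1) (V 0) (locSub _ s)
  common₂ : ∀ (s : Ideal (S₂ ⊓ vert V : Subring F)) [s.IsPrime], s.IsMaximal →
    (∀ a : (S₂ ⊓ vert V : Subring F), (a : F) = algebraMap A0 F ϖ → a ∈ s) →
    ∀ i j : Fin 3, i ≠ j → (∀ z ∈ locSub _ s, z ∈ V i) → (∀ z ∈ locSub _ s, z ∈ V j) →
    (∀ k, ∀ z ∈ locSub _ s, z ∈ V k) ∧ CommonPt q a Na (V 0) (V 1) (V 2) (locSub _ s) ∧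
      CommonPt q b Nb (V 2) (V 1) (V 0) (locSub _ s)

section

variable {A0 K0 E F : Type*} [CommRing A0] [Field K0] [Field E] [Field F]
    [Algebra A0 K0] [Algebra A0 F] [Algebra K0 E] [Algebra K0 F] {q : ℕ} {ϖ : A0}
    {V : Fin 3 → ValuationSubring F} {W : Fin 2 → ValuationSubring E} {a b : E →ₐ[K0] F}
    {Na Nb : F →* E} {S₁ S₂ : Subring F} {x : F}

theorem const_zpow {N : F →* E} (hN : ∀ c : K0, N (algebraMap K0 F c) = algebraMap K0 E c ^ q)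
    (c : K0) (k : ℤ) : N (algebraMap K0 F c ^ k) = (algebraMap K0 E c ^ k) ^ q := by
  rw [← map_zpow₀, hN, map_zpow₀]

/-- Orders of `h` when `N f = ϖ ^ n * h ^ m`. -/
theorem order_eq {W : ValuationSubring E} {ϖ z h : E} (hW : IsUnif W ϖ) {n α : ℤ} {m : ℕ}
    (hz : z = ϖ ^ n * h ^ m) (h0 : h ≠ 0) (hα : rv W (z * ϖ ^ α) ≠ 0) :
    ∃ η : ℤ, n + α = m * η := by
  obtain ⟨η, hη⟩ := hW.exists_zpow h h0
  refine ⟨η, ?_⟩
  have h1 : rv W (z * ϖ ^ (m * η - n)) ≠ 0 := by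
    have h2 : z * ϖ ^ (m * η - n) = (h * ϖ ^ η) ^ m := by
      rw [hz, mul_pow, zpow_sub₀ hW.ne_zero, ← zpow_natCast (ϖ ^ η), ← zpow_mul, mul_comm η m]
      have := zpow_ne_zero n hW.ne_zero
      field_simp
    rw [h2]
    exact rv_ne_zero_pow hη m
  have := hW.zpow_inj hα h1
  linarith

theorem absorb {W : ValuationSubring E} {ϖ z h : E} (hW : IsUnif W ϖ) {n : ℤ} {m : ℕ}
    (hz : z = ϖ ^ n * h ^ m) (h0 : h ≠ 0) (hu : rv W z ≠ 0) : ∃ h' : E, z = h' ^ m := by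
  obtain ⟨η, hη⟩ := order_eq hW hz h0 (α := 0) (by rw [zpow_zero, mul_one]; exact hu)
  refine ⟨ϖ ^ η * h, ?_⟩
  rw [hz, mul_pow, ← zpow_natCast (ϖ ^ η), ← zpow_mul, mul_comm η m, ← hη, add_zero]

variable (hS : RSetup q ϖ V W a b Na Nb S₁ S₂ x)

include hS

/-- Step 1: making the orders zero. -/
theorem RSetup.step1 {m : ℕ} {f : F} (hf0 : f ≠ 0) {na nb : ℤ} {Ha Hb : E} (hHa : Ha ≠ 0)
    (hHb : Hb ≠ 0)
    (hNa : Na f = algebraMap K0 E (algebraMap A0 K0 ϖ) ^ na * Ha ^ m)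
    (hNb : Nb f = algebraMap K0 E (algebraMap A0 K0 ϖ) ^ nb * Hb ^ m) :
    ∃ (k : ℤ) (G : F), G ≠ 0 ∧
      ∀ i, rv (V i) (f ^ (q + 1) * algebraMap K0 F (algebraMap A0 K0 ϖ) ^ k * G ^ m) ≠ 0 := by
  obtain ⟨t, ht⟩ : ∃ t : F, t = algebraMap K0 F (algebraMap A0 K0 ϖ) := ⟨_, rfl⟩
  obtain ⟨n0, hn0⟩ := hS.unifV0.exists_zpow f hf0
  obtain ⟨n1, hn1⟩ := hS.ordV1 f hf0
  obtain ⟨n2, hn2⟩ := hS.unifV2.exists_zpow f hf0
  have ht0 : t ≠ 0 := by rw [ht]; exact hS.unifV0.ne_zero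
  have a1 := hS.sysA.ord f (-n0) (-n1) (by rw [neg_neg]; exact hn0) (by rw [neg_neg]; exact hn1)
  have a2 := hS.sysA.ord₀ f (-n2) (by rw [neg_neg]; exact hn2)
  have b1 := hS.sysB.ord f (-n2) (-n1) (by rw [neg_neg]; exact hn2) (by rw [neg_neg]; exact hn1)
  have b2 := hS.sysB.ord₀ f (-n0) (by rw [neg_neg]; exact hn0)
  obtain ⟨ηa0, ea0⟩ := order_eq (hS.unifW 0) hNa hHa a1
  obtain ⟨ηa1, ea1⟩ := order_eq (hS.unifW 1) hNa hHa a2
  obtain ⟨ηb1, eb1⟩ := order_eq (hS.unifW 1) hNb hHb b1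
  obtain ⟨ηb0, eb0⟩ := order_eq (hS.unifW 0) hNb hHb b2
  obtain ⟨X, hX⟩ : ∃ X : ℤ, X = ηa0 - ηa1 := ⟨_, rfl⟩
  obtain ⟨Y, hY⟩ : ∃ Y : ℤ, Y = ηb1 - ηb0 := ⟨_, rfl⟩
  have eX : n0 + n1 - q * n2 = m * X := by rw [hX]; linear_combination ea0 - ea1
  have eY : n2 + n1 - q * n0 = m * Y := by rw [hY]; linear_combination eb1 - eb0
  obtain ⟨G, hG0, hG1, hG2⟩ := hS.wa (-(X + q * Y)) (X - Y)
  refine ⟨(q + 1) * n0, G, (rv_ne_zero_iff.1 hG0).1, ?_⟩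
  rw [← ht] at hn0 hn1 hn2 hG1 hG2 ⊢
  have hq1 : q - 1 ≠ 0 := by have := hS.hq.two_le; omega
  intro i
  fin_cases i
  · -- V 0
    change rv (V 0) _ ≠ 0
    have e1 : f ^ (q + 1) * t ^ ((q + 1) * n0) * G ^ m = (f * t ^ n0) ^ (q + 1) * G ^ m := by
      rw [mul_pow, ← zpow_natCast (t ^ n0), ← zpow_mul]
      push_cast
      rw [mul_comm n0]
    rw [e1]
    exact rv_ne_zero_mul (rv_ne_zero_pow hn0 _) (rv_ne_zero_pow hG0 _)
  · change rv (V 1) _ ≠ 0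
    apply rv_ne_zero_of_pow hq1
    have e1 : (f ^ (q + 1) * t ^ ((q + 1) * n0) * G ^ m) ^ (q - 1) =
        (f ^ (q - 1) * t ^ n1) ^ (q + 1) * (G ^ (q - 1) * t ^ (-(X + q * Y))) ^ m := by
      have e2 : t ^ (((q : ℤ) + 1) * n0 * ((q - 1 : ℕ) : ℤ)) =
          t ^ (n1 * ((q + 1 : ℕ) : ℤ)) * t ^ (-(X + q * Y) * (m : ℤ)) := by
        rw [← zpow_add₀ ht0]
        congr 1
        rw [Nat.cast_sub hS.hq.one_le]
        push_cast
        linear_combination -(q : ℤ) * eY - eX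
      rw [mul_pow, mul_pow, mul_pow, mul_pow, ← pow_mul, ← pow_mul, ← zpow_natCast (t ^ _) (q - 1),
        ← zpow_mul, e2, ← zpow_natCast (t ^ n1), ← zpow_mul, ← zpow_natCast (t ^ _) m, ← zpow_mul,
        mul_comm (q + 1) (q - 1), ← pow_mul, ← pow_mul, mul_comm m (q - 1)]
      ring
    rw [e1]
    exact rv_ne_zero_mul (rv_ne_zero_pow hn1 _) (rv_ne_zero_pow hG1 _)
  · change rv (V 2) _ ≠ 0
    have e1 : f ^ (q + 1) * t ^ ((q + 1) * n0) * G ^ m =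
        (f * t ^ n2) ^ (q + 1) * (G * t ^ (X - Y)) ^ m := by
      have e2 : t ^ (((q : ℤ) + 1) * n0) =
          t ^ (n2 * ((q + 1 : ℕ) : ℤ)) * t ^ ((X - Y) * (m : ℤ)) := by
        rw [← zpow_add₀ ht0]
        congr 1
        push_cast
        linear_combination eX - eY
      rw [mul_pow, mul_pow, e2, ← zpow_natCast (t ^ n2), ← zpow_mul, ← zpow_natCast (t ^ _) m,
        ← zpow_mul]
      ring
    rw [e1]
    exact rv_ne_zero_mul (rv_ne_zero_pow hn2 _) (rv_ne_zero_pow hG2 _)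

/-- Step 2: absorbing the constants. -/
theorem RSetup.step2a {m : ℕ} {f G : F} {na k : ℤ} {Ha : E} (hHa : Ha ≠ 0) (hG : G ≠ 0)
    (hNa : Na f = algebraMap K0 E (algebraMap A0 K0 ϖ) ^ na * Ha ^ m)
    (hu : ∀ i, rv (V i) (f ^ (q + 1) * algebraMap K0 F (algebraMap A0 K0 ϖ) ^ k * G ^ m) ≠ 0) :
    ∃ h : E, Na (f ^ (q + 1) * algebraMap K0 F (algebraMap A0 K0 ϖ) ^ k * G ^ m) = h ^ m := by
  have hq2 := hS.hq.two_le
  refine absorb (n := na * (q + 1) + k * q) (h := Ha ^ (q + 1) * Na G) (hS.unifW 0) ?_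
    (mul_ne_zero (pow_ne_zero _ hHa) (hS.sysA.ne_zero G hG)) ?_
  · have h0 : algebraMap K0 E (algebraMap A0 K0 ϖ) ≠ 0 := (hS.unifW 0).ne_zero
    rw [map_mul, map_mul, map_pow, map_pow, const_zpow hS.sysA.const, hNa, zpow_add₀ h0,
      zpow_mul, zpow_mul, mul_pow, mul_pow, ← pow_mul, ← pow_mul, mul_comm m (q + 1)]
    rw [show ((q : ℤ) + 1) = ((q + 1 : ℕ) : ℤ) by push_cast; ring, zpow_natCast, zpow_natCast]
    ring
  · have := hS.sysA.ord _ 0 0 (by rw [neg_zero, zpow_zero, mul_one]; exact hu 0)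
      (by rw [neg_zero, zpow_zero, mul_one]; exact rv_ne_zero_pow (hu 1) _)
    rwa [add_zero, neg_zero, zpow_zero, mul_one] at this

theorem RSetup.step2b {m : ℕ} {f G : F} {nb k : ℤ} {Hb : E} (hHb : Hb ≠ 0) (hG : G ≠ 0)
    (hNb : Nb f = algebraMap K0 E (algebraMap A0 K0 ϖ) ^ nb * Hb ^ m)
    (hu : ∀ i, rv (V i) (f ^ (q + 1) * algebraMap K0 F (algebraMap A0 K0 ϖ) ^ k * G ^ m) ≠ 0) :
    ∃ h : E, Nb (f ^ (q + 1) * algebraMap K0 F (algebraMap A0 K0 ϖ) ^ k * G ^ m) = h ^ m := by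
  have hq2 := hS.hq.two_le
  refine absorb (n := nb * (q + 1) + k * q) (h := Hb ^ (q + 1) * Nb G) (hS.unifW 1) ?_
    (mul_ne_zero (pow_ne_zero _ hHb) (hS.sysB.ne_zero G hG)) ?_
  · have h0 : algebraMap K0 E (algebraMap A0 K0 ϖ) ≠ 0 := (hS.unifW 0).ne_zero
    rw [map_mul, map_mul, map_pow, map_pow, const_zpow hS.sysB.const, hNb, zpow_add₀ h0,
      zpow_mul, zpow_mul, mul_pow, mul_pow, ← pow_mul, ← pow_mul, mul_comm m (q + 1)]
    rw [show ((q : ℤ) + 1) = ((q + 1 : ℕ) : ℤ) by push_cast; ring, zpow_natCast, zpow_natCast]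
    ring
  · have := hS.sysB.ord _ 0 0 (by rw [neg_zero, zpow_zero, mul_one]; exact hu 2)
      (by rw [neg_zero, zpow_zero, mul_one]; exact rv_ne_zero_pow (hu 1) _)
    rwa [add_zero, neg_zero, zpow_zero, mul_one] at this

/-- Step 3: the residues of `f ^ (q - 1)` are `m`-th powers. -/
theorem RSetup.step3 {m : ℕ} (hm : m ≠ 0) (hqm : Nat.Coprime q m) {f : F}
    (hf : ∀ i, rv (V i) f ≠ 0) {ha hb : E} (hNa : Na f = ha ^ m) (hNb : Nb f = hb ^ m) :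
    ∀ i, ∃ u : ResidueField (V i), u ^ m = rv (V i) (f ^ (q - 1)) := by
  have hfm : ∀ i, f ∈ V i := fun i => (rv_ne_zero_iff.1 (hf i)).2.1
  -- V 0 via Nb
  have e0 : ∃ u : ResidueField (V 0), u ^ m = rv (V 0) f := by
    obtain ⟨c, hc⟩ := hS.sysB.sur₀ f (hfm 0)
    have h1 := hS.sysB.res₀ f c (hf 0) hc
    have oc : rv (V 0) (b c) ≠ 0 := by rw [← hc]; exact rv_ne_zero_pow (hf 0) _
    have ocW : rv (W 0) c ≠ 0 := by
      rw [ne_eq, ← rv_map_eq_zero_iff (φ := (b : E →+* F)) hS.sysB.over₀]; exact oc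
    rw [hNb] at h1
    have ohb : rv (W 0) hb ≠ 0 := rv_ne_zero_of_pow hm (by rw [h1]; exact ocW)
    have h2 := (rv_map_eq_iff (φ := (b : E →+* F)) hS.sysB.over₀
      (rv_ne_zero_iff.1 (rv_ne_zero_pow ohb m)).2.1 (rv_ne_zero_iff.1 ocW).2.1).2 h1
    refine coprime_root hqm (hf 0) (Y := rv (V 0) (b hb)) ?_
    have ohb' : b hb ∈ V 0 := (hS.sysB.over₀ hb).2 (rv_ne_zero_iff.1 ohb).2.1
    rw [← rv_pow (hfm 0), hc, ← rv_pow ohb', ← map_pow]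
    exact h2.symm
  have e2 : ∃ u : ResidueField (V 2), u ^ m = rv (V 2) f := by
    obtain ⟨c, hc⟩ := hS.sysA.sur₀ f (hfm 2)
    have h1 := hS.sysA.res₀ f c (hf 2) hc
    have oc : rv (V 2) (a c) ≠ 0 := by rw [← hc]; exact rv_ne_zero_pow (hf 2) _
    have ocW : rv (W 1) c ≠ 0 := by
      rw [ne_eq, ← rv_map_eq_zero_iff (φ := (a : E →+* F)) hS.sysA.over₀]; exact oc
    rw [hNa] at h1
    have ohb : rv (W 1) ha ≠ 0 := rv_ne_zero_of_pow hm (by rw [h1]; exact ocW)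
    have h2 := (rv_map_eq_iff (φ := (a : E →+* F)) hS.sysA.over₀
      (rv_ne_zero_iff.1 (rv_ne_zero_pow ohb m)).2.1 (rv_ne_zero_iff.1 ocW).2.1).2 h1
    refine coprime_root hqm (hf 2) (Y := rv (V 2) (a ha)) ?_
    have ohb' : a ha ∈ V 2 := (hS.sysA.over₀ ha).2 (rv_ne_zero_iff.1 ohb).2.1
    rw [← rv_pow (hfm 2), hc, ← rv_pow ohb', ← map_pow]
    exact h2.symm
  have e1 : ∃ u : ResidueField (V 1), u ^ m = rv (V 1) (f ^ (q - 1)) := by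
    obtain ⟨u0, hu0⟩ := e0
    obtain ⟨y, hy, hyu⟩ := rv_surj u0
    obtain ⟨g, hg⟩ := hS.sysA.sur₁ y hy
    rw [hyu] at hg
    obtain ⟨c, hc⟩ := hS.sysA.sur₂ f (hfm 1)
    have hu00 : u0 ≠ 0 := fun h0 => hf 0 (by rw [← hu0, h0, zero_pow hm])
    have og : rv (V 0) (a g) ≠ 0 := by rw [← hg]; exact hu00
    have ogW : rv (W 0) g ≠ 0 := by
      rw [ne_eq, ← rv_map_eq_zero_iff (φ := (a : E →+* F)) hS.sysA.over₁]; exact og
    have oc : rv (V 1) (a c) ≠ 0 := by rw [← hc]; exact hf 1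
    have ocW : rv (W 0) c ≠ 0 := by
      rw [ne_eq, ← rv_map_eq_zero_iff (φ := (a : E →+* F)) hS.sysA.over₂]; exact oc
    have h1 := hS.sysA.res f (g ^ m) c (hf 0) (hf 1)
      (by rw [map_pow, rv_pow (rv_ne_zero_iff.1 og).2.1, ← hg, hu0]) hc
    rw [hNa] at h1
    have oha : rv (W 0) ha ≠ 0 := rv_ne_zero_of_pow hm (by
      rw [h1]; exact rv_ne_zero_mul (rv_ne_zero_pow ogW _) (rv_ne_zero_pow ocW _))
    have ohg : rv (W 0) (ha / g) ≠ 0 := by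
      rw [div_eq_mul_inv]; exact rv_ne_zero_mul oha (rv_ne_zero_inv ogW)
    have h2 : rv (W 0) ((ha / g) ^ m) = rv (W 0) (c ^ (q - 1)) := by
      rw [div_pow, rv_div (rv_ne_zero_iff.1 (rv_ne_zero_pow oha m)).2.1 (rv_ne_zero_pow ogW m), h1,
        rv_mul (rv_ne_zero_iff.1 (rv_ne_zero_pow ogW m)).2.1
          (rv_ne_zero_iff.1 (rv_ne_zero_pow ocW _)).2.1]
      have := rv_ne_zero_pow ogW m
      field_simp
    have h3 := (rv_map_eq_iff (φ := (a : E →+* F)) hS.sysA.over₂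
      (rv_ne_zero_iff.1 (rv_ne_zero_pow ohg m)).2.1
      (rv_ne_zero_iff.1 (rv_ne_zero_pow ocW (q - 1))).2.1).2 h2
    have ohg' : a (ha / g) ∈ V 1 := (hS.sysA.over₂ _).2 (rv_ne_zero_iff.1 ohg).2.1
    refine ⟨rv (V 1) (a (ha / g)), ?_⟩
    have h4 : rv (V 1) (a ((ha / g) ^ m)) = rv (V 1) (a (c ^ (q - 1))) := h3
    rw [map_pow, rv_pow ohg', map_pow, rv_pow (rv_ne_zero_iff.1 oc).2.1, ← hc] at h4
    rw [h4, rv_pow (hfm 1)]
  intro i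
  fin_cases i
  · obtain ⟨u, hu⟩ := e0
    refine ⟨u ^ (q - 1), ?_⟩
    change (u ^ (q - 1)) ^ m = rv (V 0) (f ^ (q - 1))
    rw [rv_pow (hfm 0), ← hu, ← pow_mul, ← pow_mul, mul_comm]
  · exact e1
  · obtain ⟨u, hu⟩ := e2
    refine ⟨u ^ (q - 1), ?_⟩
    change (u ^ (q - 1)) ^ m = rv (V 2) (f ^ (q - 1))
    rw [rv_pow (hfm 2), ← hu, ← pow_mul, ← pow_mul, mul_comm]

end

end Fermat.Agent.H23.R
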