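import Fermat.Agent.H23.R.LocalGen
import Fermat.Agent.RV.ChartInt

/-!
# PROGRAM R (S36): norms of elements of the local ring of a point with a unique prime below
-/

set_option autoImplicit false

noncomputable section

namespace Fermat.Agent.H23.R

open Polynomial Fermat.Agent.H26.RV

/-- If `s` is the only prime of `R` over its image in the level below, norms of elements of the
local ring of `R` at `s` lie in the local ring. -/
theorem nrm_of_unique {E F : Type*} [Field E] [Field F] {R : Subring F} {RE : Subring E}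
    (a : E →+* F) (N : F →* E) {q : ℕ} (hN : ∀ z ∈ R, N z ∈ RE) (ha : ∀ z ∈ RE, a z ∈ R)
    (hNa : ∀ z : E, N (a z) = z ^ q)
    (hint : ∀ z ∈ R, ∃ p : RE[X], p.Monic ∧ p.eval₂ (a.comp RE.subtype) z = 0)
    (s : Ideal R) [s.IsPrime]
    (huniq : ∀ (Q : Ideal R), Q.IsPrime → (∀ (z : E) (hz : z ∈ RE), (⟨a z, ha z hz⟩ : R) ∈ Q ↔
      (⟨a z, ha z hz⟩ : R) ∈ s) → Q = s) {z : F} (hz : z ∈ locSub R s) : a (N z) ∈ locSub R s := by
  let f : RE →+* R := (a.comp RE.subtype).codRestrict R (fun z => ha z z.2)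
  let _ : Algebra RE R := f.toAlgebra
  have hI : Algebra.IsIntegral RE R := by
    constructor
    intro y
    obtain ⟨p, hp, hpy⟩ := hint y y.2
    refine ⟨p, hp, Subtype.ext ?_⟩
    have h1 := hom_eval₂ p (algebraMap RE R) R.subtype y
    change R.subtype _ = 0
    rw [h1]
    exact hpy
  obtain ⟨c, hc, hcz⟩ := (mem_locSub R s).1 hz
  -- a multiple of `c` coming from below
  obtain ⟨e, he, r, hr⟩ : ∃ e : RE, f e ∉ s ∧ ∃ r : R, f e = c * r := by
    by_contra hcon
    push Not at hcon
    obtain ⟨Q, hQ, hQp, hQc⟩ := Ideal.exists_ideal_over_prime_of_isIntegral (R := RE) (S := R)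
      (s.comap f) (Ideal.span {c}) (fun e he => by
        rw [Ideal.mem_comap, Ideal.mem_span_singleton] at he
        obtain ⟨r, hr⟩ := he
        rw [Ideal.mem_comap]
        by_contra hes
        exact hcon e hes r hr)
    have hQs : Q = s := huniq Q hQp fun z hz => by
      have h1 : (⟨z, hz⟩ : RE) ∈ Q.comap f ↔ (⟨z, hz⟩ : RE) ∈ s.comap f := by
        rw [show Q.comap f = s.comap f from hQc]
      exact h1
    apply hc
    rw [← hQs]
    exact hQ (Ideal.mem_span_singleton_self c)
  have hkey : (⟨a (N c), ha _ (hN c c.2)⟩ : R) ∉ s := by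
    intro hmem
    have h1 : f e ^ q ∈ s := by
      have h2 : f e ^ q = (⟨a (N c), ha _ (hN c c.2)⟩ : R) * ⟨a (N r), ha _ (hN r r.2)⟩ := by
        apply Subtype.ext
        change a e ^ q = a (N c) * a (N r)
        rw [← map_mul, ← map_mul, ← map_pow]
        congr 1
        have h3 : a e = (c : F) * r := congrArg Subtype.val hr
        rw [← h3, hNa]
      rw [h2]
      exact s.mul_mem_right _ hmem
    exact he (Ideal.IsPrime.mem_of_pow_mem ‹_› _ h1)
  refine (mem_locSub R s).2 ⟨_, hkey, ?_⟩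
  change a (N c) * a (N z) ∈ R
  rw [← map_mul, ← map_mul]
  exact ha _ (hN _ hcz)

section Int

variable {A0 K0 E F : Type*} [CommRing A0] [Field K0] [Field E] [Field F] [Algebra A0 K0]
  [Algebra K0 E] [Algebra K0 F] [Algebra A0 E] [Algebra A0 F] [IsScalarTower A0 K0 E]
  [IsScalarTower A0 K0 F] (a : E →ₐ[K0] F)

theorem map_adjoin_mem {x z : E} (hz : z ∈ Algebra.adjoin A0 {x}) :
    a z ∈ Algebra.adjoin A0 {a x} := by
  induction hz using Algebra.adjoin_induction with
  | mem y hy => rw [Set.mem_singleton_iff] at hy; rw [hy]; exact Algebra.subset_adjoin rfl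
  | algebraMap c =>
    rw [IsScalarTower.algebraMap_apply A0 K0 E, AlgHom.commutes,
      ← IsScalarTower.algebraMap_apply A0 K0 F]
    exact Subalgebra.algebraMap_mem _ _
  | add y z _ _ hy hz => rw [map_add]; exact add_mem hy hz
  | mul y z _ _ hy hz => rw [map_mul]; exact mul_mem hy hz

/-- `A0[x] → A0[a x]`. -/
def adjMap (x : E) : Algebra.adjoin A0 {x} →+* Algebra.adjoin A0 {a x} :=
  ((a : E →+* F).comp (algebraMap (Algebra.adjoin A0 {x}) E)).codRestrict _
    (fun z => map_adjoin_mem a z.2)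

theorem adjMap_surj (x : E) : Function.Surjective (adjMap (A0 := A0) a x) := by
  rintro ⟨z, hz⟩
  have key : ∀ z ∈ Algebra.adjoin A0 {a x}, ∃ y ∈ Algebra.adjoin A0 {x}, a y = z := by
    intro z hz
    induction hz using Algebra.adjoin_induction with
    | mem y hy =>
      rw [Set.mem_singleton_iff] at hy
      exact ⟨x, Algebra.subset_adjoin rfl, hy.symm⟩
    | algebraMap c =>
      refine ⟨algebraMap A0 E c, Subalgebra.algebraMap_mem _ _, ?_⟩
      rw [IsScalarTower.algebraMap_apply A0 K0 E, AlgHom.commutes,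
        ← IsScalarTower.algebraMap_apply A0 K0 F]
    | add y z _ _ hy hz =>
      obtain ⟨y', hy', rfl⟩ := hy
      obtain ⟨z', hz', rfl⟩ := hz
      exact ⟨y' + z', add_mem hy' hz', map_add _ _ _⟩
    | mul y z _ _ hy hz =>
      obtain ⟨y', hy', rfl⟩ := hy
      obtain ⟨z', hz', rfl⟩ := hz
      exact ⟨y' * z', mul_mem hy' hz', map_mul _ _ _⟩
  obtain ⟨y, hy, hyz⟩ := key z hz
  exact ⟨⟨y, hy⟩, Subtype.ext hyz⟩

theorem map_mem_intSub {x z : E} (hz : z ∈ intSub A0 x) : a z ∈ intSub A0 (a x) := by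
  rw [mem_intSub] at hz ⊢
  exact hz.map_of_comp_eq (adjMap a x) (a : E →+* F) (by ext; rfl)

theorem integral_over_intSub {x : E} {z : F} (hz : z ∈ intSub A0 (a x)) :
    ∃ p : (intSub A0 x)[X], p.Monic ∧
      p.eval₂ ((a : E →+* F).comp (intSub A0 x).subtype) z = 0 := by
  obtain ⟨p, hp, hpz⟩ := mem_intSub.1 hz
  -- lift the polynomial
  have h1 : p ∈ lifts (adjMap (A0 := A0) a x) := by
    rw [lifts_iff_coeff_lifts]
    intro n
    exact adjMap_surj a x _
  obtain ⟨p', hp', -, hpm⟩ := lifts_and_natDegree_eq_and_monic h1 hp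
  let ι : Algebra.adjoin A0 {x} →+* intSub A0 x :=
    (algebraMap (Algebra.adjoin A0 {x}) E).codRestrict _ (fun y => adjoin_le_intSub y.2)
  refine ⟨p'.map ι, hpm.map _, ?_⟩
  rw [eval₂_map]
  have h2 : (((a : E →+* F).comp (intSub A0 x).subtype).comp ι) =
      (algebraMap (Algebra.adjoin A0 {a x}) F).comp (adjMap a x) := by
    ext; rfl
  rw [h2, ← eval₂_map, hp']
  exact hpz

theorem norm_mem_intSub {x : E} {z : F} [Algebra E F]
    (halg : ∀ z : E, algebraMap E F z = a z) (hz : z ∈ intSub A0 (a x)) :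
    Algebra.norm E z ∈ intSub A0 x := by
  obtain ⟨p, hp, hpz⟩ := mem_intSub.1 hz
  have h1 : p ∈ lifts (adjMap (A0 := A0) a x) := by
    rw [lifts_iff_coeff_lifts]
    intro n
    exact adjMap_surj a x _
  obtain ⟨p', hp', -, hpm⟩ := lifts_and_natDegree_eq_and_monic h1 hp
  have : IsScalarTower (Algebra.adjoin A0 {x}) E F := inferInstance
  have h3 : IsIntegral (Algebra.adjoin A0 {x}) z := by
    refine ⟨p', hpm, ?_⟩
    have h2 : algebraMap (Algebra.adjoin A0 {x}) F =
        (algebraMap (Algebra.adjoin A0 {a x}) F).comp (adjMap a x) := by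
      ext y
      change algebraMap E F y = a y
      exact halg y
    rw [h2, ← eval₂_map, hp']
    exact hpz
  exact Algebra.isIntegral_norm E h3

end Int

end Fermat.Agent.H23.R
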