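import Fermat.Agent.H23.R.SysMk
import Fermat.Agent.H23.R.NormLoc
import Fermat.Agent.RV.GaussVal

/-!
# PROGRAM R (S36): reductions and the concrete `NormSys`
-/

set_option autoImplicit false
set_option maxSynthPendingDepth 3
set_option linter.unusedSectionVars false

noncomputable section

open IsLocalRing

namespace Fermat.Agent.H23.R

open AlgebraicCurve Fermat.Agent.H26.RV

/-- The residue field of `V` is embedded into `Λ` by the reduction relation `R`. -/
structure RedRel {F Λ : Type*} [Field F] [Field Λ] (V : ValuationSubring F) (R : F → Λ → Prop) :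
    Prop where
  mem_iff : ∀ z, z ∈ V ↔ ∃ u, R z u
  uniq : ∀ {z u u'}, R z u → R z u' → u = u'
  one : R 1 1
  mul : ∀ {z w u v}, R z u → R w v → R (z * w) (u * v)
  sub : ∀ {z w u v}, R z u → R w v → R (z - w) (u - v)
  inv : ∀ {z u}, R z u → u ≠ 0 → R z⁻¹ u⁻¹

namespace RedRel

variable {F Λ : Type*} [Field F] [Field Λ] {V : ValuationSubring F} {R : F → Λ → Prop}
  (h : RedRel V R)

include h

theorem mem {z : F} {u : Λ} (hz : R z u) : z ∈ V := (h.mem_iff z).2 ⟨u, hz⟩

theorem zero : R 0 0 := by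
  have := h.sub h.one h.one
  rwa [sub_self, sub_self] at this

theorem neg {z : F} {u : Λ} (hz : R z u) : R (-z) (-u) := by
  have := h.sub h.zero hz
  rwa [zero_sub, zero_sub] at this

theorem add {z w : F} {u v : Λ} (hz : R z u) (hw : R w v) : R (z + w) (u + v) := by
  have := h.sub hz (h.neg hw)
  rwa [sub_neg_eq_add, sub_neg_eq_add] at this

theorem pow {z : F} {u : Λ} (hz : R z u) (n : ℕ) : R (z ^ n) (u ^ n) := by
  induction n with
  | zero => rw [pow_zero, pow_zero]; exact h.one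
  | succ n ih => rw [pow_succ, pow_succ]; exact h.mul ih hz

theorem div {z w : F} {u v : Λ} (hz : R z u) (hw : R w v) (hv : v ≠ 0) : R (z / w) (u / v) := by
  rw [div_eq_mul_inv, div_eq_mul_inv]
  exact h.mul hz (h.inv hw hv)

theorem sum {ι : Type*} (s : Finset ι) {z : ι → F} {u : ι → Λ} (hs : ∀ i ∈ s, R (z i) (u i)) :
    R (∑ i ∈ s, z i) (∑ i ∈ s, u i) := by
  classical
  induction s using Finset.induction_on with
  | empty => rw [Finset.sum_empty, Finset.sum_empty]; exact h.zero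
  | insert a s ha ih =>
    rw [Finset.sum_insert ha, Finset.sum_insert ha]
    exact h.add (hs a (Finset.mem_insert_self _ _))
      (ih fun i hi => hs i (Finset.mem_insert_of_mem hi))

theorem rv_eq_zero_iff {z : F} {u : Λ} (hz : R z u) : rv V z = 0 ↔ u = 0 := by
  constructor
  · intro h0
    by_contra hu
    have h1 : rv V z ≠ 0 := by
      rw [rv_ne_zero_iff]
      refine ⟨?_, h.mem hz, h.mem (h.inv hz hu)⟩
      rintro rfl
      exact hu (h.uniq hz h.zero)
    exact h1 h0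
  · rintro rfl
    by_contra h0
    rw [← ne_eq, rv_ne_zero_iff] at h0
    obtain ⟨hz0, -, hz1⟩ := h0
    obtain ⟨v, hv⟩ := (h.mem_iff _).1 hz1
    have h1 := h.mul hz hv
    rw [mul_inv_cancel₀ hz0, zero_mul] at h1
    exact one_ne_zero (h.uniq h.one h1)

theorem rv_ne_zero_iff {z : F} {u : Λ} (hz : R z u) : rv V z ≠ 0 ↔ u ≠ 0 :=
  not_congr (h.rv_eq_zero_iff hz)

theorem rv_eq_iff {z w : F} {u v : Λ} (hz : R z u) (hw : R w v) : rv V z = rv V w ↔ u = v := by
  rw [← sub_eq_zero, ← rv_sub (h.mem hz) (h.mem hw), h.rv_eq_zero_iff (h.sub hz hw), sub_eq_zero]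

theorem ne_zero {z : F} {u : Λ} (hz : R z u) (hu : u ≠ 0) : z ≠ 0 := by
  rintro rfl
  exact hu (h.uniq hz h.zero)

theorem exists_of_rv_ne_zero {z : F} (hz : rv V z ≠ 0) : ∃ u, u ≠ 0 ∧ R z u := by
  obtain ⟨u, hu⟩ := (h.mem_iff z).1 ((Fermat.Agent.H23.R.rv_ne_zero_iff).1 hz).2.1
  exact ⟨u, (h.rv_ne_zero_iff hu).1 hz, hu⟩

end RedRel

/-- Transport along an embedding. -/
theorem RedRel.over {E F Λ : Type*} [Field E] [Field F] [Field Λ] {W : ValuationSubring E}
    {V : ValuationSubring F} {R' : E → Λ → Prop} {R : F → Λ → Prop} (hW : RedRel W R')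
    (hV : RedRel V R) (a : E →+* F) (B : Λ →+* Λ) (hov : ∀ {z u}, R' z u → R (a z) (B u)) (z : E) :
    a z ∈ V ↔ z ∈ W := by
  constructor
  · intro h1
    by_contra h2
    have hz0 : z ≠ 0 := by
      rintro rfl
      exact h2 W.zero_mem
    have h3 : z⁻¹ ∈ W := (W.mem_or_inv_mem z).resolve_left h2
    obtain ⟨u, hu⟩ := (hW.mem_iff _).1 h3
    have hu0 : u = 0 := by
      by_contra hu0
      have := hW.inv hu hu0
      rw [inv_inv] at this
      exact h2 (hW.mem this)
    have h4 := hov hu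
    rw [hu0, map_zero] at h4
    obtain ⟨v, hv⟩ := (hV.mem_iff _).1 h1
    have h5 := hV.mul hv h4
    rw [map_inv₀, mul_inv_cancel₀ ((map_ne_zero a).2 hz0), mul_zero] at h5
    exact one_ne_zero (hV.uniq hV.one h5)
  · intro h1
    obtain ⟨u, hu⟩ := (hW.mem_iff _).1 h1
    exact hV.mem (hov hu)

/-- The behaviour of the three reductions of `F` along an embedding `a : E → F`: the components
`1`, `2` of `F` map to the first component of `E`, the component `0` maps to the second one, by an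
inseparable map. -/
structure HalfRed {E F Λ : Type*} [Field E] [Field F] [Field Λ] (q : ℕ) (a : E →+* F)
    (B φ : Λ →+* Λ) (R' R'₀ : E → Λ → Prop) (R₁ R₂ R₀ : F → Λ → Prop) : Prop where
  ov₁ : ∀ {z u}, R' z u → R₁ (a z) u
  ov₂ : ∀ {z u}, R' z u → R₂ (a z) u
  ov₀ : ∀ {z u}, R'₀ z u → R₀ (a z) (B u)
  frob : ∀ u, B (φ u) = u ^ q
  sur₁ : ∀ {z u}, R₁ z u → ∃ c, R' c u
  sur₂ : ∀ {z u}, R₂ z u → ∃ c, R' c u
  sur₀ : ∀ {z u}, R₀ z u → ∃ c, R'₀ c (φ u)

/-- powers of an element are independent over the image of an inseparable map. -/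
theorem insep_indep {Λ : Type*} [Field Λ] {q : ℕ} [hq : Fact q.Prime] [CharP Λ q] (B φ : Λ →+* Λ)
    (hB : ∀ u, B (φ u) = u ^ q) {y : Λ} (hy : y ∉ Set.range B) (c : Fin q → Λ)
    (h : ∑ k, B (c k) * y ^ (k : ℕ) = 0) (k : Fin q) : c k = 0 := by
  classical
  let K := B.fieldRange
  have hmem : ∀ u, B u ∈ K := fun u => ⟨u, rfl⟩
  let g : Polynomial K := Polynomial.X ^ q - Polynomial.C (⟨y ^ q, φ y, hB y⟩ : K)
  have hirr : Irreducible g := by
    apply X_pow_sub_C_irreducible_of_prime hq.out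
    intro b hb
    have h1 : (b : Λ) ^ q = y ^ q := congrArg Subtype.val hb
    have h2 : ((b : Λ) - y) ^ q = 0 := by
      rw [sub_pow_char, h1, sub_self]
    have h3 : (b : Λ) = y := sub_eq_zero.1 (pow_eq_zero_iff hq.out.ne_zero |>.1 h2)
    obtain ⟨x, hx⟩ := b.2
    exact hy ⟨x, hx.trans h3⟩
  have hgy : Polynomial.aeval y g = 0 := by
    simp only [g, map_sub, map_pow, Polynomial.aeval_X, Polynomial.aeval_C]
    exact sub_self _
  have hgm : g.Monic := Polynomial.monic_X_pow_sub_C _ hq.out.ne_zero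
  have hmin : minpoly K y = g := (minpoly.eq_of_irreducible_of_monic hirr hgy hgm).symm
  have hdeg : (minpoly K y).natDegree = q := by
    rw [hmin]
    exact Polynomial.natDegree_X_pow_sub_C
  -- the polynomial with coefficients `B (c k)`
  let P : Polynomial K := ∑ k : Fin q, Polynomial.C (⟨B (c k), hmem _⟩ : K) * Polynomial.X ^ (k : ℕ)
  have hP0 : Polynomial.aeval y P = 0 := by
    simp only [P, map_sum, map_mul, map_pow, Polynomial.aeval_X, Polynomial.aeval_C]
    exact h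
  have hPdeg : P.degree < (q : ℕ) := by
    refine lt_of_le_of_lt (Polynomial.degree_sum_le _ _) ?_
    rw [Finset.sup_lt_iff (by exact WithBot.bot_lt_coe _)]
    intro k _
    refine lt_of_le_of_lt (Polynomial.degree_C_mul_X_pow_le _ _) ?_
    exact_mod_cast k.2
  have hP : P = 0 := by
    by_contra hne
    have h1 := minpoly.degree_le_of_ne_zero K y hne hP0
    have h2 : (minpoly K y).degree = (q : ℕ) := by
      rw [Polynomial.degree_eq_natDegree (minpoly.ne_zero ⟨g, hgm, hgy⟩), hdeg]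
    rw [h2] at h1
    exact absurd hPdeg (not_lt.2 h1)
  have hcoef : P.coeff (k : ℕ) = ⟨B (c k), hmem _⟩ := by
    simp only [P, Polynomial.finsetSum_coeff, Polynomial.coeff_C_mul, Polynomial.coeff_X_pow]
    rw [Finset.sum_eq_single k]
    · simp
    · intro b _ hb
      rw [if_neg (fun h => hb (Fin.ext h.symm)), mul_zero]
    · intro h; exact absurd (Finset.mem_univ _) h
  rw [hP, Polynomial.coeff_zero] at hcoef
  have h4 : B (c k) = 0 := (congrArg Subtype.val hcoef).symm
  exact (map_eq_zero B).1 h4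

section Sys

variable {K0 E F Λ : Type*} [Field K0] [Field E] [Field F] [Field Λ] [Algebra K0 E] [Algebra K0 F]

variable {E₀ : Type*} [Field E₀] [Algebra E₀ F] {G : ValuationSubring E₀} {ϖ₀ : E₀}
  {V : Fin 3 → ValuationSubring F} {e f : Fin 3 → ℕ} {s π : Fin 3 → F} {b : ∀ i, Fin (f i) → F}

theorem isUnif_of_over {W : ValuationSubring E} {V : ValuationSubring F} {a : E →+* F}
    (hov : ∀ z, a z ∈ V ↔ z ∈ W) {ϖ : E} (h : IsUnif V (a ϖ)) : IsUnif W ϖ where
  ne_zero := fun h0 => h.ne_zero (by rw [h0, map_zero])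
  mem := (hov _).1 h.mem
  res := (rv_map_eq_zero_iff hov).1 h.res
  exists_zpow := fun z hz => by
    obtain ⟨n, hn⟩ := h.exists_zpow (a z) ((map_ne_zero a).2 hz)
    refine ⟨n, ?_⟩
    rw [← map_zpow₀, ← map_mul] at hn
    rwa [ne_eq, ← rv_map_eq_zero_iff (φ := a) hov]

/-- The concrete `NormSys`. -/
theorem normSys_of_half [CharZero E] [CharZero F] {q : ℕ} [hqF : Fact q.Prime] [CharP Λ q]
    (a : E →ₐ[K0] F) (ϖ : K0)
    [FiniteDimensional E₀ F] (hF : Fund G ϖ₀ V e f s π b)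
    (hϖ : algebraMap K0 F ϖ = algebraMap E₀ F ϖ₀)
    (hfin : FiniteAlong K0 a) (hdeg : finrankAlong K0 a = q)
    {i₁ i₂ i₀ : Fin 3} (h12 : i₁ ≠ i₂) (he₁ : e i₁ = 1) (he₂ : e i₂ = q - 1) (he₀ : e i₀ = 1)
    {W W' : ValuationSubring E} {R' R'₀ : E → Λ → Prop} {R : Fin 3 → F → Λ → Prop}
    (hR : ∀ i, RedRel (V i) (R i)) (hW : RedRel W R') (hW' : RedRel W' R'₀)
    {B φ : Λ →+* Λ} (hh : HalfRed q (a : E →+* F) B φ R' R'₀ (R i₁) (R i₂) (R i₀))
    {y : F} {ybar : Λ} (hy : R i₀ y ybar) (hyB : ybar ∉ Set.range B)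
    (hqϖ : rv (V i₀) (q : F) = 0) :
    NormSys q ϖ a (normHom a) W W' (V i₁) (V i₂) (V i₀) ∧ IsUnif W (algebraMap K0 E ϖ) ∧
      IsUnif W' (algebraMap K0 E ϖ) := by
  classical
  have hq := hqF.out
  have hov₁ : ∀ z, a z ∈ V i₁ ↔ z ∈ W := fun z =>
    hW.over (hR i₁) (a : E →+* F) (RingHom.id Λ) (fun h => hh.ov₁ h) z
  have hov₂ : ∀ z, a z ∈ V i₂ ↔ z ∈ W := fun z =>
    hW.over (hR i₂) (a : E →+* F) (RingHom.id Λ) (fun h => hh.ov₂ h) z
  have hov₀ : ∀ z, a z ∈ V i₀ ↔ z ∈ W' := fun z =>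
    hW'.over (hR i₀) (a : E →+* F) B (fun h => hh.ov₀ h) z
  have hϖa : a (algebraMap K0 E ϖ) = algebraMap E₀ F ϖ₀ := by rw [AlgHom.commutes, hϖ]
  have hUW : IsUnif W (algebraMap K0 E ϖ) := by
    apply isUnif_of_over (a := (a : E →+* F)) hov₁
    change IsUnif (V i₁) (a (algebraMap K0 E ϖ))
    rw [hϖa]
    exact Fund_isUnif hF i₁ he₁
  have hUW' : IsUnif W' (algebraMap K0 E ϖ) := by
    apply isUnif_of_over (a := (a : E →+* F)) hov₀
    change IsUnif (V i₀) (a (algebraMap K0 E ϖ))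
    rw [hϖa]
    exact Fund_isUnif hF i₀ he₀
  refine ⟨?_, hUW, hUW'⟩
  have hϖ0 : algebraMap E₀ F ϖ₀ ≠ 0 := by
    rw [← hϖa]; exact (map_ne_zero a).2 hUW.ne_zero
  have hdeg' : @Module.finrank E F _ _ (algebraAlong a).toModule = q := hdeg
  apply normSys_mk a hq hfin ?_ ?_ hUW hUW'
  · intro z hz
    obtain ⟨u, hu⟩ := ((hR i₁).mem_iff z).1 hz
    obtain ⟨c, hc⟩ := hh.sur₁ hu
    exact ⟨c, ((hR i₁).rv_eq_iff hu (hh.ov₁ hc)).2 rfl⟩
  · intro z hz
    obtain ⟨u, hu⟩ := ((hR i₂).mem_iff z).1 hz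
    obtain ⟨c, hc⟩ := hh.sur₂ hu
    exact ⟨c, ((hR i₂).rv_eq_iff hu (hh.ov₂ hc)).2 rfl⟩
  · intro z hz
    obtain ⟨u, hu⟩ := ((hR i₀).mem_iff z).1 hz
    obtain ⟨c, hc⟩ := hh.sur₀ hu
    refine ⟨c, ((hR i₀).rv_eq_iff ((hR i₀).pow hu q) (hh.ov₀ hc)).2 ?_⟩
    rw [hh.frob]
  · -- the split part
    letI := algebraAlong a
    have : FiniteDimensional E F := hfin
    have hmap : ∀ c : E, algebraMap E F c = a c := fun _ => rfl
    have hfund : Fund W (algebraMap K0 E ϖ) ![V i₁, V i₂] ![1, q - 1] (fun _ => 1)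
        ![s i₁, s i₂] ![algebraMap E₀ F ϖ₀, π i₂] (fun _ _ => 1) := by
      refine ⟨hUW, ?_, ?_, ?_, ?_, ?_, ?_, ?_, ?_, ?_, ?_⟩
      · intro i; fin_cases i
        · exact hov₁
        · exact hov₂
      · intro i; fin_cases i
        · exact hF.arch i₁
        · exact hF.arch i₂
      · intro i l; fin_cases i <;> fin_cases l
        · exact hF.s_mem i₁ i₁
        · exact hF.s_mem i₁ i₂
        · exact hF.s_mem i₂ i₁
        · exact hF.s_mem i₂ i₂
      · intro i; fin_cases i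
        · exact hF.s_ne i₁
        · exact hF.s_ne i₂
      · intro i l hl; fin_cases i <;> fin_cases l
        · exact absurd rfl hl
        · exact hF.s_zero i₁ i₂ h12.symm
        · exact hF.s_zero i₂ i₁ h12
        · exact absurd rfl hl
      · intro i; fin_cases i
        · exact one_pos
        · exact Nat.sub_pos_of_lt hq.one_lt
      · intro i; fin_cases i
        · change rv (V i₁) ((algebraMap E₀ F ϖ₀) ^ 1 * (algebraMap E F (algebraMap K0 E ϖ))⁻¹) ≠ 0
          rw [hmap, hϖa, pow_one, mul_inv_cancel₀ hϖ0, rv_one]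
          exact one_ne_zero
        · change rv (V i₂) ((π i₂) ^ (q - 1) * (algebraMap E F (algebraMap K0 E ϖ))⁻¹) ≠ 0
          rw [hmap, hϖa]
          have := hF.ram i₂
          rwa [he₂] at this
      · intro i k; fin_cases i
        · exact (V i₁).one_mem
        · exact (V i₂).one_mem
      · have hsum : ∀ c : Fin 1 → E, ∑ k, algebraMap E F (c k) * 1 = a (c 0) := by
          intro c
          rw [Fin.sum_univ_one, mul_one]
          rfl
        intro i c hc h0 k
        have hk : k = 0 := Subsingleton.elim _ _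
        subst hk
        have hc0 := hsum c
        fin_cases i
        · change rv (V i₁) (∑ k, algebraMap E F (c k) * 1) = 0 at h0
          rw [hc0] at h0
          exact (rv_map_eq_zero_iff (φ := (a : E →+* F)) hov₁).1 h0
        · change rv (V i₂) (∑ k, algebraMap E F (c k) * 1) = 0 at h0
          rw [hc0] at h0
          exact (rv_map_eq_zero_iff (φ := (a : E →+* F)) hov₂).1 h0
      · change Module.finrank E F ≤ _
        rw [hdeg', Fin.sum_univ_two]
        change q ≤ 1 * 1 + (q - 1) * 1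
        have := hq.two_le
        omega
    exact splitData_of_fund hfund rfl rfl hdeg'
  · -- the inseparable part
    letI := algebraAlong a
    have : FiniteDimensional E F := hfin
    have hmap : ∀ c : E, algebraMap E F c = a c := fun _ => rfl
    have hfund : Fund W' (algebraMap K0 E ϖ) (fun _ : Fin 1 => V i₀) (fun _ => 1) (fun _ => q)
        (fun _ => 1) (fun _ => algebraMap E₀ F ϖ₀) (fun _ k => y ^ (k : ℕ)) := by
      refine ⟨hUW', fun _ => hov₀, fun _ => hF.arch i₀, fun _ _ => (V i₀).one_mem,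
        fun _ => by rw [rv_one]; exact one_ne_zero, fun i l hl => absurd (Subsingleton.elim _ _) hl,
        fun _ => one_pos, fun _ => ?_, fun _ k => pow_mem ((hR i₀).mem hy) _, ?_, ?_⟩
      · rw [hmap, hϖa, pow_one, mul_inv_cancel₀ hϖ0, rv_one]
        exact one_ne_zero
      · intro _ c hc h0 k
        choose u hu using fun k => (hW'.mem_iff (c k)).1 (hc k)
        have h1 : R i₀ (∑ k, algebraMap E F (c k) * y ^ (k : ℕ)) (∑ k, B (u k) * ybar ^ (k : ℕ)) :=
          (hR i₀).sum _ fun k _ => (hR i₀).mul (hh.ov₀ (hu k)) ((hR i₀).pow hy k)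
        have h2 := ((hR i₀).rv_eq_zero_iff h1).1 h0
        exact (hW'.rv_eq_zero_iff (hu k)).2 (insep_indep B φ hh.frob hyB u h2 k)
      · change Module.finrank E F ≤ _
        rw [hdeg']
        simp
    refine insepData_of_fund hfund ?_ hdeg'
    rw [← rv_map_eq_zero_iff (φ := (a : E →+* F)) hov₀, map_natCast]
    exact hqϖ

end Sys

end Fermat.Agent.H23.R
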