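import Mathlib

/-!
# PROGRAM R: the total residue function of a valuation ring
-/

namespace Fermat.Agent.H23.R

open IsLocalRing

variable {F : Type*} [Field F]

open Classical in
/-- The residue of `z` at the valuation ring `V`, `0` if `z ∉ V`. -/
noncomputable def rv (V : ValuationSubring F) (z : F) : ResidueField V :=
  if h : z ∈ V then residue V ⟨z, h⟩ else 0

variable {V : ValuationSubring F}

theorem rv_of_mem {z : F} (h : z ∈ V) : rv V z = residue V ⟨z, h⟩ := dif_pos h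

theorem rv_of_not_mem {z : F} (h : z ∉ V) : rv V z = 0 := dif_neg h

theorem rv_surj (x : ResidueField V) : ∃ z ∈ V, rv V z = x := by
  obtain ⟨⟨z, hz⟩, rfl⟩ := residue_surjective (R := V) x
  exact ⟨z, hz, rv_of_mem hz⟩

@[simp] theorem rv_zero : rv V 0 = 0 := by
  rw [rv_of_mem V.zero_mem]; exact map_zero _

@[simp] theorem rv_one : rv V 1 = 1 := by
  rw [rv_of_mem V.one_mem]; exact map_one _

theorem rv_mul {z w : F} (hz : z ∈ V) (hw : w ∈ V) : rv V (z * w) = rv V z * rv V w := by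
  rw [rv_of_mem hz, rv_of_mem hw, rv_of_mem (V.mul_mem _ _ hz hw), ← map_mul]; rfl

theorem rv_add {z w : F} (hz : z ∈ V) (hw : w ∈ V) : rv V (z + w) = rv V z + rv V w := by
  rw [rv_of_mem hz, rv_of_mem hw, rv_of_mem (V.add_mem _ _ hz hw), ← map_add]; rfl

theorem rv_neg {z : F} (hz : z ∈ V) : rv V (-z) = -rv V z := by
  rw [rv_of_mem hz, rv_of_mem (V.neg_mem _ hz), ← map_neg]; rfl

theorem rv_sub {z w : F} (hz : z ∈ V) (hw : w ∈ V) : rv V (z - w) = rv V z - rv V w := by
  rw [sub_eq_add_neg, rv_add hz (V.neg_mem _ hw), rv_neg hw, sub_eq_add_neg]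

theorem rv_pow {z : F} (hz : z ∈ V) (n : ℕ) : rv V (z ^ n) = rv V z ^ n := by
  induction n with
  | zero => rw [pow_zero, pow_zero, rv_one]
  | succ n ih => rw [pow_succ, pow_succ, rv_mul (pow_mem hz n) hz, ih]

theorem rv_natCast (n : ℕ) : rv V (n : F) = n := by
  rw [rv_of_mem (natCast_mem V n)]
  exact map_natCast (residue V) n

theorem rv_ne_zero_iff {z : F} : rv V z ≠ 0 ↔ z ≠ 0 ∧ z ∈ V ∧ z⁻¹ ∈ V := by
  constructor
  · intro h
    have hz : z ∈ V := by by_contra hz; exact h (rv_of_not_mem hz)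
    have hz0 : z ≠ 0 := by rintro rfl; exact h rv_zero
    refine ⟨hz0, hz, ?_⟩
    rw [rv_of_mem hz, ne_eq, residue_eq_zero_iff, mem_maximalIdeal, mem_nonunits_iff,
      not_not] at h
    obtain ⟨u, hu⟩ := h
    have h1 : (u : V) * (↑u⁻¹ : V) = 1 := Units.mul_inv u
    have h2 : z * ((↑u⁻¹ : V) : F) = 1 := by
      have := congrArg Subtype.val h1
      rw [hu] at this
      exact this
    rw [← eq_inv_of_mul_eq_one_right h2]
    exact (↑u⁻¹ : V).2
  · rintro ⟨h0, hz, hz'⟩ h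
    have h1 : rv V (z * z⁻¹) = 1 := by rw [mul_inv_cancel₀ h0, rv_one]
    rw [rv_mul hz hz', h, zero_mul] at h1
    exact zero_ne_one h1

theorem rv_inv (z : F) : rv V z⁻¹ = (rv V z)⁻¹ := by
  by_cases h : rv V z = 0
  · rw [h, inv_zero]
    by_contra h1
    rw [← ne_eq, rv_ne_zero_iff, inv_inv] at h1
    have : rv V z ≠ 0 := rv_ne_zero_iff.2 ⟨fun h0 => h1.1 (by rw [h0, inv_zero]), h1.2.2, h1.2.1⟩
    exact this h
  · obtain ⟨h0, hz, hz'⟩ := rv_ne_zero_iff.1 h
    have h1 : rv V (z * z⁻¹) = 1 := by rw [mul_inv_cancel₀ h0, rv_one]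
    rw [rv_mul hz hz'] at h1
    exact eq_inv_of_mul_eq_one_right h1

theorem rv_div {z w : F} (hz : z ∈ V) (hw : rv V w ≠ 0) : rv V (z / w) = rv V z / rv V w := by
  rw [div_eq_mul_inv, rv_mul hz (rv_ne_zero_iff.1 hw).2.2, rv_inv, div_eq_mul_inv]

theorem rv_eq_zero_iff {z : F} (hz : z ∈ V) : rv V z = 0 ↔ z ∈ V.nonunits := by
  constructor
  · intro h
    rw [ValuationSubring.mem_nonunits_iff_exists_mem_maximalIdeal]
    refine ⟨hz, ?_⟩
    rw [rv_of_mem hz, residue_eq_zero_iff] at h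
    exact h
  · intro h
    rw [ValuationSubring.mem_nonunits_iff_exists_mem_maximalIdeal] at h
    obtain ⟨h1, h2⟩ := h
    rw [rv_of_mem hz, residue_eq_zero_iff]
    exact h2

theorem rv_prod {α : Type*} (s : Finset α) (g : α → F) (h : ∀ a ∈ s, g a ∈ V) :
    rv V (∏ a ∈ s, g a) = ∏ a ∈ s, rv V (g a) := by
  classical
  induction s using Finset.induction_on with
  | empty => simp
  | insert a s ha ih =>
    rw [Finset.prod_insert ha, Finset.prod_insert ha, rv_mul (h a (Finset.mem_insert_self a s))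
      (prod_mem fun b hb => h b (Finset.mem_insert_of_mem hb)),
      ih fun b hb => h b (Finset.mem_insert_of_mem hb)]

/-- Elements whose `m`-th power lies in `V` lie in `V`. -/
theorem mem_of_pow_mem {z : F} {m : ℕ} (hm : m ≠ 0) (h : z ^ m ∈ V) : z ∈ V := by
  rcases V.mem_or_inv_mem z with h1 | h1
  · exact h1
  · by_cases hz : z = 0
    · rw [hz]; exact V.zero_mem
    obtain ⟨m', rfl⟩ : ∃ m', m = m' + 1 := Nat.exists_eq_succ_of_ne_zero hm
    have : z = z ^ (m' + 1) * z⁻¹ ^ m' := by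
      rw [pow_succ, mul_comm (z ^ m'), mul_assoc, ← mul_pow, mul_inv_cancel₀ hz, one_pow, mul_one]
    rw [this]
    exact V.mul_mem _ _ h (pow_mem h1 _)

end Fermat.Agent.H23.R
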