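import Fermat.Agent.H23.R.FromFund
import Fermat.Agent.H23.R.Final

/-!
# PROGRAM R (S36): construction of `NormSys`
-/

set_option autoImplicit false
set_option maxSynthPendingDepth 3

noncomputable section

open IsLocalRing

namespace Fermat.Agent.H23.R

open AlgebraicCurve

theorem normSys_mk {K0 E F : Type*} [Field K0] [Field E] [Field F] [Algebra K0 E] [Algebra K0 F]
    [CharZero E] (a : E →ₐ[K0] F) {q : ℕ} (hq : q.Prime) {ϖ : K0} {W W' : ValuationSubring E}
    {V₁ V₂ V₀ : ValuationSubring F} (hfin : FiniteAlong K0 a)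
    (hS : letI := algebraAlong a; SplitData q (algebraMap K0 E ϖ) W V₁ V₂)
    (hI : letI := algebraAlong a; InsepData q W' V₀)
    (hW : IsUnif W (algebraMap K0 E ϖ)) (hW' : IsUnif W' (algebraMap K0 E ϖ))
    (sur₁ : ∀ z ∈ V₁, ∃ c : E, rv V₁ z = rv V₁ (a c))
    (sur₂ : ∀ z ∈ V₂, ∃ c : E, rv V₂ z = rv V₂ (a c))
    (sur₀ : ∀ z ∈ V₀, ∃ c : E, rv V₀ (z ^ q) = rv V₀ (a c)) :
    NormSys q ϖ a (normHom a) W W' V₁ V₂ V₀ := by
  let _ := algebraAlong a
  have : FiniteDimensional E F := hfin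
  have hmap : ∀ c : E, algebraMap E F c = a c := fun _ => rfl
  have hc : ∀ c : K0, algebraMap K0 F c = algebraMap E F (algebraMap K0 E c) := fun c => by
    rw [hmap, AlgHom.commutes]
  refine ⟨hS.over₁, hS.over₂, hI.overV, ?_, ?_, ?_, ?_, ?_, ?_, sur₁, sur₂, sur₀⟩
  · intro c
    change Algebra.norm E (algebraMap K0 F c) = _
    rw [hc, Algebra.norm_algebraMap, hS.deg]
  · intro z hz
    change Algebra.norm E z ≠ 0
    exact Algebra.norm_ne_zero_iff.2 hz
  · intro z c₁ c₂ h1 h2 h3 h4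
    exact hS.norm_res hq.two_le hW h1 h2 h3 h4
  · intro z α β h1 h2
    rw [hc] at h1 h2
    exact hS.norm_ord hq.two_le hW h1 h2
  · intro z c h1 h2
    exact hI.norm_res hq hW' h1 h2
  · intro z α h1
    rw [hc] at h1
    exact hI.norm_ord h1

end Fermat.Agent.H23.R
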